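import Mathlib
import Fermat.Prelude.Def_CuspForm_HeckeLocal
import Fermat.Prelude.Def_CuspForm_HeckeEvalForms
import Fermat.Prelude.Def_HeckeGalois_EichlerShimura
import Fermat.Prelude.Def_ModularCurve_ModularUnit
import Fermat.Agent.S23

/-!
# S16: the algebraic frame

The frozen statement computes the cardinality of
`heckeLatticeAlgebra p ∅ ⧸ (image of the Eisenstein ideal)`.  With
`Φ : HeckeAlg → heckeLatticeAlgebra p ∅` (surjective) and the Eisenstein evaluation
`ev : HeckeAlg → ℤ` (surjective, kernel the Eisenstein ideal) the quotient is `ℤ / ev (ker Φ)`.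
By `S23` (integral structure) `ker Φ` is the set of `t` with `heckeEvalForms p 2 t = 0`.

* `card_quotient_eq` : abstract ring theory.
* `card_eq_of_lower_upper` : the frozen cardinality, from a lower bound `hL` and an upper bound
  `hU` for `ev` on `ker (heckeEvalForms p 2)`.
-/

set_option autoImplicit false

namespace Fermat.Agent.S16.Frame

open ModularCurve CuspForm

section Abstract

variable {A R : Type*} [CommRing A] [CommRing R]

/-- Abstract frame: `Φ : A → R` surjective, `ev : A → ℤ`; if `ev` maps `ker Φ` into `n ℤ` and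
attains `n` there, then `R ⧸ Φ (ker ev)` has `n` elements. -/
theorem card_quotient_eq (Φ : A →+* R) (hΦ : Function.Surjective Φ) (ev : A →+* ℤ) (n : ℕ)
    (hL : ∀ t : A, Φ t = 0 → (n : ℤ) ∣ ev t)
    (hU : ∃ t : A, Φ t = 0 ∧ ev t = (n : ℤ)) :
    Nat.card (R ⧸ Ideal.map Φ (RingHom.ker ev)) = n := by
  classical
  -- the map `A → ZMod n`
  set evn : A →+* ZMod n := (Int.castRingHom (ZMod n)).comp ev with hevn
  have hker : RingHom.ker Φ ≤ RingHom.ker evn := by
    intro t ht
    rw [RingHom.mem_ker] at ht ⊢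
    rw [hevn, RingHom.comp_apply, eq_intCast]
    exact (ZMod.intCast_zmod_eq_zero_iff_dvd _ _).mpr (hL t ht)
  -- descend to `R`
  set ψ : R →+* ZMod n := RingHom.liftOfSurjective Φ hΦ ⟨evn, hker⟩ with hψ
  have hψΦ : ∀ t, ψ (Φ t) = evn t := fun t =>
    RingHom.liftOfRightInverse_comp_apply Φ _ (Function.rightInverse_surjInv hΦ) ⟨evn, hker⟩ t
  have hψsurj : Function.Surjective ψ := by
    intro z
    obtain ⟨k, rfl⟩ := ZMod.intCast_surjective z
    refine ⟨Φ (algebraMap ℤ A k), ?_⟩
    rw [hψΦ, hevn, RingHom.comp_apply, eq_intCast, eq_intCast, map_intCast]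
    simp
  have hkerψ : RingHom.ker ψ = Ideal.map Φ (RingHom.ker ev) := by
    apply le_antisymm
    · intro r hr
      obtain ⟨t, rfl⟩ := hΦ r
      rw [RingHom.mem_ker, hψΦ, hevn, RingHom.comp_apply, eq_intCast,
        ZMod.intCast_zmod_eq_zero_iff_dvd] at hr
      obtain ⟨c, hc⟩ := hr
      obtain ⟨t₀, ht₀, hev₀⟩ := hU
      have h1 : t - algebraMap ℤ A c * t₀ ∈ RingHom.ker ev := by
        rw [RingHom.mem_ker, map_sub, map_mul, hev₀, hc, eq_intCast, map_intCast]
        simp [mul_comm]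
      have h2 : Φ (t - algebraMap ℤ A c * t₀) = Φ t := by
        rw [map_sub, map_mul, ht₀, mul_zero, sub_zero]
      rw [← h2]
      exact Ideal.mem_map_of_mem Φ h1
    · rw [Ideal.map_le_iff_le_comap]
      intro t ht
      rw [RingHom.mem_ker] at ht
      rw [Ideal.mem_comap, RingHom.mem_ker, hψΦ, hevn, RingHom.comp_apply, ht, map_zero]
  have e : (R ⧸ Ideal.map Φ (RingHom.ker ev)) ≃+* ZMod n :=
    (Ideal.quotEquivOfEq hkerψ.symm).trans (RingHom.quotientKerEquivOfSurjective hψsurj)
  rw [Nat.card_congr e.toEquiv, Nat.card_zmod]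

end Abstract

section Hecke

variable (p : ℕ) [Fact p.Prime]

/-- `heckeEvalForms` is surjective (for `S = ∅` every generator is hit). -/
theorem heckeEvalForms_surjective (N : ℕ) [NeZero N] :
    Function.Surjective (heckeEvalForms N 2) := by
  intro t
  obtain ⟨t, ht⟩ := t
  have key : ∀ s ∈ heckeAlgebra N 2 (∅ : Set ℕ),
      ∃ a : HeckeAlg, ((heckeEvalForms N 2 a : heckeAlgebra N 2 ∅) :
        Module.End ℂ (CuspForm (CongruenceSubgroup.Gamma0 N) 2)) = s := by
    intro s hs
    induction hs using Algebra.adjoin_induction with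
    | mem x hx =>
      rcases hx with ⟨ℓ, hℓ, hℓN, -, rfl⟩ | ⟨q, hqN, hq, -, rfl⟩
      · refine ⟨heckeGen ⟨ℓ, hℓ⟩, ?_⟩
        rw [heckeEvalForms_heckeGen_of_not_dvd (N := N) (k := 2) (ℓ := ⟨ℓ, hℓ⟩) hℓN]
        rfl
      · refine ⟨heckeGen ⟨q, hq⟩, ?_⟩
        rw [heckeEvalForms_heckeGen_of_dvd (N := N) (k := 2) (q := ⟨q, hq⟩) hqN]
        rfl
    | algebraMap r =>
      refine ⟨MvPolynomial.C r, ?_⟩
      rw [heckeEvalForms_C]
      rfl
    | add x y _ _ hx hy =>
      obtain ⟨a, ha⟩ := hx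
      obtain ⟨b, hb⟩ := hy
      exact ⟨a + b, by rw [map_add, Subalgebra.coe_add, ha, hb]⟩
    | mul x y _ _ hx hy =>
      obtain ⟨a, ha⟩ := hx
      obtain ⟨b, hb⟩ := hy
      exact ⟨a * b, by rw [map_mul, Subalgebra.coe_mul, ha, hb]⟩
  obtain ⟨a, ha⟩ := key t ht
  exact ⟨a, Subtype.ext ha⟩

/-- **The frame of S16.**  The frozen cardinality follows from a lower and an upper bound for the
Eisenstein evaluation on the kernel of `heckeEvalForms p 2`. -/
theorem card_eq_of_lower_upper
    (hL : ∀ t : HeckeAlg, heckeEvalForms p 2 t = 0 →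
      (eisensteinNumerator p : ℤ) ∣ MvPolynomial.aeval (eisensteinSystem p) t)
    (hU : ∃ t : HeckeAlg, heckeEvalForms p 2 t = 0 ∧
      MvPolynomial.aeval (eisensteinSystem p) t = (eisensteinNumerator p : ℤ)) :
    Nat.card (↥(heckeLatticeAlgebra p ∅) ⧸
        Ideal.map ((latticeRestrictHom p ∅).toRingHom.comp (heckeEvalForms p 2))
          (eisensteinIdeal p)) =
      eisensteinNumerator p := by
  have hbij := latticeRestrictHom_bijective p ∅ (Fermat.Agent.S23.result p)
  have hzero : ∀ t : HeckeAlg,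
      ((latticeRestrictHom p ∅).toRingHom.comp (heckeEvalForms p 2)) t = 0 ↔
        heckeEvalForms p 2 t = 0 := by
    intro t
    rw [RingHom.comp_apply]
    constructor
    · intro h
      exact hbij.1 (h.trans (map_zero _).symm)
    · intro h
      rw [h, map_zero]
  have hsurj : Function.Surjective
      ((latticeRestrictHom p ∅).toRingHom.comp (heckeEvalForms p 2)) :=
    hbij.2.comp (heckeEvalForms_surjective p)
  exact card_quotient_eq _ hsurj
    ((MvPolynomial.aeval (eisensteinSystem p) : HeckeAlg →ₐ[ℤ] ℤ) : HeckeAlg →+* ℤ)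
    (eisensteinNumerator p)
    (fun t ht => hL t ((hzero t).mp ht))
    (by
      obtain ⟨t, ht, hev⟩ := hU
      exact ⟨t, (hzero t).mpr ht, hev⟩)

end Hecke

end Fermat.Agent.S16.Frame
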