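import Mathlib
import Fermat.Prelude.Def_CuspForm_HeckeLocal
import Fermat.Prelude.Def_CuspForm_HeckeEvalForms
import Fermat.Prelude.Def_HeckeGalois_EichlerShimura
import Fermat.Prelude.Def_ModularCurve_ModularUnit
import Fermat.Agent.S23
import Fermat.Agent.S16.Frame

/-!
# S16: Hecke duality and the reduction of the upper bound to `q`-expansions

* `sigmaStar p n = ∑_{d ∣ n, p ∤ d} d`, with the Hecke recursions `sigmaStar_mul_self`,
  `sigmaStar_mul_prime`.
* `exists_heckeElt`: for `n ≥ 1` an element `T_n` of `HeckeAlg` with `a₁ (T_n f) = a_n f` and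
  Eisenstein value `sigmaStar p n`.
* `linearIndependent_complex`: `ℤ`-independent elements of the Hecke algebra are
  `ℂ`-independent.
* `exists_form_of_functional`: every `ℤ`-linear functional on the Hecke algebra is
  `t ↦ a₁ (t f)` for a cusp form `f` (perfectness of the pairing).
* `exists_form_of_dvd`: if `m` divides the Eisenstein value of every `t` killing all cusp forms,
  there is a cusp form `f` with `a_k f ≡ sigmaStar p k mod m` for all `k ≥ 1`.
* `upper_of_q`: the upper bound `hU` of `Frame.card_eq_of_lower_upper` from the `q`-expansion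
  statement `hQ`.
-/

set_option autoImplicit false

namespace Fermat.Agent.S16.Dual

open ModularCurve CuspForm CongruenceSubgroup ModularFormClass Fermat.Agent.S49

/-- `σ*(n) = ∑_{d ∣ n, p ∤ d} d`, the `n`-th coefficient of the Eisenstein series of level `p`. -/
def sigmaStar (p n : ℕ) : ℕ := ∑ d ∈ n.divisors with ¬ p ∣ d, d

theorem sigmaStar_one {p : ℕ} (hp : p.Prime) : sigmaStar p 1 = 1 := by
  have h : ¬ p ∣ 1 := fun h => hp.one_lt.ne' (Nat.dvd_one.mp h)
  rw [sigmaStar, Nat.divisors_one, Finset.filter_singleton, if_pos h, Finset.sum_singleton]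

theorem sigmaStar_mul_self {p : ℕ} (hp : p.Prime) {m : ℕ} (hm : 0 < m) :
    sigmaStar p (m * p) = sigmaStar p m := by
  unfold sigmaStar
  refine Finset.sum_congr ?_ fun _ _ => rfl
  ext d
  simp only [Finset.mem_filter, Nat.mem_divisors]
  constructor
  · rintro ⟨⟨hd, -⟩, hpd⟩
    refine ⟨⟨?_, hm.ne'⟩, hpd⟩
    have hcop : Nat.Coprime d p := (Nat.Coprime.symm ((Nat.Prime.coprime_iff_not_dvd hp).mpr hpd))
    exact hcop.dvd_of_dvd_mul_right hd
  · rintro ⟨⟨hd, -⟩, hpd⟩
    exact ⟨⟨hd.mul_right p, Nat.mul_ne_zero hm.ne' hp.ne_zero⟩, hpd⟩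

/-- the general Hecke recursion at a prime `ℓ ≠ p` -/
theorem sigmaStar_mul_prime {p ℓ : ℕ} (hp : p.Prime) (hℓ : ℓ.Prime) (hℓp : ℓ ≠ p) {m : ℕ}
    (hm : 0 < m) :
    sigmaStar p (m * ℓ) + (if ℓ ∣ m then ℓ * sigmaStar p (m / ℓ) else 0) =
      sigmaStar p m * (1 + ℓ) := by
  classical
  have hpℓ : ¬ p ∣ ℓ := fun h => hℓp ((Nat.prime_dvd_prime_iff_eq hp hℓ).mp h).symm
  have hpmul : ∀ d, p ∣ ℓ * d ↔ p ∣ d := fun d =>
    ⟨fun h => (hp.dvd_mul.mp h).resolve_left hpℓ, fun h => h.mul_left ℓ⟩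
  set A : Finset ℕ := m.divisors.filter (fun d => ¬ p ∣ d) with hA
  set B : Finset ℕ := A.image (fun d => ℓ * d) with hB
  have hinj : Function.Injective (fun d : ℕ => ℓ * d) := fun a b h =>
    Nat.eq_of_mul_eq_mul_left hℓ.pos h
  have hsumB : ∑ d ∈ B, d = ℓ * sigmaStar p m := by
    rw [hB, Finset.sum_image (fun a _ b _ h => hinj h), ← Finset.mul_sum]
    rfl
  have hunion : (m * ℓ).divisors.filter (fun d => ¬ p ∣ d) = A ∪ B := by
    ext d
    simp only [hA, hB, Finset.mem_filter, Nat.mem_divisors, Finset.mem_union, Finset.mem_image]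
    constructor
    · rintro ⟨⟨hd, -⟩, hpd⟩
      by_cases hℓd : ℓ ∣ d
      · obtain ⟨d', rfl⟩ := hℓd
        right
        refine ⟨d', ⟨⟨?_, hm.ne'⟩, fun h => hpd ((hpmul d').mpr h)⟩, rfl⟩
        rw [mul_comm m ℓ] at hd
        exact Nat.dvd_of_mul_dvd_mul_left hℓ.pos hd
      · left
        refine ⟨⟨?_, hm.ne'⟩, hpd⟩
        have hcop : Nat.Coprime d ℓ :=
          (Nat.Coprime.symm ((Nat.Prime.coprime_iff_not_dvd hℓ).mpr hℓd))
        exact hcop.dvd_of_dvd_mul_right hd
    · rintro (⟨⟨hd, -⟩, hpd⟩ | ⟨d', ⟨⟨hd, -⟩, hpd⟩, rfl⟩)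
      · exact ⟨⟨hd.mul_right ℓ, Nat.mul_ne_zero hm.ne' hℓ.ne_zero⟩, hpd⟩
      · refine ⟨⟨?_, Nat.mul_ne_zero hm.ne' hℓ.ne_zero⟩, fun h => hpd ((hpmul d').mp h)⟩
        rw [mul_comm m ℓ]
        exact Nat.mul_dvd_mul_left ℓ hd
  have hinter : ∑ d ∈ A ∩ B, d = if ℓ ∣ m then ℓ * sigmaStar p (m / ℓ) else 0 := by
    split_ifs with hℓm
    · obtain ⟨m', rfl⟩ := hℓm
      have hm' : 0 < m' := Nat.pos_of_ne_zero fun h => by simp [h] at hm
      rw [Nat.mul_div_cancel_left m' hℓ.pos]
      have : A ∩ B = (m'.divisors.filter (fun d => ¬ p ∣ d)).image (fun d => ℓ * d) := by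
        ext d
        simp only [hA, hB, Finset.mem_inter, Finset.mem_filter, Nat.mem_divisors,
          Finset.mem_image]
        constructor
        · rintro ⟨⟨⟨hd, -⟩, hpd⟩, d', ⟨⟨-, -⟩, hpd'⟩, rfl⟩
          exact ⟨d', ⟨⟨Nat.dvd_of_mul_dvd_mul_left hℓ.pos hd, hm'.ne'⟩, hpd'⟩, rfl⟩
        · rintro ⟨d', ⟨⟨hd', -⟩, hpd'⟩, rfl⟩
          exact ⟨⟨⟨Nat.mul_dvd_mul_left ℓ hd', hm.ne'⟩, fun h => hpd' ((hpmul d').mp h)⟩,
            d', ⟨⟨hd'.mul_left ℓ, hm.ne'⟩, hpd'⟩, rfl⟩
      rw [this, Finset.sum_image (fun a _ b _ h => hinj h), ← Finset.mul_sum]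
      rfl
    · have : A ∩ B = ∅ := by
        ext d
        simp only [hA, hB, Finset.mem_inter, Finset.mem_filter, Nat.mem_divisors,
          Finset.mem_image, Finset.notMem_empty, iff_false]
        rintro ⟨⟨⟨hd, -⟩, -⟩, d', -, rfl⟩
        exact hℓm ((dvd_mul_right ℓ d').trans hd)
      rw [this, Finset.sum_empty]
  have key := Finset.sum_union_inter (s₁ := A) (s₂ := B) (f := fun d => d)
  rw [← hunion, hinter, hsumB] at key
  have key' : sigmaStar p (m * ℓ) + (if ℓ ∣ m then ℓ * sigmaStar p (m / ℓ) else 0) =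
      sigmaStar p m + ℓ * sigmaStar p m := key
  rw [key']
  ring


/-- `σ*` in terms of Mathlib's divisor sum: `σ*(k) = σ₁(k) - p σ₁(k / p)` (second term only if
`p ∣ k`). -/
theorem sigmaStar_add_eq_sigma {p : ℕ} (hp : p.Prime) {k : ℕ} (hk : 0 < k) :
    sigmaStar p k + (if p ∣ k then p * ArithmeticFunction.sigma 1 (k / p) else 0) =
      ArithmeticFunction.sigma 1 k := by
  classical
  have hsplit : ArithmeticFunction.sigma 1 k =
      ∑ d ∈ k.divisors with ¬ p ∣ d, d + ∑ d ∈ k.divisors with p ∣ d, d := by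
    rw [ArithmeticFunction.sigma_one_apply,
      ← Finset.sum_filter_not_add_sum_filter k.divisors (fun d => p ∣ d)]
  rw [hsplit, sigmaStar]
  congr 1
  split_ifs with hpk
  · obtain ⟨k', rfl⟩ := hpk
    have hk' : 0 < k' := Nat.pos_of_ne_zero fun h => by simp [h] at hk
    rw [Nat.mul_div_cancel_left k' hp.pos, ArithmeticFunction.sigma_one_apply, Finset.mul_sum]
    have hinj : Function.Injective (fun d : ℕ => p * d) := fun a b h =>
      Nat.eq_of_mul_eq_mul_left hp.pos h
    have : (p * k').divisors.filter (fun d => p ∣ d) = k'.divisors.image (fun d => p * d) := by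
      ext d
      simp only [Finset.mem_filter, Nat.mem_divisors, Finset.mem_image]
      constructor
      · rintro ⟨⟨hd, -⟩, d', rfl⟩
        exact ⟨d', ⟨Nat.dvd_of_mul_dvd_mul_left hp.pos hd, hk'.ne'⟩, rfl⟩
      · rintro ⟨d', ⟨hd', -⟩, rfl⟩
        exact ⟨⟨Nat.mul_dvd_mul_left p hd', hk.ne'⟩, dvd_mul_right p d'⟩
    rw [this, Finset.sum_image (fun a _ b _ h => hinj h)]
  · symm
    refine Finset.sum_eq_zero fun d hd => ?_
    rw [Finset.mem_filter, Nat.mem_divisors] at hd
    exact absurd (hd.2.trans hd.1.1) hpk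

section HeckeElt

variable (p : ℕ) [Fact p.Prime]

/-- the operator on cusp forms attached to an element of `HeckeAlg` -/
noncomputable def op (T : HeckeAlg) : Module.End ℂ (CuspForm (Gamma0 p) 2) :=
  ((heckeEvalForms p 2 T : heckeAlgebra p 2 ∅) : Module.End ℂ (CuspForm (Gamma0 p) 2))

theorem op_mem (T : HeckeAlg) : op p T ∈ heckeAlgebra p 2 (∅ : Set ℕ) :=
  (heckeEvalForms p 2 T).2

theorem op_one : op p 1 = 1 := by
  rw [op, map_one]; rfl

theorem op_mul (S T : HeckeAlg) : op p (S * T) = op p S * op p T := by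
  rw [op, map_mul]; rfl

theorem op_sub (S T : HeckeAlg) : op p (S - T) = op p S - op p T := by
  rw [op, map_sub]; rfl

theorem op_add (S T : HeckeAlg) : op p (S + T) = op p S + op p T := by
  rw [op, map_add]; rfl

theorem op_C (a : ℤ) : op p (MvPolynomial.C a) = a • (1 : Module.End ℂ (CuspForm (Gamma0 p) 2)) := by
  rw [op, heckeEvalForms_C, Algebra.algebraMap_eq_smul_one]
  rfl

theorem op_eq_zero_iff (T : HeckeAlg) : op p T = 0 ↔ heckeEvalForms p 2 T = 0 := by
  rw [op]
  constructor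
  · intro h
    exact Subtype.ext h
  · intro h
    rw [h]; rfl

theorem op_heckeGen_of_dvd {q : Nat.Primes} (h : (q : ℕ) ∣ p) :
    op p (heckeGen q) = heckeULin 2 h := by
  rw [op, heckeEvalForms_heckeGen_of_dvd (N := p) (k := 2) h]
  rfl

theorem op_heckeGen_of_not_dvd {ℓ : Nat.Primes} (h : ¬ (ℓ : ℕ) ∣ p) :
    op p (heckeGen ℓ) = heckeTLin 2 ℓ.2 h := by
  rw [op, heckeEvalForms_heckeGen_of_not_dvd (N := p) (k := 2) h]
  rfl

/-- the Eisenstein evaluation -/
noncomputable def ev : HeckeAlg →+* ℤ :=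
  ((MvPolynomial.aeval (eisensteinSystem p) : HeckeAlg →ₐ[ℤ] ℤ) : HeckeAlg →+* ℤ)

omit [Fact p.Prime] in
theorem ev_apply (T : HeckeAlg) : ev p T = MvPolynomial.aeval (eisensteinSystem p) T := rfl

omit [Fact p.Prime] in
theorem ev_heckeGen (ℓ : Nat.Primes) : ev p (heckeGen ℓ) = eisensteinSystem p ℓ := by
  rw [ev_apply, aeval_heckeGen]

omit [Fact p.Prime] in
theorem ev_C (a : ℤ) : ev p (MvPolynomial.C a) = a := by
  rw [ev_apply, MvPolynomial.aeval_C]; rfl

/-- **Hecke elements**: `T_n ∈ HeckeAlg` with `a₁ (T_n f) = a_n f` and Eisenstein value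
`σ*(n)`. -/
theorem exists_heckeElt (n : ℕ) (hn : 0 < n) :
    ∃ T : HeckeAlg, (∀ f : CuspForm (Gamma0 p) 2, qCoeff ⇑(op p T f) 1 = qCoeff ⇑f n) ∧
      ev p T = (sigmaStar p n : ℤ) := by
  have hpp : p.Prime := Fact.out
  induction n using Nat.strong_induction_on with
  | _ n ih =>
    by_cases h1 : n = 1
    · subst h1
      refine ⟨1, fun f => by rw [op_one]; rfl, ?_⟩
      rw [map_one, sigmaStar_one hpp]; rfl
    · obtain ⟨L, hL⟩ : ∃ L : Nat.Primes, (L : ℕ) = n.minFac :=
        ⟨⟨n.minFac, Nat.minFac_prime h1⟩, rfl⟩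
      have hℓ : (L : ℕ).Prime := L.2
      have hℓn : (L : ℕ) ∣ n := hL ▸ Nat.minFac_dvd n
      obtain ⟨m, hm⟩ := hℓn
      have hm' : n = m * (L : ℕ) := by rw [hm, mul_comm]
      have hmpos : 0 < m := by
        rcases Nat.eq_zero_or_pos m with h0 | h0
        · rw [h0, mul_zero] at hm; omega
        · exact h0
      have hmlt : m < n := by
        rw [hm']
        exact lt_mul_of_one_lt_right hmpos hℓ.one_lt
      obtain ⟨Tm, hTm, hevm⟩ := ih m hmlt hmpos
      by_cases hℓp : (L : ℕ) ∣ p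
      · have hℓeq : (L : ℕ) = p := (Nat.prime_dvd_prime_iff_eq hℓ hpp).mp hℓp
        refine ⟨Tm * heckeGen L, fun f => ?_, ?_⟩
        · rw [op_mul, op_heckeGen_of_dvd p hℓp, Module.End.mul_apply, hTm,
            qc_U hℓ hℓp, ← hm']
        · rw [map_mul, hevm, ev_heckeGen, eisensteinSystem_of_dvd hℓp, mul_one, hm',
            hℓeq, sigmaStar_mul_self hpp hmpos]
      · have hℓne : (L : ℕ) ≠ p := fun h => hℓp (h ▸ dvd_rfl)
        have hrec := sigmaStar_mul_prime hpp hℓ hℓne hmpos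
        by_cases hℓm : (L : ℕ) ∣ m
        · obtain ⟨l, hl⟩ := hℓm
          have hlpos : 0 < l := by
            rcases Nat.eq_zero_or_pos l with h0 | h0
            · rw [h0, mul_zero] at hl; omega
            · exact h0
          have hllt : l < n := by
            have : l < m := by
              rw [hl]
              exact lt_mul_of_one_lt_left hlpos hℓ.one_lt
            omega
          obtain ⟨Tl, hTl, hevl⟩ := ih l hllt hlpos
          have hdiv : m / (L : ℕ) = l := by
            rw [hl]; exact Nat.mul_div_cancel_left l hℓ.pos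
          refine ⟨Tm * heckeGen L - MvPolynomial.C ((L : ℕ) : ℤ) * Tl, fun f => ?_, ?_⟩
          · rw [op_sub, op_mul, op_mul, op_C, op_heckeGen_of_not_dvd p hℓp,
              LinearMap.sub_apply, Module.End.mul_apply, Module.End.mul_apply,
              LinearMap.smul_apply, Module.End.one_apply, qc_sub, hTm, qc_zsmul, hTl,
              qc_T hℓ hℓp, ← hm', if_pos ⟨l, hl⟩, hdiv]
            push_cast
            ring
          · rw [map_sub, map_mul, map_mul, hevm, hevl, ev_heckeGen, ev_C,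
              eisensteinSystem_of_not_dvd hℓp, hm']
            rw [if_pos ⟨l, hl⟩, hdiv] at hrec
            have hrec' : ((sigmaStar p (m * (L : ℕ)) : ℕ) : ℤ) +
                ((L : ℕ) : ℤ) * (sigmaStar p l : ℤ) =
                (sigmaStar p m : ℤ) * (1 + ((L : ℕ) : ℤ)) := by exact_mod_cast hrec
            linarith
        · refine ⟨Tm * heckeGen L, fun f => ?_, ?_⟩
          · rw [op_mul, op_heckeGen_of_not_dvd p hℓp, Module.End.mul_apply, hTm,
              qc_T hℓ hℓp, ← hm', if_neg hℓm, add_zero]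
          · rw [map_mul, hevm, ev_heckeGen, eisensteinSystem_of_not_dvd hℓp, hm']
            rw [if_neg hℓm, add_zero] at hrec
            have hrec' : ((sigmaStar p (m * (L : ℕ)) : ℕ) : ℤ) =
                (sigmaStar p m : ℤ) * (1 + ((L : ℕ) : ℤ)) := by exact_mod_cast hrec
            rw [hrec']

end HeckeElt

section Rank

variable (N : ℕ) [NeZero N]

/-- the `q`-expansion coefficients of a pair of cusp forms -/
noncomputable def coeffPair :
    (CuspForm (Gamma0 N) 2 × CuspForm (Gamma0 N) 2) →ₗ[ℂ] (ℕ ⊕ ℕ → ℂ) where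
  toFun v x := Sum.elim (fun n => qCoeff ⇑v.1 n) (fun n => qCoeff ⇑v.2 n) x
  map_add' v w := by
    funext x
    rcases x with n | n
    · simp only [Sum.elim_inl, Pi.add_apply, Prod.fst_add]; exact qc_add _ _ n
    · simp only [Sum.elim_inr, Pi.add_apply, Prod.snd_add]; exact qc_add _ _ n
  map_smul' c v := by
    funext x
    rcases x with n | n
    · simp only [Sum.elim_inl, Pi.smul_apply, Prod.smul_fst, RingHom.id_apply, smul_eq_mul]
      exact qc_smul _ _ n
    · simp only [Sum.elim_inr, Pi.smul_apply, Prod.smul_snd, RingHom.id_apply, smul_eq_mul]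
      exact qc_smul _ _ n

omit [NeZero N] in
theorem coeffPair_inl (v : CuspForm (Gamma0 N) 2 × CuspForm (Gamma0 N) 2) (n : ℕ) :
    coeffPair N v (Sum.inl n) = qCoeff ⇑v.1 n := rfl

omit [NeZero N] in
theorem coeffPair_inr (v : CuspForm (Gamma0 N) 2 × CuspForm (Gamma0 N) 2) (n : ℕ) :
    coeffPair N v (Sum.inr n) = qCoeff ⇑v.2 n := rfl

theorem coeffPair_injective : Function.Injective (coeffPair N) := by
  rw [← LinearMap.ker_eq_bot, LinearMap.ker_eq_bot']
  intro v hv
  have h1 : v.1 = 0 := eq_zero_of_qc v.1 fun n => by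
    have := congrFun hv (Sum.inl n)
    rwa [coeffPair_inl] at this
  have h2 : v.2 = 0 := eq_zero_of_qc v.2 fun n => by
    have := congrFun hv (Sum.inr n)
    rwa [coeffPair_inr] at this
  exact Prod.ext h1 h2

omit [NeZero N] in
theorem coeffPair_integral_iff (v : CuspForm (Gamma0 N) 2 × CuspForm (Gamma0 N) 2) :
    (∀ x, ∃ m : ℤ, coeffPair N v x = m) ↔ v.1 ∈ intLattice N 2 ∧ v.2 ∈ intLattice N 2 := by
  rw [mem_intLattice_iff', mem_intLattice_iff']
  constructor
  · intro h
    exact ⟨fun n => h (Sum.inl n), fun n => h (Sum.inr n)⟩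
  · rintro ⟨h1, h2⟩ (n | n)
    · exact h1 n
    · exact h2 n

theorem span_coeffPair_integral :
    Submodule.span ℂ {v : CuspForm (Gamma0 N) 2 × CuspForm (Gamma0 N) 2 |
      ∀ x, ∃ m : ℤ, coeffPair N v x = m} = ⊤ := by
  have hint : Submodule.span ℂ ((intLattice N 2 : Submodule ℤ (CuspForm (Gamma0 N) 2)) :
      Set (CuspForm (Gamma0 N) 2)) = ⊤ := Fermat.Agent.S23.result N
  have h0 : (0 : CuspForm (Gamma0 N) 2) ∈ intLattice N 2 := Submodule.zero_mem _
  set W := Submodule.span ℂ {v : CuspForm (Gamma0 N) 2 × CuspForm (Gamma0 N) 2 |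
      ∀ x, ∃ m : ℤ, coeffPair N v x = m} with hW
  have hl : ∀ f : CuspForm (Gamma0 N) 2, (f, (0 : CuspForm (Gamma0 N) 2)) ∈ W := by
    intro f
    have hf : f ∈ Submodule.span ℂ ((intLattice N 2 : Submodule ℤ (CuspForm (Gamma0 N) 2)) :
      Set (CuspForm (Gamma0 N) 2)) := by rw [hint]; trivial
    have : Submodule.span ℂ ((intLattice N 2 : Submodule ℤ (CuspForm (Gamma0 N) 2)) :
        Set (CuspForm (Gamma0 N) 2)) ≤ W.comap (LinearMap.inl ℂ _ _) := by
      rw [Submodule.span_le]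
      intro g hg
      rw [SetLike.mem_coe, Submodule.mem_comap]
      refine Submodule.subset_span ?_
      rw [Set.mem_ofPred_eq, coeffPair_integral_iff]
      exact ⟨hg, h0⟩
    exact this hf
  have hr : ∀ f : CuspForm (Gamma0 N) 2, ((0 : CuspForm (Gamma0 N) 2), f) ∈ W := by
    intro f
    have hf : f ∈ Submodule.span ℂ ((intLattice N 2 : Submodule ℤ (CuspForm (Gamma0 N) 2)) :
      Set (CuspForm (Gamma0 N) 2)) := by rw [hint]; trivial
    have : Submodule.span ℂ ((intLattice N 2 : Submodule ℤ (CuspForm (Gamma0 N) 2)) :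
        Set (CuspForm (Gamma0 N) 2)) ≤ W.comap (LinearMap.inr ℂ _ _) := by
      rw [Submodule.span_le]
      intro g hg
      rw [SetLike.mem_coe, Submodule.mem_comap]
      refine Submodule.subset_span ?_
      rw [Set.mem_ofPred_eq, coeffPair_integral_iff]
      exact ⟨h0, hg⟩
    exact this hf
  rw [eq_top_iff]
  rintro ⟨f, g⟩ -
  have : (f, g) = (f, (0 : CuspForm (Gamma0 N) 2)) + ((0 : CuspForm (Gamma0 N) 2), g) := by
    simp
  rw [this]
  exact W.add_mem (hl f) (hr g)

/-- **Rank statement**: `ℤ`-linearly independent elements of the Hecke algebra are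
`ℂ`-linearly independent. -/
theorem linearIndependent_complex {r : ℕ} (s : Fin r → Module.End ℂ (CuspForm (Gamma0 N) 2))
    (hs : ∀ i, s i ∈ heckeAlgebra N 2 (∅ : Set ℕ)) (hind : LinearIndependent ℤ s) :
    LinearIndependent ℂ s := by
  refine Fermat.Agent.S23.linearIndependent_of_integral_action (coeffPair N)
    (coeffPair_injective N) (span_coeffPair_integral N) s (fun i v hv => ?_) hind
  rw [coeffPair_integral_iff] at hv
  exact (coeffPair_integral_iff N (s i v.1, s i v.2)).mpr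
    ⟨mem_intLattice_of_mem_heckeAlgebra one_le_two (hs i) hv.1,
      mem_intLattice_of_mem_heckeAlgebra one_le_two (hs i) hv.2⟩

end Rank

section Prescribe

variable {V : Type*} [AddCommGroup V] [Module ℂ V]

/-- Linearly independent functionals take arbitrary prescribed values. -/
theorem exists_apply_eq_of_linearIndependent {ι : Type*} [Finite ι]
    (l : ι → Module.Dual ℂ V) (hl : LinearIndependent ℂ l) (c : ι → ℂ) :
    ∃ f : V, ∀ i, l i f = c i := by
  classical
  have := Fintype.ofFinite ι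
  set Ψ : V →ₗ[ℂ] (ι → ℂ) := LinearMap.pi l with hΨ
  have hsurj : LinearMap.range Ψ = ⊤ := by
    by_contra hne
    obtain ⟨φ, hφ0, hφ⟩ := (LinearMap.range Ψ).exists_le_ker_of_lt_top (lt_top_iff_ne_top.mpr hne)
    apply hφ0
    have hsum : ∑ i, φ (Pi.single i 1) • l i = 0 := by
      refine LinearMap.ext fun f => ?_
      have h1 : φ (Ψ f) = 0 := hφ ⟨f, rfl⟩
      have h2 : Ψ f = ∑ i, (l i f) • (Pi.single i (1 : ℂ) : ι → ℂ) := by
        funext j
        rw [Finset.sum_apply]
        simp only [Pi.smul_apply, smul_eq_mul, Pi.single_apply, mul_ite, mul_one, mul_zero,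
          Finset.sum_ite_eq, Finset.mem_univ, if_true]
        rfl
      rw [h2, map_sum] at h1
      rw [LinearMap.sum_apply, LinearMap.zero_apply, ← h1]
      refine Finset.sum_congr rfl fun i _ => ?_
      rw [LinearMap.smul_apply, map_smul, smul_eq_mul, smul_eq_mul, mul_comm]
    have hcoef := (Fintype.linearIndependent_iff.mp hl) _ hsum
    refine LinearMap.ext fun x => ?_
    have hx : x = ∑ i, x i • (Pi.single i (1 : ℂ) : ι → ℂ) := by
      funext j
      rw [Finset.sum_apply]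
      simp only [Pi.smul_apply, smul_eq_mul, Pi.single_apply, mul_ite, mul_one, mul_zero,
        Finset.sum_ite_eq, Finset.mem_univ, if_true]
    rw [hx, map_sum, LinearMap.zero_apply]
    refine Finset.sum_eq_zero fun i _ => ?_
    rw [map_smul, hcoef i, smul_zero]
  have hc : c ∈ LinearMap.range Ψ := by rw [hsurj]; trivial
  obtain ⟨f, hf⟩ := hc
  exact ⟨f, fun i => congrFun hf i⟩

end Prescribe

section Perfect

variable (N : ℕ) [NeZero N]

/-- **Perfectness of the Hecke pairing**: every `ℤ`-linear functional on the Hecke algebra is of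
the form `t ↦ a₁ (t f)` for a cusp form `f`. -/
theorem exists_form_of_functional (φ : ↥(heckeAlgebra N 2 (∅ : Set ℕ)) →ₗ[ℤ] ℤ) :
    ∃ f : CuspForm (Gamma0 N) 2, ∀ t : ↥(heckeAlgebra N 2 (∅ : Set ℕ)),
      qCoeff ⇑((t : Module.End ℂ (CuspForm (Gamma0 N) 2)) f) 1 = (φ t : ℂ) := by
  classical
  have hfin : Module.Finite ℤ ↥(heckeAlgebra N 2 (∅ : Set ℕ)) := Fermat.Agent.S22.result N 2 ∅
  have : Module.Free ℤ ↥(heckeAlgebra N 2 (∅ : Set ℕ)) :=
    Module.free_of_finite_type_torsion_free'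
  let b := Module.Free.chooseBasis ℤ ↥(heckeAlgebra N 2 (∅ : Set ℕ))
  let ι := Module.Free.ChooseBasisIndex ℤ ↥(heckeAlgebra N 2 (∅ : Set ℕ))
  let s : ι → Module.End ℂ (CuspForm (Gamma0 N) 2) := fun i => (b i : Module.End ℂ _)
  have hs : ∀ i, s i ∈ heckeAlgebra N 2 (∅ : Set ℕ) := fun i => (b i).2
  have hsZ : LinearIndependent ℤ s := by
    have := b.linearIndependent
    exact this.map' (Subalgebra.toSubmodule (heckeAlgebra N 2 (∅ : Set ℕ))).subtype
      (Submodule.ker_subtype _)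
  let e : ι ≃ Fin (Fintype.card ι) := Fintype.equivFin ι
  have hsC : LinearIndependent ℂ s := by
    have h1 : LinearIndependent ℤ (s ∘ e.symm) := hsZ.comp _ e.symm.injective
    have h2 := linearIndependent_complex N (s ∘ e.symm) (fun i => hs _) h1
    have h3 := h2.comp _ e.injective
    have : (s ∘ e.symm) ∘ e = s := by ext i; simp
    rwa [this] at h3
  have hl : LinearIndependent ℂ (fun i => Fermat.Agent.S23.pairing N (s i)) := by
    refine hsC.map ?_
    rw [Submodule.disjoint_def]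
    intro t ht hker
    refine Fermat.Agent.S23.eq_zero_of_pairing_eq_zero ?_ (LinearMap.mem_ker.mp hker)
    refine Submodule.span_mono ?_ ht
    rintro _ ⟨i, rfl⟩
    exact hs i
  obtain ⟨f, hf⟩ := exists_apply_eq_of_linearIndependent _ hl (fun i => ((φ (b i) : ℤ) : ℂ))
  refine ⟨f, fun t => ?_⟩
  have ht : t = ∑ i, b.repr t i • b i := (b.sum_repr t).symm
  have h1 : (t : Module.End ℂ (CuspForm (Gamma0 N) 2)) = ∑ i, b.repr t i • s i := by
    conv_lhs => rw [ht]
    rw [AddSubmonoidClass.coe_finsetSum]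
    rfl
  have h2 : φ t = ∑ i, b.repr t i * φ (b i) := by
    conv_lhs => rw [ht]
    rw [map_sum]
    refine Finset.sum_congr rfl fun i _ => ?_
    rw [map_smul, smul_eq_mul]
  have h4 : qCoeff ⇑((t : Module.End ℂ (CuspForm (Gamma0 N) 2)) f) 1 =
      Fermat.Agent.S23.coeffOne N ((t : Module.End ℂ (CuspForm (Gamma0 N) 2)) f) := rfl
  rw [h4, h1, LinearMap.sum_apply, map_sum, h2]
  push_cast
  refine Finset.sum_congr rfl fun i _ => ?_
  rw [LinearMap.smul_apply, map_zsmul, zsmul_eq_mul]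
  have := hf i
  rw [Fermat.Agent.S23.pairing_apply] at this
  rw [Fermat.Agent.S23.coeffOne_apply, this]

end Perfect

section Upper

variable (p : ℕ) [Fact p.Prime]

omit [Fact p.Prime] in
theorem ev_surjective : Function.Surjective (ev p) := fun a => ⟨MvPolynomial.C a, ev_C p a⟩

/-- **Duality**: if `m` divides the Eisenstein value of every element of `HeckeAlg` killing all
cusp forms, then some cusp form is congruent to the Eisenstein series modulo `m`. -/
theorem exists_form_of_dvd (m : ℕ)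
    (hm : ∀ t : HeckeAlg, heckeEvalForms p 2 t = 0 → (m : ℤ) ∣ ev p t) :
    ∃ f : CuspForm (Gamma0 p) 2, ∀ k : ℕ, 0 < k →
      ∃ z : ℤ, qCoeff ⇑f k = (sigmaStar p k : ℂ) + (m : ℂ) * z := by
  classical
  set evm : HeckeAlg →+* ZMod m := (Int.castRingHom (ZMod m)).comp (ev p) with hevm
  have hker : RingHom.ker (heckeEvalForms p 2) ≤ RingHom.ker evm := by
    intro t ht
    rw [RingHom.mem_ker] at ht ⊢
    rw [hevm, RingHom.comp_apply, eq_intCast]
    exact (ZMod.intCast_zmod_eq_zero_iff_dvd _ _).mpr (hm t ht)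
  have hsurj := Fermat.Agent.S16.Frame.heckeEvalForms_surjective p
  set φ : ↥(heckeAlgebra p 2 (∅ : Set ℕ)) →+* ZMod m :=
    RingHom.liftOfSurjective (heckeEvalForms p 2) hsurj ⟨evm, hker⟩ with hφ
  have hφev : ∀ T, φ (heckeEvalForms p 2 T) = evm T := fun T =>
    RingHom.liftOfRightInverse_comp_apply (heckeEvalForms p 2) _
      (Function.rightInverse_surjInv hsurj) ⟨evm, hker⟩ T
  have hfin : Module.Finite ℤ ↥(heckeAlgebra p 2 (∅ : Set ℕ)) := Fermat.Agent.S22.result p 2 ∅
  have hfree : Module.Free ℤ ↥(heckeAlgebra p 2 (∅ : Set ℕ)) :=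
    Module.free_of_finite_type_torsion_free'
  obtain ⟨φt, hφt⟩ := Module.projective_lifting_property
    ((Int.castAddHom (ZMod m)).toIntLinearMap) (φ.toAddMonoidHom.toIntLinearMap)
    (fun z => ZMod.intCast_surjective z)
  have hφt' : ∀ t, ((φt t : ℤ) : ZMod m) = φ t := fun t => LinearMap.congr_fun hφt t
  obtain ⟨f, hf⟩ := exists_form_of_functional p φt
  refine ⟨f, fun k hk => ?_⟩
  obtain ⟨T, hT, hev⟩ := exists_heckeElt p k hk
  have h1 : qCoeff ⇑f k = ((φt (heckeEvalForms p 2 T) : ℤ) : ℂ) := by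
    rw [← hT f]
    exact hf (heckeEvalForms p 2 T)
  have h2 : ((φt (heckeEvalForms p 2 T) - (sigmaStar p k : ℤ) : ℤ) : ZMod m) = 0 := by
    rw [Int.cast_sub, hφt', hφev, hevm, RingHom.comp_apply, hev, eq_intCast, sub_self]
  obtain ⟨z, hz⟩ := (ZMod.intCast_zmod_eq_zero_iff_dvd _ _).mp h2
  refine ⟨z, ?_⟩
  have h3 : φt (heckeEvalForms p 2 T) = (sigmaStar p k : ℤ) + (m : ℤ) * z := by
    rw [← hz]; ring
  rw [h1, h3]
  push_cast
  rfl

omit [Fact p.Prime] in
theorem eisensteinNumerator_pos (hp : p.Prime) : 0 < eisensteinNumerator p := by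
  unfold eisensteinNumerator
  have h1 : 0 < p - 1 := Nat.sub_pos_of_lt hp.one_lt
  exact Nat.div_pos (Nat.le_of_dvd h1 (Nat.gcd_dvd_left _ _))
    (Nat.gcd_pos_of_pos_left _ h1)

/-- **The upper bound from `q`-expansions.**  If every `m ≥ 1`, for which some cusp form of level
`p` is congruent to the Eisenstein series `∑ σ*(k) q^k` modulo `m`, divides the Eisenstein
numerator, then the hypothesis `hU` of `Frame.card_eq_of_lower_upper` holds. -/
theorem upper_of_q
    (hQ : ∀ m : ℕ, 0 < m → ∀ f : CuspForm (Gamma0 p) 2,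
      (∀ k : ℕ, 0 < k → ∃ z : ℤ, qCoeff ⇑f k = (sigmaStar p k : ℂ) + (m : ℂ) * z) →
        m ∣ eisensteinNumerator p) :
    ∃ t : HeckeAlg, heckeEvalForms p 2 t = 0 ∧
      MvPolynomial.aeval (eisensteinSystem p) t = (eisensteinNumerator p : ℤ) := by
  classical
  have hpp : p.Prime := Fact.out
  have hn := eisensteinNumerator_pos p hpp
  set J : Ideal HeckeAlg := RingHom.ker (heckeEvalForms p 2) with hJ
  set I₀ : Ideal ℤ := Ideal.map (ev p) J with hI₀
  have hmem : ∀ x : ℤ, x ∈ I₀ ↔ ∃ t : HeckeAlg, heckeEvalForms p 2 t = 0 ∧ ev p t = x := by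
    intro x
    rw [hI₀, Ideal.mem_map_iff_of_surjective (ev p) (ev_surjective p)]
    constructor
    · rintro ⟨t, ht, rfl⟩
      exact ⟨t, RingHom.mem_ker.mp ht, rfl⟩
    · rintro ⟨t, ht, rfl⟩
      exact ⟨t, RingHom.mem_ker.mpr ht, rfl⟩
  obtain ⟨g, hg⟩ : ∃ g : ℤ, I₀ = Ideal.span {g} :=
    ⟨_, (Ideal.span_singleton_generator I₀).symm⟩
  set m₀ : ℕ := g.natAbs with hm₀
  have hspan : I₀ = Ideal.span {(m₀ : ℤ)} := by
    rw [hg, hm₀, Int.span_natAbs]
  have hdvd : ∀ t : HeckeAlg, heckeEvalForms p 2 t = 0 → (m₀ : ℤ) ∣ ev p t := by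
    intro t ht
    have : ev p t ∈ I₀ := (hmem _).mpr ⟨t, ht, rfl⟩
    rw [hspan, Ideal.mem_span_singleton] at this
    exact this
  obtain ⟨t₀, ht₀, hev₀⟩ : ∃ t : HeckeAlg, heckeEvalForms p 2 t = 0 ∧ ev p t = (m₀ : ℤ) := by
    rw [← hmem, hspan]
    exact Ideal.mem_span_singleton_self _
  obtain ⟨f, hf⟩ := exists_form_of_dvd p m₀ hdvd
  rcases Nat.eq_zero_or_pos m₀ with h0 | hpos
  · exfalso
    have h1 : eisensteinNumerator p + 1 ∣ eisensteinNumerator p := by
      refine hQ _ (Nat.succ_pos _) f fun k hk => ?_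
      obtain ⟨z, hz⟩ := hf k hk
      refine ⟨0, ?_⟩
      rw [hz, h0]
      simp
    have := Nat.le_of_dvd hn h1
    omega
  · obtain ⟨c, hc⟩ := hQ m₀ hpos f hf
    refine ⟨MvPolynomial.C (c : ℤ) * t₀, ?_, ?_⟩
    · rw [map_mul, ht₀, mul_zero]
    · have : ev p (MvPolynomial.C (c : ℤ) * t₀) = (eisensteinNumerator p : ℤ) := by
        rw [map_mul, ev_C, hev₀, hc]
        push_cast
        ring
      exact this

end Upper

end Fermat.Agent.S16.Dual
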