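import Mathlib

/-!
# S16, lower bound, leaf (h), part 1: the abstract incidence count

`X` is a finite set with an involution `σ` and a map `τ` of order three (the actions of `S` and
`T S` on `SL₂(ℤ)/Γ₀(p)`), `x₀` a base point with `σ x₀ ≠ x₀` and `τ (σ x₀) = x₀`, and the pair
`σ, τ` is transitive on `X`.  For a finite abelian group `A` the functions `a : X → A` with

* `a (σ x) = - a x`, `a x = 0` at the fixed points of `σ` and at `x₀`,
* `a x = 0` at the fixed points of `τ` and `a x + a (τ x) + a (τ (τ x)) = 0`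

(`IsZ`) number at most `|A| ^ k`, where `6 k + 3 #Fix σ + 4 #Fix τ = #X` (`card_isZ_le`); such a
`k` exists (`exists_six`).  The proof is the rank count for the incidence map of the graph with
vertices the `τ`-orbits and edges the free `σ`-orbits; it needs no spanning tree: the image of
the incidence map contains every difference of two vertex indicator functions (connectivity).
-/

set_option autoImplicit false
set_option linter.unusedSectionVars false
set_option linter.unusedVariables false

namespace Fermat.Agent.S16.HomCountGraph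

section Order

variable {X : Type*} [Fintype X] [LinearOrder X]

/-! ### Orbit counting for an involution -/

theorem card_involution (σ : X → X) (hσ : ∀ x, σ (σ x) = x) :
    Fintype.card X = (Finset.univ.filter fun x => σ x = x).card
      + 2 * (Finset.univ.filter fun x => x < σ x).card := by
  have h1 : (Finset.univ.filter fun x => σ x < x).card
      = (Finset.univ.filter fun x => x < σ x).card := by
    apply Finset.card_bij (fun x _ => σ x)
    · intro x hx
      simp only [Finset.mem_filter, Finset.mem_univ, true_and] at hx ⊢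
      rw [hσ]; exact hx
    · intro x _ y _ h
      have := congrArg σ h
      rwa [hσ, hσ] at this
    · intro y hy
      refine ⟨σ y, ?_, hσ y⟩
      simp only [Finset.mem_filter, Finset.mem_univ, true_and] at hy ⊢
      rw [hσ]; exact hy
  have h2 : (Finset.univ : Finset X) = (Finset.univ.filter fun x => σ x = x)
      ∪ ((Finset.univ.filter fun x => x < σ x) ∪ (Finset.univ.filter fun x => σ x < x)) := by
    ext x
    simp only [Finset.mem_univ, Finset.mem_union, Finset.mem_filter, true_and, true_iff]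
    rcases lt_trichotomy x (σ x) with h | h | h
    · exact Or.inr (Or.inl h)
    · exact Or.inl h.symm
    · exact Or.inr (Or.inr h)
  have h3 := congrArg Finset.card h2
  rw [Finset.card_univ] at h3
  rw [h3, Finset.card_union_of_disjoint, Finset.card_union_of_disjoint, h1]
  · ring
  · rw [Finset.disjoint_left]
    intro x hx hx'
    simp only [Finset.mem_filter, Finset.mem_univ, true_and] at hx hx'
    exact lt_asymm hx hx'
  · rw [Finset.disjoint_left]
    intro x hx hx'
    simp only [Finset.mem_filter, Finset.mem_univ, true_and, Finset.mem_union] at hx hx'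
    rcases hx' with h | h
    · rw [hx] at h; exact lt_irrefl _ h
    · rw [hx] at h; exact lt_irrefl _ h

/-! ### Orbits of a map of order three -/

variable (τ : X → X)

/-- The orbit relation of a map of order three. -/
def Orb (x y : X) : Prop := y = x ∨ y = τ x ∨ y = τ (τ x)

/-- The minimum of the orbit. -/
def omin (x : X) : X := min x (min (τ x) (τ (τ x)))

variable {τ}

theorem Orb.refl (x : X) : Orb τ x x := Or.inl rfl

theorem Orb.symm (hτ : ∀ x, τ (τ (τ x)) = x) {x y : X} (h : Orb τ x y) : Orb τ y x := by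
  rcases h with rfl | rfl | rfl
  · exact Or.inl rfl
  · exact Or.inr (Or.inr (hτ x).symm)
  · exact Or.inr (Or.inl (hτ x).symm)

theorem Orb.trans (hτ : ∀ x, τ (τ (τ x)) = x) {x y z : X} (h : Orb τ x y) (h' : Orb τ y z) :
    Orb τ x z := by
  rcases h with rfl | rfl | rfl
  · exact h'
  · rcases h' with rfl | rfl | rfl
    · exact Or.inr (Or.inl rfl)
    · exact Or.inr (Or.inr rfl)
    · exact Or.inl (hτ x)
  · rcases h' with rfl | rfl | rfl
    · exact Or.inr (Or.inr rfl)
    · exact Or.inl (hτ x)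
    · rw [hτ]; exact Or.inr (Or.inl rfl)

theorem orb_omin (x : X) : Orb τ x (omin τ x) := by
  unfold omin Orb
  rcases min_choice x (min (τ x) (τ (τ x))) with h | h
  · exact Or.inl h
  · rw [h]
    rcases min_choice (τ x) (τ (τ x)) with h' | h'
    · exact Or.inr (Or.inl h')
    · exact Or.inr (Or.inr h')

theorem omin_map (hτ : ∀ x, τ (τ (τ x)) = x) (x : X) : omin τ (τ x) = omin τ x := by
  unfold omin
  rw [hτ]
  ac_rfl

theorem omin_eq_of_orb (hτ : ∀ x, τ (τ (τ x)) = x) {x y : X} (h : Orb τ x y) :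
    omin τ y = omin τ x := by
  rcases h with rfl | rfl | rfl
  · rfl
  · exact omin_map hτ x
  · rw [omin_map hτ, omin_map hτ]

theorem omin_eq_iff (hτ : ∀ x, τ (τ (τ x)) = x) {x y : X} :
    omin τ y = omin τ x ↔ Orb τ x y := by
  refine ⟨fun h => ?_, omin_eq_of_orb hτ⟩
  have h1 := orb_omin (τ := τ) x
  have h2 := orb_omin (τ := τ) y
  rw [h] at h2
  exact h1.trans hτ (h2.symm hτ)

theorem omin_omin (hτ : ∀ x, τ (τ (τ x)) = x) (x : X) : omin τ (omin τ x) = omin τ x :=
  omin_eq_of_orb hτ (orb_omin x)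

theorem omin_of_fixed {x : X} (h : τ x = x) : omin τ x = x := by
  unfold omin
  rw [h, h, min_self, min_self]

theorem fixed_of_orb_fixed {x y : X} (h : τ x = x) (hy : Orb τ x y) : y = x := by
  rcases hy with rfl | rfl | rfl
  · rfl
  · exact h
  · rw [h, h]

theorem ne_of_not_fixed (hτ : ∀ x, τ (τ (τ x)) = x) {x : X} (h : τ x ≠ x) :
    τ (τ x) ≠ x ∧ τ (τ x) ≠ τ x := by
  constructor
  · intro h'
    apply h
    have := congrArg τ h'
    rw [hτ] at this
    exact this.symm
  · intro h'
    apply h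
    have := congrArg τ (congrArg τ h')
    rw [hτ] at this
    have h3 : τ (τ (τ x)) = x := hτ x
    rw [h3] at this
    exact this

variable (τ)

/-- The set of orbit minima. -/
def reps : Finset X := Finset.univ.filter fun x => omin τ x = x

variable {τ}

theorem omin_mem_reps (hτ : ∀ x, τ (τ (τ x)) = x) (x : X) : omin τ x ∈ reps τ := by
  simp only [reps, Finset.mem_filter, Finset.mem_univ, true_and]
  exact omin_omin hτ x

theorem card_order_three (hτ : ∀ x, τ (τ (τ x)) = x) :
    Fintype.card X + 2 * (Finset.univ.filter fun x => τ x = x).card = 3 * (reps τ).card := by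
  have h1 : Fintype.card X = ∑ r ∈ reps τ, (Finset.univ.filter fun x => omin τ x = r).card := by
    rw [← Finset.card_univ]
    exact Finset.card_eq_sum_card_fiberwise (fun x _ => omin_mem_reps hτ x)
  have h2 : ∀ r ∈ reps τ, (Finset.univ.filter fun x => omin τ x = r).card
      = if τ r = r then 1 else 3 := by
    intro r hr
    simp only [reps, Finset.mem_filter, Finset.mem_univ, true_and] at hr
    have h3 : (Finset.univ.filter fun x => omin τ x = r) = {r, τ r, τ (τ r)} := by
      ext x
      simp only [Finset.mem_filter, Finset.mem_univ, true_and, Finset.mem_insert,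
        Finset.mem_singleton]
      constructor
      · intro h
        exact (omin_eq_iff hτ (x := r) (y := x)).mp (by rw [h, hr])
      · intro h
        rw [omin_eq_of_orb hτ (x := r) (y := x) h]
        exact hr
    rw [h3]
    split_ifs with h
    · rw [h, h]; simp
    · obtain ⟨h4, h5⟩ := ne_of_not_fixed hτ h
      rw [Finset.card_insert_of_notMem, Finset.card_insert_of_notMem, Finset.card_singleton]
      · simp only [Finset.mem_singleton]; exact fun h' => h5 h'.symm
      · simp only [Finset.mem_insert, Finset.mem_singleton, not_or]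
        exact ⟨fun h' => h h'.symm, fun h' => h4 h'.symm⟩
  rw [h1, Finset.sum_congr rfl h2]
  have h6 : (Finset.univ.filter fun x => τ x = x) = (reps τ).filter fun x => τ x = x := by
    ext x
    simp only [Finset.mem_filter, Finset.mem_univ, true_and, reps]
    exact ⟨fun h => ⟨omin_of_fixed h, h⟩, fun h => h.2⟩
  rw [h6]
  have h7 : ∑ r ∈ reps τ, (if τ r = r then 1 else 3)
      = ((reps τ).filter fun x => τ x = x).card
        + 3 * ((reps τ).filter fun x => ¬ τ x = x).card := by
    rw [Finset.sum_ite, Finset.sum_const, Finset.sum_const]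
    simp [mul_comm]
  have h8 := Finset.card_filter_add_card_filter_not (s := reps τ) (fun x => τ x = x)
  rw [h7]
  omega

end Order

section Count

variable {X : Type*} [Fintype X] [LinearOrder X]
variable (σ τ : X → X) (x₀ : X)
variable {A : Type*} [AddCommGroup A]

/-- Antisymmetric functions vanishing at the fixed points and at the base point. -/
def IsF (a : X → A) : Prop :=
  (∀ x, a (σ x) = - a x) ∧ (∀ x, σ x = x → a x = 0) ∧ a x₀ = 0

/-- The orbit sum. -/
def bd (a : X → A) (y : X) : A := if τ y = y then a y else a y + a (τ y) + a (τ (τ y))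

/-- The delta function. -/
def dl (z : X) (c : A) : X → A := fun y => if y = z then c else 0

variable {σ τ x₀}

theorem bd_add (a b : X → A) (y : X) : bd τ (a + b) y = bd τ a y + bd τ b y := by
  unfold bd
  split_ifs
  · rfl
  · simp only [Pi.add_apply]; abel

theorem bd_sub (a b : X → A) (y : X) : bd τ (a - b) y = bd τ a y - bd τ b y := by
  unfold bd
  split_ifs
  · rfl
  · simp only [Pi.sub_apply]; abel

theorem bd_zero (y : X) : bd τ (0 : X → A) y = 0 := by
  unfold bd; split_ifs <;> simp

theorem bd_sum {ι : Type*} (s : Finset ι) (f : ι → X → A) (y : X) :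
    bd τ (∑ i ∈ s, f i) y = ∑ i ∈ s, bd τ (f i) y := by
  classical
  induction s using Finset.induction_on with
  | empty => simp [bd_zero]
  | insert i s hi ih => rw [Finset.sum_insert hi, Finset.sum_insert hi, bd_add, ih]

theorem IsF.zero : IsF σ x₀ (0 : X → A) := ⟨fun _ => by simp, fun _ _ => rfl, rfl⟩

theorem IsF.add {a b : X → A} (ha : IsF σ x₀ a) (hb : IsF σ x₀ b) : IsF σ x₀ (a + b) := by
  refine ⟨fun x => ?_, fun x hx => ?_, ?_⟩
  · simp only [Pi.add_apply, ha.1 x, hb.1 x]; abel
  · simp only [Pi.add_apply, ha.2.1 x hx, hb.2.1 x hx, add_zero]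
  · simp only [Pi.add_apply, ha.2.2, hb.2.2, add_zero]

theorem IsF.sub {a b : X → A} (ha : IsF σ x₀ a) (hb : IsF σ x₀ b) : IsF σ x₀ (a - b) := by
  refine ⟨fun x => ?_, fun x hx => ?_, ?_⟩
  · simp only [Pi.sub_apply, ha.1 x, hb.1 x]; abel
  · simp only [Pi.sub_apply, ha.2.1 x hx, hb.2.1 x hx, sub_zero]
  · simp only [Pi.sub_apply, ha.2.2, hb.2.2, sub_zero]

theorem IsF.sum {ι : Type*} (s : Finset ι) (f : ι → X → A) (hf : ∀ i ∈ s, IsF σ x₀ (f i)) :
    IsF σ x₀ (∑ i ∈ s, f i) := by
  classical
  induction s using Finset.induction_on with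
  | empty => simpa using IsF.zero
  | insert i s hi ih =>
    rw [Finset.sum_insert hi]
    exact (hf i (Finset.mem_insert_self i s)).add
      (ih fun j hj => hf j (Finset.mem_insert_of_mem hj))

theorem bd_dl (hτ : ∀ x, τ (τ (τ x)) = x) (z : X) (c : A) (y : X) :
    bd τ (dl z c) y = if omin τ y = omin τ z then c else 0 := by
  have key : omin τ y = omin τ z ↔ (y = z ∨ τ y = z ∨ τ (τ y) = z) := by
    rw [omin_eq_iff hτ]
    constructor
    · intro h
      rcases h.symm hτ with h | h | h
      · exact Or.inl h.symm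
      · exact Or.inr (Or.inl h.symm)
      · exact Or.inr (Or.inr h.symm)
    · intro h
      apply Orb.symm hτ
      rcases h with h | h | h
      · exact Or.inl h.symm
      · exact Or.inr (Or.inl h.symm)
      · exact Or.inr (Or.inr h.symm)
  unfold bd dl
  by_cases hy : τ y = y
  · rw [if_pos hy]
    have h1 : (y = z) ↔ omin τ y = omin τ z := by
      rw [key, hy, hy]; simp
    by_cases h2 : y = z
    · rw [if_pos h2, if_pos (h1.mp h2)]
    · rw [if_neg h2, if_neg (fun h => h2 (h1.mpr h))]
  · rw [if_neg hy]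
    obtain ⟨h4, h5⟩ := ne_of_not_fixed hτ hy
    by_cases h1 : y = z
    · have e2 : ¬ τ y = z := fun h => hy (h.trans h1.symm)
      have e3 : ¬ τ (τ y) = z := fun h => h4 (h.trans h1.symm)
      rw [if_pos h1, if_neg e2, if_neg e3, if_pos (key.mpr (Or.inl h1))]; simp
    · by_cases h2 : τ y = z
      · have e3 : ¬ τ (τ y) = z := fun h => h5 (h.trans h2.symm)
        rw [if_neg h1, if_pos h2, if_neg e3, if_pos (key.mpr (Or.inr (Or.inl h2)))]; simp
      · by_cases h3 : τ (τ y) = z
        · rw [if_neg h1, if_neg h2, if_pos h3, if_pos (key.mpr (Or.inr (Or.inr h3)))]; simp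
        · rw [if_neg h1, if_neg h2, if_neg h3, if_neg]
          · simp
          · rw [key]; tauto

theorem isF_dl_sub (hσ : ∀ x, σ (σ x) = x) {x : X} (h1 : σ x ≠ x) (h2 : x ≠ x₀)
    (h3 : x ≠ σ x₀) (c : A) : IsF σ x₀ (dl (σ x) c - dl x c) := by
  refine ⟨fun y => ?_, fun y hy => ?_, ?_⟩
  · simp only [Pi.sub_apply, dl]
    have e1 : σ y = σ x ↔ y = x :=
      ⟨fun h => by have := congrArg σ h; rwa [hσ, hσ] at this, fun h => by rw [h]⟩
    have e2 : σ y = x ↔ y = σ x :=
      ⟨fun h => by rw [← h, hσ], fun h => by rw [h, hσ]⟩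
    simp only [e1, e2]
    abel
  · simp only [Pi.sub_apply, dl]
    have e1 : ¬ y = σ x := by
      intro h
      apply h1
      have h4 : σ y = x := by rw [h, hσ]
      rw [hy] at h4
      rw [← h4, hy]
    have e2 : ¬ y = x := by
      intro h
      apply h1
      rw [← h, hy]
    rw [if_neg e1, if_neg e2, sub_zero]
  · simp only [Pi.sub_apply, dl]
    have e1 : ¬ x₀ = σ x := by
      intro h
      apply h3
      rw [h, hσ]
    rw [if_neg e1, if_neg (fun h => h2 h.symm), sub_zero]

theorem exists_bd_eq (hσ : ∀ x, σ (σ x) = x) (hτ : ∀ x, τ (τ (τ x)) = x)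
    (hx₀ : τ (σ x₀) = x₀)
    (hconn : ∀ P : X → Prop, P x₀ → (∀ x, P x → P (σ x)) → (∀ x, P x → P (τ x)) → ∀ x, P x)
    (x : X) (c : A) :
    ∃ a : X → A, IsF σ x₀ a ∧ ∀ y, bd τ a y =
      (if omin τ y = omin τ x then c else 0) - (if omin τ y = omin τ x₀ then c else 0) := by
  have hbase : omin τ (σ x₀) = omin τ x₀ := by
    rw [← omin_map hτ (σ x₀), hx₀]
  revert c
  refine hconn (fun x => ∀ c : A, ∃ a : X → A, IsF σ x₀ a ∧ ∀ y, bd τ a y =
      (if omin τ y = omin τ x then c else 0) - (if omin τ y = omin τ x₀ then c else 0))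
    ?_ ?_ ?_ x
  · intro c
    exact ⟨0, IsF.zero, fun y => by simp [bd_zero]⟩
  · intro x ih c
    obtain ⟨a, ha, hb⟩ := ih c
    by_cases h1 : σ x = x
    · rw [h1]; exact ⟨a, ha, hb⟩
    by_cases h2 : x = x₀
    · have e : omin τ (σ x) = omin τ x := by rw [h2, hbase]
      rw [e]; exact ⟨a, ha, hb⟩
    by_cases h3 : x = σ x₀
    · have e : omin τ (σ x) = omin τ x := by rw [h3, hσ, hbase]
      rw [e]; exact ⟨a, ha, hb⟩
    refine ⟨a + (dl (σ x) c - dl x c), ha.add (isF_dl_sub hσ h1 h2 h3 c), fun y => ?_⟩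
    rw [bd_add, bd_sub, bd_dl hτ, bd_dl hτ, hb]
    abel
  · intro x ih c
    simp only [omin_map hτ]
    exact ih c

theorem eq_of_eq_on (hσ : ∀ x, σ (σ x) = x) {a b : X → A} (ha : IsF σ x₀ a)
    (hb : IsF σ x₀ b) (h : ∀ x, x < σ x → x ≠ min x₀ (σ x₀) → a x = b x) : a = b := by
  have h1 : ∀ x, x < σ x → a x = b x := by
    intro x hx
    by_cases hx' : x = min x₀ (σ x₀)
    · rcases min_choice x₀ (σ x₀) with h2 | h2
      · rw [hx', h2, ha.2.2, hb.2.2]
      · rw [hx', h2, ha.1, hb.1, ha.2.2, hb.2.2]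
    · exact h x hx hx'
  funext x
  rcases lt_trichotomy x (σ x) with h2 | h2 | h2
  · exact h1 x h2
  · rw [ha.2.1 x h2.symm, hb.2.1 x h2.symm]
  · have h3 : σ x < σ (σ x) := by rw [hσ]; exact h2
    have h4 := h1 (σ x) h3
    have h5 := ha.1 (σ x)
    have h6 := hb.1 (σ x)
    rw [hσ] at h5 h6
    rw [h5, h6, h4]

/-- **The incidence count.** -/
theorem card_mul_le [Finite A] (hσ : ∀ x, σ (σ x) = x) (hτ : ∀ x, τ (τ (τ x)) = x)
    (hx₀σ : σ x₀ ≠ x₀) (hx₀ : τ (σ x₀) = x₀)
    (hconn : ∀ P : X → Prop, P x₀ → (∀ x, P x → P (σ x)) → (∀ x, P x → P (τ x)) → ∀ x, P x) :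
    Nat.card {a : X → A // IsF σ x₀ a ∧ ∀ y, bd τ a y = 0}
        * Nat.card A ^ ((reps τ).card - 1)
      ≤ Nat.card A ^ ((Finset.univ.filter fun x => x < σ x).card - 1) := by
  classical
  set R : Finset X := (reps τ).erase (omin τ x₀) with hR
  set E : Finset X := (Finset.univ.filter fun x => x < σ x).erase (min x₀ (σ x₀)) with hE
  have hRc : R.card = (reps τ).card - 1 := Finset.card_erase_of_mem (omin_mem_reps hτ x₀)
  have hEc : E.card = (Finset.univ.filter fun x => x < σ x).card - 1 := by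
    apply Finset.card_erase_of_mem
    simp only [Finset.mem_filter, Finset.mem_univ, true_and]
    rcases lt_or_gt_of_ne hx₀σ with h | h
    · rw [min_eq_right h.le, hσ]; exact h
    · rw [min_eq_left h.le]; exact h
  choose w hwF hwb using fun (x : X) (c : A) => exists_bd_eq (A := A) hσ hτ hx₀ hconn x c
  let Ψ : (R → A) → (X → A) := fun h => ∑ r : R, w r (h r)
  have hΨF : ∀ h, IsF σ x₀ (Ψ h) := fun h => IsF.sum _ _ (fun r _ => hwF r (h r))
  have hΨb : ∀ h (r' : R), bd τ (Ψ h) r' = h r' := by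
    intro h r'
    simp only [Ψ]
    rw [bd_sum]
    have hr' := r'.2
    simp only [hR, Finset.mem_erase, reps, Finset.mem_filter, Finset.mem_univ, true_and] at hr'
    rw [Finset.sum_eq_single r']
    · rw [hwb, if_pos rfl, if_neg, sub_zero]
      rw [hr'.2]; exact hr'.1
    · intro r _ hne
      have hr := r.2
      simp only [hR, Finset.mem_erase, reps, Finset.mem_filter, Finset.mem_univ, true_and] at hr
      rw [hwb, hr'.2, hr.2, if_neg, if_neg, sub_zero]
      · exact hr'.1
      · intro h'; exact hne (Subtype.ext h'.symm)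
    · intro h'; exact absurd (Finset.mem_univ _) h'
  let f1 : {a : X → A // IsF σ x₀ a ∧ ∀ y, bd τ a y = 0} × (R → A)
      → {a : X → A // IsF σ x₀ a} :=
    fun p => ⟨p.1.1 + Ψ p.2, p.1.2.1.add (hΨF p.2)⟩
  have hf1 : Function.Injective f1 := by
    rintro ⟨⟨z, hz⟩, h⟩ ⟨⟨z', hz'⟩, h'⟩ e
    have e1 : z + Ψ h = z' + Ψ h' := congrArg Subtype.val e
    have e2 : h = h' := by
      funext r
      have := congrArg (fun a => bd τ a r) e1
      simp only [bd_add, hz.2, hz'.2, zero_add, hΨb] at this
      exact this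
    subst e2
    have e3 : z = z' := add_right_cancel e1
    subst e3
    rfl
  let f2 : {a : X → A // IsF σ x₀ a} → (E → A) := fun a e => a.1 e
  have hf2 : Function.Injective f2 := by
    rintro ⟨a, ha⟩ ⟨b, hb⟩ e
    apply Subtype.ext
    apply eq_of_eq_on hσ ha hb
    intro x hx hx'
    have hxE : x ∈ E := by
      simp only [hE, Finset.mem_erase, Finset.mem_filter, Finset.mem_univ, true_and]
      exact ⟨hx', hx⟩
    exact congrFun e ⟨x, hxE⟩
  have c1 := Nat.card_le_card_of_injective f1 hf1
  have c2 := Nat.card_le_card_of_injective f2 hf2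
  rw [Nat.card_prod, Nat.card_fun, Nat.card_eq_finsetCard] at c1
  rw [Nat.card_fun, Nat.card_eq_finsetCard] at c2
  rw [← hRc, ← hEc]
  exact c1.trans c2

end Count

section Final

universe u

variable {X : Type*} [Finite X] (σ τ : X → X) (x₀ : X)

/-- The conditions satisfied by the `S`-values of the cocycle of a homomorphism killing the
parabolic and elliptic elements. -/
def IsZ {A : Type*} [AddCommGroup A] (a : X → A) : Prop :=
  (∀ x, a (σ x) = - a x) ∧ (∀ x, σ x = x → a x = 0) ∧ a x₀ = 0 ∧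
    (∀ x, τ x = x → a x = 0) ∧ (∀ x, a x + a (τ x) + a (τ (τ x)) = 0)

variable {σ τ x₀}

theorem isZ_zero {A : Type*} [AddCommGroup A] : IsZ σ τ x₀ (0 : X → A) :=
  ⟨fun _ => by simp, fun _ _ => rfl, rfl, fun _ _ => rfl, fun _ => by simp⟩

theorem isZ_iff [LinearOrder X] {A : Type*} [AddCommGroup A] (a : X → A) :
    IsZ σ τ x₀ a ↔ IsF σ x₀ a ∧ ∀ y, bd τ a y = 0 := by
  constructor
  · rintro ⟨h1, h2, h3, h4, h5⟩
    refine ⟨⟨h1, h2, h3⟩, fun y => ?_⟩
    unfold bd
    split_ifs with h
    · exact h4 y h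
    · exact h5 y
  · rintro ⟨⟨h1, h2, h3⟩, hb⟩
    refine ⟨h1, h2, h3, fun x hx => ?_, fun x => ?_⟩
    · have := hb x
      unfold bd at this
      rwa [if_pos hx] at this
    · have := hb x
      unfold bd at this
      by_cases hx : τ x = x
      · rw [if_pos hx] at this
        rw [hx, hx, this]; simp
      · rwa [if_neg hx] at this

theorem numerics (hσ : ∀ x, σ (σ x) = x) (hτ : ∀ x, τ (τ (τ x)) = x)
    (hx₀σ : σ x₀ ≠ x₀) (hx₀ : τ (σ x₀) = x₀)
    (hconn : ∀ P : X → Prop, P x₀ → (∀ x, P x → P (σ x)) → (∀ x, P x → P (τ x)) → ∀ x, P x) :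
    ∃ e v : ℕ, 1 ≤ v ∧ v ≤ e ∧ Nat.card X = Nat.card {x // σ x = x} + 2 * e ∧
      Nat.card X + 2 * Nat.card {x // τ x = x} = 3 * v ∧
      ∀ (A : Type u) [AddCommGroup A] [Finite A],
        Nat.card {a : X → A // IsZ σ τ x₀ a} * Nat.card A ^ (v - 1) ≤ Nat.card A ^ (e - 1) := by
  classical
  have := Fintype.ofFinite X
  let _ : LinearOrder X := LinearOrder.lift' (Finite.equivFin X) (Finite.equivFin X).injective
  have h2 := card_involution σ hσ
  have h3 := card_order_three hτ
  have hf2 : Nat.card {x // σ x = x} = (Finset.univ.filter fun x => σ x = x).card := by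
    rw [Nat.card_eq_fintype_card, Fintype.card_subtype]
  have hf3 : Nat.card {x // τ x = x} = (Finset.univ.filter fun x => τ x = x).card := by
    rw [Nat.card_eq_fintype_card, Fintype.card_subtype]
  have hmain : ∀ (A : Type u) [AddCommGroup A] [Finite A],
      Nat.card {a : X → A // IsZ σ τ x₀ a} * Nat.card A ^ ((reps τ).card - 1)
        ≤ Nat.card A ^ ((Finset.univ.filter fun x => x < σ x).card - 1) := by
    intro A _ _
    have := card_mul_le (A := A) hσ hτ hx₀σ hx₀ hconn
    have e : Nat.card {a : X → A // IsZ σ τ x₀ a}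
        = Nat.card {a : X → A // IsF σ x₀ a ∧ ∀ y, bd τ a y = 0} :=
      Nat.card_congr (Equiv.subtypeEquivRight fun a => isZ_iff a)
    rw [e]; exact this
  have hv1 : 1 ≤ (reps τ).card :=
    Finset.card_pos.mpr ⟨_, omin_mem_reps hτ x₀⟩
  have he1 : 1 ≤ (Finset.univ.filter fun x => x < σ x).card := by
    apply Finset.card_pos.mpr
    refine ⟨min x₀ (σ x₀), ?_⟩
    simp only [Finset.mem_filter, Finset.mem_univ, true_and]
    rcases lt_or_gt_of_ne hx₀σ with h | h
    · rw [min_eq_right h.le, hσ]; exact h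
    · rw [min_eq_left h.le]; exact h
  refine ⟨(Finset.univ.filter fun x => x < σ x).card, (reps τ).card, hv1, ?_, ?_, ?_, hmain⟩
  · have := hmain (ULift.{u} (ZMod 2))
    have hpos : 0 < Nat.card {a : X → ULift.{u} (ZMod 2) // IsZ σ τ x₀ a} :=
      Nat.card_pos_iff.mpr ⟨⟨⟨0, isZ_zero⟩⟩, inferInstance⟩
    rw [Nat.card_ulift, Nat.card_zmod] at this
    have h4 : 2 ^ ((reps τ).card - 1) ≤ 2 ^ ((Finset.univ.filter fun x => x < σ x).card - 1) :=
      le_trans (Nat.le_mul_of_pos_left _ hpos) this
    have h5 := (Nat.pow_le_pow_iff_right (by norm_num : 1 < 2)).mp h4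
    omega
  · rw [hf2, Nat.card_eq_fintype_card]; exact h2
  · rw [hf3, Nat.card_eq_fintype_card]; exact h3

/-- **Abstract counting theorem.** -/
theorem card_isZ_le (hσ : ∀ x, σ (σ x) = x) (hτ : ∀ x, τ (τ (τ x)) = x)
    (hx₀σ : σ x₀ ≠ x₀) (hx₀ : τ (σ x₀) = x₀)
    (hconn : ∀ P : X → Prop, P x₀ → (∀ x, P x → P (σ x)) → (∀ x, P x → P (τ x)) → ∀ x, P x)
    (A : Type u) [AddCommGroup A] [Finite A] (k : ℕ)
    (hk : 6 * k + 3 * Nat.card {x // σ x = x} + 4 * Nat.card {x // τ x = x} = Nat.card X) :
    Nat.card {a : X → A // IsZ σ τ x₀ a} ≤ Nat.card A ^ k := by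
  obtain ⟨e, v, hv1, hve, h2, h3, hmain⟩ := numerics.{u} hσ hτ hx₀σ hx₀ hconn
  have h := hmain A
  have hk' : e - 1 = k + (v - 1) := by omega
  rw [hk', pow_add] at h
  have hA : 0 < Nat.card A := Nat.card_pos
  exact Nat.le_of_mul_le_mul_right h (pow_pos hA _)

/-- The number `k` exists. -/
theorem exists_six (hσ : ∀ x, σ (σ x) = x) (hτ : ∀ x, τ (τ (τ x)) = x)
    (hx₀σ : σ x₀ ≠ x₀) (hx₀ : τ (σ x₀) = x₀)
    (hconn : ∀ P : X → Prop, P x₀ → (∀ x, P x → P (σ x)) → (∀ x, P x → P (τ x)) → ∀ x, P x) :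
    ∃ k : ℕ,
      6 * k + 3 * Nat.card {x // σ x = x} + 4 * Nat.card {x // τ x = x} = Nat.card X := by
  obtain ⟨e, v, hv1, hve, h2, h3, -⟩ := numerics.{0} hσ hτ hx₀σ hx₀ hconn
  exact ⟨e - v, by omega⟩

end Final

end Fermat.Agent.S16.HomCountGraph
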