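import Mathlib
import Fermat.Prelude.Def_ModularCurve_GenusNumerics
import Fermat.Agent.S20.Cosets
import Fermat.Agent.S16.HomCountGraph

/-!
# S16, lower bound, leaf (h): counting homomorphisms `Γ₀(p) → A`

For a prime `p` and a finite abelian group `A`, the homomorphisms `φ : Γ₀(p) → A` killing every
element of trace `t` with `t ^ 2 ≤ 4` (parabolic and elliptic elements and `±1`) number at most
`|A| ^ (2 g)`, `g` the genus of `X₀(p)`:

* `card_le`, `card_kills_le` : the bound, with `twoGenus p`;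
* `twoGenus_cast : (twoGenus p : ℚ) = 2 * ModularCurve.genusFormula p`;
* `six_mul_twoGenus : 6 * twoGenus p + 3 * nuTwo p + 4 * nuThree p = p + 1`;
* `finite_kills` : the set of such homomorphisms is finite;
* `coc_S_injective` : such a `φ` is determined by the `S`-values of its Shapiro cocycle.

Proof: the section `sec` of `SL₂(ℤ) → SL₂(ℤ)/Γ₀(p)` takes the values `1` and `T ^ a S`, so the
Schreier elements `el T x` all have trace `2`; the `S`-values `a = coc φ S` satisfy the
relations of `HomCountGraph.IsZ` (from `S² = (T S)³ = -1`), and `φ` is recovered from `a`.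
-/

set_option autoImplicit false
set_option linter.unusedSectionVars false
set_option linter.unusedVariables false

namespace Fermat.Agent.S16.HomCount

open CongruenceSubgroup Fermat.Agent.S20 Fermat.Agent.S20.Cosets Matrix.SpecialLinearGroup
open scoped MatrixGroups

variable {p : ℕ}

/-- The base coset. -/
def base (p : ℕ) : Q p := ((1 : SL(2, ℤ)) : Q p)

theorem mk_eq_base_iff (h : SL(2, ℤ)) :
    ((h : SL(2, ℤ)) : Q p) = base p ↔ (p : ℤ) ∣ h 1 0 := by
  rw [base, mk_eq_mk_iff]
  simp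

theorem exists_rep (hp : p.Prime) (h : SL(2, ℤ)) :
    ((h : SL(2, ℤ)) : Q p) = base p ∨
      ∃ a : ℤ, ((h : SL(2, ℤ)) : Q p) = ((colMat a : SL(2, ℤ)) : Q p) := by
  by_cases hc : (p : ℤ) ∣ h 1 0
  · left
    exact (mk_eq_base_iff h).mpr hc
  · right
    have hcop : IsCoprime (h 1 0) (p : ℤ) := by
      have hp' : Prime (p : ℤ) := Nat.prime_iff_prime_int.mp hp
      exact (hp'.coprime_iff_not_dvd.mpr hc).symm
    obtain ⟨u, v, huv⟩ := hcop
    refine ⟨h 0 0 * u, ?_⟩
    rw [mk_eq_mk_iff, colMat_apply_zero_zero, colMat_apply_one_zero]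
    exact ⟨h 0 0 * v, by linear_combination (-(h 0 0)) * huv⟩

open Classical in
/-- A section of `SL₂(ℤ) → SL₂(ℤ)/Γ₀(p)` adapted to the translation `T`. -/
noncomputable def sec (p : ℕ) (x : Q p) : SL(2, ℤ) :=
  if x = base p then 1 else
    if h : ∃ a : ℤ, x = ((colMat a : SL(2, ℤ)) : Q p) then colMat h.choose else 1

theorem sec_base : sec p (base p) = 1 := by
  simp [sec]

theorem sec_of_ne (hp : p.Prime) {x : Q p} (hx : x ≠ base p) :
    ∃ a : ℤ, sec p x = colMat a ∧ x = ((colMat a : SL(2, ℤ)) : Q p) := by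
  have h : ∃ a : ℤ, x = ((colMat a : SL(2, ℤ)) : Q p) := by
    obtain ⟨g, rfl⟩ := QuotientGroup.mk_surjective x
    rcases exists_rep hp g with h1 | h1
    · exact absurd h1 hx
    · exact h1
  refine ⟨h.choose, ?_, h.choose_spec⟩
  simp only [sec, if_neg hx, dif_pos h]

theorem mk_sec (hp : p.Prime) (x : Q p) : ((sec p x : SL(2, ℤ)) : Q p) = x := by
  by_cases hx : x = base p
  · rw [hx, sec_base]; rfl
  · obtain ⟨a, ha, hxa⟩ := sec_of_ne hp hx
    rw [ha, ← hxa]

variable [Fact p.Prime]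

/-- The Schreier element `sec(g x)⁻¹ g sec(x)` of `Γ₀(p)`. -/
noncomputable def el (g : SL(2, ℤ)) (x : Q p) : Gamma0 p :=
  ⟨(sec p (g • x))⁻¹ * (g * sec p x), by
    rw [← QuotientGroup.eq, mk_sec Fact.out]
    conv_lhs => rw [← mk_sec (Fact.out : p.Prime) x]
    rfl⟩

theorem coe_el (g : SL(2, ℤ)) (x : Q p) :
    ((el g x : Gamma0 p) : SL(2, ℤ)) = (sec p (g • x))⁻¹ * (g * sec p x) := rfl

theorem el_mul (g h : SL(2, ℤ)) (x : Q p) : el (g * h) x = el g (h • x) * el h x := by
  apply Subtype.ext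
  simp only [coe_el, Subgroup.coe_mul, mul_smul]
  group

/-- Trace of a conjugate. -/
theorem trace_conj (r g : SL(2, ℤ)) :
    ((r⁻¹ * (g * r) : SL(2, ℤ)) : Matrix (Fin 2) (Fin 2) ℤ).trace
      = (g : Matrix (Fin 2) (Fin 2) ℤ).trace := by
  rw [Matrix.SpecialLinearGroup.coe_mul, Matrix.trace_mul_comm,
    ← Matrix.SpecialLinearGroup.coe_mul, mul_assoc, mul_inv_cancel, mul_one]

theorem trace_el_of_fixed {g : SL(2, ℤ)} {x : Q p} (h : g • x = x) :
    (((el g x : Gamma0 p) : SL(2, ℤ)) : Matrix (Fin 2) (Fin 2) ℤ).trace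
      = (g : Matrix (Fin 2) (Fin 2) ℤ).trace := by
  rw [coe_el, h, trace_conj]

theorem T_smul_base : ModularGroup.T • base p = base p := by
  rw [base, smul_mk, mul_one]
  exact (mk_eq_base_iff _).mpr (by simp [ModularGroup.coe_T])

theorem trace_colMat_inv_mul (a b : ℤ) (g : SL(2, ℤ)) :
    (((colMat b)⁻¹ * (g * colMat a) : SL(2, ℤ)) : Matrix (Fin 2) (Fin 2) ℤ).trace
      = g 0 0 + g 1 1 + (a - b) * g 1 0 := by
  rw [Matrix.SpecialLinearGroup.coe_mul, Matrix.SpecialLinearGroup.coe_mul, SL2_inv_expl,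
    Matrix.trace_fin_two]
  rw [Matrix.mul_apply, Matrix.mul_apply]
  simp only [Matrix.mul_apply, Fin.sum_univ_two]
  simp [colMat]
  ring

theorem trace_el_T (x : Q p) :
    (((el ModularGroup.T x : Gamma0 p) : SL(2, ℤ)) : Matrix (Fin 2) (Fin 2) ℤ).trace = 2 := by
  by_cases hx : x = base p
  · rw [trace_el_of_fixed (by rw [hx, T_smul_base]), ModularGroup.coe_T]
    simp [Matrix.trace_fin_two]
  · have hx' : ModularGroup.T • x ≠ base p := by
      intro h
      apply hx
      have h2 : (ModularGroup.T)⁻¹ • (ModularGroup.T • x) = (ModularGroup.T)⁻¹ • base p := by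
        rw [h]
      rw [inv_smul_smul] at h2
      rw [h2, inv_smul_eq_iff, T_smul_base]
    obtain ⟨a, ha, -⟩ := sec_of_ne Fact.out hx
    obtain ⟨b, hb, -⟩ := sec_of_ne Fact.out hx'
    rw [coe_el, ha, hb, trace_colMat_inv_mul, ModularGroup.coe_T]
    simp

theorem trace_el_S_base :
    (((el ModularGroup.S (base p) : Gamma0 p) : SL(2, ℤ)) : Matrix (Fin 2) (Fin 2) ℤ).trace
      = 2 := by
  have hp : p.Prime := Fact.out
  have hx' : ModularGroup.S • base p ≠ base p := by
    rw [base, smul_mk, mul_one]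
    intro h
    have := (mk_eq_base_iff _).mp h
    rw [ModularGroup.coe_S] at this
    simp at this
    have h2 := Int.natAbs_dvd_natAbs.mpr this
    simp at h2
    exact hp.one_lt.ne' h2
  obtain ⟨b, hb, -⟩ := sec_of_ne hp hx'
  rw [coe_el, hb, sec_base, mul_one]
  rw [Matrix.SpecialLinearGroup.coe_mul, SL2_inv_expl, Matrix.trace_fin_two]
  rw [Matrix.mul_apply, Matrix.mul_apply]
  simp only [Fin.sum_univ_two]
  simp [colMat, ModularGroup.coe_S]

section Cocycle

variable {A : Type*} [AddCommGroup A]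

/-- The condition on a homomorphism: it kills parabolic and elliptic elements and `±1`. -/
def Kills (p : ℕ) (φ : Additive (Gamma0 p) →+ A) : Prop :=
  ∀ γ : Gamma0 p, ((γ : SL(2, ℤ)) : Matrix (Fin 2) (Fin 2) ℤ).trace ^ 2 ≤ 4 →
    φ (Additive.ofMul γ) = 0

/-- The Shapiro cocycle of a homomorphism, for the section `sec`. -/
noncomputable def coc (φ : Additive (Gamma0 p) →+ A) (g : SL(2, ℤ)) (x : Q p) : A :=
  φ (Additive.ofMul (el g x))

theorem coc_mul (φ : Additive (Gamma0 p) →+ A) (g h : SL(2, ℤ)) (x : Q p) :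
    coc φ (g * h) x = coc φ g (h • x) + coc φ h x := by
  simp only [coc, el_mul, ofMul_mul, map_add]

theorem coc_one (φ : Additive (Gamma0 p) →+ A) (x : Q p) : coc φ 1 x = 0 := by
  have := coc_mul φ 1 1 x
  rw [mul_one, one_smul] at this
  exact left_eq_add.mp this

theorem coc_inv (φ : Additive (Gamma0 p) →+ A) (g : SL(2, ℤ)) (x : Q p) :
    coc φ g⁻¹ x = - coc φ g (g⁻¹ • x) := by
  have := coc_mul φ g g⁻¹ x
  rw [mul_inv_cancel, coc_one] at this
  exact (neg_eq_of_add_eq_zero_right this.symm).symm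

theorem coc_sub (φ ψ : Additive (Gamma0 p) →+ A) (g : SL(2, ℤ)) (x : Q p) :
    coc (φ - ψ) g x = coc φ g x - coc ψ g x := rfl

theorem coc_base (φ : Additive (Gamma0 p) →+ A) (γ : Gamma0 p) :
    coc φ (γ : SL(2, ℤ)) (base p) = φ (Additive.ofMul γ) := by
  have h1 : (γ : SL(2, ℤ)) • base p = base p := by
    rw [base, smul_mk, mul_one]
    exact (mk_eq_base_iff _).mpr
      ((ZMod.intCast_zmod_eq_zero_iff_dvd _ p).mp (Gamma0_mem.mp γ.2))
  have h2 : el (γ : SL(2, ℤ)) (base p) = γ := by
    apply Subtype.ext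
    rw [coe_el, h1, sec_base, inv_one, one_mul, mul_one]
  rw [coc, h2]

theorem coc_eq_zero_of_S_T (φ : Additive (Gamma0 p) →+ A)
    (hS : ∀ x, coc φ ModularGroup.S x = 0) (hT : ∀ x, coc φ ModularGroup.T x = 0) :
    ∀ g x, coc φ g x = 0 := by
  intro g
  have hg : g ∈ Subgroup.closure ({ModularGroup.S, ModularGroup.T} : Set SL(2, ℤ)) := by
    rw [_root_.SpecialLinearGroup.SL2Z_generators]; trivial
  induction hg using Subgroup.closure_induction with
  | mem y hy =>
    rcases hy with rfl | rfl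
    · exact hS
    · exact hT
  | one => exact coc_one φ
  | mul y z _ _ hy hz =>
    intro x
    rw [coc_mul, hy, hz, add_zero]
  | inv y _ hy =>
    intro x
    rw [coc_inv, hy, neg_zero]

theorem eq_zero_of_coc_S (φ : Additive (Gamma0 p) →+ A)
    (hS : ∀ x, coc φ ModularGroup.S x = 0) (hT : ∀ x, coc φ ModularGroup.T x = 0) : φ = 0 := by
  refine AddMonoidHom.ext fun γ => ?_
  have := coc_eq_zero_of_S_T φ hS hT ((Additive.toMul γ : Gamma0 p) : SL(2, ℤ)) (base p)
  rw [coc_base] at this
  exact this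

variable {φ : Additive (Gamma0 p) →+ A}

theorem coc_T (hφ : Kills p φ) (x : Q p) : coc φ ModularGroup.T x = 0 := by
  refine hφ _ ?_
  rw [trace_el_T]; norm_num

theorem coc_S_base (hφ : Kills p φ) : coc φ ModularGroup.S (base p) = 0 := by
  refine hφ _ ?_
  rw [trace_el_S_base]; norm_num

theorem coc_neg_one (hφ : Kills p φ) (x : Q p) : coc φ (-1) x = 0 := by
  refine hφ _ ?_
  rw [trace_el_of_fixed (Cosets.neg_one_smul x)]
  simp

theorem coc_S_smul (hφ : Kills p φ) (x : Q p) :
    coc φ ModularGroup.S (ModularGroup.S • x) = - coc φ ModularGroup.S x := by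
  have := coc_mul φ ModularGroup.S ModularGroup.S x
  rw [S_mul_S, coc_neg_one hφ] at this
  exact (neg_eq_of_add_eq_zero_left this.symm).symm

theorem coc_S_fixed (hφ : Kills p φ) {x : Q p} (hx : ModularGroup.S • x = x) :
    coc φ ModularGroup.S x = 0 := by
  refine hφ _ ?_
  rw [trace_el_of_fixed hx, ModularGroup.coe_S]
  simp [Matrix.trace_fin_two]

theorem coc_TS (hφ : Kills p φ) (x : Q p) :
    coc φ (ModularGroup.T * ModularGroup.S) x = coc φ ModularGroup.S x := by
  rw [coc_mul, coc_T hφ, zero_add]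

theorem TS_pow_three :
    (ModularGroup.T * ModularGroup.S) * (ModularGroup.T * ModularGroup.S) *
      (ModularGroup.T * ModularGroup.S) = -1 := by decide

theorem coc_TS_fixed (hφ : Kills p φ) {x : Q p}
    (hx : (ModularGroup.T * ModularGroup.S) • x = x) : coc φ ModularGroup.S x = 0 := by
  rw [← coc_TS hφ]
  refine hφ _ ?_
  rw [trace_el_of_fixed hx, Matrix.SpecialLinearGroup.coe_mul, ModularGroup.coe_S,
    ModularGroup.coe_T]
  simp [Matrix.trace_fin_two]

theorem coc_TS_three (hφ : Kills p φ) (x : Q p) :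
    coc φ ModularGroup.S x + coc φ ModularGroup.S ((ModularGroup.T * ModularGroup.S) • x)
      + coc φ ModularGroup.S
          ((ModularGroup.T * ModularGroup.S) • (ModularGroup.T * ModularGroup.S) • x) = 0 := by
  have h1 := coc_mul φ ((ModularGroup.T * ModularGroup.S) * (ModularGroup.T * ModularGroup.S))
    (ModularGroup.T * ModularGroup.S) x
  have h2 := coc_mul φ (ModularGroup.T * ModularGroup.S) (ModularGroup.T * ModularGroup.S)
    ((ModularGroup.T * ModularGroup.S) • x)
  rw [TS_pow_three, coc_neg_one hφ, h2, coc_TS hφ, coc_TS hφ, coc_TS hφ] at h1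
  rw [h1]; abel

end Cocycle

section Assembly

omit [Fact p.Prime]

/-- The action of `S` on the coset space. -/
def sig (p : ℕ) : Q p → Q p := fun x => ModularGroup.S • x

/-- The action of `T S` on the coset space. -/
def tau (p : ℕ) : Q p → Q p := fun x => (ModularGroup.T * ModularGroup.S) • x

theorem sig_sig (x : Q p) : sig p (sig p x) = x := S_smul_S_smul x

theorem tau_tau_tau (x : Q p) : tau p (tau p (tau p x)) = x := by
  simp only [tau]
  rw [← mul_smul, ← mul_smul, TS_pow_three, Cosets.neg_one_smul]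

theorem sig_base_ne (hp : p.Prime) : sig p (base p) ≠ base p := by
  rw [sig, base, smul_mk, mul_one]
  intro h
  have := (mk_eq_base_iff _).mp h
  rw [ModularGroup.coe_S] at this
  simp at this
  have h2 := Int.natAbs_dvd_natAbs.mpr this
  simp at h2
  exact hp.one_lt.ne' h2

theorem tau_sig_base : tau p (sig p (base p)) = base p := by
  rw [tau, sig, ← mul_smul, mul_assoc, S_mul_S, base, smul_mk, mul_one]
  exact (mk_eq_base_iff _).mpr (by simp [ModularGroup.coe_T])

theorem inv_S_smul (x : Q p) : (ModularGroup.S)⁻¹ • x = ModularGroup.S • x := by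
  rw [inv_smul_eq_iff, S_smul_S_smul]

theorem T_smul_eq (x : Q p) : ModularGroup.T • x = tau p (sig p x) := by
  rw [tau, sig, ← mul_smul, mul_assoc, S_mul_S, mul_smul, Cosets.neg_one_smul]

theorem inv_T_smul (x : Q p) : (ModularGroup.T)⁻¹ • x = sig p (tau p (tau p x)) := by
  rw [inv_smul_eq_iff, T_smul_eq, sig_sig, tau_tau_tau]

theorem conn (P : Q p → Prop) (h0 : P (base p)) (hS : ∀ x, P x → P (sig p x))
    (hT : ∀ x, P x → P (tau p x)) : ∀ x, P x := by
  have key : ∀ g : SL(2, ℤ), (∀ x, P x → P (g • x)) ∧ (∀ x, P x → P (g⁻¹ • x)) := by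
    intro g
    have hg : g ∈ Subgroup.closure ({ModularGroup.S, ModularGroup.T} : Set SL(2, ℤ)) := by
      rw [_root_.SpecialLinearGroup.SL2Z_generators]; trivial
    induction hg using Subgroup.closure_induction with
    | mem y hy =>
      rcases hy with rfl | rfl
      · refine ⟨hS, fun x hx => ?_⟩
        rw [inv_S_smul]; exact hS x hx
      · refine ⟨fun x hx => ?_, fun x hx => ?_⟩
        · rw [T_smul_eq]; exact hT _ (hS _ hx)
        · rw [inv_T_smul]; exact hS _ (hT _ (hT _ hx))
    | one => exact ⟨fun x hx => by rwa [one_smul], fun x hx => by rwa [inv_one, one_smul]⟩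
    | mul y z _ _ hy hz =>
      refine ⟨fun x hx => ?_, fun x hx => ?_⟩
      · rw [mul_smul]; exact hy.1 _ (hz.1 _ hx)
      · rw [mul_inv_rev, mul_smul]; exact hz.2 _ (hy.2 _ hx)
    | inv y _ hy =>
      refine ⟨hy.2, fun x hx => ?_⟩
      rw [inv_inv]; exact hy.1 x hx
  intro x
  obtain ⟨g, rfl⟩ := QuotientGroup.mk_surjective x
  have := (key g).1 (base p) h0
  rwa [base, smul_mk, mul_one] at this

theorem TS_smul_mk_eq_iff (h : SL(2, ℤ)) :
    (ModularGroup.T * ModularGroup.S) • ((h : SL(2, ℤ)) : Q p) = (h : Q p) ↔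
      (p : ℤ) ∣ h 0 0 ^ 2 + (-1 : ℤ) * (h 0 0 * h 1 0) + h 1 0 ^ 2 := by
  rw [smul_mk, mk_eq_mk_iff, mul_assoc, T_mul_apply_zero_zero, T_mul_apply_one_zero,
    S_mul_apply_zero_zero, S_mul_apply_one_zero, ← dvd_neg]
  have : -((-h 1 0 + h 0 0) * h 1 0 - h 0 0 * h 0 0)
      = h 0 0 ^ 2 + (-1 : ℤ) * (h 0 0 * h 1 0) + h 1 0 ^ 2 := by ring
  rw [this]

theorem card_fixed_sig (p : ℕ) [NeZero p] :
    Nat.card {x : Q p // sig p x = x} = ModularCurve.nuTwo p := card_fixed_S p

theorem card_fixed_tau (p : ℕ) [NeZero p] :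
    Nat.card {x : Q p // tau p x = x} = ModularCurve.nuThree p := by
  have h1 := card_fixed_of_quadratic (N := p) (-1) (ModularGroup.T * ModularGroup.S)
    TS_smul_mk_eq_iff
  rw [ModularCurve.nuThree]
  refine h1.trans ?_
  refine Nat.card_congr (Equiv.subtypeEquiv (Equiv.neg (ZMod p)) fun x => ?_)
  simp only [Equiv.neg_apply, Int.cast_neg, Int.cast_one]
  constructor
  · intro h; linear_combination h
  · intro h; linear_combination h

theorem dedekindPsi_prime (hp : p.Prime) : ModularCurve.dedekindPsi p = p + 1 := by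
  rw [ModularCurve.dedekindPsi, Nat.Prime.divisors hp]
  have h1 : (1 : ℕ) ≠ p := hp.one_lt.ne
  rw [Finset.filter_true_of_mem, Finset.sum_pair h1]
  · rw [Nat.div_one, Nat.div_self hp.pos, add_comm]
  · intro d hd
    simp only [Finset.mem_insert, Finset.mem_singleton] at hd
    rcases hd with rfl | rfl
    · exact squarefree_one
    · exact hp.squarefree

theorem cuspCount_prime (hp : p.Prime) : ModularCurve.cuspCount p = 2 := by
  rw [ModularCurve.cuspCount, Nat.Prime.divisors hp]
  have h1 : (1 : ℕ) ≠ p := hp.one_lt.ne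
  rw [Finset.sum_pair h1]
  simp [Nat.div_self hp.pos]

/-- Twice the genus of `X₀(p)`. -/
noncomputable def twoGenus (p : ℕ) : ℕ :=
  (p + 1 - 3 * ModularCurve.nuTwo p - 4 * ModularCurve.nuThree p) / 6

theorem six_mul_twoGenus (p : ℕ) [Fact p.Prime] :
    6 * twoGenus p + 3 * ModularCurve.nuTwo p + 4 * ModularCurve.nuThree p = p + 1 := by
  have hp : p.Prime := Fact.out
  have : NeZero p := ⟨hp.ne_zero⟩
  obtain ⟨k, hk⟩ := HomCountGraph.exists_six (σ := sig p) (τ := tau p) (x₀ := base p)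
    sig_sig tau_tau_tau (sig_base_ne hp) tau_sig_base conn
  rw [card_fixed_sig, card_fixed_tau, card_Q, dedekindPsi_prime hp] at hk
  unfold twoGenus
  omega

theorem twoGenus_cast (p : ℕ) [Fact p.Prime] :
    (twoGenus p : ℚ) = 2 * ModularCurve.genusFormula p := by
  have hp : p.Prime := Fact.out
  have h := six_mul_twoGenus p
  have h' : (6 : ℚ) * twoGenus p + 3 * ModularCurve.nuTwo p + 4 * ModularCurve.nuThree p
      = p + 1 := by exact_mod_cast h
  rw [ModularCurve.genusFormula, dedekindPsi_prime hp, cuspCount_prime hp]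
  push_cast
  linarith

variable [Fact p.Prime] {A : Type*} [AddCommGroup A]

theorem isZ_coc {φ : Additive (Gamma0 p) →+ A} (hφ : Kills p φ) :
    HomCountGraph.IsZ (sig p) (tau p) (base p) (coc φ ModularGroup.S) :=
  ⟨fun x => coc_S_smul hφ x, fun x hx => coc_S_fixed hφ hx, coc_S_base hφ,
    fun x hx => coc_TS_fixed hφ hx, fun x => coc_TS_three hφ x⟩

theorem Kills.sub {φ ψ : Additive (Gamma0 p) →+ A} (hφ : Kills p φ) (hψ : Kills p ψ) :
    Kills p (φ - ψ) := by
  intro γ hγ
  rw [AddMonoidHom.sub_apply, hφ γ hγ, hψ γ hγ, sub_zero]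

theorem coc_S_injective {φ ψ : Additive (Gamma0 p) →+ A} (hφ : Kills p φ) (hψ : Kills p ψ)
    (h : coc φ ModularGroup.S = coc ψ ModularGroup.S) : φ = ψ := by
  have h1 : φ - ψ = 0 := by
    apply eq_zero_of_coc_S
    · intro x
      rw [coc_sub, h, sub_self]
    · intro x
      exact coc_T (hφ.sub hψ) x
  exact sub_eq_zero.mp h1

/-- The set of homomorphisms killing parabolic and elliptic elements is finite when `A` is. -/
theorem finite_kills (p : ℕ) [Fact p.Prime] (A : Type*) [AddCommGroup A] [Finite A] :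
    Finite {φ : Additive (Gamma0 p) →+ A // Kills p φ} := by
  have : NeZero p := ⟨(Fact.out : p.Prime).ne_zero⟩
  let f : {φ : Additive (Gamma0 p) →+ A // Kills p φ} → (Q p → A) :=
    fun φ => coc φ.1 ModularGroup.S
  have hf : Function.Injective f := fun φ ψ h => Subtype.ext (coc_S_injective φ.2 ψ.2 h)
  exact Finite.of_injective f hf

/-- **The counting lemma**: the number of homomorphisms `Γ₀(p) → A` killing all parabolic and
elliptic elements (and `±1`) is at most `|A| ^ (2 g)`. -/
theorem card_kills_le (p : ℕ) [Fact p.Prime] (A : Type*) [AddCommGroup A] [Finite A] :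
    Nat.card {φ : Additive (Gamma0 p) →+ A // Kills p φ} ≤ Nat.card A ^ twoGenus p := by
  have hp : p.Prime := Fact.out
  have : NeZero p := ⟨hp.ne_zero⟩
  let f : {φ : Additive (Gamma0 p) →+ A // Kills p φ} →
      {a : Q p → A // HomCountGraph.IsZ (sig p) (tau p) (base p) a} :=
    fun φ => ⟨coc φ.1 ModularGroup.S, isZ_coc φ.2⟩
  have hf : Function.Injective f := fun φ ψ h =>
    Subtype.ext (coc_S_injective φ.2 ψ.2 (congrArg Subtype.val h))
  refine (Nat.card_le_card_of_injective f hf).trans ?_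
  refine HomCountGraph.card_isZ_le sig_sig tau_tau_tau (sig_base_ne hp) tau_sig_base conn A
    (twoGenus p) ?_
  rw [card_fixed_sig, card_fixed_tau, card_Q, dedekindPsi_prime hp]
  exact six_mul_twoGenus p

/-- The counting lemma, with the condition spelled out. -/
theorem card_le (p : ℕ) [Fact p.Prime] (A : Type*) [AddCommGroup A] [Finite A] :
    Nat.card {φ : Additive (Gamma0 p) →+ A //
        ∀ γ : Gamma0 p, ((γ : SL(2, ℤ)) : Matrix (Fin 2) (Fin 2) ℤ).trace ^ 2 ≤ 4 →
          φ (Additive.ofMul γ) = 0}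
      ≤ Nat.card A ^ twoGenus p :=
  card_kills_le p A

end Assembly

end Fermat.Agent.S16.HomCount
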