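import Mathlib

/-!
# S16 (lower bound): homomorphisms `Γ₀(p) → A` attached to characters of `(ℤ/p)ˣ`

`dUnit p : Γ₀(p) →* (ZMod p)ˣ` is the lower right entry modulo `p`, and for a character
`χ : (ZMod p)ˣ →* Multiplicative A` the homomorphism `shOf χ : Additive (Gamma0 p) →+ A` is
`γ ↦ χ (dUnit p γ)`, written additively.  The Shimura class is of this form.
-/

set_option autoImplicit false

namespace Fermat.Agent.S16.CharHom

open CongruenceSubgroup
open scoped MatrixGroups

/-- The lower right entry modulo `p`, as a unit. -/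
noncomputable def dUnit (p : ℕ) : Gamma0 p →* (ZMod p)ˣ := (Gamma0Map p).toHomUnits

theorem coe_dUnit (p : ℕ) (γ : Gamma0 p) :
    ((dUnit p γ : (ZMod p)ˣ) : ZMod p) = (((γ : SL(2, ℤ)) 1 1 : ℤ) : ZMod p) := rfl

variable {p : ℕ} {A : Type*} [AddCommGroup A]

/-- The homomorphism `γ ↦ χ (d mod p)`, written additively. -/
noncomputable def shOf (χ : (ZMod p)ˣ →* Multiplicative A) : Additive (Gamma0 p) →+ A :=
  MonoidHom.toAdditiveLeft (χ.comp (dUnit p))

theorem shOf_apply (χ : (ZMod p)ˣ →* Multiplicative A) (γ : Gamma0 p) :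
    shOf χ (Additive.ofMul γ) = Multiplicative.toAdd (χ (dUnit p γ)) := rfl

/-- Naturality in the coefficient group. -/
theorem shOf_comp {A' : Type*} [AddCommGroup A'] (φ : A →+ A')
    (χ : (ZMod p)ˣ →* Multiplicative A) :
    shOf ((AddMonoidHom.toMultiplicative φ).comp χ) = φ.comp (shOf χ) := rfl

/-- `shOf χ` only depends on the lower right entry modulo `p`. -/
theorem shOf_eq_of_entry (χ : (ZMod p)ˣ →* Multiplicative A) {γ γ' : Gamma0 p}
    (h : (((γ : SL(2, ℤ)) 1 1 : ℤ) : ZMod p) = (((γ' : SL(2, ℤ)) 1 1 : ℤ) : ZMod p)) :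
    shOf χ (Additive.ofMul γ) = shOf χ (Additive.ofMul γ') := by
  have : dUnit p γ = dUnit p γ' := Units.ext h
  rw [shOf_apply, shOf_apply, this]

/-- If `χ` kills `u`, then `shOf χ` kills every `γ` with lower right entry `u`. -/
theorem shOf_eq_zero (χ : (ZMod p)ˣ →* Multiplicative A) {γ : Gamma0 p}
    (h : χ (dUnit p γ) = 1) : shOf χ (Additive.ofMul γ) = 0 := by
  rw [shOf_apply, h]; rfl

end Fermat.Agent.S16.CharHom
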