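import Mathlib
import Fermat.Agent.S23.HeckeLift
import Fermat.Agent.S16.CharHom

/-!
# S16 (lower bound): character homomorphisms are Hecke eigenvectors

For a character `χ` of `(ℤ/N)ˣ` the homomorphism `shOf χ : Γ₀(N) → A`, `γ ↦ χ(d)`, satisfies
`T_ℓ (shOf χ) = (ℓ + 1) • shOf χ` for `ℓ ∤ N` and `U_q (shOf χ) = q • shOf χ` for `q ∣ N`, where
`T_ℓ`, `U_q` are the coset transfer operators of `S23`.
-/

set_option autoImplicit false

namespace Fermat.Agent.S16.HeckeEigen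

open CongruenceSubgroup Matrix
open Fermat.Agent.S22 Fermat.Agent.S23.Transfer Fermat.Agent.S23.HeckeLift
open Fermat.Agent.S16.CharHom
open scoped MatrixGroups
open P2MW.S_ModularForm_heckeT_slash_eq_self_of_mem_Gamma0.ModularForm.HeckeSlashInvariance

variable {N : ℕ}

/-- From the coset relation in `GL(2, ℝ)` to an identity of integer matrices. -/
theorem intMat_mul_eq {ℓ : ℕ} (hℓ : ℓ ≠ 0) {x y : OnePoint (ZMod ℓ)} {g g' : SL(2, ℤ)}
    (h : heckeRep ℓ x * Matrix.SpecialLinearGroup.mapGL ℝ g =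
      Matrix.SpecialLinearGroup.mapGL ℝ g' * heckeRep ℓ y) :
    repMat ℓ x * (g : Matrix (Fin 2) (Fin 2) ℤ) = (g' : Matrix (Fin 2) (Fin 2) ℤ) * repMat ℓ y := by
  have h1 := congrArg (fun g : GL (Fin 2) ℝ => (g : Matrix (Fin 2) (Fin 2) ℝ)) h
  simp only [Matrix.GeneralLinearGroup.coe_mul, heckeRep_val hℓ,
    Matrix.SpecialLinearGroup.mapGL_coe_matrix] at h1
  have hinj : Function.Injective (fun M : Matrix (Fin 2) (Fin 2) ℤ => M.map (Int.cast : ℤ → ℝ)) :=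
    Matrix.map_injective Int.cast_injective
  apply hinj
  simp only
  have e1 : (repMat ℓ x * (g : Matrix (Fin 2) (Fin 2) ℤ)).map (Int.cast : ℤ → ℝ) =
      (repMat ℓ x).map (Int.cast : ℤ → ℝ) * (g : Matrix (Fin 2) (Fin 2) ℤ).map (Int.cast : ℤ → ℝ) :=
    Matrix.map_mul (f := Int.castRingHom ℝ)
  have e2 : ((g' : Matrix (Fin 2) (Fin 2) ℤ) * repMat ℓ y).map (Int.cast : ℤ → ℝ) =
      (g' : Matrix (Fin 2) (Fin 2) ℤ).map (Int.cast : ℤ → ℝ) * (repMat ℓ y).map (Int.cast : ℤ → ℝ) :=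
    Matrix.map_mul (f := Int.castRingHom ℝ)
  rw [e1, e2]
  exact h1

theorem repMat_one_zero (ℓ : ℕ) (x : OnePoint (ZMod ℓ)) : repMat ℓ x 1 0 = 0 := by
  induction x using OnePoint.rec with
  | infty => simp [repMat]
  | coe j => simp [repMat]

theorem repMat_coe_zero_zero (ℓ : ℕ) (j : ZMod ℓ) : repMat ℓ (j : OnePoint (ZMod ℓ)) 0 0 = 1 := by
  simp [repMat]

theorem repMat_one_one (ℓ : ℕ) (x : OnePoint (ZMod ℓ)) :
    repMat ℓ x 1 1 = 1 ∨ repMat ℓ x 1 1 = (ℓ : ℤ) := by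
  induction x using OnePoint.rec with
  | infty => left; simp [repMat]
  | coe j => right; simp [repMat]

/-- The relation between the lower right entries modulo `N`. -/
theorem entry_one_one {ℓ : ℕ} (hℓ : ℓ ≠ 0) {x y : OnePoint (ZMod ℓ)} {g g' : SL(2, ℤ)}
    (hg' : g' ∈ Gamma0 N)
    (h : heckeRep ℓ x * Matrix.SpecialLinearGroup.mapGL ℝ g =
      Matrix.SpecialLinearGroup.mapGL ℝ g' * heckeRep ℓ y) :
    ((repMat ℓ x 1 1 : ℤ) : ZMod N) * ((g 1 1 : ℤ) : ZMod N) =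
      ((g' 1 1 : ℤ) : ZMod N) * ((repMat ℓ y 1 1 : ℤ) : ZMod N) := by
  have hm := intMat_mul_eq hℓ h
  have h11 := congrFun (congrFun hm 1) 1
  simp only [Matrix.mul_apply, Fin.sum_univ_two, repMat_one_zero, zero_mul, zero_add] at h11
  have hc : ((g' 1 0 : ℤ) : ZMod N) = 0 := Gamma0_mem.mp hg'
  have := congrArg (Int.cast : ℤ → ZMod N) h11
  push_cast at this
  rw [hc, zero_mul, zero_add] at this
  exact this

/-- The relation between the upper left entries modulo `N`, for the representatives of `U`. -/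
theorem entry_zero_zero {ℓ : ℕ} (hℓ : ℓ ≠ 0) {i j : ZMod ℓ} {g g' : SL(2, ℤ)}
    (hg : g ∈ Gamma0 N)
    (h : heckeRep ℓ (i : OnePoint (ZMod ℓ)) * Matrix.SpecialLinearGroup.mapGL ℝ g =
      Matrix.SpecialLinearGroup.mapGL ℝ g' * heckeRep ℓ (j : OnePoint (ZMod ℓ))) :
    ((g 0 0 : ℤ) : ZMod N) = ((g' 0 0 : ℤ) : ZMod N) := by
  have hm := intMat_mul_eq hℓ h
  have h00 := congrFun (congrFun hm 0) 0
  simp only [Matrix.mul_apply, Fin.sum_univ_two, repMat_one_zero, repMat_coe_zero_zero, one_mul,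
    mul_one, mul_zero, add_zero] at h00
  have hc : ((g 1 0 : ℤ) : ZMod N) = 0 := Gamma0_mem.mp hg
  have := congrArg (Int.cast : ℤ → ZMod N) h00
  push_cast at this
  rw [hc, mul_zero, add_zero] at this
  exact this

/-- In `Γ₀(N)` the diagonal entries are inverse to each other modulo `N`. -/
theorem diag_mul_eq_one {g : SL(2, ℤ)} (hg : g ∈ Gamma0 N) :
    ((g 0 0 : ℤ) : ZMod N) * ((g 1 1 : ℤ) : ZMod N) = 1 := by
  have hdet := det_eq' g
  have hc : ((g 1 0 : ℤ) : ZMod N) = 0 := Gamma0_mem.mp hg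
  have := congrArg (Int.cast : ℤ → ZMod N) hdet
  push_cast at this
  rw [hc, mul_zero, sub_zero] at this
  exact this

variable {A : Type*} [AddCommGroup A]

/-- **`U_q` eigen-property.** -/
theorem transfer_U_shOf {q : ℕ} (hq : q.Prime) (hqN : q ∣ N)
    (χ : (ZMod N)ˣ →* Multiplicative A) :
    haveI : NeZero q := ⟨hq.ne_zero⟩
    (cosetData_U (N := N) hq hqN).transfer (shOf χ) = q • shOf χ := by
  have : NeZero q := ⟨hq.ne_zero⟩
  refine AddMonoidHom.ext fun γ => ?_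
  obtain ⟨γ, rfl⟩ : ∃ γ' : ↥(Gamma0 N), Additive.ofMul γ' = γ := ⟨Additive.toMul γ, rfl⟩
  rw [CosetData.transfer_apply]
  have key : ∀ x : ZMod q,
      shOf χ (Additive.ofMul ((cosetData_U (N := N) hq hqN).el γ x)) = shOf χ (Additive.ofMul γ) := by
    intro x
    refine shOf_eq_of_entry χ ?_
    have hs := (cosetData_U (N := N) hq hqN).spec γ x
    have h0 : (((γ : SL(2, ℤ)) 0 0 : ℤ) : ZMod N) =
        (((((cosetData_U (N := N) hq hqN).el γ x : ↥(Gamma0 N)) : SL(2, ℤ)) 0 0 : ℤ) : ZMod N) :=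
      entry_zero_zero (N := N) hq.ne_zero γ.2 hs
    have h1 := diag_mul_eq_one γ.2
    have h2 := diag_mul_eq_one ((cosetData_U (N := N) hq hqN).el γ x).2
    rw [← h0] at h2
    -- a * d = 1 = a * d'
    have ha : IsUnit (((γ : SL(2, ℤ)) 0 0 : ℤ) : ZMod N) :=
      IsUnit.of_mul_eq_one _ h1
    exact ha.mul_left_cancel (h2.trans h1.symm)
  simp only [key, Finset.sum_const, Finset.card_univ, ZMod.card, AddMonoidHom.smul_apply]

/-- The unit of `ZMod N` attached to a coset representative of `T_ℓ`, `ℓ ∤ N`. -/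
noncomputable def repUnit {ℓ : ℕ} (hℓ : ℓ.Prime) (hℓN : ¬ ℓ ∣ N) (x : OnePoint (ZMod ℓ)) :
    (ZMod N)ˣ :=
  (show IsUnit (((repMat ℓ x 1 1 : ℤ)) : ZMod N) by
    rcases repMat_one_one ℓ x with h | h
    · rw [h]; simp
    · rw [h, Int.cast_natCast]
      exact (ZMod.isUnit_iff_coprime ℓ N).mpr ((Nat.Prime.coprime_iff_not_dvd hℓ).mpr hℓN)).unit

theorem coe_repUnit {ℓ : ℕ} (hℓ : ℓ.Prime) (hℓN : ¬ ℓ ∣ N) (x : OnePoint (ZMod ℓ)) :
    ((repUnit (N := N) hℓ hℓN x : (ZMod N)ˣ) : ZMod N) = ((repMat ℓ x 1 1 : ℤ) : ZMod N) :=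
  IsUnit.unit_spec _

/-- **`T_ℓ` eigen-property.** -/
theorem transfer_T_shOf {ℓ : ℕ} (hℓ : ℓ.Prime) (hℓN : ¬ ℓ ∣ N)
    (χ : (ZMod N)ˣ →* Multiplicative A) :
    haveI : NeZero ℓ := ⟨hℓ.ne_zero⟩
    (cosetData_T (N := N) hℓ hℓN).transfer (shOf χ) = (ℓ + 1) • shOf χ := by
  have : NeZero ℓ := ⟨hℓ.ne_zero⟩
  set D := cosetData_T (N := N) hℓ hℓN with hD
  refine AddMonoidHom.ext fun γ => ?_
  obtain ⟨γ, rfl⟩ : ∃ γ' : ↥(Gamma0 N), Additive.ofMul γ' = γ := ⟨Additive.toMul γ, rfl⟩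
  rw [CosetData.transfer_apply]
  set c : OnePoint (ZMod ℓ) → A := fun x => Multiplicative.toAdd (χ (repUnit hℓ hℓN x)) with hc
  have key : ∀ x : OnePoint (ZMod ℓ),
      shOf χ (Additive.ofMul (D.el γ x)) = c x + shOf χ (Additive.ofMul γ) - c (D.nxt γ x) := by
    intro x
    have hs := D.spec γ x
    have h1 := entry_one_one (N := N) hℓ.ne_zero (D.el γ x).2 hs
    have hu : repUnit hℓ hℓN x * dUnit N γ = dUnit N (D.el γ x) * repUnit hℓ hℓN (D.nxt γ x) := by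
      apply Units.ext
      rw [Units.val_mul, Units.val_mul, coe_repUnit, coe_repUnit, coe_dUnit, coe_dUnit]
      exact h1
    have hχ := congrArg (fun u => Multiplicative.toAdd (χ u)) hu
    simp only [map_mul, toAdd_mul] at hχ
    rw [shOf_apply, shOf_apply]
    simp only [hc]
    rw [eq_sub_iff_add_eq]
    exact hχ.symm
  simp only [key, Finset.sum_sub_distrib, Finset.sum_add_distrib, Finset.sum_const,
    Finset.card_univ]
  have hperm : ∑ x, c (D.nxt γ x) = ∑ x, c x := Equiv.sum_comp (D.permOf γ) c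
  rw [hperm, add_sub_cancel_left]
  have hcard : Fintype.card (OnePoint (ZMod ℓ)) = ℓ + 1 := by
    rw [show Fintype.card (OnePoint (ZMod ℓ)) = Fintype.card (Option (ZMod ℓ)) from rfl,
      Fintype.card_option, ZMod.card]
  rw [hcard, AddMonoidHom.smul_apply]

end Fermat.Agent.S16.HeckeEigen
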