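import Mathlib
import Fermat.Prelude.Def_CuspForm_HeckeEvalForms
import Fermat.Agent.S23.HeckeLift
import Fermat.Agent.S16.HeckeEigen

/-!
# S16 (lower bound): the Hecke algebra acting on `Hom(Γ₀(p), A)`

For every `t : HeckeAlg` there is a family of additive operators `B A` on
`Additive (Gamma0 p) →+ A`, natural in the abelian group `A`, which on `A = ℂ` intertwines the
period map with the action of `t` on cusp forms, and for which every character homomorphism
`shOf χ` is an eigenvector with the Eisenstein eigenvalue of `t`.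
-/

set_option autoImplicit false
set_option linter.unusedSectionVars false
set_option linter.unusedVariables false

namespace Fermat.Agent.S16.HeckeHom

open CongruenceSubgroup Matrix ModularCurve ModularCurve.Period
open Fermat.Agent.S22 Fermat.Agent.S23.Transfer Fermat.Agent.S23.HeckeLift
open Fermat.Agent.S16.CharHom Fermat.Agent.S16.HeckeEigen
open scoped MatrixGroups
open P2MW.S_ModularForm_heckeT_slash_eq_self_of_mem_Gamma0.ModularForm.HeckeSlashInvariance

variable (p : ℕ) [NeZero p]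

/-- The operator on cusp forms of weight two and level `p` attached to `t`. -/
noncomputable def opForms (t : HeckeAlg) : Module.End ℂ (CuspForm (Gamma0 p) 2) :=
  ((CuspForm.heckeEvalForms p 2 t : CuspForm.heckeAlgebra p 2 ∅) :
    Module.End ℂ (CuspForm (Gamma0 p) 2))

theorem opForms_def (t : HeckeAlg) :
    opForms p t = ((CuspForm.heckeEvalForms p 2 t : CuspForm.heckeAlgebra p 2 ∅) :
      Module.End ℂ (CuspForm (Gamma0 p) 2)) := rfl

theorem opForms_add (s t : HeckeAlg) : opForms p (s + t) = opForms p s + opForms p t := by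
  rw [opForms_def, map_add]; rfl

theorem opForms_mul (s t : HeckeAlg) : opForms p (s * t) = opForms p s * opForms p t := by
  rw [opForms_def, map_mul]; rfl

theorem opForms_C (a : ℤ) (f : CuspForm (Gamma0 p) 2) : opForms p (MvPolynomial.C a) f = a • f := by
  rw [opForms_def, CuspForm.heckeEvalForms_C]
  have : ((algebraMap ℤ (CuspForm.heckeAlgebra p 2 ∅) a : CuspForm.heckeAlgebra p 2 ∅) :
      Module.End ℂ (CuspForm (Gamma0 p) 2)) = algebraMap ℤ (Module.End ℂ (CuspForm (Gamma0 p) 2)) a :=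
    rfl
  rw [this, Algebra.algebraMap_eq_smul_one, LinearMap.smul_apply, Module.End.one_apply]

/-- The type of natural families of operators. -/
abbrev Fam : Type 1 :=
  ∀ (A : Type) [AddCommGroup A], (Additive ↥(Gamma0 p) →+ A) →+ (Additive ↥(Gamma0 p) →+ A)

/-- The three properties of the family of operators attached to `t`. -/
def IsHeckeFamily (t : HeckeAlg) (B : Fam p) : Prop :=
  (∀ (A A' : Type) [AddCommGroup A] [AddCommGroup A'] (φ : A →+ A')
      (ψ : Additive ↥(Gamma0 p) →+ A), B A' (φ.comp ψ) = φ.comp (B A ψ)) ∧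
    (∀ f g : CuspForm (Gamma0 p) 2,
      B ℂ (periodHomPair p (f, g)) = periodHomPair p (opForms p t f, opForms p t g)) ∧
    ∀ (A : Type) [AddCommGroup A] (χ : (ZMod p)ˣ →* Multiplicative A),
      B A (shOf χ) = (MvPolynomial.aeval (eisensteinSystem p) t : ℤ) • shOf χ

variable {p}

theorem isHeckeFamily_C (a : ℤ) :
    IsHeckeFamily p (MvPolynomial.C a) (fun A _ => a • AddMonoidHom.id _) := by
  refine ⟨fun A A' _ _ φ ψ => ?_, fun f g => ?_, fun A _ χ => ?_⟩
  · refine AddMonoidHom.ext fun γ => ?_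
    simp only [AddMonoidHom.smul_apply, AddMonoidHom.id_apply, AddMonoidHom.comp_apply,
      map_zsmul]
  · rw [opForms_C, opForms_C]
    simp only [AddMonoidHom.smul_apply, AddMonoidHom.id_apply]
    rw [show ((a • f, a • g) : CuspForm (Gamma0 p) 2 × CuspForm (Gamma0 p) 2) = a • (f, g) from rfl,
      map_zsmul]
  · simp only [AddMonoidHom.smul_apply, AddMonoidHom.id_apply, MvPolynomial.aeval_C]
    rfl

theorem IsHeckeFamily.add {s t : HeckeAlg} {B B' : Fam p} (h : IsHeckeFamily p s B)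
    (h' : IsHeckeFamily p t B') : IsHeckeFamily p (s + t) (fun A _ => B A + B' A) := by
  refine ⟨fun A A' _ _ φ ψ => ?_, fun f g => ?_, fun A _ χ => ?_⟩
  · simp only [AddMonoidHom.add_apply, h.1, h'.1]
    refine AddMonoidHom.ext fun γ => ?_
    simp only [AddMonoidHom.comp_apply, AddMonoidHom.add_apply, map_add]
  · simp only [AddMonoidHom.add_apply, h.2.1, h'.2.1, opForms_add, LinearMap.add_apply]
    rw [← map_add]
    rfl
  · simp only [AddMonoidHom.add_apply, h.2.2, h'.2.2, map_add, add_smul]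

theorem IsHeckeFamily.mul {s t : HeckeAlg} {B B' : Fam p} (h : IsHeckeFamily p s B)
    (h' : IsHeckeFamily p t B') : IsHeckeFamily p (s * t) (fun A _ => (B A).comp (B' A)) := by
  refine ⟨fun A A' _ _ φ ψ => ?_, fun f g => ?_, fun A _ χ => ?_⟩
  · simp only [AddMonoidHom.comp_apply, h.1, h'.1]
  · simp only [AddMonoidHom.comp_apply, h.2.1, h'.2.1, opForms_mul, Module.End.mul_apply]
  · simp only [AddMonoidHom.comp_apply, h.2.2, h'.2.2, map_mul, map_zsmul, smul_smul]
    rw [mul_comm]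

/-- The family of a coset datum. -/
noncomputable def famOf {G : Type*} [Group G] {e : ↥(Gamma0 p) →* G} {X : Type} [Fintype X]
    {α : X → G} (D : CosetData e α) : Fam p :=
  fun _ _ => AddMonoidHom.mk' D.transfer D.transfer_add

theorem famOf_apply {G : Type*} [Group G] {e : ↥(Gamma0 p) →* G} {X : Type} [Fintype X]
    {α : X → G} (D : CosetData e α) (A : Type) [AddCommGroup A] (ψ : Additive ↥(Gamma0 p) →+ A) :
    famOf D A ψ = D.transfer ψ := rfl

theorem famOf_nat {G : Type*} [Group G] {e : ↥(Gamma0 p) →* G} {X : Type} [Fintype X]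
    {α : X → G} (D : CosetData e α) (A A' : Type) [AddCommGroup A] [AddCommGroup A']
    (φ : A →+ A') (ψ : Additive ↥(Gamma0 p) →+ A) :
    famOf D A' (φ.comp ψ) = φ.comp (famOf D A ψ) := by
  refine AddMonoidHom.ext fun γ => ?_
  obtain ⟨γ, rfl⟩ : ∃ γ' : ↥(Gamma0 p), Additive.ofMul γ' = γ := ⟨Additive.toMul γ, rfl⟩
  rw [famOf_apply, AddMonoidHom.comp_apply, famOf_apply, CosetData.transfer_apply,
    CosetData.transfer_apply, map_sum]
  rfl


section Generators

variable [Fact p.Prime]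

/-- `p • shOf χ = shOf χ` at prime level `p`. -/
theorem prime_smul_shOf {A : Type*} [AddCommGroup A] (χ : (ZMod p)ˣ →* Multiplicative A) :
    p • shOf χ = shOf χ := by
  refine AddMonoidHom.ext fun γ => ?_
  obtain ⟨γ, rfl⟩ : ∃ γ' : ↥(Gamma0 p), Additive.ofMul γ' = γ := ⟨Additive.toMul γ, rfl⟩
  rw [AddMonoidHom.smul_apply, shOf_apply, ← toAdd_pow, ← map_pow]
  congr 2
  have h1 : (dUnit p γ) ^ (p - 1) = 1 := ZMod.units_pow_card_sub_one_eq_one p _
  have hp : 1 ≤ p := (Fact.out : p.Prime).one_le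
  calc (dUnit p γ) ^ p = (dUnit p γ) ^ (p - 1 + 1) := by rw [Nat.sub_add_cancel hp]
    _ = dUnit p γ := by rw [pow_succ, h1, one_mul]

/-- The family attached to a generator `X ℓ` with `ℓ ∣ p`. -/
theorem exists_family_U (ℓ : Nat.Primes) (h : (ℓ : ℕ) ∣ p) :
    ∃ B : Fam p, IsHeckeFamily p (MvPolynomial.X ℓ) B := by
  have : NeZero (ℓ : ℕ) := ⟨ℓ.2.ne_zero⟩
  refine ⟨famOf (cosetData_U (N := p) ℓ.2 h), famOf_nat _, fun f g => ?_, fun A _ χ => ?_⟩
  · have hL : Lifts (CuspForm.heckeULin 2 h : Module.End ℂ (CuspForm (Gamma0 p) 2))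
        ((cosetData_U (N := p) ℓ.2 h).transferL ℂ) := by
      refine lifts_transfer ℓ.2.ne_zero (fun x : ZMod (ℓ : ℕ) => (x : OnePoint (ZMod (ℓ : ℕ))))
        (cosetData_U ℓ.2 h) _ (fun f => ?_) (fun x => conjJ_heckeRep_coe ℓ.2.ne_zero x)
      rw [CuspForm.coe_heckeULin_apply]
      exact heckeU_eq_sum_zmod 2 ⇑f
    have hop : opForms p (MvPolynomial.X ℓ) = CuspForm.heckeULin 2 h := by
      rw [opForms_def, show (MvPolynomial.X ℓ : HeckeAlg) = heckeGen ℓ from rfl,
        CuspForm.heckeEvalForms_heckeGen_of_dvd h, CuspForm.heckeAlgebra.coe_U]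
    rw [hop]
    exact hL.periodHomPair f g
  · rw [famOf_apply, transfer_U_shOf ℓ.2 h χ, MvPolynomial.aeval_X,
      eisensteinSystem_of_dvd h, one_smul]
    have hℓp : (ℓ : ℕ) = p :=
      (Nat.prime_dvd_prime_iff_eq ℓ.2 (Fact.out : p.Prime)).mp h
    rw [hℓp]
    exact prime_smul_shOf χ

/-- The family attached to a generator `X ℓ` with `ℓ ∤ p`. -/
theorem exists_family_T (ℓ : Nat.Primes) (h : ¬ (ℓ : ℕ) ∣ p) :
    ∃ B : Fam p, IsHeckeFamily p (MvPolynomial.X ℓ) B := by
  have : NeZero (ℓ : ℕ) := ⟨ℓ.2.ne_zero⟩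
  refine ⟨famOf (cosetData_T (N := p) ℓ.2 h), famOf_nat _, fun f g => ?_, fun A _ χ => ?_⟩
  · have hL : Lifts (CuspForm.heckeTLin 2 ℓ.2 h : Module.End ℂ (CuspForm (Gamma0 p) 2))
        ((cosetData_T (N := p) ℓ.2 h).transferL ℂ) := by
      refine lifts_transfer ℓ.2.ne_zero (fun x : OnePoint (ZMod (ℓ : ℕ)) => x)
        (cosetData_T ℓ.2 h) _ (fun f => ?_) (fun x => conjJ_heckeRep ℓ.2.ne_zero x)
      rw [CuspForm.coe_heckeTLin_apply]
      exact heckeT_eq_sum_onePoint 2 ⇑f
    have hop : opForms p (MvPolynomial.X ℓ) = CuspForm.heckeTLin 2 ℓ.2 h := by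
      rw [opForms_def, show (MvPolynomial.X ℓ : HeckeAlg) = heckeGen ℓ from rfl,
        CuspForm.heckeEvalForms_heckeGen_of_not_dvd h, CuspForm.heckeAlgebra.coe_T]
    rw [hop]
    exact hL.periodHomPair f g
  · rw [famOf_apply, transfer_T_shOf ℓ.2 h χ, MvPolynomial.aeval_X,
      eisensteinSystem_of_not_dvd h]
    rw [add_comm (1 : ℤ), ← Nat.cast_one (R := ℤ), ← Nat.cast_add, natCast_zsmul]

/-- **The Hecke algebra acts naturally on `Hom(Γ₀(p), A)`.** -/
theorem exists_family (t : HeckeAlg) : ∃ B : Fam p, IsHeckeFamily p t B := by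
  induction t using MvPolynomial.induction_on with
  | C a => exact ⟨_, isHeckeFamily_C a⟩
  | add s t hs ht =>
    obtain ⟨B, hB⟩ := hs
    obtain ⟨B', hB'⟩ := ht
    exact ⟨_, hB.add hB'⟩
  | mul_X t ℓ ht =>
    obtain ⟨B, hB⟩ := ht
    by_cases h : (ℓ : ℕ) ∣ p
    · obtain ⟨B', hB'⟩ := exists_family_U ℓ h
      exact ⟨_, hB.mul hB'⟩
    · obtain ⟨B', hB'⟩ := exists_family_T ℓ h
      exact ⟨_, hB.mul hB'⟩

end Generators

end Fermat.Agent.S16.HeckeHom
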