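import Mathlib
import Fermat.Agent.S20
import Fermat.Agent.S21.Assembly
import Fermat.Agent.S21.Injective
import Fermat.Agent.S22.GroupFG
import Fermat.Agent.S23.HomLattice
import Fermat.Agent.S23.HomSpan
import Fermat.Agent.S16.HeckeHom

/-!
# S16 (lower bound): lifting by counting, and the divisibility `n ∣ ev t`

* `exists_lift`: if there are at most `n ^ (2 g)` homomorphisms `Γ₀(p) → ℤ/n` killing the
  elements with `trace² ≤ 4`, then each of them is the reduction of a parabolic homomorphism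
  `Γ₀(p) → ℤ` (`g = dim S₂(Γ₀(p))`).
* `dvd_ev_of`: if a character homomorphism `shOf χ : Γ₀(p) → ℤ/n` kills the elements with
  `trace² ≤ 4` and takes the value `1`, then `n` divides the Eisenstein evaluation of every
  `t : HeckeAlg` which kills the cusp forms of weight two and level `p`.
-/

set_option autoImplicit false
set_option linter.unusedSectionVars false
set_option linter.unusedVariables false

namespace Fermat.Agent.S16.Lower

open CongruenceSubgroup Matrix ModularCurve ModularCurve.Period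
open Fermat.Agent.S16.CharHom Fermat.Agent.S16.HeckeHom
open scoped MatrixGroups

/-! ### Homomorphisms from finitely generated groups -/

section Generic

variable {Γ : Type*} [Group Γ]

theorem hom_ext_of_closure {A : Type*} [AddCommGroup A] (S : Set Γ)
    (hS : Subgroup.closure S = ⊤) {φ ψ : Additive Γ →+ A}
    (h : ∀ s ∈ S, φ (Additive.ofMul s) = ψ (Additive.ofMul s)) : φ = ψ := by
  refine AddMonoidHom.ext fun γ => ?_
  obtain ⟨γ, rfl⟩ : ∃ γ' : Γ, Additive.ofMul γ' = γ := ⟨Additive.toMul γ, rfl⟩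
  have := Fermat.Agent.S23.hom_mem_closure (φ - ψ) S hS ⊥
    (fun s hs => by
      rw [AddSubgroup.mem_bot, AddMonoidHom.sub_apply, sub_eq_zero]
      exact h s hs) γ
  rw [AddSubgroup.mem_bot, AddMonoidHom.sub_apply, sub_eq_zero] at this
  exact this

theorem finite_hom [Group.FG Γ] (A : Type*) [AddCommGroup A] [Finite A] :
    Finite (Additive Γ →+ A) := by
  obtain ⟨S, hS⟩ := Group.fg_def.mp (inferInstance : Group.FG Γ)
  let ev : (Additive Γ →+ A) → (↥S → A) := fun φ s => φ (Additive.ofMul s.1)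
  refine Finite.of_injective ev fun φ ψ h => ?_
  refine hom_ext_of_closure (S : Set Γ) hS fun s hs => ?_
  exact congrFun h ⟨s, hs⟩

theorem moduleFinite_hom_int [Group.FG Γ] : Module.Finite ℤ (Additive Γ →+ ℤ) := by
  obtain ⟨S, hS⟩ := Group.fg_def.mp (inferInstance : Group.FG Γ)
  let ev : (Additive Γ →+ ℤ) →ₗ[ℤ] (↥S → ℤ) :=
    { toFun := fun φ s => φ (Additive.ofMul s.1)
      map_add' := fun _ _ => rfl
      map_smul' := fun _ _ => rfl }
  refine Module.Finite.of_injective ev fun φ ψ h => ?_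
  refine hom_ext_of_closure (S : Set Γ) hS fun s hs => ?_
  exact congrFun h ⟨s, hs⟩

theorem isTorsionFree_hom_int : Module.IsTorsionFree ℤ (Additive Γ →+ ℤ) := by
  let ev : (Additive Γ →+ ℤ) → (Additive Γ → ℤ) := fun φ γ => φ γ
  exact Function.Injective.moduleIsTorsionFree ev
    (fun φ ψ h => AddMonoidHom.ext fun γ => congrFun h γ) (fun _ _ => rfl)

end Generic

/-! ### Elements of finite order -/

theorem mat_mul_self (M : Matrix (Fin 2) (Fin 2) ℤ)
    (hdet : M 0 0 * M 1 1 - M 0 1 * M 1 0 = 1) : M * M = M.trace • M - 1 := by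
  obtain ⟨a, b, c, d, rfl⟩ : ∃ a b c d, M = !![a, b; c, d] := ⟨_, _, _, _, Matrix.eta_fin_two M⟩
  simp only [Matrix.of_apply, Matrix.cons_val', Matrix.cons_val_zero, Matrix.cons_val_one,
    Matrix.cons_val_fin_one] at hdet
  rw [Matrix.mul_fin_two, Matrix.trace_fin_two_of, Matrix.smul_of, Matrix.one_fin_two]
  ext i j
  fin_cases i <;> fin_cases j <;> simp <;>
    first
    | linear_combination (-1 : ℤ) * hdet
    | linear_combination (1 : ℤ) * hdet
    | linear_combination (0 : ℤ) * hdet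

theorem sl2_mul_self (g : SL(2, ℤ)) :
    (g : Matrix (Fin 2) (Fin 2) ℤ) * (g : Matrix (Fin 2) (Fin 2) ℤ) =
      (g : Matrix (Fin 2) (Fin 2) ℤ).trace • (g : Matrix (Fin 2) (Fin 2) ℤ) - 1 := by
  refine mat_mul_self _ ?_
  have := g.det_coe
  rw [Matrix.det_fin_two] at this
  exact this

theorem sl2_pow_twelve (g : SL(2, ℤ))
    (h : (g : Matrix (Fin 2) (Fin 2) ℤ).trace ^ 2 < 4) : g ^ 12 = 1 := by
  apply Subtype.ext
  rw [Matrix.SpecialLinearGroup.coe_pow, Matrix.SpecialLinearGroup.coe_one]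
  set M := (g : Matrix (Fin 2) (Fin 2) ℤ) with hM
  have hCH := sl2_mul_self g
  rw [← hM] at hCH
  have ht : M.trace = 0 ∨ M.trace = 1 ∨ M.trace = -1 := by
    have h1 : -2 < M.trace := by nlinarith
    have h2 : M.trace < 2 := by nlinarith
    omega
  rcases ht with ht | ht | ht
  · rw [ht, zero_smul, zero_sub] at hCH
    have h4 : M ^ 4 = 1 := by
      rw [show (4 : ℕ) = 2 * 2 from rfl, pow_mul, pow_two M, hCH]; simp
    rw [show (12 : ℕ) = 4 * 3 from rfl, pow_mul, h4, one_pow]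
  · rw [ht, one_smul] at hCH
    have h3 : M ^ 3 = -1 := by
      rw [pow_succ, pow_two, hCH, sub_mul, hCH, one_mul]; abel
    rw [show (12 : ℕ) = 3 * 4 from rfl, pow_mul, h3]
    rw [show (4 : ℕ) = 2 * 2 from rfl, pow_mul, neg_one_sq, one_pow]
  · rw [ht, neg_one_smul] at hCH
    have h3 : M ^ 3 = 1 := by
      rw [pow_succ, pow_two, hCH, sub_mul, neg_mul, hCH, one_mul]; abel
    rw [show (12 : ℕ) = 3 * 4 from rfl, pow_mul, h3, one_pow]

variable {p : ℕ} [NeZero p]

/-- An integer valued parabolic homomorphism kills all elements with `trace² ≤ 4`. -/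
theorem parabolic_int_kills {Λ : Additive ↥(Gamma0 p) →+ ℤ}
    (hΛ : Λ ∈ parabolicHoms ℤ (Gamma0 p) ℤ) (g : ↥(Gamma0 p))
    (hg : ((g : SL(2, ℤ)) : Matrix (Fin 2) (Fin 2) ℤ).trace ^ 2 ≤ 4) :
    Λ (Additive.ofMul g) = 0 := by
  rcases hg.lt_or_eq with h | h
  · have h12 : g ^ 12 = 1 := Subtype.ext (by
      rw [Subgroup.coe_pow, Subgroup.coe_one]; exact sl2_pow_twelve _ h)
    have := congrArg (fun x => Λ (Additive.ofMul x)) h12
    simp only [ofMul_pow, map_nsmul, ofMul_one, map_zero] at this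
    have h2 : (12 : ℤ) * Λ (Additive.ofMul g) = 0 := by
      rw [← this]; simp
    exact (mul_eq_zero.mp h2).resolve_left (by norm_num)
  · exact hΛ g h


/-! ### The rank of the lattice of integer valued parabolic homomorphisms -/

variable (p)

/-- The complex parabolic homomorphisms are spanned by (the images of) any `ℤ`-basis of the
integer valued ones; hence `2 g ≤ rank`. -/
theorem two_mul_finrank_le {ι : Type*} [Fintype ι]
    (b : Module.Basis ι ℤ (parabolicHoms ℤ (Gamma0 p) ℤ)) :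
    2 * Module.finrank ℂ (CuspForm (Gamma0 p) 2) ≤ Fintype.card ι := by
  classical
  obtain ⟨hinj, hrange⟩ := Fermat.Agent.S21.Assembly.of_injective p
    (Fermat.Agent.S21.periodHomPair_injective p) (Fermat.Agent.S20.result p)
  have : FiniteDimensional ℂ (CuspForm (Gamma0 p : Subgroup (GL (Fin 2) ℝ)) 2) :=
    LinearEquiv.finiteDimensional (Fermat.Agent.S20.cuspFormEquiv p 2).symm
  have h1 : Module.finrank ℂ (parabolicHoms ℂ (Gamma0 p) ℂ)
      = 2 * Module.finrank ℂ (CuspForm (Gamma0 p) 2) := by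
    rw [← hrange, LinearMap.finrank_range_of_inj hinj, Module.finrank_prod]; ring
  let v : ι → (Additive ↥(Gamma0 p) →+ ℂ) :=
    fun i => (Int.castAddHom ℂ).comp ((b i : parabolicHoms ℤ (Gamma0 p) ℤ) : Additive ↥(Gamma0 p) →+ ℤ)
  have h2 : parabolicHoms ℂ (Gamma0 p) ℂ ≤ Submodule.span ℂ (Set.range v) := by
    refine (Fermat.Agent.S23.HomLattice.parabolicHoms_le_span p).trans (Submodule.span_le.mpr ?_)
    rintro ψ ⟨hint, hpar⟩
    choose m hm using hint
    let Λ : Additive ↥(Gamma0 p) →+ ℤ :=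
      { toFun := m
        map_zero' := by
          have := hm 0
          rw [map_zero] at this
          exact_mod_cast this.symm
        map_add' := fun x y => by
          have := hm (x + y)
          rw [map_add, hm x, hm y] at this
          exact_mod_cast this.symm }
    have hΛ : Λ ∈ parabolicHoms ℤ (Gamma0 p) ℤ := by
      intro γ hγ
      have h0 : ψ (Additive.ofMul γ) = 0 := hpar γ hγ
      have := hm (Additive.ofMul γ)
      rw [h0] at this
      show m (Additive.ofMul γ) = 0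
      exact_mod_cast this.symm
    have hψ : ψ = (Int.castAddHom ℂ).comp Λ := AddMonoidHom.ext fun γ => hm γ
    have hsum := b.sum_repr ⟨Λ, hΛ⟩
    have hsum' : Λ = ∑ i, (b.repr ⟨Λ, hΛ⟩ i) •
        ((b i : parabolicHoms ℤ (Gamma0 p) ℤ) : Additive ↥(Gamma0 p) →+ ℤ) := by
      have := congrArg (fun x : parabolicHoms ℤ (Gamma0 p) ℤ => (x : Additive ↥(Gamma0 p) →+ ℤ)) hsum
      simp only [Submodule.coe_sum, Submodule.coe_smul] at this
      exact this.symm
    have hψ2 : ψ = ∑ i, ((b.repr ⟨Λ, hΛ⟩ i : ℤ) : ℂ) • v i := by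
      rw [hψ]
      refine AddMonoidHom.ext fun γ => ?_
      conv_lhs => rw [hsum']
      simp only [AddMonoidHom.comp_apply, AddMonoidHom.finsetSum_apply, AddMonoidHom.smul_apply,
        map_sum, Int.coe_castAddHom, v, smul_eq_mul, Int.cast_mul]
    show ψ ∈ Submodule.span ℂ (Set.range v)
    rw [hψ2]
    exact Submodule.sum_mem _ fun i _ =>
      Submodule.smul_mem _ _ (Submodule.subset_span ⟨i, rfl⟩)
  have : Module.Finite ℂ (Submodule.span ℂ (Set.range v)) :=
    FiniteDimensional.span_of_finite ℂ (Set.finite_range v)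
  have h3 : Module.finrank ℂ (parabolicHoms ℂ (Gamma0 p) ℂ)
      ≤ Module.finrank ℂ (Submodule.span ℂ (Set.range v)) := Submodule.finrank_mono h2
  have h4 : Module.finrank ℂ (Submodule.span ℂ (Set.range v)) ≤ Fintype.card ι :=
    finrank_range_le_card v
  omega

/-! ### Lifting -/

/-- **Lifting by counting.** -/
theorem exists_lift (n : ℕ) [NeZero n]
    (hcard : Nat.card {φ : Additive ↥(Gamma0 p) →+ ZMod n //
        ∀ g : ↥(Gamma0 p), ((g : SL(2, ℤ)) : Matrix (Fin 2) (Fin 2) ℤ).trace ^ 2 ≤ 4 →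
          φ (Additive.ofMul g) = 0} ≤ n ^ (2 * Module.finrank ℂ (CuspForm (Gamma0 p) 2)))
    (φ : Additive ↥(Gamma0 p) →+ ZMod n)
    (hφ : ∀ g : ↥(Gamma0 p), ((g : SL(2, ℤ)) : Matrix (Fin 2) (Fin 2) ℤ).trace ^ 2 ≤ 4 →
      φ (Additive.ofMul g) = 0) :
    ∃ Λ : Additive ↥(Gamma0 p) →+ ℤ, Λ ∈ parabolicHoms ℤ (Gamma0 p) ℤ ∧
      (Int.castAddHom (ZMod n)).comp Λ = φ := by
  classical
  have hfg : Group.FG ↥(Gamma0 p) := Fermat.Agent.S22.gamma0_fg p
  have : Module.Finite ℤ (Additive ↥(Gamma0 p) →+ ℤ) := moduleFinite_hom_int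
  have : Module.IsTorsionFree ℤ (Additive ↥(Gamma0 p) →+ ℤ) := isTorsionFree_hom_int
  have : Module.IsTorsionFree ℤ (parabolicHoms ℤ (Gamma0 p) ℤ) :=
    Function.Injective.moduleIsTorsionFree (parabolicHoms ℤ (Gamma0 p) ℤ).subtype
      Subtype.val_injective (fun _ _ => rfl)
  have : Module.Finite ℤ (parabolicHoms ℤ (Gamma0 p) ℤ) := inferInstance
  have : Module.Free ℤ (parabolicHoms ℤ (Gamma0 p) ℤ) := Module.free_of_finite_type_torsion_free'
  let b := Module.Free.chooseBasis ℤ (parabolicHoms ℤ (Gamma0 p) ℤ)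
  have hr := two_mul_finrank_le p b
  have hfin : Finite (Additive ↥(Gamma0 p) →+ ZMod n) := finite_hom (ZMod n)
  have hn : 0 < n := Nat.pos_of_ne_zero (NeZero.ne n)
  let lam : (Module.Free.ChooseBasisIndex ℤ (parabolicHoms ℤ (Gamma0 p) ℤ) → Fin n) →
      parabolicHoms ℤ (Gamma0 p) ℤ := fun c => b.equivFun.symm (fun i => ((c i : ℕ) : ℤ))
  let j : (Module.Free.ChooseBasisIndex ℤ (parabolicHoms ℤ (Gamma0 p) ℤ) → Fin n) →
      {φ : Additive ↥(Gamma0 p) →+ ZMod n //
        ∀ g : ↥(Gamma0 p), ((g : SL(2, ℤ)) : Matrix (Fin 2) (Fin 2) ℤ).trace ^ 2 ≤ 4 →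
          φ (Additive.ofMul g) = 0} :=
    fun c => ⟨(Int.castAddHom (ZMod n)).comp (lam c : Additive ↥(Gamma0 p) →+ ℤ), fun g hg => by
      rw [AddMonoidHom.comp_apply, parabolic_int_kills (lam c).2 g hg, map_zero]⟩
  have hj : Function.Injective j := by
    intro c c' hcc
    have hval : ∀ γ : Additive ↥(Gamma0 p),
        (((lam c : Additive ↥(Gamma0 p) →+ ℤ) γ : ℤ) : ZMod n)
          = (((lam c' : Additive ↥(Gamma0 p) →+ ℤ) γ : ℤ) : ZMod n) := by
      intro γ
      have := congrArg (fun w => (w.1 : Additive ↥(Gamma0 p) →+ ZMod n) γ) hcc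
      exact this
    have hdvd : ∀ γ : Additive ↥(Gamma0 p), (n : ℤ) ∣
        (lam c : Additive ↥(Gamma0 p) →+ ℤ) γ - (lam c' : Additive ↥(Gamma0 p) →+ ℤ) γ := by
      intro γ
      rw [← ZMod.intCast_zmod_eq_zero_iff_dvd, Int.cast_sub, hval γ, sub_self]
    have hn0 : (n : ℤ) ≠ 0 := Int.natCast_ne_zero.mpr (NeZero.ne n)
    let Λ' : Additive ↥(Gamma0 p) →+ ℤ :=
      { toFun := fun γ => ((lam c : Additive ↥(Gamma0 p) →+ ℤ) γ
          - (lam c' : Additive ↥(Gamma0 p) →+ ℤ) γ) / n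
        map_zero' := by simp
        map_add' := fun x y => by
          simp only [map_add]
          rw [← Int.add_ediv_of_dvd_left (hdvd x)]
          congr 1
          ring }
    have hΛ'n : ∀ γ, (n : ℤ) * Λ' γ = (lam c : Additive ↥(Gamma0 p) →+ ℤ) γ
        - (lam c' : Additive ↥(Gamma0 p) →+ ℤ) γ := fun γ => Int.mul_ediv_cancel' (hdvd γ)
    have hΛ' : Λ' ∈ parabolicHoms ℤ (Gamma0 p) ℤ := by
      intro γ hγ
      have h1 := hΛ'n (Additive.ofMul γ)
      rw [(lam c).2 γ hγ, (lam c').2 γ hγ, sub_self] at h1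
      exact (mul_eq_zero.mp h1).resolve_left hn0
    have hrel : lam c - lam c' = (n : ℤ) • (⟨Λ', hΛ'⟩ : parabolicHoms ℤ (Gamma0 p) ℤ) := by
      apply Subtype.ext
      refine AddMonoidHom.ext fun γ => ?_
      simp only [Submodule.coe_sub, Submodule.coe_smul, AddMonoidHom.sub_apply,
        AddMonoidHom.smul_apply, smul_eq_mul]
      exact (hΛ'n γ).symm
    have hrepr := congrArg b.equivFun hrel
    rw [map_sub, map_smul] at hrepr
    simp only [lam, LinearEquiv.apply_symm_apply] at hrepr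
    funext i
    have hi := congrFun hrepr i
    simp only [Pi.sub_apply, Pi.smul_apply, smul_eq_mul] at hi
    have h1 : (n : ℤ) ∣ ((c i : ℕ) : ℤ) - ((c' i : ℕ) : ℤ) := ⟨_, hi⟩
    have h2 : |((c i : ℕ) : ℤ) - ((c' i : ℕ) : ℤ)| < (n : ℤ) := by
      have a1 := (c i).2
      have a2 := (c' i).2
      rw [abs_lt]
      constructor <;> omega
    have h3 := Int.eq_zero_of_abs_lt_dvd h1 h2
    apply Fin.ext
    omega
  have hle : Nat.card {φ : Additive ↥(Gamma0 p) →+ ZMod n //
        ∀ g : ↥(Gamma0 p), ((g : SL(2, ℤ)) : Matrix (Fin 2) (Fin 2) ℤ).trace ^ 2 ≤ 4 →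
          φ (Additive.ofMul g) = 0}
      ≤ Nat.card (Module.Free.ChooseBasisIndex ℤ (parabolicHoms ℤ (Gamma0 p) ℤ) → Fin n) := by
    have e : Nat.card (Module.Free.ChooseBasisIndex ℤ (parabolicHoms ℤ (Gamma0 p) ℤ))
        = Fintype.card (Module.Free.ChooseBasisIndex ℤ (parabolicHoms ℤ (Gamma0 p) ℤ)) :=
      Nat.card_eq_fintype_card
    rw [Nat.card_fun, Nat.card_fin, e]
    exact hcard.trans (Nat.pow_le_pow_right hn hr)
  have hbij := hj.bijective_of_nat_card_le hle
  obtain ⟨c, hc⟩ := hbij.2 ⟨φ, hφ⟩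
  exact ⟨lam c, (lam c).2, congrArg Subtype.val hc⟩

/-! ### The divisibility -/

/-- **The lower bound**, from the counting lemma and a character homomorphism of exact
order `n`. -/
theorem dvd_ev_of [Fact p.Prime] (n : ℕ) [NeZero n]
    (hcard : Nat.card {φ : Additive ↥(Gamma0 p) →+ ZMod n //
        ∀ g : ↥(Gamma0 p), ((g : SL(2, ℤ)) : Matrix (Fin 2) (Fin 2) ℤ).trace ^ 2 ≤ 4 →
          φ (Additive.ofMul g) = 0} ≤ n ^ (2 * Module.finrank ℂ (CuspForm (Gamma0 p) 2)))
    (χ : (ZMod p)ˣ →* Multiplicative (ZMod n))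
    (hχ : ∀ g : ↥(Gamma0 p), ((g : SL(2, ℤ)) : Matrix (Fin 2) (Fin 2) ℤ).trace ^ 2 ≤ 4 →
      shOf χ (Additive.ofMul g) = 0)
    (γ₀ : ↥(Gamma0 p)) (hγ₀ : shOf χ (Additive.ofMul γ₀) = 1)
    (t : HeckeAlg) (ht : ∀ f : CuspForm (Gamma0 p) 2, opForms p t f = 0) :
    (n : ℤ) ∣ MvPolynomial.aeval (eisensteinSystem p) t := by
  obtain ⟨B, hnat, hper, heig⟩ := exists_family (p := p) t
  obtain ⟨Λ, hΛ, hΛφ⟩ := exists_lift p n hcard (shOf χ) hχ
  obtain ⟨hinj, hrange⟩ := Fermat.Agent.S21.Assembly.of_injective p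
    (Fermat.Agent.S21.periodHomPair_injective p) (Fermat.Agent.S20.result p)
  have hmem : (Int.castAddHom ℂ).comp Λ ∈ parabolicHoms ℂ (Gamma0 p) ℂ := by
    intro γ hγ
    rw [AddMonoidHom.comp_apply, hΛ γ hγ, map_zero]
  rw [← hrange] at hmem
  obtain ⟨⟨f, g⟩, hfg⟩ := hmem
  have h1 : B ℂ ((Int.castAddHom ℂ).comp Λ) = 0 := by
    rw [← hfg, hper, ht f, ht g]
    exact map_zero _
  have h2 : (Int.castAddHom ℂ).comp (B ℤ Λ) = 0 := by rw [← hnat]; exact h1
  have h3 : B ℤ Λ = 0 := by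
    refine AddMonoidHom.ext fun γ => ?_
    have := congrArg (fun ψ : Additive ↥(Gamma0 p) →+ ℂ => ψ γ) h2
    simp only [AddMonoidHom.comp_apply, Int.coe_castAddHom, AddMonoidHom.zero_apply] at this
    exact_mod_cast this
  have h4 : B (ZMod n) (shOf χ) = 0 := by
    rw [← hΛφ, hnat, h3, AddMonoidHom.comp_zero]
  rw [heig] at h4
  have h5 := congrArg (fun ψ : Additive ↥(Gamma0 p) →+ ZMod n => ψ (Additive.ofMul γ₀)) h4
  simp only [AddMonoidHom.smul_apply, hγ₀, AddMonoidHom.zero_apply, zsmul_eq_mul, mul_one] at h5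
  exact (ZMod.intCast_zmod_eq_zero_iff_dvd _ _).mp h5

end Fermat.Agent.S16.Lower
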