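import Mathlib
import Fermat.Prelude.Def_ModularCurve_ModularUnit
import Fermat.Agent.S16.CharHom

/-!
# S16 (lower bound), leaf (i): the Shimura character

For a prime `p` and `n = eisensteinNumerator p = (p - 1) / gcd (p - 1, 12)` the cyclic group
`(ℤ/p)ˣ` has a surjective character `chi0 p : (ZMod p)ˣ →* Multiplicative (ZMod n)` which kills
every `u` with `u ^ 12 = 1`.  The Shimura class `sh p : Additive (Gamma0 p) →+ ZMod n` is
`γ ↦ chi0 (lower right entry of γ mod p)`; it is surjective, of exact order `n`, and kills every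
`γ` with `(trace γ) ^ 2 ≤ 4` (i.e. `± 1`, the parabolic and the elliptic elements).
-/

set_option autoImplicit false

namespace Fermat.Agent.S16.Shimura

open CongruenceSubgroup
open scoped MatrixGroups
open Fermat.Agent.S16

/-! ### The character -/

/-- Arithmetic core: if `p - 1 ∣ 12 * k` then `eisensteinNumerator p ∣ k`. -/
theorem eisensteinNumerator_dvd_of_dvd_twelve_mul (p : ℕ) (hp : 1 < p) {k : ℤ}
    (h : ((p - 1 : ℕ) : ℤ) ∣ 12 * k) : ((ModularCurve.eisensteinNumerator p : ℕ) : ℤ) ∣ k := by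
  unfold ModularCurve.eisensteinNumerator
  have hpos : 0 < p - 1 := by omega
  have hd : 0 < Nat.gcd (p - 1) 12 := Nat.gcd_pos_of_pos_left _ hpos
  have hcop : Nat.Coprime ((p - 1) / Nat.gcd (p - 1) 12) (12 / Nat.gcd (p - 1) 12) :=
    Nat.coprime_div_gcd_div_gcd hd
  have h1 : (p - 1) = Nat.gcd (p - 1) 12 * ((p - 1) / Nat.gcd (p - 1) 12) :=
    (Nat.mul_div_cancel' (Nat.gcd_dvd_left _ _)).symm
  have h2 : 12 = Nat.gcd (p - 1) 12 * (12 / Nat.gcd (p - 1) 12) :=
    (Nat.mul_div_cancel' (Nat.gcd_dvd_right _ _)).symm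
  set d := Nat.gcd (p - 1) 12 with hd_def
  set n := (p - 1) / d with hn_def
  set a := 12 / d with ha_def
  have h3 : ((d : ℤ) * n) ∣ (d : ℤ) * (a * k) := by
    have : ((p - 1 : ℕ) : ℤ) = (d : ℤ) * n := by exact_mod_cast h1
    rw [← this]
    have h12 : (12 : ℤ) = (d : ℤ) * a := by exact_mod_cast h2
    rw [← mul_assoc, ← h12]
    exact h
  have h4 : (n : ℤ) ∣ (a : ℤ) * k :=
    (mul_dvd_mul_iff_left (by exact_mod_cast hd.ne')).mp h3
  have h5 : IsCoprime (n : ℤ) (a : ℤ) := by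
    exact_mod_cast (Nat.isCoprime_iff_coprime.mpr hcop)
  exact h5.dvd_of_dvd_mul_left h4

/-- Existence of the Shimura character. -/
theorem exists_chi (p : ℕ) [Fact p.Prime] :
    ∃ χ : (ZMod p)ˣ →* Multiplicative (ZMod (ModularCurve.eisensteinNumerator p)),
      (∃ u, χ u = Multiplicative.ofAdd 1) ∧ ∀ u : (ZMod p)ˣ, u ^ 12 = 1 → χ u = 1 := by
  have hp : p.Prime := Fact.out
  obtain ⟨g, hg⟩ := IsCyclic.exists_generator (α := (ZMod p)ˣ)
  have hord : orderOf g = p - 1 := by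
    rw [orderOf_eq_card_of_forall_mem_zpowers hg, Nat.card_eq_fintype_card, ZMod.card_units]
  have hn : ModularCurve.eisensteinNumerator p ∣ p - 1 := ModularCurve.eisensteinNumerator_dvd p
  have hg' : orderOf (Multiplicative.ofAdd (1 : ZMod (ModularCurve.eisensteinNumerator p))) ∣
      orderOf g := by
    rw [hord, orderOf_ofAdd_eq_addOrderOf, ZMod.addOrderOf_one]; exact hn
  refine ⟨monoidHomOfForallMemZpowers hg hg',
    ⟨g, monoidHomOfForallMemZpowers_apply_gen hg hg'⟩, ?_⟩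
  intro u hu
  obtain ⟨k, rfl⟩ := Subgroup.mem_zpowers_iff.mp (hg u)
  rw [map_zpow, monoidHomOfForallMemZpowers_apply_gen]
  have h1 : g ^ (12 * k) = 1 := by
    rw [mul_comm, zpow_mul]
    exact_mod_cast hu
  have h2 : ((p - 1 : ℕ) : ℤ) ∣ 12 * k := by
    rw [← hord]; exact orderOf_dvd_iff_zpow_eq_one.mpr h1
  have h3 := eisensteinNumerator_dvd_of_dvd_twelve_mul p hp.one_lt h2
  rw [← ofAdd_zsmul, zsmul_one, (ZMod.intCast_zmod_eq_zero_iff_dvd k _).mpr h3]
  rfl

/-- **The Shimura character** `(ℤ/p)ˣ → ℤ/n`, `n = eisensteinNumerator p`. -/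
noncomputable def chi0 (p : ℕ) [Fact p.Prime] :
    (ZMod p)ˣ →* Multiplicative (ZMod (ModularCurve.eisensteinNumerator p)) :=
  (exists_chi p).choose

/-- The Shimura character kills the elements of order dividing `12`. -/
theorem chi0_eq_one_of_pow_twelve (p : ℕ) [Fact p.Prime] {u : (ZMod p)ˣ} (hu : u ^ 12 = 1) :
    chi0 p u = 1 :=
  (exists_chi p).choose_spec.2 u hu

/-- The Shimura character kills the elements of order dividing `2`. -/
theorem chi0_eq_one_of_pow_two (p : ℕ) [Fact p.Prime] {u : (ZMod p)ˣ} (hu : u ^ 2 = 1) :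
    chi0 p u = 1 :=
  chi0_eq_one_of_pow_twelve p (by rw [show 12 = 2 * 6 from rfl, pow_mul, hu, one_pow])

/-- The Shimura character kills the elements of order dividing `4`. -/
theorem chi0_eq_one_of_pow_four (p : ℕ) [Fact p.Prime] {u : (ZMod p)ˣ} (hu : u ^ 4 = 1) :
    chi0 p u = 1 :=
  chi0_eq_one_of_pow_twelve p (by rw [show 12 = 4 * 3 from rfl, pow_mul, hu, one_pow])

/-- The Shimura character kills the elements of order dividing `6`. -/
theorem chi0_eq_one_of_pow_six (p : ℕ) [Fact p.Prime] {u : (ZMod p)ˣ} (hu : u ^ 6 = 1) :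
    chi0 p u = 1 :=
  chi0_eq_one_of_pow_twelve p (by rw [show 12 = 6 * 2 from rfl, pow_mul, hu, one_pow])

/-- The Shimura character takes the value `1 ∈ ℤ/n`. -/
theorem exists_chi0_eq (p : ℕ) [Fact p.Prime] :
    ∃ u : (ZMod p)ˣ, Multiplicative.toAdd (chi0 p u) = 1 := by
  obtain ⟨u, hu⟩ := (exists_chi p).choose_spec.1
  exact ⟨u, by rw [chi0, hu]; rfl⟩

/-- The Shimura character is surjective. -/
theorem chi0_surjective (p : ℕ) [Fact p.Prime] : Function.Surjective (chi0 p) := by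
  obtain ⟨u, hu⟩ := exists_chi0_eq p
  intro y
  obtain ⟨k, hk⟩ := ZMod.intCast_surjective (Multiplicative.toAdd y)
  refine ⟨u ^ k, ?_⟩
  rw [map_zpow]
  apply Multiplicative.toAdd.injective
  rw [toAdd_zpow, hu, zsmul_one, hk]

/-! ### Elements of `Γ₀(p)` with `trace ^ 2 ≤ 4` -/

/-- A root of `X² - tX + 1` with `t² ≤ 4` in a field is a twelfth root of unity. -/
theorem pow_twelve_eq_one_of_quadratic {K : Type*} [Field K] (D : K) (t : ℤ) (ht : t ^ 2 ≤ 4)
    (h : D ^ 2 - (t : K) * D + 1 = 0) : D ^ 12 = 1 := by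
  have h1 : -2 ≤ t := by nlinarith
  have h2 : t ≤ 2 := by nlinarith
  interval_cases t
  · -- t = -2
    have : (D + 1) ^ 2 = 0 := by push_cast at h; linear_combination h
    have hD : D = -1 := by
      have := pow_eq_zero_iff (two_ne_zero) |>.mp this
      linear_combination this
    rw [hD]; norm_num
  · -- t = -1
    have h3 : D ^ 3 = 1 := by push_cast at h; linear_combination (D - 1) * h
    calc D ^ 12 = (D ^ 3) ^ 4 := by ring
      _ = 1 := by rw [h3]; norm_num
  · -- t = 0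
    have h2 : D ^ 2 = -1 := by push_cast at h; linear_combination h
    calc D ^ 12 = (D ^ 2) ^ 6 := by ring
      _ = 1 := by rw [h2]; norm_num
  · -- t = 1
    have h3 : D ^ 3 = -1 := by push_cast at h; linear_combination (D + 1) * h
    calc D ^ 12 = (D ^ 3) ^ 4 := by ring
      _ = 1 := by rw [h3]; norm_num
  · -- t = 2
    have : (D - 1) ^ 2 = 0 := by push_cast at h; linear_combination h
    have hD : D = 1 := by
      have := pow_eq_zero_iff (two_ne_zero) |>.mp this
      linear_combination this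
    rw [hD]; norm_num

/-- In `Γ₀(p)` an element with `trace ^ 2 ≤ 4` has lower right entry of order dividing `12`
modulo `p`. -/
theorem dUnit_pow_twelve (p : ℕ) [Fact p.Prime] (g : Gamma0 p)
    (hg : ((g : SL(2, ℤ)) : Matrix (Fin 2) (Fin 2) ℤ).trace ^ 2 ≤ 4) :
    CharHom.dUnit p g ^ 12 = 1 := by
  have hc : (((g : SL(2, ℤ)) 1 0 : ℤ) : ZMod p) = 0 := Gamma0_mem.mp g.2
  have hdet : (g : SL(2, ℤ)) 0 0 * (g : SL(2, ℤ)) 1 1
      - (g : SL(2, ℤ)) 0 1 * (g : SL(2, ℤ)) 1 0 = 1 := by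
    have := (g : SL(2, ℤ)).2
    rwa [Matrix.det_fin_two] at this
  have htr : ((g : SL(2, ℤ)) : Matrix (Fin 2) (Fin 2) ℤ).trace
      = (g : SL(2, ℤ)) 0 0 + (g : SL(2, ℤ)) 1 1 := Matrix.trace_fin_two _
  have hdetp : (((g : SL(2, ℤ)) 0 0 : ℤ) : ZMod p) * (((g : SL(2, ℤ)) 1 1 : ℤ) : ZMod p) = 1 := by
    have := congrArg (Int.cast : ℤ → ZMod p) hdet
    push_cast at this
    rw [hc, mul_zero, sub_zero] at this
    exact this
  apply Units.ext
  rw [Units.val_pow_eq_pow_val, CharHom.coe_dUnit, Units.val_one]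
  apply pow_twelve_eq_one_of_quadratic _ _ hg
  rw [htr]
  push_cast
  linear_combination (-1 : ZMod p) * hdetp

/-- Every unit modulo `p` is the lower right entry of an element of `Γ₀(p)`. -/
theorem dUnit_surjective (p : ℕ) [Fact p.Prime] : Function.Surjective (CharHom.dUnit p) := by
  intro u
  have hcop : Nat.Coprime (u : ZMod p).val p := ZMod.val_coe_unit_coprime u
  have hb : ((Nat.gcd (u : ZMod p).val p : ℕ) : ℤ)
      = ((u : ZMod p).val : ℤ) * Nat.gcdA (u : ZMod p).val p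
        + (p : ℤ) * Nat.gcdB (u : ZMod p).val p :=
    Nat.gcd_eq_gcd_ab _ _
  rw [hcop.gcd_eq_one] at hb
  let M : Matrix (Fin 2) (Fin 2) ℤ :=
    !![Nat.gcdA (u : ZMod p).val p, -Nat.gcdB (u : ZMod p).val p; (p : ℤ), ((u : ZMod p).val : ℤ)]
  have hdet : M.det = 1 := by
    simp only [M, Matrix.det_fin_two_of]
    push_cast at hb
    linear_combination -hb
  let g : SL(2, ℤ) := ⟨M, hdet⟩
  have hg : g ∈ Gamma0 p := by
    rw [Gamma0_mem]
    change (((p : ℤ) : ℤ) : ZMod p) = 0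
    simp
  refine ⟨⟨g, hg⟩, ?_⟩
  apply Units.ext
  rw [CharHom.coe_dUnit]
  change ((((u : ZMod p).val : ℤ) : ℤ) : ZMod p) = _
  simp

/-! ### The Shimura class -/

/-- **The Shimura class** `Γ₀(p) → ℤ/n`, `n = eisensteinNumerator p`. -/
noncomputable def sh (p : ℕ) [Fact p.Prime] :
    Additive (Gamma0 p) →+ ZMod (ModularCurve.eisensteinNumerator p) :=
  CharHom.shOf (chi0 p)

theorem sh_eq_shOf (p : ℕ) [Fact p.Prime] : sh p = CharHom.shOf (chi0 p) := rfl

theorem sh_apply (p : ℕ) [Fact p.Prime] (g : Gamma0 p) :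
    sh p (Additive.ofMul g) = Multiplicative.toAdd (chi0 p (CharHom.dUnit p g)) := rfl

/-- The Shimura class kills `± 1`, the parabolic and the elliptic elements. -/
theorem sh_eq_zero_of_trace (p : ℕ) [Fact p.Prime] (g : Gamma0 p)
    (hg : ((g : SL(2, ℤ)) : Matrix (Fin 2) (Fin 2) ℤ).trace ^ 2 ≤ 4) :
    sh p (Additive.ofMul g) = 0 :=
  CharHom.shOf_eq_zero (chi0 p) (chi0_eq_one_of_pow_twelve p (dUnit_pow_twelve p g hg))

/-- The Shimura class takes the value `1 ∈ ℤ/n`. -/
theorem exists_sh_eq_one (p : ℕ) [Fact p.Prime] :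
    ∃ g : Gamma0 p, sh p (Additive.ofMul g) = 1 := by
  obtain ⟨u, hu⟩ := exists_chi0_eq p
  obtain ⟨g, rfl⟩ := dUnit_surjective p u
  exact ⟨g, by rw [sh_apply, hu]⟩

/-- The Shimura class is surjective. -/
theorem sh_surjective (p : ℕ) [Fact p.Prime] : Function.Surjective (sh p) := by
  intro y
  obtain ⟨u, hu⟩ := chi0_surjective p (Multiplicative.ofAdd y)
  obtain ⟨g, rfl⟩ := dUnit_surjective p u
  exact ⟨Additive.ofMul g, by rw [sh_apply, hu]; rfl⟩

/-- The Shimura class has exact order `n`: an integer multiple of it vanishes iff the integer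
is divisible by `n = eisensteinNumerator p`. -/
theorem zsmul_sh_eq_zero_iff (p : ℕ) [Fact p.Prime] (z : ℤ) :
    z • sh p = 0 ↔ ((ModularCurve.eisensteinNumerator p : ℕ) : ℤ) ∣ z := by
  constructor
  · intro h
    obtain ⟨g, hg⟩ := exists_sh_eq_one p
    have := congrArg (fun φ => φ (Additive.ofMul g)) h
    simp only [AddMonoidHom.smul_apply, hg, AddMonoidHom.zero_apply, zsmul_one] at this
    exact (ZMod.intCast_zmod_eq_zero_iff_dvd z _).mp this
  · intro h
    refine AddMonoidHom.ext fun x => ?_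
    rw [AddMonoidHom.smul_apply, AddMonoidHom.zero_apply]
    have hz : ((z : ℤ) : ZMod (ModularCurve.eisensteinNumerator p)) = 0 :=
      (ZMod.intCast_zmod_eq_zero_iff_dvd z _).mpr h
    rw [zsmul_eq_mul, hz, zero_mul]

/-- Variant for any homomorphism agreeing with an integer multiple: if `z • sh p` vanishes on
all of `Γ₀(p)` then `n ∣ z`. -/
theorem dvd_of_zsmul_sh_apply_eq_zero (p : ℕ) [Fact p.Prime] (z : ℤ)
    (h : ∀ g : Gamma0 p, z • sh p (Additive.ofMul g) = 0) :
    ((ModularCurve.eisensteinNumerator p : ℕ) : ℤ) ∣ z := by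
  obtain ⟨g, hg⟩ := exists_sh_eq_one p
  have := h g
  rw [hg, zsmul_one] at this
  exact (ZMod.intCast_zmod_eq_zero_iff_dvd z _).mp this

end Fermat.Agent.S16.Shimura
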