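import Mathlib
import Fermat.Agent.S16.LowerCore
import Fermat.Agent.S16.HomCount
import Fermat.Agent.S16.Shimura

/-!
# S16: the lower bound

If `t : HeckeAlg` kills the cusp forms of weight two and level `p`, then the Eisenstein numerator
`n = (p - 1) / gcd (p - 1, 12)` divides the Eisenstein evaluation of `t`.

Proof: the Shimura class `sh : Γ₀(p) → ℤ/n` (`S16.Shimura`) is a Hecke eigenvector with the
Eisenstein eigenvalues (`S16.HeckeEigen`), it lifts to an integer valued parabolic homomorphism
by the counting lemma (`S16.HomCount`, `S16.LowerCore.exists_lift`), and `t` kills the parabolic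
homomorphisms by Eichler--Shimura (`S21`, `S23.HeckeLift`).
-/

set_option autoImplicit false

namespace Fermat.Agent.S16.Lower

open CongruenceSubgroup Matrix ModularCurve ModularCurve.Period
open Fermat.Agent.S16.CharHom Fermat.Agent.S16.HeckeHom
open scoped MatrixGroups

theorem eisensteinNumerator_pos' {p : ℕ} (hp : p.Prime) : 0 < eisensteinNumerator p := by
  unfold eisensteinNumerator
  have h1 : 0 < p - 1 := by have := hp.two_le; omega
  exact Nat.div_pos (Nat.le_of_dvd h1 (Nat.gcd_dvd_left _ _)) (Nat.gcd_pos_of_pos_left _ h1)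

/-- **The lower bound of S16.** -/
theorem dvd_ev (p : ℕ) [Fact p.Prime] (t : HeckeAlg)
    (ht : ∀ f : CuspForm (Gamma0 p) 2,
      ((CuspForm.heckeEvalForms p 2 t : CuspForm.heckeAlgebra p 2 ∅) :
        Module.End ℂ (CuspForm (Gamma0 p) 2)) f = 0) :
    (eisensteinNumerator p : ℤ) ∣ MvPolynomial.aeval (eisensteinSystem p) t := by
  have hp : p.Prime := Fact.out
  have : NeZero (eisensteinNumerator p) := ⟨(eisensteinNumerator_pos' hp).ne'⟩
  have hcard := Fermat.Agent.S16.HomCount.card_le p (ZMod (eisensteinNumerator p))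
  have h2g : Fermat.Agent.S16.HomCount.twoGenus p
      = 2 * Module.finrank ℂ (CuspForm (Gamma0 p) 2) := by
    have h1 := Fermat.Agent.S16.HomCount.twoGenus_cast p
    have h2 := Fermat.Agent.S20.result p
    rw [← h2] at h1
    exact_mod_cast h1
  rw [Nat.card_zmod, h2g] at hcard
  obtain ⟨γ₀, hγ₀⟩ := Fermat.Agent.S16.Shimura.exists_sh_eq_one p
  exact dvd_ev_of p (eisensteinNumerator p) hcard (Fermat.Agent.S16.Shimura.chi0 p)
    (Fermat.Agent.S16.Shimura.sh_eq_zero_of_trace p) γ₀ hγ₀ t ht

end Fermat.Agent.S16.Lower
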