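import Mathlib

/-!
# S16, leaf (d): the auxiliary Eisenstein forms `G_r = (r E₂(r z) − E₂(z)) / (r − 1)`

* `fn r` : the function, `form r` : the modular form of weight 2 on `Γ₀(r)` (`r` prime);
* `hasSum_fn`, `qExpansion_fn` : `G_r = 1 + (24/(r−1)) ∑ σ^{(r)}(n) qⁿ`;
* `fn_slash_of_mem`, `fn_slash_S_T` : the conjugates under `SL(2, ℤ)`;
* `hasSum_fn_divN`, `qExpansion_fn_slash_S_T` : their expansions in `q^{1/r}`;
* `exists_mem_Gamma0_mul` : coset representatives `S T^i` of `Γ₀(r) \ SL(2, ℤ)`.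
-/

set_option autoImplicit false

open UpperHalfPlane hiding I
open ModularForm EisensteinSeries Complex MatrixGroups Function
open scoped Real ArithmeticFunction.sigma Manifold

noncomputable section

namespace Fermat.Agent.S16.Gr


/-- `z ↦ r z` on the upper half plane. -/
def mulN (r : ℕ) [NeZero r] (z : ℍ) : ℍ :=
  ⟨(r : ℂ) * z, by
    have hr : (0 : ℝ) < r := Nat.cast_pos.mpr (NeZero.pos r)
    simpa using mul_pos hr z.im_pos⟩

/-- `z ↦ (z + i) / r` on the upper half plane. -/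
def divN (r : ℕ) [NeZero r] (i : ℤ) (z : ℍ) : ℍ :=
  ⟨((z : ℂ) + i) / r, by
    have hr : (0 : ℝ) < r := Nat.cast_pos.mpr (NeZero.pos r)
    have : (((z : ℂ) + i) / r).im = z.im / r := by
      rw [show ((r : ℂ)) = ((r : ℝ) : ℂ) by simp, Complex.div_ofReal_im]
      simp
    rw [this]
    exact div_pos z.im_pos hr⟩

@[simp] theorem coe_mulN (r : ℕ) [NeZero r] (z : ℍ) : ((mulN r z : ℍ) : ℂ) = r * z := rfl

@[simp] theorem coe_divN (r : ℕ) [NeZero r] (i : ℤ) (z : ℍ) :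
    ((divN r i z : ℍ) : ℂ) = (z + i) / r := rfl

theorem coe_mulN_divN (r : ℕ) [NeZero r] (i : ℤ) (z : ℍ) :
    ((mulN r (divN r i z) : ℍ) : ℂ) = z + i := by
  have hr : (r : ℂ) ≠ 0 := Nat.cast_ne_zero.mpr (NeZero.ne r)
  simp only [coe_mulN, coe_divN]
  field_simp

theorem im_divN (r : ℕ) [NeZero r] (i : ℤ) (z : ℍ) : (divN r i z).im = z.im / r := by
  change (((z : ℂ) + i) / r).im = z.im / r
  rw [show ((r : ℂ)) = ((r : ℝ) : ℂ) by simp, Complex.div_ofReal_im]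
  simp

/-- Composition of a holomorphic function on `ℍ` with a holomorphic self-map of `ℍ`. -/
theorem mdiff_comp (F : ℍ → ℂ) (hF : MDiff F) (g : ℍ → ℍ) (φ : ℂ → ℂ)
    (hφ : Differentiable ℂ φ) (hg : ∀ z : ℍ, ((g z : ℍ) : ℂ) = φ z) :
    MDiff (fun z => F (g z)) := by
  rw [UpperHalfPlane.mdifferentiable_iff] at hF ⊢
  have hmaps : Set.MapsTo φ {z : ℂ | 0 < z.im} {z : ℂ | 0 < z.im} := by
    intro w hw
    have := (g ⟨w, hw⟩).im_pos
    have h2 := hg ⟨w, hw⟩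
    simp only [Set.mem_ofPred_eq]
    rw [show φ w = ((g ⟨w, hw⟩ : ℍ) : ℂ) from h2.symm]
    exact this
  refine (hF.comp hφ.differentiableOn hmaps).congr ?_
  intro w hw
  simp only [Function.comp_apply]
  congr 1
  apply UpperHalfPlane.ext
  rw [ofComplex_apply_of_im_pos hw, ofComplex_apply_of_im_pos (hmaps hw)]
  exact hg ⟨w, hw⟩

/-- The function `(r E₂(r z) − E₂(z)) / (r − 1)`. -/
def fn (r : ℕ) [NeZero r] (z : ℍ) : ℂ :=
  ((r : ℂ) * E2 (mulN r z) - E2 z) / ((r : ℂ) - 1)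

theorem mdiff_E2_mulN (r : ℕ) [NeZero r] : MDiff (fun z => E2 (mulN r z)) :=
  mdiff_comp E2 E2_mdifferentiable (mulN r) (fun w => (r : ℂ) * w)
    (by fun_prop) (fun z => rfl)

theorem mdiff_fn (r : ℕ) [NeZero r] : MDiff (fn r) := by
  have h1 := mdiff_E2_mulN r
  have h2 := E2_mdifferentiable
  rw [UpperHalfPlane.mdifferentiable_iff] at h1 h2 ⊢
  have : (fn r ∘ ofComplex) = fun w => ((r : ℂ) * ((fun z => E2 (mulN r z)) ∘ ofComplex) w
      - (E2 ∘ ofComplex) w) / ((r : ℂ) - 1) := by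
    funext w; simp [fn]
  rw [this]
  exact ((h1.const_mul _).sub h2).div_const _

theorem mdiff_comp_divN (F : ℍ → ℂ) (hF : MDiff F) (r : ℕ) [NeZero r] (i : ℤ) :
    MDiff (fun z => F (divN r i z)) :=
  mdiff_comp F hF (divN r i) (fun w => (w + i) / r) (by fun_prop) (fun z => rfl)



theorem qParam_add_period {h : ℝ} (hh : h ≠ 0) (w : ℂ) :
    Periodic.qParam h (w + h) = Periodic.qParam h w := by
  have hc : (h : ℂ) ≠ 0 := ofReal_ne_zero.mpr hh
  simp only [Periodic.qParam]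
  rw [show 2 * (π : ℂ) * I * (w + h) / h = 2 * π * I * w / h + 2 * π * I by field_simp,
    Complex.exp_add, Complex.exp_two_pi_mul_I, mul_one]

theorem periodic_of_hasSum {h : ℝ} (hh : h ≠ 0) {f : ℍ → ℂ} {c : ℕ → ℂ}
    (hf : ∀ τ : ℍ, HasSum (fun m => c m • Periodic.qParam h τ ^ m) (f τ)) :
    Periodic (f ∘ ofComplex) h := by
  intro w
  by_cases hw : 0 < w.im
  · have hw' : 0 < (w + h).im := by simpa using hw
    simp only [comp_apply, ofComplex_apply_of_im_pos hw', ofComplex_apply_of_im_pos hw]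
    have h1 := hf ⟨w + h, hw'⟩
    have h2 := hf ⟨w, hw⟩
    have e : Periodic.qParam h ((⟨w + h, hw'⟩ : ℍ) : ℂ) = Periodic.qParam h ((⟨w, hw⟩ : ℍ) : ℂ) :=
      qParam_add_period hh w
    rw [e] at h1
    exact h1.unique h2
  · have hw0 : w.im ≤ 0 := not_lt.mp hw
    have hw' : (w + h).im ≤ 0 := by simpa using hw0
    simp [ofComplex_apply_of_im_nonpos hw', ofComplex_apply_of_im_nonpos hw0]

/-- The `q`-expansion (with period `h`) of a holomorphic function given by a convergent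
`q`-series. -/
theorem qExpansion_coeff_of_hasSum {h : ℝ} (hh : 0 < h) {f : ℍ → ℂ} {c : ℕ → ℂ}
    (hfhol : MDiff f)
    (hf : ∀ τ : ℍ, HasSum (fun m => c m • Periodic.qParam h τ ^ m) (f τ)) (m : ℕ) :
    PowerSeries.coeff m (qExpansion h f) = c m := by
  have hper : Function.Periodic (f ∘ ofComplex) h := periodic_of_hasSum hh.ne' hf
  have hbdd : IsBoundedAtImInfty f := isBoundedAtImInfty_of_hasSum_qExpansion hh hf
  have han : AnalyticAt ℂ (UpperHalfPlane.cuspFunction h f) 0 :=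
    UpperHalfPlane.analyticAt_cuspFunction_zero hh hper hfhol hbdd
  have h1 := (UpperHalfPlane.hasFPowerSeriesOnBall_cuspFunction hh han hf).hasFPowerSeriesAt
  have h2 : HasFPowerSeriesAt (UpperHalfPlane.cuspFunction h f)
      (FormalMultilinearSeries.ofScalars ℂ fun m => PowerSeries.coeff m (qExpansion h f)) 0 := by
    simpa [qExpansion_coeff, div_eq_mul_inv, mul_comm] using han.hasFPowerSeriesAt
  have h3 := congr_arg (FormalMultilinearSeries.coeff · m) (h1.eq_formalMultilinearSeries h2)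
  simpa [FormalMultilinearSeries.coeff_ofScalars] using h3.symm



/-- `σ^{(r)}(n)`: the sum of the divisors of `n` that are not divisible by `r`. -/
def sigmaR (r n : ℕ) : ℕ := ∑ d ∈ n.divisors with ¬ r ∣ d, d

theorem sigmaR_one (r : ℕ) (hr : 2 ≤ r) : sigmaR r 1 = 1 := by
  have : ¬ r ∣ 1 := by
    intro h
    have := Nat.le_of_dvd one_pos h
    omega
  simp [sigmaR, Finset.filter_singleton, this]

theorem sigma_eq_sigmaR_add (r n : ℕ) (hr : r ≠ 0) :
    σ 1 n = sigmaR r n + (if r ∣ n then r * σ 1 (n / r) else 0) := by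
  rcases Nat.eq_zero_or_pos n with rfl | hn
  · simp [sigmaR]
  rw [ArithmeticFunction.sigma_one_apply, sigmaR,
    ← Finset.sum_filter_not_add_sum_filter n.divisors (fun d => r ∣ d)]
  congr 1
  split_ifs with h
  · obtain ⟨m, rfl⟩ := h
    have hm : m ≠ 0 := by rintro rfl; simp at hn
    rw [Nat.mul_div_cancel_left m (Nat.pos_of_ne_zero hr), ArithmeticFunction.sigma_one_apply,
      Finset.mul_sum]
    symm
    refine Finset.sum_nbij' (fun d => r * d) (fun d => d / r) ?_ ?_ ?_ ?_ ?_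
    · intro d hd
      simp only [Nat.mem_divisors, Finset.mem_filter] at hd ⊢
      exact ⟨⟨Nat.mul_dvd_mul_left r hd.1, by positivity⟩, Dvd.intro _ rfl⟩
    · intro d hd
      simp only [Nat.mem_divisors, Finset.mem_filter] at hd ⊢
      obtain ⟨⟨h1, h2⟩, e, rfl⟩ := hd
      rw [Nat.mul_div_cancel_left e (Nat.pos_of_ne_zero hr)]
      exact ⟨(Nat.mul_dvd_mul_iff_left (Nat.pos_of_ne_zero hr)).mp h1, hm⟩
    · intro d _
      exact Nat.mul_div_cancel_left d (Nat.pos_of_ne_zero hr)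
    · intro d hd
      simp only [Nat.mem_divisors, Finset.mem_filter] at hd
      exact Nat.mul_div_cancel' hd.2
    · intro d _
      rfl
  · apply Finset.sum_eq_zero
    intro d hd
    simp only [Nat.mem_divisors, Finset.mem_filter] at hd
    exact absurd (hd.2.trans hd.1.1) h

/-- The `q`-expansion coefficients of `E₂`. -/
def coeffE (n : ℕ) : ℂ := if n = 0 then 1 else -24 * (σ 1 n : ℂ)

/-- The `q`-expansion coefficients of `G_r`. -/
def coeffG (r n : ℕ) : ℂ := if n = 0 then 1 else 24 / ((r : ℂ) - 1) * (sigmaR r n : ℂ)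

theorem coeffG_zero (r : ℕ) : coeffG r 0 = 1 := by simp [coeffG]

theorem coeffG_one (r : ℕ) (hr : 2 ≤ r) : coeffG r 1 = 24 / ((r : ℂ) - 1) := by
  simp [coeffG, sigmaR_one r hr]

theorem coeffG_two (n : ℕ) (hn : n ≠ 0) : coeffG 2 n = ((24 * sigmaR 2 n : ℤ) : ℂ) := by
  simp only [coeffG, if_neg hn]
  push_cast
  norm_num

theorem coeffG_three (n : ℕ) (hn : n ≠ 0) : coeffG 3 n = ((12 * sigmaR 3 n : ℤ) : ℂ) := by
  simp only [coeffG, if_neg hn]
  push_cast
  norm_num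

theorem coeffG_eq (r n : ℕ) (hr : 2 ≤ r) :
    coeffG r n = ((r : ℂ) * (if r ∣ n then coeffE (n / r) else 0) - coeffE n) / ((r : ℂ) - 1) := by
  have hr1 : (r : ℂ) - 1 ≠ 0 := by
    have : (r : ℂ) ≠ 1 := by
      norm_cast; omega
    exact sub_ne_zero.mpr this
  have hr0 : r ≠ 0 := by omega
  rcases Nat.eq_zero_or_pos n with rfl | hn
  · simp [coeffG, coeffE]
    field_simp
  · have h := sigma_eq_sigmaR_add r n hr0
    have hn0 : n ≠ 0 := hn.ne'
    simp only [coeffG, coeffE, if_neg hn0]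
    by_cases hd : r ∣ n
    · have hnr : n / r ≠ 0 := by
        obtain ⟨m, rfl⟩ := hd
        rw [Nat.mul_div_cancel_left m (by omega)]
        rintro rfl; simp at hn
      simp only [if_pos hd, if_neg hnr] at h ⊢
      have h' : (σ 1 n : ℂ) = sigmaR r n + r * σ 1 (n / r) := by exact_mod_cast h
      rw [h']
      field_simp
      ring
    · simp only [if_neg hd] at h ⊢
      have h' : (σ 1 n : ℂ) = sigmaR r n := by exact_mod_cast h
      rw [h']
      field_simp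
      ring


theorem hasSum_E2 (z : ℍ) :
    HasSum (fun m : ℕ => coeffE m * Periodic.qParam 1 z ^ m) (E2 z) := by
  have h := hasSum_qExpansion_E2 (z := z)
  simpa [coeffE, Periodic.qParam] using h

theorem qParam_mulN (r : ℕ) [NeZero r] (z : ℍ) :
    Periodic.qParam 1 (mulN r z) = Periodic.qParam 1 z ^ r := by
  simp only [Periodic.qParam, coe_mulN, ofReal_one, div_one]
  rw [← Complex.exp_nat_mul]
  congr 1
  ring

theorem hasSum_E2_mulN (r : ℕ) [NeZero r] (z : ℍ) :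
    HasSum (fun n : ℕ => (if r ∣ n then coeffE (n / r) else 0) * Periodic.qParam 1 z ^ n)
      (E2 (mulN r z)) := by
  have h := hasSum_E2 (mulN r z)
  have hr : 0 < r := NeZero.pos r
  have hinj : Injective (fun m : ℕ => r * m) := fun a b hab =>
    Nat.eq_of_mul_eq_mul_left hr hab
  refine (hinj.hasSum_iff ?_).mp ?_
  · intro n hn
    have : ¬ r ∣ n := by
      rintro ⟨m, rfl⟩
      exact hn ⟨m, rfl⟩
    simp [this]
  · convert h using 1
    funext m
    simp only [Function.comp_apply, dvd_mul_right, if_true, Nat.mul_div_cancel_left m hr,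
      qParam_mulN, pow_mul]

theorem hasSum_fn (r : ℕ) [NeZero r] (hr : 2 ≤ r) (z : ℍ) :
    HasSum (fun n : ℕ => coeffG r n • Periodic.qParam 1 z ^ n) (fn r z) := by
  have h1 := hasSum_E2_mulN r z
  have h2 := hasSum_E2 z
  have h3 := (((h1.mul_left (r : ℂ)).sub h2).div_const ((r : ℂ) - 1))
  have e : (fun n : ℕ => coeffG r n • Periodic.qParam 1 z ^ n) = fun i =>
      (↑r * ((if r ∣ i then coeffE (i / r) else 0) * Periodic.qParam 1 ↑z ^ i) -
        coeffE i * Periodic.qParam 1 ↑z ^ i) / ((r : ℂ) - 1) := by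
    funext n
    rw [coeffG_eq r n hr, smul_eq_mul]
    ring
  rw [e]
  exact h3

/-- The root of unity `exp(2πi i/r)`. -/
def zeta (r : ℕ) (i : ℤ) : ℂ := cexp (2 * π * I * i / r)

theorem qParam_divN (r : ℕ) [NeZero r] (i : ℤ) (z : ℍ) :
    Periodic.qParam 1 (divN r i z) = zeta r i * Periodic.qParam r z := by
  simp only [Periodic.qParam, coe_divN, ofReal_one, div_one, zeta, ofReal_natCast]
  rw [← Complex.exp_add]
  congr 1
  ring

theorem hasSum_fn_divN (r : ℕ) [NeZero r] (hr : 2 ≤ r) (i : ℤ) (z : ℍ) :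
    HasSum (fun n : ℕ => (-(1 / (r : ℂ)) * coeffG r n * zeta r i ^ n) • Periodic.qParam r z ^ n)
      (-(1 / (r : ℂ)) * fn r (divN r i z)) := by
  have h := (hasSum_fn r hr (divN r i z)).mul_left (-(1 / (r : ℂ)))
  have e : (fun n : ℕ => (-(1 / (r : ℂ)) * coeffG r n * zeta r i ^ n) • Periodic.qParam r z ^ n)
      = fun n => -(1 / (r : ℂ)) * coeffG r n • Periodic.qParam 1 ↑(divN r i z) ^ n := by
    funext n
    rw [qParam_divN, smul_eq_mul, smul_eq_mul, mul_pow]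
    ring
  rw [e]
  exact h


/-- The transformation law of `E₂` in pointwise form. -/
theorem E2_smul (γ : SL(2, ℤ)) (z : ℍ) :
    E2 (γ • z) = ((γ 1 0 : ℂ) * z + γ 1 1) ^ 2 * E2 z
      - (1 / (2 * riemannZeta 2)) * (2 * π * I * (γ 1 0 : ℂ)) * ((γ 1 0 : ℂ) * z + γ 1 1) := by
  have h := congrFun (E2_slash_action γ) z
  rw [SL_slash_apply, ModularGroup.denom_apply] at h
  simp only [Pi.sub_apply, Pi.smul_apply, D2, smul_eq_mul, ModularGroup.denom_apply] at h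
  have hd : ((γ 1 0 : ℂ) * z + γ 1 1) ≠ 0 := by
    have := UpperHalfPlane.denom_ne_zero γ z
    rwa [ModularGroup.denom_apply] at this
  have h' : E2 (γ • z) = (E2 z - 1 / (2 * riemannZeta 2) *
      (2 * ↑π * I * ↑(γ 1 0) / (↑(γ 1 0) * ↑z + ↑(γ 1 1)))) * ((γ 1 0 : ℂ) * z + γ 1 1) ^ 2 := by
    rw [← h]
    rw [zpow_neg, zpow_ofNat]
    field_simp
  rw [h']
  field_simp


theorem coe_SL_smul (γ : SL(2, ℤ)) (z : ℍ) :
    ((γ • z : ℍ) : ℂ) = ((γ 0 0 : ℂ) * z + γ 0 1) / ((γ 1 0 : ℂ) * z + γ 1 1) := by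
  rw [UpperHalfPlane.specialLinearGroup_apply]
  simp

theorem SL_denom_ne_zero (γ : SL(2, ℤ)) (z : ℍ) : ((γ 1 0 : ℂ) * z + γ 1 1) ≠ 0 := by
  have := UpperHalfPlane.denom_ne_zero γ z
  rwa [ModularGroup.denom_apply] at this

/-- The companion matrix `(a, r b; c / r, d)` of `(a, b; c, d) ∈ Γ₀(r)`. -/
def companion (r : ℕ) (γ : SL(2, ℤ)) (c' : ℤ) (hc : γ 1 0 = r * c') : SL(2, ℤ) :=
  ⟨!![γ 0 0, r * γ 0 1; c', γ 1 1], by
    have h := γ.det_coe
    rw [Matrix.det_fin_two] at h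
    rw [Matrix.det_fin_two_of]
    rw [hc] at h
    linarith⟩

theorem mulN_smul (r : ℕ) [NeZero r] (γ : SL(2, ℤ)) (c' : ℤ) (hc : γ 1 0 = r * c') (z : ℍ) :
    mulN r (γ • z) = companion r γ c' hc • mulN r z := by
  apply UpperHalfPlane.ext
  rw [coe_mulN, coe_SL_smul, coe_SL_smul, coe_mulN]
  have h1 := SL_denom_ne_zero γ z
  have h2 := SL_denom_ne_zero (companion r γ c' hc) (mulN r z)
  have e10 : (companion r γ c' hc) 1 0 = c' := rfl
  have e11 : (companion r γ c' hc) 1 1 = γ 1 1 := rfl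
  have e00 : (companion r γ c' hc) 0 0 = γ 0 0 := rfl
  have e01 : (companion r γ c' hc) 0 1 = r * γ 0 1 := rfl
  rw [e10, e11, coe_mulN] at h2
  rw [e10, e11, e00, e01]
  have hcc : (γ 1 0 : ℂ) = r * c' := by exact_mod_cast congrArg (Int.cast : ℤ → ℂ) hc
  rw [hcc] at h1 ⊢
  push_cast
  field_simp

theorem fn_smul_of_dvd (r : ℕ) [NeZero r] (hr : 2 ≤ r) (γ : SL(2, ℤ)) (c' : ℤ)
    (hc : γ 1 0 = r * c') (z : ℍ) :
    fn r (γ • z) = ((γ 1 0 : ℂ) * z + γ 1 1) ^ 2 * fn r z := by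
  have hr1 : (r : ℂ) - 1 ≠ 0 := by
    have : (r : ℂ) ≠ 1 := by
      norm_cast; omega
    exact sub_ne_zero.mpr this
  unfold fn
  rw [mulN_smul r γ c' hc z, E2_smul, E2_smul γ z]
  have e10 : (companion r γ c' hc) 1 0 = c' := rfl
  have e11 : (companion r γ c' hc) 1 1 = γ 1 1 := rfl
  have hcc : (γ 1 0 : ℂ) = r * c' := by exact_mod_cast congrArg (Int.cast : ℤ → ℂ) hc
  rw [e10, e11, coe_mulN, hcc]
  field_simp
  ring

theorem fn_slash_of_dvd (r : ℕ) [NeZero r] (hr : 2 ≤ r) (γ : SL(2, ℤ)) (c' : ℤ)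
    (hc : γ 1 0 = r * c') : fn r ∣[(2 : ℤ)] γ = fn r := by
  funext z
  rw [SL_slash_apply, fn_smul_of_dvd r hr γ c' hc, ModularGroup.denom_apply]
  have := SL_denom_ne_zero γ z
  rw [zpow_neg, zpow_ofNat]
  field_simp

theorem fn_slash_of_mem (r : ℕ) [NeZero r] (hr : 2 ≤ r) (γ : SL(2, ℤ))
    (hγ : γ ∈ CongruenceSubgroup.Gamma0 r) : fn r ∣[(2 : ℤ)] γ = fn r := by
  rw [CongruenceSubgroup.Gamma0_mem] at hγ
  obtain ⟨c', hc⟩ := (ZMod.intCast_zmod_eq_zero_iff_dvd _ _).mp hγ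
  exact fn_slash_of_dvd r hr γ c' hc


theorem mulN_divN (r : ℕ) [NeZero r] (z : ℍ) : mulN r (divN r 0 z) = z := by
  have hr : (r : ℂ) ≠ 0 := Nat.cast_ne_zero.mpr (NeZero.ne r)
  apply UpperHalfPlane.ext
  simp only [coe_mulN, coe_divN]
  push_cast
  field_simp
  ring

theorem mulN_S_smul (r : ℕ) [NeZero r] (z : ℍ) :
    mulN r (ModularGroup.S • z) = ModularGroup.S • divN r 0 z := by
  have hr : (r : ℂ) ≠ 0 := Nat.cast_ne_zero.mpr (NeZero.ne r)
  apply UpperHalfPlane.ext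
  rw [coe_mulN, UpperHalfPlane.modular_S_smul, UpperHalfPlane.modular_S_smul]
  simp only [coe_divN]
  have hz : (z : ℂ) ≠ 0 := UpperHalfPlane.ne_zero z
  change (r : ℂ) * (-(z : ℂ))⁻¹ = (-(((z : ℂ) + ((0 : ℤ) : ℂ)) / r))⁻¹
  simp only [Int.cast_zero, add_zero]
  field_simp

theorem S_entries : (ModularGroup.S 1 0 = 1) ∧ (ModularGroup.S 1 1 = 0) := by
  constructor <;> rfl

theorem fn_S_smul (r : ℕ) [NeZero r] (hr : 2 ≤ r) (z : ℍ) :
    fn r (ModularGroup.S • z) = (z : ℂ) ^ 2 * (-(1 / (r : ℂ)) * fn r (divN r 0 z)) := by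
  have hr1 : (r : ℂ) - 1 ≠ 0 := by
    have : (r : ℂ) ≠ 1 := by
      norm_cast; omega
    exact sub_ne_zero.mpr this
  have hr0 : (r : ℂ) ≠ 0 := Nat.cast_ne_zero.mpr (NeZero.ne r)
  unfold fn
  rw [mulN_S_smul, E2_smul, E2_smul ModularGroup.S z, mulN_divN]
  rw [S_entries.1, S_entries.2]
  simp only [coe_divN]
  push_cast
  field_simp
  ring

theorem fn_slash_S (r : ℕ) [NeZero r] (hr : 2 ≤ r) :
    fn r ∣[(2 : ℤ)] ModularGroup.S = fun z => -(1 / (r : ℂ)) * fn r (divN r 0 z) := by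
  funext z
  rw [SL_slash_apply, fn_S_smul r hr, ModularGroup.denom_apply, S_entries.1, S_entries.2]
  have hz : (z : ℂ) ≠ 0 := UpperHalfPlane.ne_zero z
  simp only [Int.cast_one, Int.cast_zero, one_mul, add_zero]
  rw [zpow_neg, zpow_ofNat]
  field_simp

theorem divN_T_zpow_smul (r : ℕ) [NeZero r] (i : ℤ) (z : ℍ) :
    divN r 0 (ModularGroup.T ^ i • z) = divN r i z := by
  apply UpperHalfPlane.ext
  rw [UpperHalfPlane.modular_T_zpow_smul]
  simp only [coe_divN, UpperHalfPlane.coe_vadd]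
  push_cast
  ring

theorem slash_T_zpow (f : ℍ → ℂ) (i : ℤ) :
    f ∣[(2 : ℤ)] (ModularGroup.T ^ i) = fun z => f (ModularGroup.T ^ i • z) := by
  funext z
  rw [SL_slash_apply, ModularGroup.denom_apply, ModularGroup.coe_T_zpow]
  simp

theorem fn_slash_S_T (r : ℕ) [NeZero r] (hr : 2 ≤ r) (i : ℤ) :
    fn r ∣[(2 : ℤ)] (ModularGroup.S * ModularGroup.T ^ i) =
      fun z => -(1 / (r : ℂ)) * fn r (divN r i z) := by
  rw [SlashAction.slash_mul, fn_slash_S r hr, slash_T_zpow]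
  funext z
  simp only [divN_T_zpow_smul]



theorem entry_mul_ST_inv (g : SL(2, ℤ)) (i : ℤ) :
    (g * (ModularGroup.S * ModularGroup.T ^ i)⁻¹) 1 0 = i * g 1 0 - g 1 1 := by
  rw [mul_inv_rev]
  simp only [Matrix.SpecialLinearGroup.coe_mul, Matrix.SpecialLinearGroup.coe_inv,
    ← zpow_neg, ModularGroup.coe_T_zpow, ModularGroup.coe_S, Matrix.adjugate_fin_two_of,
    Matrix.mul_apply, Fin.sum_univ_two]
  simp
  ring

/-- Coset decomposition of `SL(2, ℤ)` modulo `Γ₀(r)` for a prime `r`. -/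
theorem exists_mem_Gamma0_mul (r : ℕ) [Fact r.Prime] (g : SL(2, ℤ))
    (hg : g ∉ CongruenceSubgroup.Gamma0 r) :
    ∃ γ ∈ CongruenceSubgroup.Gamma0 r, ∃ i : ℕ, i < r ∧
      g = γ * (ModularGroup.S * ModularGroup.T ^ (i : ℤ)) := by
  rw [CongruenceSubgroup.Gamma0_mem] at hg
  set u : ZMod r := (g 1 1 : ZMod r) * ((g 1 0 : ℤ) : ZMod r)⁻¹ with hu
  have : NeZero r := ⟨(Fact.out : r.Prime).ne_zero⟩
  refine ⟨g * (ModularGroup.S * ModularGroup.T ^ ((u.val : ℕ) : ℤ))⁻¹, ?_, u.val, ZMod.val_lt u, ?_⟩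
  · rw [CongruenceSubgroup.Gamma0_mem, entry_mul_ST_inv]
    push_cast
    rw [ZMod.natCast_zmod_val, hu]
    field_simp
    ring
  · rw [inv_mul_cancel_right]



/-! ### Boundedness at the cusps, the modular form, `q`-expansions -/

theorem isBoundedAtImInfty_fn (r : ℕ) [NeZero r] (hr : 2 ≤ r) : IsBoundedAtImInfty (fn r) :=
  isBoundedAtImInfty_of_hasSum_qExpansion one_pos fun τ => hasSum_fn r hr τ

theorem isBoundedAtImInfty_fn_divN (r : ℕ) [NeZero r] (hr : 2 ≤ r) (i : ℤ) :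
    IsBoundedAtImInfty (fun z => -(1 / (r : ℂ)) * fn r (divN r i z)) :=
  isBoundedAtImInfty_of_hasSum_qExpansion (h := (r : ℝ)) (Nat.cast_pos.mpr (NeZero.pos r))
    fun τ => hasSum_fn_divN r hr i τ

theorem isBoundedAtImInfty_fn_slash (r : ℕ) [Fact r.Prime] [NeZero r] (g : SL(2, ℤ)) :
    IsBoundedAtImInfty (fn r ∣[(2 : ℤ)] g) := by
  have hr : 2 ≤ r := (Fact.out : r.Prime).two_le
  by_cases hg : g ∈ CongruenceSubgroup.Gamma0 r
  · rw [fn_slash_of_mem r hr g hg]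
    exact isBoundedAtImInfty_fn r hr
  · obtain ⟨γ, hγ, i, -, rfl⟩ := exists_mem_Gamma0_mul r g hg
    rw [SlashAction.slash_mul, fn_slash_of_mem r hr γ hγ, fn_slash_S_T r hr]
    exact isBoundedAtImInfty_fn_divN r hr i

/-- `G_r` as a modular form of weight `2` on `Γ₀(r)`, `r` prime. -/
def form (r : ℕ) [Fact r.Prime] [NeZero r] : ModularForm (CongruenceSubgroup.Gamma0 r) 2 where
  toFun := fn r
  slash_action_eq' A hA := by
    obtain ⟨A, hA, rfl⟩ := hA
    exact fn_slash_of_mem r (Fact.out : r.Prime).two_le A hA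
  holo' := mdiff_fn r
  bdd_at_cusps' {c} hc := by
    rw [Subgroup.IsArithmetic.isCusp_iff_isCusp_SL2Z] at hc
    rw [OnePoint.isBoundedAt_iff_forall_SL2Z hc]
    exact fun γ _ => isBoundedAtImInfty_fn_slash r γ

@[simp] theorem coe_form (r : ℕ) [Fact r.Prime] [NeZero r] : ⇑(form r) = fn r := rfl

theorem mdiff_fn_divN (r : ℕ) [NeZero r] (i : ℤ) :
    MDiff (fun z => -(1 / (r : ℂ)) * fn r (divN r i z)) := by
  have h1 := mdiff_comp_divN (fn r) (mdiff_fn r) r i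
  rw [UpperHalfPlane.mdifferentiable_iff] at h1 ⊢
  exact h1.const_mul _

/-- `G_r = 1 + (24/(r−1)) ∑ σ^{(r)}(n) qⁿ`. -/
theorem qExpansion_fn (r : ℕ) [NeZero r] (hr : 2 ≤ r) (n : ℕ) :
    PowerSeries.coeff n (qExpansion 1 (fn r)) = coeffG r n :=
  qExpansion_coeff_of_hasSum one_pos (mdiff_fn r) (fun τ => hasSum_fn r hr τ) n

/-- The expansion of the conjugate `G_r ∣ S T^i` in `q^{1/r}`. -/
theorem qExpansion_fn_slash_S_T (r : ℕ) [NeZero r] (hr : 2 ≤ r) (i : ℤ) (n : ℕ) :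
    PowerSeries.coeff n
        (qExpansion (r : ℝ) (fn r ∣[(2 : ℤ)] (ModularGroup.S * ModularGroup.T ^ i))) =
      -(1 / (r : ℂ)) * coeffG r n * zeta r i ^ n := by
  rw [fn_slash_S_T r hr]
  exact qExpansion_coeff_of_hasSum (Nat.cast_pos.mpr (NeZero.pos r)) (mdiff_fn_divN r i)
    (fun τ => hasSum_fn_divN r hr i τ) n

/-- Every `SL(2, ℤ)`-conjugate of `G_r` is `G_r` itself or one of the `G_r ∣ S T^i`. -/
theorem fn_slash_cases (r : ℕ) [Fact r.Prime] [NeZero r] (g : SL(2, ℤ)) :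
    fn r ∣[(2 : ℤ)] g = fn r ∨
      ∃ i : ℕ, i < r ∧ fn r ∣[(2 : ℤ)] g = fun z => -(1 / (r : ℂ)) * fn r (divN r i z) := by
  have hr : 2 ≤ r := (Fact.out : r.Prime).two_le
  by_cases hg : g ∈ CongruenceSubgroup.Gamma0 r
  · exact Or.inl (fn_slash_of_mem r hr g hg)
  · obtain ⟨γ, hγ, i, hi, rfl⟩ := exists_mem_Gamma0_mul r g hg
    refine Or.inr ⟨i, hi, ?_⟩
    rw [SlashAction.slash_mul, fn_slash_of_mem r hr γ hγ, fn_slash_S_T r hr]

end Fermat.Agent.S16.Gr
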