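import Mathlib
import Fermat.Agent.S16.Gr

/-!
# S16, leaf (b), part 1: the trace to level one of a form on `Γ₀(p)`, by hand

`IsMF p k f` (raw functions), the conjugates `conj f k x = f ∣ S T^x` (`x : ZMod p`),
`tr p f k = f + ∑ x, conj f k x` is a level-one form (`trForm`), hence `0` in weight `2`
and a multiple of `E₄` in weight `4`.
-/

set_option autoImplicit false

open UpperHalfPlane hiding I
open ModularForm Complex MatrixGroups Function ModularGroup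
open scoped Real Manifold

noncomputable section

namespace Fermat.Agent.S16.ConjTrace

open Fermat.Agent.S16.Gr

variable {p : ℕ} [Fact p.Prime] {k : ℤ}

/-- `f` is a modular form of weight `k` on `Γ₀(p)`, as a predicate on raw functions. -/
structure IsMF (p : ℕ) (k : ℤ) (f : ℍ → ℂ) : Prop where
  holo : MDiff f
  inv : ∀ γ ∈ CongruenceSubgroup.Gamma0 p, f ∣[k] γ = f
  bdd : ∀ g : SL(2, ℤ), IsBoundedAtImInfty (f ∣[k] g)

theorem isMF_of_modularForm (F : ModularForm (CongruenceSubgroup.Gamma0 p) k) :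
    IsMF p k (⇑F) where
  holo := F.holo'
  inv γ hγ := by
    rw [SL_slash]
    exact F.slash_action_eq' _ (Subgroup.mem_map_of_mem _ hγ)
  bdd g := ModularFormClass.bdd_at_infty_slash F g

omit [Fact p.Prime] in
theorem IsMF.mul {f g : ℍ → ℂ} {k1 k2 : ℤ} (hf : IsMF p k1 f) (hg : IsMF p k2 g) :
    IsMF p (k1 + k2) (f * g) where
  holo := hf.holo.mul hg.holo
  inv γ hγ := by rw [mul_slash_SL2, hf.inv γ hγ, hg.inv γ hγ]
  bdd γ := by
    rw [mul_slash_SL2]
    exact (hf.bdd γ).mul (hg.bdd γ)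

/-! ### Coset representatives -/

/-- helper2's shape of the coset lemma. -/
theorem coset_cases (g : SL(2, ℤ)) :
    g ∈ CongruenceSubgroup.Gamma0 p ∨
      ∃ γ ∈ CongruenceSubgroup.Gamma0 p, ∃ j : ℕ, j < p ∧ g = γ * S * T ^ (j : ℤ) := by
  by_cases hg : g ∈ CongruenceSubgroup.Gamma0 p
  · exact Or.inl hg
  · obtain ⟨γ, hγ, i, hi, rfl⟩ := exists_mem_Gamma0_mul p g hg
    exact Or.inr ⟨γ, hγ, i, hi, by rw [mul_assoc]⟩

/-- The class `d / c ∈ 𝔽_p` of a matrix outside `Γ₀(p)`. -/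
def cls (p : ℕ) (g : SL(2, ℤ)) : ZMod p := (g 1 1 : ZMod p) * ((g 1 0 : ℤ) : ZMod p)⁻¹

theorem mul_ST_inv_mem (g : SL(2, ℤ)) (hg : ((g 1 0 : ℤ) : ZMod p) ≠ 0) :
    g * (S * T ^ (((cls p g).val : ℕ) : ℤ))⁻¹ ∈ CongruenceSubgroup.Gamma0 p := by
  rw [CongruenceSubgroup.Gamma0_mem, entry_mul_ST_inv]
  push_cast
  rw [ZMod.natCast_zmod_val, cls]
  field_simp
  ring

/-- The conjugates `f ∣ S T^x`, `x ∈ 𝔽_p`. -/
def conj (f : ℍ → ℂ) (k : ℤ) (x : ZMod p) : ℍ → ℂ := f ∣[k] (S * T ^ ((x.val : ℕ) : ℤ))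

theorem IsMF.slash_eq_conj {f : ℍ → ℂ} (hf : IsMF p k f) (g : SL(2, ℤ))
    (hg : ((g 1 0 : ℤ) : ZMod p) ≠ 0) : f ∣[k] g = conj f k (cls p g) := by
  have h := mul_ST_inv_mem g hg
  have e : g = (g * (S * T ^ (((cls p g).val : ℕ) : ℤ))⁻¹) * (S * T ^ (((cls p g).val : ℕ) : ℤ)) := by
    rw [inv_mul_cancel_right]
  conv_lhs => rw [e]
  rw [SlashAction.slash_mul, hf.inv _ h, conj]

theorem IsMF.slash_eq_self {f : ℍ → ℂ} (hf : IsMF p k f) (g : SL(2, ℤ))
    (hg : ((g 1 0 : ℤ) : ZMod p) = 0) : f ∣[k] g = f :=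
  hf.inv g (CongruenceSubgroup.Gamma0_mem.mpr hg)

theorem ST_entries (i : ℤ) : (S * T ^ i) 1 0 = 1 ∧ (S * T ^ i) 1 1 = i := by
  simp only [Matrix.SpecialLinearGroup.coe_mul, ModularGroup.coe_T_zpow, ModularGroup.coe_S,
    Matrix.mul_apply, Fin.sum_univ_two]
  simp

theorem STS_entries (i : ℤ) : (S * T ^ i * S) 1 0 = i ∧ (S * T ^ i * S) 1 1 = -1 := by
  simp only [Matrix.SpecialLinearGroup.coe_mul, ModularGroup.coe_T_zpow, ModularGroup.coe_S,
    Matrix.mul_apply, Fin.sum_univ_two]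
  simp

theorem IsMF.slash_ST {f : ℍ → ℂ} (hf : IsMF p k f) (i : ℤ) :
    f ∣[k] (S * T ^ i) = conj f k (i : ZMod p) := by
  have h1 : (((S * T ^ i) 1 0 : ℤ) : ZMod p) ≠ 0 := by
    rw [(ST_entries i).1]; simp
  rw [hf.slash_eq_conj _ h1, cls, (ST_entries i).1, (ST_entries i).2]
  simp

theorem IsMF.conj_slash_T {f : ℍ → ℂ} (hf : IsMF p k f) (x : ZMod p) :
    conj f k x ∣[k] T = conj f k (x + 1) := by
  rw [conj, ← SlashAction.slash_mul, mul_assoc, ← zpow_add_one, hf.slash_ST]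
  push_cast
  rw [ZMod.natCast_zmod_val]

theorem IsMF.slash_T {f : ℍ → ℂ} (hf : IsMF p k f) : f ∣[k] T = f := by
  apply hf.slash_eq_self
  have : (T 1 0 : ℤ) = 0 := by simp [ModularGroup.T]
  rw [this]; simp

theorem IsMF.slash_S {f : ℍ → ℂ} (hf : IsMF p k f) : f ∣[k] S = conj f k (0 : ZMod p) := by
  have := hf.slash_ST 0
  simpa using this

theorem IsMF.conj_zero_slash_S {f : ℍ → ℂ} (hf : IsMF p k f) :
    conj f k (0 : ZMod p) ∣[k] S = f := by
  rw [← hf.slash_S, ← SlashAction.slash_mul]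
  apply hf.slash_eq_self
  have : ((S * S) 1 0 : ℤ) = 0 := by
    simp only [Matrix.SpecialLinearGroup.coe_mul, ModularGroup.coe_S, Matrix.mul_apply,
      Fin.sum_univ_two]
    simp
  rw [this]; simp

theorem IsMF.conj_slash_S {f : ℍ → ℂ} (hf : IsMF p k f) (x : ZMod p) (hx : x ≠ 0) :
    conj f k x ∣[k] S = conj f k (-x⁻¹) := by
  rw [conj, ← SlashAction.slash_mul]
  have h1 : (((S * T ^ ((x.val : ℕ) : ℤ) * S) 1 0 : ℤ) : ZMod p) ≠ 0 := by
    rw [(STS_entries _).1]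
    push_cast
    rwa [ZMod.natCast_zmod_val]
  rw [hf.slash_eq_conj _ h1, cls, (STS_entries _).1, (STS_entries _).2]
  push_cast
  rw [ZMod.natCast_zmod_val]
  congr 1
  ring

/-- The trace to level one, as a raw function. -/
def tr (p : ℕ) [Fact p.Prime] (f : ℍ → ℂ) (k : ℤ) : ℍ → ℂ := f + ∑ x : ZMod p, conj f k x

theorem IsMF.tr_slash_T {f : ℍ → ℂ} (hf : IsMF p k f) : tr p f k ∣[k] T = tr p f k := by
  rw [tr, SlashAction.add_slash, SlashAction.sum_slash, hf.slash_T]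
  congr 1
  simp only [hf.conj_slash_T]
  exact Equiv.sum_comp (Equiv.addRight (1 : ZMod p)) (conj f k)

theorem neg_inv_involutive : Function.Involutive (fun x : ZMod p => -x⁻¹) := by
  intro x
  simp

theorem IsMF.tr_slash_S {f : ℍ → ℂ} (hf : IsMF p k f) : tr p f k ∣[k] S = tr p f k := by
  rw [tr, SlashAction.add_slash, SlashAction.sum_slash, hf.slash_S]
  have h1 : ∑ x : ZMod p, conj f k x ∣[k] S
      = f + ∑ x ∈ Finset.univ.erase (0 : ZMod p), conj f k (-x⁻¹) := by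
    rw [← Finset.add_sum_erase Finset.univ _ (Finset.mem_univ (0 : ZMod p)), hf.conj_zero_slash_S]
    congr 1
    apply Finset.sum_congr rfl
    intro x hx
    exact hf.conj_slash_S x (Finset.ne_of_mem_erase hx)
  have h2 : ∑ x : ZMod p, conj f k x
      = conj f k (0 : ZMod p) + ∑ x ∈ Finset.univ.erase (0 : ZMod p), conj f k (-x⁻¹) := by
    rw [← Equiv.sum_comp (neg_inv_involutive (p := p)).toPerm (conj f k),
      ← Finset.add_sum_erase Finset.univ _ (Finset.mem_univ (0 : ZMod p))]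
    simp
  rw [h1, h2]
  abel

theorem IsMF.tr_slash {f : ℍ → ℂ} (hf : IsMF p k f) (γ : SL(2, ℤ)) :
    tr p f k ∣[k] γ = tr p f k :=
  SlashInvariantForm.slash_action_generators_SL2Z hf.tr_slash_S hf.tr_slash_T γ


omit [Fact p.Prime] in
theorem IsMF.holo_slash {f : ℍ → ℂ} (hf : IsMF p k f) (g : SL(2, ℤ)) : MDiff (f ∣[k] g) := by
  rw [SL_slash]
  exact hf.holo.slash k _

omit [Fact p.Prime] in
theorem IsMF.holo_conj {f : ℍ → ℂ} (hf : IsMF p k f) (x : ZMod p) : MDiff (conj f k x) :=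
  hf.holo_slash _

omit [Fact p.Prime] in
theorem IsMF.bdd_conj {f : ℍ → ℂ} (hf : IsMF p k f) (x : ZMod p) :
    IsBoundedAtImInfty (conj f k x) :=
  hf.bdd _

omit [Fact p.Prime] in
theorem IsMF.bdd_self {f : ℍ → ℂ} (hf : IsMF p k f) : IsBoundedAtImInfty f := by
  have := hf.bdd 1
  simpa using this

theorem IsMF.holo_tr {f : ℍ → ℂ} (hf : IsMF p k f) : MDiff (tr p f k) := by
  unfold tr
  refine hf.holo.add ?_
  exact MDifferentiable.sum (fun x _ => hf.holo_conj x)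

theorem IsMF.bdd_tr {f : ℍ → ℂ} (hf : IsMF p k f) : IsBoundedAtImInfty (tr p f k) := by
  unfold tr
  refine hf.bdd_self.add ?_
  unfold Filter.BoundedAtFilter
  exact Asymptotics.IsBigO.sum (fun x _ => hf.bdd_conj x)

/-- The trace as a level-one modular form. -/
def trForm {f : ℍ → ℂ} (hf : IsMF p k f) : ModularForm 𝒮ℒ k where
  toFun := tr p f k
  slash_action_eq' A hA := by
    obtain ⟨γ, rfl⟩ := hA
    exact hf.tr_slash γ
  holo' := hf.holo_tr
  bdd_at_cusps' {c} hc := by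
    rw [OnePoint.isBoundedAt_iff_forall_SL2Z hc]
    intro γ _
    rw [hf.tr_slash γ]
    exact hf.bdd_tr

theorem coe_trForm {f : ℍ → ℂ} (hf : IsMF p k f) : ⇑(trForm hf) = tr p f k := rfl

theorem IsMF.tr_eq_zero {f : ℍ → ℂ} (hf : IsMF p 2 f) : tr p f 2 = 0 := by
  have h := rank_zero_iff_forall_zero.mp ModularForm.levelOne_weight_two_rank_zero (trForm hf)
  rw [← coe_trForm hf, h]
  rfl

theorem IsMF.tr_eq_smul_E4 {f : ℍ → ℂ} (hf : IsMF p 4 f) : ∃ t : ℂ, tr p f 4 = t • ⇑E₄ := by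
  obtain ⟨c4, hc4⟩ : ∃ c4, c4 • E₄ = trForm hf :=
    (finrank_eq_one_iff_of_nonzero' E₄ (EisensteinSeries.E_ne_zero _ ⟨2, rfl⟩)).mp
      (Module.rank_eq_one_iff_finrank_eq_one.mp ModularForm.levelOne_weight_four_rank_one) _
  refine ⟨c4, ?_⟩
  rw [← coe_trForm hf, ← hc4]
  rfl


/-! ### Translates -/

omit [Fact p.Prime] in
theorem slash_T_zpow' (f : ℍ → ℂ) (k : ℤ) (i : ℤ) :
    f ∣[k] (T ^ i) = fun z => f (T ^ i • z) := by
  funext z
  rw [SL_slash_apply, ModularGroup.denom_apply, ModularGroup.coe_T_zpow]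
  simp

/-- All conjugates are translates of `f ∣ S`. -/
theorem conj_eq_translate (f : ℍ → ℂ) (k : ℤ) (x : ZMod p) :
    conj f k x = fun z => conj f k (0 : ZMod p) (T ^ ((x.val : ℕ) : ℤ) • z) := by
  have h0 : conj f k (0 : ZMod p) = f ∣[k] S := by
    simp [conj]
  rw [h0, ← slash_T_zpow', ← SlashAction.slash_mul, conj]

omit [Fact p.Prime] in
theorem conj_mul (f g : ℍ → ℂ) (k1 k2 : ℤ) (x : ZMod p) :
    conj (f * g) (k1 + k2) x = conj f k1 x * conj g k2 x := by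
  simp only [conj, mul_slash_SL2]

end Fermat.Agent.S16.ConjTrace
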