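import Mathlib
import Fermat.Agent.S16.Gr
import Fermat.Agent.S16.ConjTrace

/-!
# S16, leaf (b): the Fricke twin

For `f` a weight-two form on `Γ₀(p)` (as a raw function, `ConjTrace.IsMF p 2 f`), the twin
`twin p f : z ↦ (f ∣ S)(p z)` is again a weight-two form on `Γ₀(p)` (`isMF_twin`), and
`(twin p f ∣ S)(z) = p⁻² f(z / p)` (`conj_twin_zero`).
-/

set_option autoImplicit false

open UpperHalfPlane hiding I
open ModularForm Complex MatrixGroups Function ModularGroup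
open scoped Real Manifold

noncomputable section

namespace Fermat.Agent.S16.Fricke

open Fermat.Agent.S16.Gr Fermat.Agent.S16.ConjTrace

variable {p : ℕ} [Fact p.Prime]

/-- The Fricke twin `z ↦ (f ∣ S)(p z)`. -/
def twin (p : ℕ) [Fact p.Prime] (f : ℍ → ℂ) : ℍ → ℂ :=
  fun z => conj f 2 (0 : ZMod p) (mulN p z)

omit [Fact p.Prime] in
/-- The value of a function at `γ z` in terms of its slash. -/
theorem apply_smul (g : ℍ → ℂ) (γ : SL(2, ℤ)) (z : ℍ) :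
    g (γ • z) = (g ∣[(2 : ℤ)] γ) z * ((γ 1 0 : ℂ) * z + γ 1 1) ^ 2 := by
  rw [SL_slash_apply, ModularGroup.denom_apply]
  have := SL_denom_ne_zero γ z
  rw [zpow_neg, zpow_ofNat]
  field_simp

omit [Fact p.Prime] in
theorem slash_apply' (g : ℍ → ℂ) (γ : SL(2, ℤ)) (z : ℍ) :
    (g ∣[(2 : ℤ)] γ) z = g (γ • z) * (((γ 1 0 : ℂ) * z + γ 1 1) ^ 2)⁻¹ := by
  rw [SL_slash_apply, ModularGroup.denom_apply, zpow_neg, zpow_ofNat]

theorem conj_zero_eq (f : ℍ → ℂ) : conj f 2 (0 : ZMod p) = f ∣[(2 : ℤ)] S := by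
  simp [conj]

omit [Fact p.Prime] in
/-- `S γ'` for the companion `γ'` of `γ ∈ Γ₀(p)` lies in the class `0`. -/
theorem S_mul_companion_entries (γ : SL(2, ℤ)) (c' : ℤ) (hc : γ 1 0 = p * c') :
    (S * companion p γ c' hc) 1 0 = γ 0 0 ∧ (S * companion p γ c' hc) 1 1 = p * γ 0 1 := by
  simp only [Matrix.SpecialLinearGroup.coe_mul, ModularGroup.coe_S, Matrix.mul_apply,
    Fin.sum_univ_two]
  simp [companion]

theorem unit_of_mem {γ : SL(2, ℤ)} (c' : ℤ) (hc : γ 1 0 = p * c') :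
    ((γ 0 0 : ℤ) : ZMod p) ≠ 0 := by
  intro h
  have hdet := γ.det_coe
  rw [Matrix.det_fin_two, hc] at hdet
  have h2 := congrArg (Int.cast : ℤ → ZMod p) hdet
  push_cast at h2
  rw [h, ZMod.natCast_self] at h2
  simp at h2

theorem twin_slash_of_mem {f : ℍ → ℂ} (hf : IsMF p 2 f) (γ : SL(2, ℤ))
    (hγ : γ ∈ CongruenceSubgroup.Gamma0 p) : twin p f ∣[(2 : ℤ)] γ = twin p f := by
  rw [CongruenceSubgroup.Gamma0_mem] at hγ
  obtain ⟨c', hc⟩ := (ZMod.intCast_zmod_eq_zero_iff_dvd _ _).mp hγ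
  funext z
  rw [slash_apply']
  show conj f 2 (0 : ZMod p) (mulN p (γ • z)) * _ = conj f 2 (0 : ZMod p) (mulN p z)
  rw [mulN_smul p γ c' hc z,
    apply_smul (conj f 2 (0 : ZMod p)) (companion p γ c' hc) (mulN p z)]
  have e10 : (companion p γ c' hc) 1 0 = c' := rfl
  have e11 : (companion p γ c' hc) 1 1 = γ 1 1 := rfl
  rw [e10, e11, coe_mulN]
  have hcc : (γ 1 0 : ℂ) = p * c' := by exact_mod_cast congrArg (Int.cast : ℤ → ℂ) hc
  have hne := SL_denom_ne_zero γ z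
  rw [hcc] at hne ⊢
  have hne' : ((c' : ℂ) * ((p : ℂ) * z) + γ 1 1) ≠ 0 := by
    convert hne using 1; ring
  -- the slash of `f ∣ S` by the companion
  have hsl : conj f 2 (0 : ZMod p) ∣[(2 : ℤ)] companion p γ c' hc = conj f 2 (0 : ZMod p) := by
    rw [conj_zero_eq, ← SlashAction.slash_mul]
    have hent := S_mul_companion_entries (p := p) γ c' hc
    have h1 : (((S * companion p γ c' hc) 1 0 : ℤ) : ZMod p) ≠ 0 := by
      rw [hent.1]; exact unit_of_mem c' hc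
    rw [hf.slash_eq_conj _ h1, cls, hent.1, hent.2, ← conj_zero_eq (p := p)]
    congr 1
    push_cast
    rw [ZMod.natCast_self]
    ring
  rw [hsl]
  have : ((p : ℂ) * c' * z + γ 1 1) = ((c' : ℂ) * ((p : ℂ) * z) + γ 1 1) := by ring
  rw [this, mul_assoc, mul_inv_cancel₀ (pow_ne_zero 2 hne'), mul_one]

/-- `(twin p f ∣ S)(z) = p⁻² f(z / p)`. -/
theorem conj_twin_zero {f : ℍ → ℂ} (hf : IsMF p 2 f) (z : ℍ) :
    conj (twin p f) 2 (0 : ZMod p) z = (1 / (p : ℂ)) ^ 2 * f (divN p 0 z) := by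
  have hp0 : (p : ℂ) ≠ 0 := Nat.cast_ne_zero.mpr (NeZero.ne p)
  rw [conj_zero_eq, slash_apply']
  show conj f 2 (0 : ZMod p) (mulN p (S • z)) * _ = _
  rw [mulN_S_smul, apply_smul (conj f 2 (0 : ZMod p)) S (divN p 0 z), hf.conj_zero_slash_S,
    S_entries.1, S_entries.2]
  have hz : (z : ℂ) ≠ 0 := UpperHalfPlane.ne_zero z
  simp only [coe_divN, Int.cast_zero, Int.cast_one, add_zero, one_mul]
  field_simp

omit [Fact p.Prime] in
theorem slash_T_zpow_two (g : ℍ → ℂ) (i : ℤ) (z : ℍ) :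
    (g ∣[(2 : ℤ)] (T ^ i)) z = g (T ^ i • z) := by
  rw [Gr.slash_T_zpow]

theorem twin_slash_ST {f : ℍ → ℂ} (hf : IsMF p 2 f) (j : ℤ) (z : ℍ) :
    (twin p f ∣[(2 : ℤ)] (S * T ^ j)) z = (1 / (p : ℂ)) ^ 2 * f (divN p j z) := by
  rw [SlashAction.slash_mul, slash_T_zpow_two, ← conj_zero_eq (p := p), conj_twin_zero hf,
    divN_T_zpow_smul]

omit [Fact p.Prime] in
theorem mulN_divN' [NeZero p] (z : ℍ) : divN p 0 (mulN p z) = z := by
  have hr : (p : ℂ) ≠ 0 := Nat.cast_ne_zero.mpr (NeZero.ne p)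
  apply UpperHalfPlane.ext
  simp only [coe_mulN, coe_divN]
  push_cast
  field_simp
  ring

theorem mdiff_twin {f : ℍ → ℂ} (hf : IsMF p 2 f) : MDiff (twin p f) :=
  mdiff_comp (conj f 2 (0 : ZMod p)) (hf.holo_conj 0) (mulN p) (fun w => (p : ℂ) * w)
    (by fun_prop) (fun z => rfl)

omit [Fact p.Prime] in
theorem im_mulN [NeZero p] (z : ℍ) : (mulN p z).im = p * z.im := by
  change ((p : ℂ) * (z : ℂ)).im = p * z.im
  rw [show ((p : ℂ)) = ((p : ℝ) : ℂ) by simp, Complex.im_ofReal_mul]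
  rfl

theorem bdd_twin {f : ℍ → ℂ} (hf : IsMF p 2 f) : IsBoundedAtImInfty (twin p f) := by
  have h := hf.bdd_conj (0 : ZMod p)
  rw [isBoundedAtImInfty_iff] at h ⊢
  obtain ⟨M, A, hMA⟩ := h
  refine ⟨M, max A 0, fun z hz => ?_⟩
  apply hMA
  rw [im_mulN]
  have hp1 : (1 : ℝ) ≤ p := by exact_mod_cast (Fact.out : p.Prime).one_lt.le
  have hz0 : 0 ≤ z.im := z.im_pos.le
  calc A ≤ max A 0 := le_max_left _ _
    _ ≤ z.im := hz
    _ = 1 * z.im := (one_mul _).symm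
    _ ≤ p * z.im := mul_le_mul_of_nonneg_right hp1 hz0

theorem bdd_twin_slash_ST {f : ℍ → ℂ} (hf : IsMF p 2 f) (j : ℤ) :
    IsBoundedAtImInfty (twin p f ∣[(2 : ℤ)] (S * T ^ j)) := by
  have h := hf.bdd_self
  rw [isBoundedAtImInfty_iff] at h ⊢
  obtain ⟨M, A, hMA⟩ := h
  refine ⟨‖(1 / (p : ℂ)) ^ 2‖ * M, p * max A 0, fun z hz => ?_⟩
  rw [twin_slash_ST hf, norm_mul]
  refine mul_le_mul_of_nonneg_left ?_ (norm_nonneg _)
  apply hMA
  rw [im_divN]
  have hp0 : (0 : ℝ) < p := Nat.cast_pos.mpr (NeZero.pos p)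
  rw [le_div_iff₀ hp0]
  calc A * p ≤ max A 0 * p := mul_le_mul_of_nonneg_right (le_max_left _ _) hp0.le
    _ = p * max A 0 := mul_comm _ _
    _ ≤ z.im := hz

/-- **The Fricke twin is a modular form of weight two on `Γ₀(p)`.** -/
theorem isMF_twin {f : ℍ → ℂ} (hf : IsMF p 2 f) : IsMF p 2 (twin p f) where
  holo := mdiff_twin hf
  inv γ hγ := twin_slash_of_mem hf γ hγ
  bdd g := by
    rcases coset_cases (p := p) g with hg | ⟨γ, hγ, j, -, rfl⟩
    · rw [twin_slash_of_mem hf g hg]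
      exact bdd_twin hf
    · rw [mul_assoc, SlashAction.slash_mul, twin_slash_of_mem hf γ hγ]
      exact bdd_twin_slash_ST hf j

/-- The twin of the twin is `p⁻² f`. -/
theorem twin_twin {f : ℍ → ℂ} (hf : IsMF p 2 f) (z : ℍ) :
    twin p (twin p f) z = (1 / (p : ℂ)) ^ 2 * f z := by
  show conj (twin p f) 2 (0 : ZMod p) (mulN p z) = _
  rw [conj_twin_zero hf, mulN_divN']

/-! ### Bundled versions -/

/-- A raw function satisfying `IsMF p 2` as a bundled modular form. -/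
def toForm {g : ℍ → ℂ} (hg : IsMF p 2 g) : ModularForm (CongruenceSubgroup.Gamma0 p) 2 where
  toFun := g
  slash_action_eq' A hA := by
    obtain ⟨A, hA, rfl⟩ := hA
    exact hg.inv A hA
  holo' := hg.holo
  bdd_at_cusps' {c} hc := by
    rw [Subgroup.IsArithmetic.isCusp_iff_isCusp_SL2Z] at hc
    rw [OnePoint.isBoundedAt_iff_forall_SL2Z hc]
    exact fun γ _ => hg.bdd γ

@[simp] theorem coe_toForm {g : ℍ → ℂ} (hg : IsMF p 2 g) : ⇑(toForm hg) = g := rfl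

/-- The Fricke twin of a bundled modular form. -/
def twinForm (F : ModularForm (CongruenceSubgroup.Gamma0 p) 2) :
    ModularForm (CongruenceSubgroup.Gamma0 p) 2 :=
  toForm (isMF_twin (isMF_of_modularForm F))

@[simp] theorem coe_twinForm (F : ModularForm (CongruenceSubgroup.Gamma0 p) 2) :
    ⇑(twinForm F) = twin p ⇑F := rfl

theorem slash_S_eq_twin (F : ModularForm (CongruenceSubgroup.Gamma0 p) 2) (τ : ℍ) :
    (⇑F ∣[(2 : ℤ)] S) τ = twin p ⇑F (divN p 0 τ) := by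
  show _ = conj (⇑F) 2 (0 : ZMod p) (mulN p (divN p 0 τ))
  rw [mulN_divN, conj_zero_eq]

/-- helper2's shape: the normalised twin `F' = p • twin`, with `F ∣ S = p⁻¹ F'(z / p)` and
`F' ∣ S = p⁻¹ F(z / p)`. -/
theorem exists_twin (p : ℕ) [Fact p.Prime] (F : ModularForm (CongruenceSubgroup.Gamma0 p) 2) :
    ∃ F' : ModularForm (CongruenceSubgroup.Gamma0 p) 2,
      (∀ τ : ℍ, (⇑F ∣[(2 : ℤ)] S) τ = (1 / (p : ℂ)) * F' (divN p 0 τ)) ∧
      (∀ τ : ℍ, (⇑F' ∣[(2 : ℤ)] S) τ = (1 / (p : ℂ)) * F (divN p 0 τ)) := by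
  have hp0 : (p : ℂ) ≠ 0 := Nat.cast_ne_zero.mpr (NeZero.ne p)
  refine ⟨(p : ℂ) • twinForm F, fun τ => ?_, fun τ => ?_⟩
  · rw [slash_S_eq_twin]
    show _ = 1 / (p : ℂ) * ((p : ℂ) • twin p ⇑F (divN p 0 τ))
    rw [smul_eq_mul]
    field_simp
  · rw [slash_apply']
    show ((p : ℂ) • twin p ⇑F (S • τ)) * _ = _
    have h := conj_twin_zero (isMF_of_modularForm F) τ
    rw [conj_zero_eq, slash_apply'] at h
    rw [smul_eq_mul, mul_assoc, h]
    field_simp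

end Fermat.Agent.S16.Fricke
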