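import Mathlib
import Fermat.Prelude.Def_ModularCurve_GenusNumerics
import Fermat.Prelude.Def_ModularCurve_ModularUnit
import Fermat.Agent.S07
import Fermat.Agent.S20
import Fermat.Agent.S16.Dual

/-!
# S16: the levels `p = 2, 3`

There are no cusp forms of weight `2` on `Γ₀(2)` (S07) and on `Γ₀(3)` (S20 and
`genusFormula 3 = 0`); hence the `q`-expansion statement `hQ` of `Dual.upper_of_q` holds
trivially for these levels.
-/

set_option autoImplicit false

namespace Fermat.Agent.S16.Small

open ModularCurve CuspForm CongruenceSubgroup ModularFormClass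

theorem nuTwo_three : nuTwo 3 = 0 := by
  rw [nuTwo, Nat.card_eq_fintype_card]
  decide

theorem nuThree_three : nuThree 3 = 1 := by
  rw [nuThree, Nat.card_eq_fintype_card]
  decide

theorem cuspCount_three : cuspCount 3 = 2 := by
  decide

theorem dedekindPsi_three : dedekindPsi 3 = 4 := by
  have h : (3 : ℕ).divisors = {1, 3} := by decide
  have h1 : Squarefree (1 : ℕ) := squarefree_one
  have h3 : Squarefree (3 : ℕ) := Nat.prime_three.squarefree
  rw [dedekindPsi, h, Finset.filter_insert, if_pos h1, Finset.filter_singleton, if_pos h3]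
  decide

theorem genusFormula_three : genusFormula 3 = 0 := by
  rw [genusFormula, nuTwo_three, nuThree_three, cuspCount_three, dedekindPsi_three]
  norm_num

/-- no cusp forms of weight `2` and level `3` -/
theorem cuspForm_three_eq_zero (f : CuspForm (Gamma0 3) 2) : f = 0 := by
  have h := Fermat.Agent.S20.result 3
  rw [genusFormula_three] at h
  have h0 : Module.finrank ℂ (CuspForm (Gamma0 3) 2) = 0 := by exact_mod_cast h
  have hfin : FiniteDimensional ℂ (CuspForm (Gamma0 3 : Subgroup (GL (Fin 2) ℝ)) 2) :=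
    LinearEquiv.finiteDimensional (Fermat.Agent.S20.cuspFormEquiv 3 2).symm
  have := Module.finrank_zero_iff.mp h0
  exact Subsingleton.elim f 0

/-- no cusp forms of weight `2` and prime level `p < 5` -/
theorem cuspForm_eq_zero_of_lt_five (p : ℕ) [Fact p.Prime] (hp : p < 5)
    (f : CuspForm (Gamma0 p) 2) : f = 0 := by
  have hpp : p.Prime := Fact.out
  have h2 := hpp.two_le
  obtain rfl | rfl | rfl : p = 2 ∨ p = 3 ∨ p = 4 := by omega
  · exact Fermat.Agent.S07.result f
  · exact cuspForm_three_eq_zero f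
  · exact absurd hpp (by decide)

/-- the `q`-expansion statement for levels without cusp forms -/
theorem q_of_forall_eq_zero (p : ℕ) [Fact p.Prime]
    (h0 : ∀ f : CuspForm (Gamma0 p) 2, f = 0) : ∀ m : ℕ, 0 < m →
    ∀ f : CuspForm (Gamma0 p) 2,
      (∀ k : ℕ, 0 < k → ∃ z : ℤ, qCoeff ⇑f k =
        (Fermat.Agent.S16.Dual.sigmaStar p k : ℂ) + (m : ℂ) * z) →
        m ∣ eisensteinNumerator p := by
  intro m _ f hf
  obtain ⟨z, hz⟩ := hf 1 one_pos
  rw [h0 f, Fermat.Agent.S49.qc_zero, Fermat.Agent.S16.Dual.sigmaStar_one Fact.out] at hz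
  have h1 : (1 : ℤ) + (m : ℤ) * z = 0 := by
    have : ((1 + (m : ℤ) * z : ℤ) : ℂ) = 0 := by
      push_cast
      rw [Nat.cast_one] at hz
      exact hz.symm
    exact_mod_cast this
  have h2 : (m : ℤ) ∣ 1 := ⟨-z, by linarith⟩
  have h3 : m = 1 := by
    have := Int.natAbs_dvd_natAbs.mpr h2
    simpa using this
  rw [h3]
  exact one_dvd _

/-- the `q`-expansion statement for `p = 2, 3` -/
theorem q_of_lt_five (p : ℕ) [Fact p.Prime] (hp : p < 5) : ∀ m : ℕ, 0 < m →
    ∀ f : CuspForm (Gamma0 p) 2,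
      (∀ k : ℕ, 0 < k → ∃ z : ℤ, qCoeff ⇑f k =
        (Fermat.Agent.S16.Dual.sigmaStar p k : ℂ) + (m : ℂ) * z) →
        m ∣ eisensteinNumerator p :=
  q_of_forall_eq_zero p (cuspForm_eq_zero_of_lt_five p hp)

end Fermat.Agent.S16.Small
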