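import Mathlib
import Fermat.Agent.S20.Basic

/-!
# S16, leaf (d): the auxiliary Eisenstein forms `G_r`

For `r ≥ 2` let `G_r(z) = (r E₂(r z) - E₂(z)) / (r - 1)` (`E₂` = Mathlib's quasi-modular
Eisenstein series).

* `GrFun r` : the function; `GrFun_slash` : invariance of weight `2` under `Γ₀(r)`;
* `isMF_GrFun` / `Gr r hr` / `GrP p` : `G_r ∈ M₂(Γ₀(r))` for `r` prime (as `S20.IsMF` and as a
  bundled Mathlib `ModularForm`);
* `hasSum_GrFun`, `qExpansion_GrFun`, `qExpansion_Gr_coeff_zero`, `qExpansion_Gr_coeff` :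
  the `q`-expansion `G_r = 1 + (24 / (r - 1)) ∑_{n ≥ 1} σ^{(r)}(n) qⁿ`,
  `σ^{(r)}(n) = ∑_{d ∣ n, r ∤ d} d`; `coeffGr_two`, `coeffGr_three` : integrality for `r = 2, 3`;
* `GrFun_slash_S`, `GrFun_slash_S_T` : the conjugates at the cusp `0`,
  `(G_r ∣ S T^j)(z) = -(1/r) G_r((z + j) / r)`, with their expansions in `q^{1/r}`
  (`hasSum_GrFun_slash_S_T`, `qExpansion_GrFun_slash_S_T`);
* `exists_coset` : `SL₂(ℤ) = Γ₀(r) ∪ ⋃_j Γ₀(r) S T^j` for `r` prime;
* `qExpansion_coeff_of_hasSum` : a holomorphic function on `ℍ` given by a convergent series in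
  `q_h` has that series as its `q`-expansion (for plain functions).
-/

set_option autoImplicit false
set_option linter.unusedSectionVars false
set_option linter.style.haveILetI false

namespace Fermat.Agent.S16.AuxEis

open UpperHalfPlane ModularForm EisensteinSeries CongruenceSubgroup Matrix.SpecialLinearGroup
open Fermat.Agent.S20
open scoped MatrixGroups ModularForm Manifold

variable (r : ℕ) [NeZero r]

/-- The point `r z` of the upper half plane. -/
noncomputable def scale (z : ℍ) : ℍ :=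
  ⟨(r : ℂ) * z, by
    have hr : (0 : ℝ) < r := Nat.cast_pos.mpr (NeZero.pos r)
    simpa using mul_pos hr z.im_pos⟩

/-- The point `z / r` of the upper half plane. -/
noncomputable def unscale (z : ℍ) : ℍ :=
  ⟨(z : ℂ) / r, by
    have hr : (0 : ℝ) < r := Nat.cast_pos.mpr (NeZero.pos r)
    have : ((z : ℂ) / r).im = z.im / r := by
      rw [Complex.div_natCast_im]; rfl
    rw [this]
    exact div_pos z.im_pos hr⟩

@[simp] theorem coe_scale (z : ℍ) : ((scale r z : ℍ) : ℂ) = (r : ℂ) * z := rfl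

@[simp] theorem coe_unscale (z : ℍ) : ((unscale r z : ℍ) : ℂ) = (z : ℂ) / r := rfl

theorem scale_unscale (z : ℍ) : scale r (unscale r z) = z := by
  apply UpperHalfPlane.ext
  have hr : (r : ℂ) ≠ 0 := Nat.cast_ne_zero.mpr (NeZero.ne r)
  simp only [coe_scale, coe_unscale]
  field_simp

theorem unscale_scale (z : ℍ) : unscale r (scale r z) = z := by
  apply UpperHalfPlane.ext
  have hr : (r : ℂ) ≠ 0 := Nat.cast_ne_zero.mpr (NeZero.ne r)
  simp only [coe_scale, coe_unscale]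
  field_simp

/-- The function `G_r(z) = (r E₂(r z) - E₂(z)) / (r - 1)`. -/
noncomputable def GrFun : ℍ → ℂ := fun z ↦ ((r : ℂ) * E2 (scale r z) - E2 z) / ((r : ℂ) - 1)

theorem GrFun_apply (z : ℍ) :
    GrFun r z = ((r : ℂ) * E2 (scale r z) - E2 z) / ((r : ℂ) - 1) := rfl

/-- The transformation law of `E₂` in explicit form. -/
theorem E2_smul (γ : SL(2, ℤ)) (z : ℍ) :
    E2 (γ • z) = ((γ 1 0 : ℂ) * z + γ 1 1) ^ 2 *
      (E2 z - (1 / (2 * riemannZeta 2)) * (2 * Real.pi * Complex.I * (γ 1 0 : ℂ) /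
        ((γ 1 0 : ℂ) * z + γ 1 1))) := by
  have h := congrFun (E2_slash_action γ) z
  rw [SL_slash_apply, ModularGroup.denom_apply] at h
  have hd : ((γ 1 0 : ℂ) * z + γ 1 1) ≠ 0 := by
    have := UpperHalfPlane.denom_ne_zero (toGL ((map (Int.castRingHom ℝ)) γ)) z
    rwa [ModularGroup.denom_apply] at this
  simp only [Pi.sub_apply, Pi.smul_apply, smul_eq_mul, D2, ModularGroup.denom_apply] at h
  rw [← h]
  rw [zpow_neg, zpow_ofNat]
  field_simp

theorem denom_ne (γ : SL(2, ℤ)) (z : ℍ) : ((γ 1 0 : ℂ) * z + γ 1 1) ≠ 0 := by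
  have := UpperHalfPlane.denom_ne_zero (toGL ((map (Int.castRingHom ℝ)) γ)) z
  rwa [ModularGroup.denom_apply] at this

theorem coe_smul_SL (γ : SL(2, ℤ)) (z : ℍ) :
    ((γ • z : ℍ) : ℂ) = ((γ 0 0 : ℂ) * z + γ 0 1) / ((γ 1 0 : ℂ) * z + γ 1 1) := by
  rw [UpperHalfPlane.specialLinearGroup_apply]
  simp

/-- The conjugate `(a, r b; c / r, d)` of an element `(a, b; c, d)` of `Γ₀(r)`. -/
def conjMat (γ : SL(2, ℤ)) (c' : ℤ) (hc : γ 1 0 = r * c') : SL(2, ℤ) :=
  ⟨!![γ 0 0, r * γ 0 1; c', γ 1 1], by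
    have h := γ.det_coe
    rw [Matrix.det_fin_two] at h
    rw [Matrix.det_fin_two_of]
    rw [hc] at h
    linear_combination h⟩

theorem scale_smul (γ : SL(2, ℤ)) (c' : ℤ) (hc : γ 1 0 = r * c') (z : ℍ) :
    scale r (γ • z) = conjMat r γ c' hc • scale r z := by
  apply UpperHalfPlane.ext
  rw [coe_scale, coe_smul_SL, coe_smul_SL, coe_scale]
  have hd := denom_ne γ z
  have hc' : (γ 1 0 : ℂ) = r * c' := by exact_mod_cast congrArg (Int.cast : ℤ → ℂ) hc
  simp only [conjMat, Matrix.SpecialLinearGroup.coe_mk, Matrix.of_apply, Matrix.cons_val_zero,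
    Matrix.cons_val_one, Matrix.cons_val', Matrix.cons_val_fin_one]
  push_cast
  rw [hc'] at hd ⊢
  have hd' : (c' : ℂ) * ((r : ℂ) * z) + γ 1 1 ≠ 0 := by
    intro h
    apply hd
    linear_combination h
  field_simp

/-- `G_r` is invariant of weight `2` under `Γ₀(r)`. -/
theorem GrFun_slash (γ : SL(2, ℤ)) (hγ : γ ∈ Gamma0 r) : GrFun r ∣[(2 : ℤ)] γ = GrFun r := by
  obtain ⟨c', hc⟩ : (r : ℤ) ∣ γ 1 0 := by
    rw [Gamma0_mem] at hγ
    exact (ZMod.intCast_zmod_eq_zero_iff_dvd _ _).mp hγ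
  ext z
  rw [SL_slash_apply, ModularGroup.denom_apply, GrFun_apply, GrFun_apply, scale_smul r γ c' hc,
    E2_smul, E2_smul]
  have hd := denom_ne γ z
  have hc' : (γ 1 0 : ℂ) = r * c' := by exact_mod_cast congrArg (Int.cast : ℤ → ℂ) hc
  simp only [conjMat, Matrix.SpecialLinearGroup.coe_mk, Matrix.of_apply, Matrix.cons_val_zero,
    Matrix.cons_val_one, Matrix.cons_val', Matrix.cons_val_fin_one, coe_scale]
  rw [hc'] at hd ⊢
  have hd' : (c' : ℂ) * ((r : ℂ) * z) + γ 1 1 ≠ 0 := by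
    intro h
    apply hd
    linear_combination h
  rw [zpow_neg, zpow_ofNat]
  field_simp
  ring

/-! ### The other cusp -/

theorem scale_S_smul (z : ℍ) : scale r (ModularGroup.S • z) = ModularGroup.S • unscale r z := by
  apply UpperHalfPlane.ext
  rw [coe_scale, modular_S_smul, modular_S_smul]
  have hr : (r : ℂ) ≠ 0 := Nat.cast_ne_zero.mpr (NeZero.ne r)
  have hz : (z : ℂ) ≠ 0 := UpperHalfPlane.ne_zero z
  simp only [coe_unscale]
  field_simp

theorem E2_S_smul (z : ℍ) :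
    E2 (ModularGroup.S • z) = (z : ℂ) ^ 2 *
      (E2 z - (1 / (2 * riemannZeta 2)) * (2 * Real.pi * Complex.I / z)) := by
  rw [E2_smul]
  simp [ModularGroup.S]

/-- The conjugate of `G_r` at the cusp `0`: `(G_r ∣ S)(z) = -(1/r) G_r(z / r)`. -/
theorem GrFun_slash_S (z : ℍ) :
    (GrFun r ∣[(2 : ℤ)] ModularGroup.S) z = -(1 / (r : ℂ)) * GrFun r (unscale r z) := by
  have hr : (r : ℂ) ≠ 0 := Nat.cast_ne_zero.mpr (NeZero.ne r)
  have hz : (z : ℂ) ≠ 0 := UpperHalfPlane.ne_zero z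
  rw [SL_slash_apply, ModularGroup.denom_apply, GrFun_apply, GrFun_apply, scale_S_smul,
    scale_unscale, E2_S_smul, E2_S_smul, coe_unscale]
  simp only [ModularGroup.S, Matrix.SpecialLinearGroup.coe_mk, Matrix.of_apply,
    Matrix.cons_val_zero, Matrix.cons_val_one, Matrix.cons_val', Matrix.cons_val_fin_one,
    Int.cast_one, Int.cast_zero, one_mul, add_zero]
  rw [zpow_neg, zpow_ofNat]
  by_cases h1 : (r : ℂ) - 1 = 0
  · simp [h1]
  · field_simp
    ring

theorem slash_T_zpow (f : ℍ → ℂ) (j : ℤ) (z : ℍ) :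
    (f ∣[(2 : ℤ)] (ModularGroup.T ^ j)) z = f ((j : ℝ) +ᵥ z) := by
  rw [SL_slash_apply, ModularGroup.denom_apply, modular_T_zpow_smul]
  simp [ModularGroup.coe_T_zpow]

/-- The conjugates of `G_r` at the cusp `0`:
`(G_r ∣ S T^j)(z) = -(1/r) G_r((z + j) / r)`. -/
theorem GrFun_slash_S_T (j : ℤ) (z : ℍ) :
    (GrFun r ∣[(2 : ℤ)] (ModularGroup.S * ModularGroup.T ^ j)) z =
      -(1 / (r : ℂ)) * GrFun r (unscale r ((j : ℝ) +ᵥ z)) := by
  rw [SlashAction.slash_mul, slash_T_zpow, GrFun_slash_S]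

/-! ### Holomorphy and boundedness -/

theorem im_scale (z : ℍ) : (scale r z).im = r * z.im := by
  change ((r : ℂ) * z).im = _
  simp

theorem im_unscale (z : ℍ) : (unscale r z).im = z.im / r := by
  change ((z : ℂ) / r).im = _
  rw [Complex.div_natCast_im]
  rfl

theorem mdiff_E2_scale : MDiff (fun z : ℍ ↦ E2 (scale r z)) := by
  rw [UpperHalfPlane.mdifferentiable_iff]
  have h := UpperHalfPlane.mdifferentiable_iff.mp E2_mdifferentiable
  have hr : (0 : ℝ) < r := Nat.cast_pos.mpr (NeZero.pos r)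
  have hmaps : Set.MapsTo (fun w : ℂ ↦ (r : ℂ) * w) {z | 0 < z.im} {z | 0 < z.im} := by
    intro w hw
    simp only [Set.mem_ofPred_eq] at hw ⊢
    simpa using mul_pos hr hw
  have hcomp : DifferentiableOn ℂ ((E2 ∘ ofComplex) ∘ fun w : ℂ ↦ (r : ℂ) * w) {z | 0 < z.im} :=
    h.comp (differentiableOn_id.const_mul (r : ℂ)) hmaps
  refine hcomp.congr fun w hw ↦ ?_
  simp only [Set.mem_ofPred_eq] at hw
  have hw' : 0 < ((r : ℂ) * w).im := by simpa using mul_pos hr hw
  simp only [Function.comp_apply]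
  congr 1
  apply UpperHalfPlane.ext
  rw [coe_scale, ofComplex_apply_of_im_pos hw, ofComplex_apply_of_im_pos hw']

theorem mdiff_GrFun : MDiff (GrFun r) := by
  have h1 : MDiff (fun z : ℍ ↦ E2 (scale r z)) := mdiff_E2_scale r
  have h2 : MDiff E2 := E2_mdifferentiable
  have h3 : MDiff (fun z : ℍ ↦ ((r : ℂ) - 1)⁻¹ * ((r : ℂ) * E2 (scale r z) - E2 z)) :=
    ((h1.const_smul (r : ℂ)).sub h2).const_smul (((r : ℂ) - 1)⁻¹)
  convert h3 using 1
  ext z
  rw [GrFun_apply, div_eq_inv_mul]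

theorem isBoundedAtImInfty_GrFun : IsBoundedAtImInfty (GrFun r) := by
  obtain ⟨M, A, hMA⟩ := isBoundedAtImInfty_iff.mp isBoundedAtImInfty_E2
  rw [isBoundedAtImInfty_iff]
  refine ⟨(r * M + M) / ‖(r : ℂ) - 1‖, max A 0, fun z hz ↦ ?_⟩
  have hr1 : (1 : ℝ) ≤ r := by exact_mod_cast NeZero.one_le (n := r)
  have hA : A ≤ z.im := (le_max_left _ _).trans hz
  have h0 : 0 ≤ z.im := (le_max_right _ _).trans hz
  have hA' : A ≤ (scale r z).im := by
    rw [im_scale]
    nlinarith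
  rw [GrFun_apply, norm_div]
  gcongr
  calc ‖(r : ℂ) * E2 (scale r z) - E2 z‖ ≤ ‖(r : ℂ) * E2 (scale r z)‖ + ‖E2 z‖ := norm_sub_le _ _
    _ ≤ r * M + M := by
        rw [norm_mul, Complex.norm_natCast]
        gcongr
        · exact hMA _ hA'
        · exact hMA _ hA

theorem isBoundedAtImInfty_GrFun_unscale (j : ℤ) :
    IsBoundedAtImInfty (fun z : ℍ ↦ -(1 / (r : ℂ)) * GrFun r (unscale r ((j : ℝ) +ᵥ z))) := by
  obtain ⟨M, A, hMA⟩ := isBoundedAtImInfty_iff.mp (isBoundedAtImInfty_GrFun r)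
  rw [isBoundedAtImInfty_iff]
  have hr : (0 : ℝ) < r := Nat.cast_pos.mpr (NeZero.pos r)
  refine ⟨‖-(1 / (r : ℂ))‖ * M, r * A, fun z hz ↦ ?_⟩
  rw [norm_mul]
  gcongr
  apply hMA
  rw [im_unscale, UpperHalfPlane.vadd_im, le_div_iff₀ hr]
  linarith

/-- The inverse of `S`. -/
def Sinv : SL(2, ℤ) := ⟨!![0, 1; -1, 0], by simp [Matrix.det_fin_two_of]⟩

theorem Sinv_coe : (Sinv : Matrix (Fin 2) (Fin 2) ℤ) = !![0, 1; -1, 0] := rfl

theorem Sinv_mul_S : Sinv * ModularGroup.S = 1 := by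
  apply Subtype.ext
  rw [Matrix.SpecialLinearGroup.coe_mul, Sinv_coe, ModularGroup.coe_S]
  ext i j
  fin_cases i <;> fin_cases j <;> simp [Matrix.mul_apply, Fin.sum_univ_two]

/-- Every element of `SL₂(ℤ)` lies in `Γ₀(r)` or in `Γ₀(r) S T^j` (`r` prime). -/
theorem exists_coset (hr : r.Prime) (δ : SL(2, ℤ)) :
    δ ∈ Gamma0 r ∨ ∃ γ ∈ Gamma0 r, ∃ j : ℤ, δ = γ * (ModularGroup.S * ModularGroup.T ^ j) := by
  by_cases hδ : δ ∈ Gamma0 r
  · exact Or.inl hδ
  · right
    haveI : Fact r.Prime := ⟨hr⟩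
    rw [Gamma0_mem] at hδ
    obtain ⟨j, hj⟩ : ∃ j : ℤ, (j : ZMod r) = (δ 1 1 : ZMod r) * (δ 1 0 : ZMod r)⁻¹ :=
      ZMod.intCast_surjective _
    set t : SL(2, ℤ) := ModularGroup.T ^ (-j) with ht
    have htc : (t : Matrix (Fin 2) (Fin 2) ℤ) = !![1, -j; 0, 1] := ModularGroup.coe_T_zpow (-j)
    have htj : t * ModularGroup.T ^ j = 1 := by
      rw [ht, ← zpow_add, neg_add_cancel, zpow_zero]
    refine ⟨δ * t * Sinv, ?_, j, ?_⟩
    · rw [Gamma0_mem]
      have key : ((δ * t * Sinv) 1 0 : ℤ) = δ 1 0 * j - δ 1 1 := by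
        rw [Matrix.SpecialLinearGroup.coe_mul, Matrix.SpecialLinearGroup.coe_mul, htc, Sinv_coe,
          Matrix.mul_apply, Fin.sum_univ_two, Matrix.mul_apply, Matrix.mul_apply,
          Fin.sum_univ_two, Fin.sum_univ_two]
        simp
        ring
      rw [key]
      push_cast
      rw [hj]
      field_simp
      ring
    · calc δ = δ * (t * ModularGroup.T ^ j) := by rw [htj, mul_one]
        _ = δ * (t * ((Sinv * ModularGroup.S) * ModularGroup.T ^ j)) := by
            rw [Sinv_mul_S, one_mul]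
        _ = δ * t * Sinv * (ModularGroup.S * ModularGroup.T ^ j) := by
            simp only [mul_assoc]

/-- `G_r` is a modular form of weight `2` on `Γ₀(r)` (`r` prime). -/
theorem isMF_GrFun (hr : r.Prime) : IsMF r 2 (GrFun r) := by
  refine ⟨mdiff_GrFun r, fun γ hγ ↦ GrFun_slash r γ hγ, fun δ ↦ ?_⟩
  rcases exists_coset r hr δ with hδ | ⟨γ, hγ, j, rfl⟩
  · rw [GrFun_slash r δ hδ]
    exact isBoundedAtImInfty_GrFun r
  · rw [SlashAction.slash_mul, GrFun_slash r γ hγ]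
    have : GrFun r ∣[(2 : ℤ)] (ModularGroup.S * ModularGroup.T ^ j) =
        fun z : ℍ ↦ -(1 / (r : ℂ)) * GrFun r (unscale r ((j : ℝ) +ᵥ z)) := by
      ext z
      exact GrFun_slash_S_T r j z
    rw [this]
    exact isBoundedAtImInfty_GrFun_unscale r j

/-! ### `q`-expansions -/

/-- `σ^{(r)}(n) = ∑_{d ∣ n, r ∤ d} d`. -/
def sigmaPrime (r n : ℕ) : ℕ := ∑ d ∈ n.divisors with ¬ r ∣ d, d

theorem sigmaPrime_one (hr : 2 ≤ r) : sigmaPrime r 1 = 1 := by
  have h : ¬ r ∣ 1 := by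
    intro h
    have := Nat.le_of_dvd one_pos h
    omega
  simp [sigmaPrime, Finset.filter_singleton, h]

/-- `σ₁(n) = σ^{(r)}(n) + r σ₁(n / r)` if `r ∣ n`. -/
theorem sigma_eq_of_dvd {n : ℕ} (hn : n ≠ 0) (h : r ∣ n) :
    ArithmeticFunction.sigma 1 n = sigmaPrime r n + r * ArithmeticFunction.sigma 1 (n / r) := by
  have hr0 : r ≠ 0 := NeZero.ne r
  rw [ArithmeticFunction.sigma_apply, ArithmeticFunction.sigma_apply, sigmaPrime,
    ← Finset.sum_filter_add_sum_filter_not n.divisors (fun d ↦ ¬ r ∣ d), Finset.mul_sum]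
  simp only [pow_one, not_not]
  congr 1
  refine (Finset.sum_bij (fun e _ ↦ r * e) ?_ ?_ ?_ ?_).symm
  · intro e he
    rw [Finset.mem_filter, Nat.mem_divisors]
    rw [Nat.mem_divisors] at he
    obtain ⟨k, hk⟩ := h
    refine ⟨⟨?_, hn⟩, dvd_mul_right _ _⟩
    rw [hk, Nat.mul_div_cancel_left _ (Nat.pos_of_ne_zero hr0)] at he
    rw [hk]
    exact Nat.mul_dvd_mul_left r he.1
  · intro a _ b _ hab
    exact Nat.eq_of_mul_eq_mul_left (Nat.pos_of_ne_zero hr0) hab
  · intro d hd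
    rw [Finset.mem_filter, Nat.mem_divisors] at hd
    obtain ⟨⟨hdn, -⟩, e, rfl⟩ := hd
    refine ⟨e, ?_, rfl⟩
    rw [Nat.mem_divisors]
    obtain ⟨k, hk⟩ := h
    rw [hk, Nat.mul_div_cancel_left _ (Nat.pos_of_ne_zero hr0)]
    rw [hk] at hdn
    refine ⟨Nat.dvd_of_mul_dvd_mul_left (Nat.pos_of_ne_zero hr0) hdn, ?_⟩
    rintro rfl
    exact hn (by rw [hk, mul_zero])
  · intro e _
    rfl

/-- `σ₁(n) = σ^{(r)}(n)` if `r ∤ n`. -/
theorem sigma_eq_of_not_dvd {n : ℕ} (h : ¬ r ∣ n) :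
    ArithmeticFunction.sigma 1 n = sigmaPrime r n := by
  rw [ArithmeticFunction.sigma_apply, sigmaPrime]
  simp only [pow_one]
  refine (Finset.sum_congr (Finset.filter_true_of_mem fun d hd ↦ ?_) fun _ _ ↦ rfl).symm
  intro hrd
  exact h (hrd.trans (Nat.dvd_of_mem_divisors hd))

/-- The `q`-expansion coefficients of `E₂`. -/
noncomputable def coeffE (m : ℕ) : ℂ := if m = 0 then 1 else -24 * (ArithmeticFunction.sigma 1 m : ℂ)

/-- The `q`-expansion coefficients of `G_r`. -/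
noncomputable def coeffGr (m : ℕ) : ℂ :=
  if m = 0 then 1 else (24 * (sigmaPrime r m : ℂ)) / ((r : ℂ) - 1)

theorem coeffGr_zero : coeffGr r 0 = 1 := if_pos rfl

theorem coeffGr_of_ne_zero {m : ℕ} (hm : m ≠ 0) :
    coeffGr r m = (24 * (sigmaPrime r m : ℂ)) / ((r : ℂ) - 1) := if_neg hm

theorem coeffGr_one (hr : 2 ≤ r) : coeffGr r 1 = 24 / ((r : ℂ) - 1) := by
  rw [coeffGr_of_ne_zero r one_ne_zero, sigmaPrime_one r hr]
  simp

theorem coeffGr_two {m : ℕ} (hm : m ≠ 0) : coeffGr 2 m = ((24 * sigmaPrime 2 m : ℤ) : ℂ) := by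
  rw [coeffGr_of_ne_zero 2 hm]
  push_cast
  norm_num

theorem coeffGr_three {m : ℕ} (hm : m ≠ 0) : coeffGr 3 m = ((12 * sigmaPrime 3 m : ℤ) : ℂ) := by
  rw [coeffGr_of_ne_zero 3 hm]
  push_cast
  norm_num
  ring

theorem coeffGr_eq (hr : 2 ≤ r) (m : ℕ) :
    coeffGr r m = ((r : ℂ) * (if r ∣ m then coeffE (m / r) else 0) - coeffE m) / ((r : ℂ) - 1) := by
  have hr1 : (r : ℂ) - 1 ≠ 0 := by
    have : (r : ℂ) ≠ 1 := by
      have : r ≠ 1 := by omega
      exact_mod_cast this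
    exact sub_ne_zero.mpr this
  have hr0 : r ≠ 0 := NeZero.ne r
  rcases Nat.eq_zero_or_pos m with rfl | hm
  · simp [coeffGr, coeffE, hr1]
  · rw [coeffGr_of_ne_zero r hm.ne']
    congr 1
    by_cases h : r ∣ m
    · rw [if_pos h]
      have hmr : m / r ≠ 0 := by
        obtain ⟨k, rfl⟩ := h
        rw [Nat.mul_div_cancel_left _ (Nat.pos_of_ne_zero hr0)]
        rintro rfl
        simp at hm
      rw [coeffE, coeffE, if_neg hmr, if_neg hm.ne', sigma_eq_of_dvd r hm.ne' h]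
      push_cast
      ring
    · rw [if_neg h, coeffE, if_neg hm.ne', sigma_eq_of_not_dvd r h]
      ring

theorem qParam_one (z : ℍ) :
    Function.Periodic.qParam 1 z = Complex.exp (2 * Real.pi * Complex.I * z) := by
  simp [Function.Periodic.qParam]

theorem qParam_scale (z : ℍ) :
    Function.Periodic.qParam 1 (scale r z) = Function.Periodic.qParam 1 z ^ r := by
  rw [qParam_one, qParam_one, coe_scale, ← Complex.exp_nat_mul]
  congr 1
  ring

theorem qParam_unscale (z : ℍ) :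
    Function.Periodic.qParam 1 (unscale r z) = Function.Periodic.qParam r z := by
  rw [qParam_one, coe_unscale]
  simp only [Function.Periodic.qParam]
  congr 1
  push_cast
  ring

theorem hasSum_E2 (z : ℍ) :
    HasSum (fun m : ℕ ↦ coeffE m * Function.Periodic.qParam 1 z ^ m) (E2 z) := by
  have h := hasSum_qExpansion_E2 (z := z)
  simp only [smul_eq_mul] at h
  rw [qParam_one]
  exact h

theorem hasSum_E2_scale (z : ℍ) :
    HasSum (fun m : ℕ ↦ (if r ∣ m then coeffE (m / r) else 0) *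
      Function.Periodic.qParam 1 z ^ m) (E2 (scale r z)) := by
  have hr0 : 0 < r := NeZero.pos r
  have h := hasSum_E2 (scale r z)
  rw [qParam_scale] at h
  have hinj : Function.Injective (fun m : ℕ ↦ r * m) := fun a b hab ↦
    Nat.eq_of_mul_eq_mul_left hr0 hab
  refine (Function.Injective.hasSum_iff hinj ?_).mp ?_
  · intro m hm
    have : ¬ r ∣ m := fun ⟨k, hk⟩ ↦ hm ⟨k, hk.symm⟩
    rw [if_neg this, zero_mul]
  · convert h using 1
    ext m
    simp only [Function.comp_apply]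
    rw [if_pos (dvd_mul_right r m), Nat.mul_div_cancel_left _ hr0, pow_mul]

/-- The `q`-expansion of `G_r` at `∞`. -/
theorem hasSum_GrFun (hr : 2 ≤ r) (z : ℍ) :
    HasSum (fun m : ℕ ↦ coeffGr r m * Function.Periodic.qParam 1 z ^ m) (GrFun r z) := by
  have h1 := (hasSum_E2_scale r z).mul_left (r : ℂ)
  have h2 := hasSum_E2 z
  have h3 := (h1.sub h2).div_const ((r : ℂ) - 1)
  rw [GrFun_apply]
  have hfun : (fun m : ℕ ↦ coeffGr r m * Function.Periodic.qParam 1 z ^ m) = fun i ↦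
      ((r : ℂ) * ((if r ∣ i then coeffE (i / r) else 0) * Function.Periodic.qParam 1 z ^ i) -
        coeffE i * Function.Periodic.qParam 1 z ^ i) / ((r : ℂ) - 1) := by
    funext m
    rw [coeffGr_eq r hr]
    ring
  rw [hfun]
  exact h3

/-- The `q`-expansion of the conjugates of `G_r` at the cusp `0` (in the variable
`q^{1/r} = exp(2 π i z / r)`). -/
theorem hasSum_GrFun_slash_S (hr : 2 ≤ r) (z : ℍ) :
    HasSum (fun m : ℕ ↦ (-(1 / (r : ℂ)) * coeffGr r m) * Function.Periodic.qParam r z ^ m)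
      ((GrFun r ∣[(2 : ℤ)] ModularGroup.S) z) := by
  rw [GrFun_slash_S]
  have h := (hasSum_GrFun r hr (unscale r z)).mul_left (-(1 / (r : ℂ)))
  rw [qParam_unscale] at h
  have hfun : (fun m : ℕ ↦ (-(1 / (r : ℂ)) * coeffGr r m) * Function.Periodic.qParam r z ^ m) =
      fun i ↦ -(1 / (r : ℂ)) * (coeffGr r i * Function.Periodic.qParam r z ^ i) := by
    funext m
    ring
  rw [hfun]
  exact h

theorem qParam_vadd (j : ℤ) (z : ℍ) :
    Function.Periodic.qParam r (((j : ℝ) +ᵥ z : ℍ) : ℂ) =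
      Complex.exp (2 * Real.pi * Complex.I * j / r) * Function.Periodic.qParam r z := by
  simp only [Function.Periodic.qParam, UpperHalfPlane.coe_vadd]
  rw [← Complex.exp_add]
  congr 1
  push_cast
  ring

/-- The `q`-expansion of the conjugates `G_r ∣ S T^j`, with `ζ = exp(2 π i j / r)`. -/
theorem hasSum_GrFun_slash_S_T (hr : 2 ≤ r) (j : ℤ) (z : ℍ) :
    HasSum (fun m : ℕ ↦ (-(1 / (r : ℂ)) * coeffGr r m *
        Complex.exp (2 * Real.pi * Complex.I * j / r) ^ m) * Function.Periodic.qParam r z ^ m)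
      ((GrFun r ∣[(2 : ℤ)] (ModularGroup.S * ModularGroup.T ^ j)) z) := by
  rw [SlashAction.slash_mul, slash_T_zpow]
  have h := hasSum_GrFun_slash_S r hr ((j : ℝ) +ᵥ z)
  rw [qParam_vadd] at h
  have hfun : (fun m : ℕ ↦ (-(1 / (r : ℂ)) * coeffGr r m *
      Complex.exp (2 * Real.pi * Complex.I * j / r) ^ m) * Function.Periodic.qParam r z ^ m) =
      fun m ↦ (-(1 / (r : ℂ)) * coeffGr r m) *
        (Complex.exp (2 * Real.pi * Complex.I * j / r) * Function.Periodic.qParam r z) ^ m := by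
    funext m
    rw [mul_pow]
    ring
  rw [hfun]
  exact h

/-! ### Power-series form of the expansions -/

/-- A wrapper giving plain functions `ℍ → ℂ` a `FunLike` structure (Mathlib's uniqueness lemma for
`q`-expansions is stated for `FunLike` types). -/
structure Fn where
  /-- the function -/
  toFun : ℍ → ℂ

instance Fn.instFunLike : FunLike Fn ℍ ℂ where
  coe := Fn.toFun
  coe_injective f g h := by cases f; cases g; congr

theorem qParam_add_period {h : ℝ} (hh : h ≠ 0) (w : ℂ) :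
    Function.Periodic.qParam h (w + h) = Function.Periodic.qParam h w := by
  simp only [Function.Periodic.qParam]
  have hh' : (h : ℂ) ≠ 0 := by exact_mod_cast hh
  have : 2 * (Real.pi : ℂ) * Complex.I * (w + h) / h =
      2 * Real.pi * Complex.I * w / h + 2 * Real.pi * Complex.I := by
    field_simp
  rw [this, Complex.exp_add, Complex.exp_two_pi_mul_I, mul_one]

/-- A function which is everywhere the sum of a series in `q_h` is `h`-periodic. -/
theorem periodic_of_hasSum {f : ℍ → ℂ} {h : ℝ} (hh : 0 < h)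
    (c : ℕ → ℂ) (hf : ∀ τ : ℍ, HasSum (fun m ↦ c m * Function.Periodic.qParam h τ ^ m) (f τ)) :
    Function.Periodic (f ∘ ofComplex) h := by
  intro w
  simp only [Function.comp_apply]
  rcases lt_or_ge 0 w.im with hw | hw
  · have hw' : 0 < (w + h).im := by simpa using hw
    rw [ofComplex_apply_of_im_pos hw, ofComplex_apply_of_im_pos hw']
    have h1 : HasSum (fun m ↦ c m * Function.Periodic.qParam h (w + h) ^ m)
        (f ⟨w + h, hw'⟩) := hf ⟨w + h, hw'⟩
    have h2 : HasSum (fun m ↦ c m * Function.Periodic.qParam h w ^ m) (f ⟨w, hw⟩) := hf ⟨w, hw⟩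
    rw [qParam_add_period hh.ne'] at h1
    exact h1.unique h2
  · have hw' : (w + h).im ≤ 0 := by simpa using hw
    rw [ofComplex_apply_of_im_nonpos hw, ofComplex_apply_of_im_nonpos hw']

/-- A holomorphic function on `ℍ` which is everywhere the sum of a series in
`q_h = exp(2 π i z / h)` has this series as its `q`-expansion of period `h`. -/
theorem qExpansion_coeff_of_hasSum {f : ℍ → ℂ} {h : ℝ} (hh : 0 < h) (hol : MDiff f)
    (c : ℕ → ℂ) (hf : ∀ τ : ℍ, HasSum (fun m ↦ c m * Function.Periodic.qParam h τ ^ m) (f τ))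
    (m : ℕ) : (qExpansion h f).coeff m = c m := by
  have hf' : ∀ τ : ℍ, HasSum (fun m ↦ c m • Function.Periodic.qParam h τ ^ m) (f τ) := by
    intro τ
    simpa only [smul_eq_mul] using hf τ
  have hbdd : IsBoundedAtImInfty f := isBoundedAtImInfty_of_hasSum_qExpansion hh hf'
  have hper : Function.Periodic (f ∘ ofComplex) h := periodic_of_hasSum hh c hf
  have han : AnalyticAt ℂ (cuspFunction h f) 0 :=
    UpperHalfPlane.analyticAt_cuspFunction_zero hh hper hol hbdd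
  have := UpperHalfPlane.qExpansion_coeff_unique (⟨f⟩ : Fn) hh han hf' m
  exact this.symm

variable {r} in
/-- The `q`-expansion of `G_r` at `∞`. -/
theorem qExpansion_GrFun (hr : 2 ≤ r) (m : ℕ) :
    (qExpansion 1 (GrFun r)).coeff m = coeffGr r m :=
  qExpansion_coeff_of_hasSum one_pos (mdiff_GrFun r) _ (fun τ ↦ hasSum_GrFun r hr τ) m

variable {r} in
/-- The `q`-expansion (of period `r`) of the conjugates of `G_r` at the cusp `0`. -/
theorem qExpansion_GrFun_slash_S_T (hr : 2 ≤ r) (j : ℤ) (m : ℕ) :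
    (qExpansion r (GrFun r ∣[(2 : ℤ)] (ModularGroup.S * ModularGroup.T ^ j))).coeff m =
      -(1 / (r : ℂ)) * coeffGr r m * Complex.exp (2 * Real.pi * Complex.I * j / r) ^ m := by
  have hr0 : (0 : ℝ) < r := Nat.cast_pos.mpr (NeZero.pos r)
  have hol : MDiff (GrFun r ∣[(2 : ℤ)] (ModularGroup.S * ModularGroup.T ^ j)) :=
    (mdiff_GrFun r).slash 2 _
  exact qExpansion_coeff_of_hasSum hr0 hol _ (fun τ ↦ hasSum_GrFun_slash_S_T r hr j τ) m

/-- The bundled modular form `G_r ∈ M₂(Γ₀(r))`, `r` prime. -/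
noncomputable def Gr (hr : r.Prime) : ModularForm (Gamma0 r : Subgroup (GL (Fin 2) ℝ)) 2 :=
  (isMF_GrFun r hr).toModularForm

@[simp] theorem coe_Gr (hr : r.Prime) : ⇑(Gr r hr) = GrFun r := rfl

/-- Constant term of `G_r`. -/
theorem qExpansion_Gr_coeff_zero (hr : r.Prime) : (qExpansion 1 (Gr r hr)).coeff 0 = 1 := by
  rw [coe_Gr, qExpansion_GrFun hr.two_le, coeffGr_zero]

/-- Higher coefficients of `G_r`: `a_n = (24 / (r - 1)) ∑_{d ∣ n, r ∤ d} d`. -/
theorem qExpansion_Gr_coeff (hr : r.Prime) {n : ℕ} (hn : 1 ≤ n) :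
    (qExpansion 1 (Gr r hr)).coeff n =
      (24 / ((r : ℂ) - 1)) * ((∑ d ∈ n.divisors with ¬ r ∣ d, d : ℕ) : ℂ) := by
  rw [coe_Gr, qExpansion_GrFun hr.two_le, coeffGr_of_ne_zero r (by omega), sigmaPrime]
  ring

/-- The version with a `Fact` instance. -/
noncomputable def GrP (p : ℕ) [hp : Fact p.Prime] :
    ModularForm (Gamma0 p : Subgroup (GL (Fin 2) ℝ)) 2 :=
  haveI : NeZero p := ⟨hp.out.ne_zero⟩
  Gr p hp.out

theorem qExpansion_GrP_coeff_zero (p : ℕ) [hp : Fact p.Prime] :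
    (qExpansion 1 (GrP p)).coeff 0 = 1 :=
  haveI : NeZero p := ⟨hp.out.ne_zero⟩
  qExpansion_Gr_coeff_zero p hp.out

theorem qExpansion_GrP_coeff (p : ℕ) [hp : Fact p.Prime] {n : ℕ} (hn : 1 ≤ n) :
    (qExpansion 1 (GrP p)).coeff n =
      (24 / ((p : ℂ) - 1)) * ((∑ d ∈ n.divisors with ¬ p ∣ d, d : ℕ) : ℂ) :=
  haveI : NeZero p := ⟨hp.out.ne_zero⟩
  qExpansion_Gr_coeff p hp.out hn

theorem GrP_apply (p : ℕ) [hp : Fact p.Prime] (z : ℍ) :
    GrP p z = ((p : ℂ) * E2 ⟨(p : ℂ) * z, by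
      have h0 : (0 : ℝ) < p := Nat.cast_pos.mpr hp.out.pos
      simpa using mul_pos h0 z.im_pos⟩ - E2 z) / ((p : ℂ) - 1) := rfl

end Fermat.Agent.S16.AuxEis
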