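import Fermat.Agent.S16.Miller

/-!
# S16, Lemma A: integer weight version with the hypothesis `12 * n ≤ k`
-/

namespace Fermat.Agent.S16.Miller

open UpperHalfPlane ModularForm ModularFormClass MatrixGroups EisensteinSeries

/-- **Lemma A**, integer weight, hypothesis in the shape `12 * n ≤ k`. -/
theorem coeff_mem_of_twelve_mul_le {k : ℤ} (F : ModularForm 𝒮ℒ k) (I : AddSubgroup ℂ)
    (h : ∀ n : ℕ, 12 * (n : ℤ) ≤ k → (qExpansion 1 F).coeff n ∈ I) :
    ∀ n, (qExpansion 1 F).coeff n ∈ I := by
  rcases lt_or_ge k 0 with hk | hk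
  · have hF : F = 0 := rank_zero_iff_forall_zero.mp (levelOne_neg_weight_rank_zero hk) F
    subst hF
    intro n
    simp [qExpansion_zero]
  · refine coeff_mem_int F I fun n hn => h n ?_
    have h4 : (k.toNat : ℤ) = k := Int.toNat_of_nonneg hk
    omega

end Fermat.Agent.S16.Miller
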