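import Mathlib

/-!
# S16, upper bound: the ring of `ℓ`-integral complex numbers and `t^a × unit` sequences

* `OO ℓ` : the subring of `ℂ` of elements some prime-to-`ℓ` multiple of which is an algebraic
  integer; `LO ℓ = ℓ · OO ℓ` as an additive subgroup; `1 ∉ LO ℓ`.
* `Good ℓ c a` : the sequence `c : ℕ → ℂ` has all terms in `OO ℓ`, the terms of index `< a`
  in `LO ℓ`, and the term of index `a` is a unit modulo `LO ℓ`.
* `Good.cauchy` : this is multiplicative for the Cauchy product.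
-/

set_option autoImplicit false
set_option linter.unusedSectionVars false

namespace Fermat.Agent.S16.NormAlg

variable (ℓ : ℕ) [hℓ : Fact ℓ.Prime]

/-- The `ℓ`-integral complex numbers. -/
def OO : Subring ℂ where
  carrier := {x | ∃ b : ℕ, ¬ ℓ ∣ b ∧ IsIntegral ℤ ((b : ℂ) * x)}
  mul_mem' := by
    rintro x y ⟨b, hb, hx⟩ ⟨b', hb', hy⟩
    refine ⟨b * b', fun h => ?_, ?_⟩
    · rcases (Nat.Prime.dvd_mul hℓ.out).mp h with h | h
      · exact hb h
      · exact hb' h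
    · have := hx.mul hy
      have e : ((b * b' : ℕ) : ℂ) * (x * y) = (b : ℂ) * x * ((b' : ℂ) * y) := by
        push_cast
        ring
      rw [e]
      exact this
  one_mem' := ⟨1, by simpa using hℓ.out.one_lt.ne', by simpa using isIntegral_one⟩
  add_mem' := by
    rintro x y ⟨b, hb, hx⟩ ⟨b', hb', hy⟩
    refine ⟨b * b', fun h => ?_, ?_⟩
    · rcases (Nat.Prime.dvd_mul hℓ.out).mp h with h | h
      · exact hb h
      · exact hb' h
    · have h1 : IsIntegral ℤ ((b' : ℂ) * ((b : ℂ) * x)) := by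
        have := (isIntegral_algebraMap (R := ℤ) (A := ℂ) (x := (b' : ℤ))).mul hx
        simpa using this
      have h2 : IsIntegral ℤ ((b : ℂ) * ((b' : ℂ) * y)) := by
        have := (isIntegral_algebraMap (R := ℤ) (A := ℂ) (x := (b : ℤ))).mul hy
        simpa using this
      have := h1.add h2
      have e : ((b * b' : ℕ) : ℂ) * (x + y) =
          (b' : ℂ) * ((b : ℂ) * x) + (b : ℂ) * ((b' : ℂ) * y) := by
        push_cast
        ring
      rw [e]
      exact this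
  zero_mem' := ⟨1, by simpa using hℓ.out.one_lt.ne', by simpa using isIntegral_zero⟩
  neg_mem' := by
    rintro x ⟨b, hb, hx⟩
    refine ⟨b, hb, ?_⟩
    have := hx.neg
    convert this using 1
    ring

variable {ℓ}

theorem mem_OO {x : ℂ} : x ∈ OO ℓ ↔ ∃ b : ℕ, ¬ ℓ ∣ b ∧ IsIntegral ℤ ((b : ℂ) * x) := Iff.rfl

theorem mem_OO_of_isIntegral {x : ℂ} (hx : IsIntegral ℤ x) : x ∈ OO ℓ :=
  ⟨1, by simpa using hℓ.out.one_lt.ne', by simpa using hx⟩

theorem intCast_mem_OO (n : ℤ) : (n : ℂ) ∈ OO ℓ := intCast_mem (OO ℓ) n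

theorem natCast_mem_OO (n : ℕ) : (n : ℂ) ∈ OO ℓ := natCast_mem (OO ℓ) n

/-- `a / b` with `ℓ ∤ b` is `ℓ`-integral. -/
theorem div_mem_OO {x : ℂ} (hx : x ∈ OO ℓ) {b : ℕ} (hb : ¬ ℓ ∣ b) : x / (b : ℂ) ∈ OO ℓ := by
  obtain ⟨b', hb', hx'⟩ := hx
  have hb0 : (b : ℂ) ≠ 0 := by
    rintro h
    have : b = 0 := by exact_mod_cast h
    exact hb (this ▸ dvd_zero _)
  refine ⟨b' * b, fun h => ?_, ?_⟩
  · rcases (Nat.Prime.dvd_mul hℓ.out).mp h with h | h
    · exact hb' h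
    · exact hb h
  · convert hx' using 1
    push_cast
    field_simp

theorem inv_natCast_mem_OO {b : ℕ} (hb : ¬ ℓ ∣ b) : ((b : ℂ))⁻¹ ∈ OO ℓ := by
  have := div_mem_OO (ℓ := ℓ) (OO ℓ).one_mem hb
  simpa using this

variable (ℓ)

/-- The additive subgroup `ℓ · OO ℓ`. -/
def LO : AddSubgroup ℂ where
  carrier := {x | ∃ y ∈ OO ℓ, x = (ℓ : ℂ) * y}
  add_mem' := by
    rintro x y ⟨x', hx', rfl⟩ ⟨y', hy', rfl⟩
    exact ⟨x' + y', (OO ℓ).add_mem hx' hy', by ring⟩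
  zero_mem' := ⟨0, (OO ℓ).zero_mem, by simp⟩
  neg_mem' := by
    rintro x ⟨x', hx', rfl⟩
    exact ⟨-x', (OO ℓ).neg_mem hx', by ring⟩

variable {ℓ}

theorem mem_LO {x : ℂ} : x ∈ LO ℓ ↔ ∃ y ∈ OO ℓ, x = (ℓ : ℂ) * y := Iff.rfl

theorem LO_le_OO {x : ℂ} (hx : x ∈ LO ℓ) : x ∈ OO ℓ := by
  obtain ⟨y, hy, rfl⟩ := hx
  exact (OO ℓ).mul_mem (natCast_mem_OO ℓ) hy

theorem mul_mem_LO {x y : ℂ} (hx : x ∈ OO ℓ) (hy : y ∈ LO ℓ) : x * y ∈ LO ℓ := by
  obtain ⟨y', hy', rfl⟩ := hy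
  exact ⟨x * y', (OO ℓ).mul_mem hx hy', by ring⟩

theorem mul_mem_LO' {x y : ℂ} (hx : x ∈ LO ℓ) (hy : y ∈ OO ℓ) : x * y ∈ LO ℓ := by
  rw [mul_comm]
  exact mul_mem_LO hy hx

theorem natCast_mul_mem_LO {y : ℂ} (hy : y ∈ OO ℓ) : (ℓ : ℂ) * y ∈ LO ℓ := ⟨y, hy, rfl⟩

/-- `1` is not divisible by `ℓ` in the ring of `ℓ`-integral numbers. -/
theorem one_notMem_LO : (1 : ℂ) ∉ LO ℓ := by
  rintro ⟨y, ⟨b, hb, hy⟩, h1⟩
  have hℓ0 : (ℓ : ℂ) ≠ 0 := by exact_mod_cast hℓ.out.ne_zero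
  have hy' : y = ((1 / ℓ : ℚ) : ℂ) := by
    push_cast
    field_simp
    rw [mul_comm]
    exact h1.symm
  have hint : IsIntegral ℤ (((b / ℓ : ℚ)) : ℂ) := by
    convert hy using 1
    rw [hy']
    push_cast
    ring
  have hint' : IsIntegral ℤ ((b / ℓ : ℚ)) :=
    (isIntegral_algebraMap_iff (A := ℚ) (B := ℂ) (R := ℤ)
      (algebraMap ℚ ℂ).injective).mp hint
  obtain ⟨n, hn⟩ := IsIntegrallyClosed.isIntegral_iff.mp hint'
  have hℓ0' : (ℓ : ℚ) ≠ 0 := by exact_mod_cast hℓ.out.ne_zero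
  have : (n : ℚ) * ℓ = b := by
    rw [show (algebraMap ℤ ℚ n) = (n : ℚ) from rfl] at hn
    rw [hn]
    field_simp
  have h2 : (n * (ℓ : ℤ)) = (b : ℤ) := by exact_mod_cast this
  apply hb
  have : (ℓ : ℤ) ∣ (b : ℤ) := ⟨n, by rw [← h2]; ring⟩
  exact_mod_cast this

/-- An `ℓ`-integral number that is a unit mod `ℓ` is not in `LO`. -/
theorem notMem_LO_of_unit {x d : ℂ} (hd : d ∈ OO ℓ) (h : x * d - 1 ∈ LO ℓ) : x ∉ LO ℓ := by
  intro hx
  have h1 : x * d ∈ LO ℓ := mul_mem_LO' hx hd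
  have : (1 : ℂ) ∈ LO ℓ := by
    have := (LO ℓ).sub_mem h1 h
    simpa using this
  exact one_notMem_LO this

variable (ℓ)

/-- The power series `P` is `ℓ`-integral, `≡ 0 mod ℓ` below index `a`, and its coefficient of
index `a` is a unit mod `ℓ`. -/
structure Good (P : PowerSeries ℂ) (a : ℕ) : Prop where
  mem : ∀ n, P.coeff n ∈ OO ℓ
  low : ∀ n, n < a → P.coeff n ∈ LO ℓ
  unit : ∃ d ∈ OO ℓ, P.coeff a * d - 1 ∈ LO ℓ

variable {ℓ}

theorem Good.mul {P Q : PowerSeries ℂ} {a b : ℕ} (hc : Good ℓ P a) (hd : Good ℓ Q b) :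
    Good ℓ (P * Q) (a + b) := by
  refine ⟨fun n => ?_, fun n hn => ?_, ?_⟩
  · rw [PowerSeries.coeff_mul]
    exact (OO ℓ).sum_mem fun x _ => (OO ℓ).mul_mem (hc.mem _) (hd.mem _)
  · rw [PowerSeries.coeff_mul]
    refine (LO ℓ).sum_mem fun x hx => ?_
    rw [Finset.HasAntidiagonal.mem_antidiagonal] at hx
    by_cases h1 : x.1 < a
    · exact mul_mem_LO' (hc.low _ h1) (hd.mem _)
    · have h2 : x.2 < b := by omega
      exact mul_mem_LO (hc.mem _) (hd.low _ h2)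
  · obtain ⟨u, hu, hu'⟩ := hc.unit
    obtain ⟨v, hv, hv'⟩ := hd.unit
    refine ⟨u * v, (OO ℓ).mul_mem hu hv, ?_⟩
    have hmem : (a, b) ∈ Finset.HasAntidiagonal.antidiagonal (a + b) := by simp
    rw [PowerSeries.coeff_mul, ← Finset.add_sum_erase _ _ hmem]
    have hrest : ∑ x ∈ (Finset.HasAntidiagonal.antidiagonal (a + b)).erase (a, b),
        P.coeff x.1 * Q.coeff x.2 ∈ LO ℓ := by
      refine (LO ℓ).sum_mem fun x hx => ?_
      rw [Finset.mem_erase, Finset.HasAntidiagonal.mem_antidiagonal] at hx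
      by_cases h1 : x.1 < a
      · exact mul_mem_LO' (hc.low _ h1) (hd.mem _)
      · have h2 : x.2 < b := by
          by_contra h2
          apply hx.1
          ext <;> simp <;> omega
        exact mul_mem_LO (hc.mem _) (hd.low _ h2)
    have e : (P.coeff a * Q.coeff b + ∑ x ∈ (Finset.HasAntidiagonal.antidiagonal (a + b)).erase
        (a, b), P.coeff x.1 * Q.coeff x.2) * (u * v) - 1 =
        (P.coeff a * u - 1) * (Q.coeff b * v) + (Q.coeff b * v - 1) +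
          (∑ x ∈ (Finset.HasAntidiagonal.antidiagonal (a + b)).erase (a, b),
            P.coeff x.1 * Q.coeff x.2) * (u * v) := by
      ring
    rw [e]
    refine (LO ℓ).add_mem ((LO ℓ).add_mem ?_ hv') ?_
    · exact mul_mem_LO' hu' ((OO ℓ).mul_mem (hd.mem _) hv)
    · exact mul_mem_LO' hrest ((OO ℓ).mul_mem hu hv)

theorem good_one : Good ℓ (1 : PowerSeries ℂ) 0 := by
  refine ⟨fun n => ?_, fun n hn => absurd hn (Nat.not_lt_zero _), ⟨1, (OO ℓ).one_mem, ?_⟩⟩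
  · rw [PowerSeries.coeff_one]
    split_ifs
    · exact (OO ℓ).one_mem
    · exact (OO ℓ).zero_mem
  · simp [(LO ℓ).zero_mem]

/-- Finite products of good series are good, the orders add up. -/
theorem Good.prod {ι : Type*} (s : Finset ι) (P : ι → PowerSeries ℂ) (a : ι → ℕ)
    (h : ∀ i ∈ s, Good ℓ (P i) (a i)) : Good ℓ (∏ i ∈ s, P i) (∑ i ∈ s, a i) := by
  classical
  induction s using Finset.induction_on with
  | empty => simpa using good_one
  | insert i s hi ih =>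
    rw [Finset.prod_insert hi, Finset.sum_insert hi]
    exact (h i (Finset.mem_insert_self _ _)).mul
      (ih fun j hj => h j (Finset.mem_insert_of_mem hj))

theorem Good.ne_zero {P : PowerSeries ℂ} {a : ℕ} (hc : Good ℓ P a) : P.coeff a ≠ 0 := by
  obtain ⟨d, hd, h⟩ := hc.unit
  intro h0
  exact notMem_LO_of_unit hd h (h0 ▸ (LO ℓ).zero_mem)

theorem Good.notMem {P : PowerSeries ℂ} {a : ℕ} (hc : Good ℓ P a) : P.coeff a ∉ LO ℓ := by
  obtain ⟨d, hd, h⟩ := hc.unit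
  exact notMem_LO_of_unit hd h

/-- Goodness only depends on the coefficients. -/
theorem Good.congr {P Q : PowerSeries ℂ} {a : ℕ} (hc : Good ℓ P a) (h : P = Q) : Good ℓ Q a :=
  h ▸ hc

/-- A criterion: `ℓ`-integral coefficients, the ones below `a` divisible by `ℓ`, the one at `a`
congruent mod `ℓ` to a number `u` with an `ℓ`-integral inverse. -/
theorem good_of_congr {P : PowerSeries ℂ} {a : ℕ} (hmem : ∀ n, P.coeff n ∈ OO ℓ)
    (hlow : ∀ n, n < a → P.coeff n ∈ LO ℓ) {u v : ℂ} (hv : v ∈ OO ℓ) (huv : u * v = 1)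
    (hu : P.coeff a - u ∈ LO ℓ) : Good ℓ P a := by
  refine ⟨hmem, hlow, v, hv, ?_⟩
  have : P.coeff a * v - 1 = (P.coeff a - u) * v := by
    rw [sub_mul, huv]
  rw [this]
  exact mul_mem_LO' hu hv

end Fermat.Agent.S16.NormAlg
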