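import Mathlib

/-!
# S16, upper bound: functions on `ℍ` given by power series in `q^(1/N)`

`HasQ N φ P` : for every `τ`, `φ τ = ∑ P_m t^m` with `t = exp(2πiτ/N)`.  Sums, scalar multiples,
products, finite products, change of the period, and uniqueness for level-one modular forms.
-/

set_option autoImplicit false
set_option linter.unusedSectionVars false

namespace Fermat.Agent.S16.NormQ

open UpperHalfPlane Function Complex
open scoped MatrixGroups

/-- `φ` is given on all of `ℍ` by the power series `P` in `t = exp(2πiτ/N)`. -/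
def HasQ (N : ℕ) (φ : ℍ → ℂ) (P : PowerSeries ℂ) : Prop :=
  ∀ τ : ℍ, HasSum (fun m : ℕ => P.coeff m * Periodic.qParam N τ ^ m) (φ τ)

variable {N : ℕ} {φ ψ : ℍ → ℂ} {P Q : PowerSeries ℂ}

theorem HasQ.congr (h : HasQ N φ P) (hφ : ∀ τ, φ τ = ψ τ) : HasQ N ψ P :=
  fun τ => hφ τ ▸ h τ

theorem HasQ.add (hφ : HasQ N φ P) (hψ : HasQ N ψ Q) : HasQ N (φ + ψ) (P + Q) := by
  intro τ
  have := (hφ τ).add (hψ τ)
  simpa [add_mul] using this

theorem HasQ.neg (hφ : HasQ N φ P) : HasQ N (-φ) (-P) := by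
  intro τ
  have := (hφ τ).neg
  simpa using this

theorem HasQ.sub (hφ : HasQ N φ P) (hψ : HasQ N ψ Q) : HasQ N (φ - ψ) (P - Q) := by
  intro τ
  have := (hφ τ).sub (hψ τ)
  simpa [sub_mul] using this

theorem HasQ.const_mul (c : ℂ) (hφ : HasQ N φ P) :
    HasQ N (fun τ => c * φ τ) (PowerSeries.C c * P) := by
  intro τ
  have := (hφ τ).mul_left c
  simpa [mul_assoc] using this

theorem HasQ.smul (c : ℂ) (hφ : HasQ N φ P) : HasQ N (c • φ) (c • P) := by
  intro τ
  have := (hφ τ).mul_left c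
  simpa [mul_assoc] using this

theorem hasQ_const (N : ℕ) (c : ℂ) : HasQ N (fun _ => c) (PowerSeries.C c) := by
  intro τ
  have : (fun m : ℕ => (PowerSeries.C c : PowerSeries ℂ).coeff m * Periodic.qParam N τ ^ m) =
      fun m : ℕ => if m = 0 then c else 0 := by
    funext m
    rw [PowerSeries.coeff_C]
    split_ifs with h
    · simp [h]
    · simp
  rw [this]
  exact hasSum_ite_eq 0 c

theorem hasQ_one (N : ℕ) : HasQ N (1 : ℍ → ℂ) 1 := by
  intro τ
  have := hasQ_const N 1 τ
  simpa using this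

theorem HasQ.mul (hφ : HasQ N φ P) (hψ : HasQ N ψ Q) : HasQ N (φ * ψ) (P * Q) := by
  intro τ
  have h1 := (hφ τ).summable.norm
  have h2 := (hψ τ).summable.norm
  have hs := summable_norm_sum_mul_antidiagonal_of_summable_norm h1 h2
  have hs' := hs.of_norm
  have key := tsum_mul_tsum_eq_tsum_sum_antidiagonal_of_summable_norm h1 h2
  rw [(hφ τ).tsum_eq, (hψ τ).tsum_eq] at key
  have : (fun m : ℕ => (P * Q).coeff m * Periodic.qParam N τ ^ m) =
      fun n => ∑ kl ∈ Finset.HasAntidiagonal.antidiagonal n,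
        (P.coeff kl.1 * Periodic.qParam N τ ^ kl.1) *
          (Q.coeff kl.2 * Periodic.qParam N τ ^ kl.2) := by
    funext m
    rw [PowerSeries.coeff_mul, Finset.sum_mul]
    refine Finset.sum_congr rfl fun kl hkl => ?_
    rw [Finset.HasAntidiagonal.mem_antidiagonal] at hkl
    rw [← hkl, pow_add]
    ring
  rw [this, Pi.mul_apply, key]
  exact hs'.hasSum

theorem HasQ.prod {ι : Type*} (s : Finset ι) (φ : ι → ℍ → ℂ) (P : ι → PowerSeries ℂ)
    (h : ∀ i ∈ s, HasQ N (φ i) (P i)) : HasQ N (∏ i ∈ s, φ i) (∏ i ∈ s, P i) := by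
  classical
  induction s using Finset.induction_on with
  | empty => simpa using hasQ_one N
  | insert i s hi ih =>
    rw [Finset.prod_insert hi, Finset.prod_insert hi]
    exact (h i (Finset.mem_insert_self _ _)).mul
      (ih fun j hj => h j (Finset.mem_insert_of_mem hj))

/-- Spread a power series: `X ↦ X^e`. -/
noncomputable def spread (e : ℕ) (P : PowerSeries ℂ) : PowerSeries ℂ :=
  PowerSeries.mk fun m => if e ∣ m then P.coeff (m / e) else 0

theorem coeff_spread (e : ℕ) (P : PowerSeries ℂ) (m : ℕ) :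
    (spread e P).coeff m = if e ∣ m then P.coeff (m / e) else 0 := by
  simp [spread]

theorem coeff_spread_mul {e : ℕ} (he : 0 < e) (P : PowerSeries ℂ) (n : ℕ) :
    (spread e P).coeff (e * n) = P.coeff n := by
  rw [coeff_spread, if_pos (dvd_mul_right _ _), Nat.mul_div_cancel_left _ he]

theorem coeff_spread_of_not_dvd {e : ℕ} (P : PowerSeries ℂ) {m : ℕ} (h : ¬ e ∣ m) :
    (spread e P).coeff m = 0 := by
  rw [coeff_spread, if_neg h]

theorem qParam_mul_pow {d e : ℕ} (hd : 0 < d) (he : 0 < e) (z : ℂ) :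
    Periodic.qParam ((d * e : ℕ) : ℝ) z ^ e = Periodic.qParam (d : ℝ) z := by
  unfold Periodic.qParam
  rw [← Complex.exp_nat_mul]
  congr 1
  have hd' : (d : ℂ) ≠ 0 := by exact_mod_cast hd.ne'
  have he' : (e : ℂ) ≠ 0 := by exact_mod_cast he.ne'
  push_cast
  field_simp

/-- Change of period: a series in `q^(1/d)` is a series in `q^(1/(d e))`. -/
theorem HasQ.of_period {d e : ℕ} (hd : 0 < d) (he : 0 < e) (hφ : HasQ d φ P) :
    HasQ (d * e) φ (NormQ.spread e P) := by
  intro τ
  have hinj : Function.Injective (fun n : ℕ => e * n) := fun a b h =>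
    Nat.eq_of_mul_eq_mul_left he h
  have h0 : ∀ m ∉ Set.range (fun n : ℕ => e * n),
      (spread e P).coeff m * Periodic.qParam ((d * e : ℕ) : ℝ) τ ^ m = 0 := by
    intro m hm
    have : ¬ e ∣ m := fun ⟨c, hc⟩ => hm ⟨c, hc.symm⟩
    rw [coeff_spread_of_not_dvd P this, zero_mul]
  rw [← hinj.hasSum_iff h0]
  have : ((fun m : ℕ => (NormQ.spread e P).coeff m * Periodic.qParam ((d * e : ℕ) : ℝ) τ ^ m) ∘
      fun n : ℕ => e * n) = fun n : ℕ => P.coeff n * Periodic.qParam (d : ℝ) τ ^ n := by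
    funext n
    simp only [Function.comp_apply]
    rw [coeff_spread_mul he, pow_mul, qParam_mul_pow hd he]
  rw [this]
  exact hφ τ

/-- Uniqueness for level-one modular forms: an expansion in `q^(1/N)` of a level-one form is the
spread of its `q`-expansion. -/
theorem HasQ.eq_spread_of_levelOne {k : ℤ} (F : ModularForm 𝒮ℒ k) {N : ℕ} (hN : 0 < N)
    (h : HasQ N (⇑F) P) : P = NormQ.spread N (qExpansion 1 F) := by
  have h1 : (1 : ℝ) ∈ (𝒮ℒ : Subgroup (GL (Fin 2) ℝ)).strictPeriods := by simp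
  have hNp : ((N : ℕ) : ℝ) ∈ (𝒮ℒ : Subgroup (GL (Fin 2) ℝ)).strictPeriods := by
    have := AddSubgroup.nsmul_mem _ h1 N
    simpa using this
  have hN' : (0 : ℝ) < (N : ℝ) := by exact_mod_cast hN
  have e1 : HasQ 1 (⇑F) (qExpansion 1 F) := by
    intro τ
    have := ModularForm.hasSum_qExpansion (f := F) one_pos h1 τ
    simpa using this
  have e2 : HasQ N (⇑F) (NormQ.spread N (qExpansion 1 F)) := by
    have := e1.of_period one_pos hN
    simpa using this
  ext m
  have a1 := ModularFormClass.qExpansion_coeff_unique (f := F) (c := fun m => P.coeff m) hN' hNp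
    (fun τ => by simpa using h τ) m
  have a2 := ModularFormClass.qExpansion_coeff_unique (f := F)
    (c := fun m => (NormQ.spread N (qExpansion 1 F)).coeff m) hN' hNp
    (fun τ => by simpa using e2 τ) m
  exact a1.trans a2.symm

end Fermat.Agent.S16.NormQ
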