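import Mathlib
import Fermat.Agent.S16.NormAlg
import Fermat.Agent.S16.NormQ

/-!
# S16, upper bound: the four classes of conjugates are `t^a × unit` modulo `ℓ`

Pure algebra of power series.  `hS` is the `q`-expansion of `H` (level `p`, `≡ 1 mod ℓ^(c+1)`),
`gS` the `q`-expansion of the auxiliary Eisenstein form `G_r`; the conjugates of
`K = (-p H - G) / ℓ^c` have the expansions `C c₁ * A + C c₂ * B` in `t = q^(1/(r p))`, where
`A ∈ {spread (r p) hS, spread r (twist p ζ hS)}` and `B ∈ {spread (r p) gS, spread p (twist r ζ' gS)}`.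
-/

set_option autoImplicit false
set_option linter.unusedSectionVars false

namespace Fermat.Agent.S16.NormClass

open Fermat.Agent.S16.NormAlg Fermat.Agent.S16.NormQ

variable {ℓ : ℕ} [hℓ : Fact ℓ.Prime]

/-! ### Units modulo `ℓ` -/

variable (ℓ) in
/-- `x` is invertible modulo `ℓ` in the ring of `ℓ`-integral numbers. -/
def IsUnitMod (x : ℂ) : Prop := ∃ d ∈ OO ℓ, x * d - 1 ∈ LO ℓ

theorem isUnitMod_natCast {z : ℕ} (hz : ¬ ℓ ∣ z) : IsUnitMod ℓ (z : ℂ) := by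
  have hcop : Nat.Coprime ℓ z := (Nat.Prime.coprime_iff_not_dvd hℓ.out).mpr hz
  have hb := Nat.gcd_eq_gcd_ab ℓ z
  rw [hcop.gcd_eq_one] at hb
  refine ⟨((Nat.gcdB ℓ z : ℤ) : ℂ), intCast_mem_OO _, ?_⟩
  have e : (z : ℂ) * ((Nat.gcdB ℓ z : ℤ) : ℂ) - 1 = (ℓ : ℂ) * ((-(Nat.gcdA ℓ z) : ℤ) : ℂ) := by
    have : ((1 : ℕ) : ℤ) = (ℓ : ℤ) * Nat.gcdA ℓ z + (z : ℤ) * Nat.gcdB ℓ z := hb
    have h2 : (1 : ℂ) = (ℓ : ℂ) * ((Nat.gcdA ℓ z : ℤ) : ℂ) + (z : ℂ) * ((Nat.gcdB ℓ z : ℤ) : ℂ) := by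
      exact_mod_cast this
    push_cast
    linear_combination -h2
  rw [e]
  exact natCast_mul_mem_LO (intCast_mem_OO _)

theorem IsUnitMod.mul {x y : ℂ} (hx : IsUnitMod ℓ x) (hy : IsUnitMod ℓ y)
    (hy' : y ∈ OO ℓ) : IsUnitMod ℓ (x * y) := by
  obtain ⟨d, hd, h1⟩ := hx
  obtain ⟨e, he, h2⟩ := hy
  refine ⟨d * e, (OO ℓ).mul_mem hd he, ?_⟩
  have : x * y * (d * e) - 1 = (x * d - 1) * (y * e) + (y * e - 1) := by ring
  rw [this]
  exact (LO ℓ).add_mem (mul_mem_LO' h1 ((OO ℓ).mul_mem hy' he)) h2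

theorem IsUnitMod.neg {x : ℂ} (hx : IsUnitMod ℓ x) : IsUnitMod ℓ (-x) := by
  obtain ⟨d, hd, h1⟩ := hx
  refine ⟨-d, (OO ℓ).neg_mem hd, ?_⟩
  have : -x * -d - 1 = x * d - 1 := by ring
  rw [this]
  exact h1

theorem isUnitMod_of_mul_eq_one {x y : ℂ} (hy : y ∈ OO ℓ) (h : x * y = 1) : IsUnitMod ℓ x :=
  ⟨y, hy, by rw [h, sub_self]; exact (LO ℓ).zero_mem⟩

theorem IsUnitMod.add_mem {x e : ℂ} (hx : IsUnitMod ℓ x) (he : e ∈ LO ℓ) :
    IsUnitMod ℓ (x + e) := by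
  obtain ⟨d, hd, h1⟩ := hx
  refine ⟨d, hd, ?_⟩
  have : (x + e) * d - 1 = (x * d - 1) + e * d := by ring
  rw [this]
  exact (LO ℓ).add_mem h1 (mul_mem_LO' he hd)

theorem IsUnitMod.mem_add {x e : ℂ} (hx : IsUnitMod ℓ x) (he : e ∈ LO ℓ) :
    IsUnitMod ℓ (e + x) := by
  rw [add_comm]
  exact hx.add_mem he

theorem good_of_isUnitMod {P : PowerSeries ℂ} {a : ℕ} (hmem : ∀ n, P.coeff n ∈ OO ℓ)
    (hlow : ∀ n, n < a → P.coeff n ∈ LO ℓ) (hu : IsUnitMod ℓ (P.coeff a)) : Good ℓ P a :=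
  ⟨hmem, hlow, hu⟩

/-- A natural number is `≡ 0` or a unit modulo `ℓ`. -/
theorem natCast_mem_LO_or_isUnitMod (z : ℕ) : (z : ℂ) ∈ LO ℓ ∨ IsUnitMod ℓ (z : ℂ) := by
  by_cases h : ℓ ∣ z
  · left
    obtain ⟨k, rfl⟩ := h
    push_cast
    exact natCast_mul_mem_LO (natCast_mem_OO _)
  · right
    exact isUnitMod_natCast h

/-! ### Twists -/

/-- The expansion of a conjugate at the cusp `0`: `-(1/p) ∑ a_{p n} ζ^n X^n`. -/
noncomputable def twist (p : ℕ) (ζ : ℂ) (S : PowerSeries ℂ) : PowerSeries ℂ :=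
  PowerSeries.mk fun n => -(1 / (p : ℂ)) * S.coeff (p * n) * ζ ^ n

theorem coeff_twist (p : ℕ) (ζ : ℂ) (S : PowerSeries ℂ) (n : ℕ) :
    (twist p ζ S).coeff n = -(1 / (p : ℂ)) * S.coeff (p * n) * ζ ^ n := by
  simp [twist]

/-! ### The data -/

/-- The numerical hypotheses of the norm trick. -/
structure Data (ℓ : ℕ) [Fact ℓ.Prime] (r p c w u₀ v : ℕ) (hS gS : PowerSeries ℂ) : Prop where
  hℓr : ℓ ≠ r
  hr : 2 ≤ r
  hp : 2 ≤ p
  hw : w = ℓ ^ c * u₀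
  hu₀ : ¬ ℓ ∣ u₀
  h3 : ℓ ^ c ∣ p + 1
  h5 : r + 1 = ℓ ^ c * v
  hv : ¬ ℓ ∣ v
  g0 : gS.coeff 0 = 1
  g1 : gS.coeff 1 = w
  gr : gS.coeff r = w
  g : ∀ n, 1 ≤ n → ∃ z : ℤ, gS.coeff n = w * z
  h0 : hS.coeff 0 = 1
  h : ∀ n, 1 ≤ n → ∃ y ∈ OO ℓ, hS.coeff n = (ℓ : ℂ) ^ (c + 1) * y

variable {r p c w u₀ v : ℕ} {hS gS : PowerSeries ℂ}

namespace Data

variable (D : Data ℓ r p c w u₀ v hS gS)
include D

theorem ℓc_ne_zero : ((ℓ : ℂ) ^ c) ≠ 0 := pow_ne_zero _ (by exact_mod_cast hℓ.out.ne_zero)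

theorem r_ne_zero : (r : ℂ) ≠ 0 := by
  have := D.hr
  exact_mod_cast (by omega : r ≠ 0)

theorem p_ne_zero : (p : ℂ) ≠ 0 := by
  have := D.hp
  exact_mod_cast (by omega : p ≠ 0)

theorem not_dvd_r [Fact r.Prime] : ¬ ℓ ∣ r := by
  intro h
  exact D.hℓr ((Nat.prime_dvd_prime_iff_eq hℓ.out (Fact.out : r.Prime)).mp h)

/-- `h_n / ℓ^c ∈ ℓ O` for `n ≥ 1`. -/
theorem h_div_mem {n : ℕ} (hn : 1 ≤ n) : hS.coeff n / (ℓ : ℂ) ^ c ∈ LO ℓ := by
  obtain ⟨y, hy, e⟩ := D.h n hn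
  rw [e, pow_succ]
  have : (ℓ : ℂ) ^ c * ℓ * y / (ℓ : ℂ) ^ c = (ℓ : ℂ) * y := by
    field_simp [D.ℓc_ne_zero]
  rw [this]
  exact natCast_mul_mem_LO hy

/-- `g_n / ℓ^c` is an integer multiple of `u₀` for `n ≥ 1`. -/
theorem g_div {n : ℕ} (hn : 1 ≤ n) : ∃ z : ℤ, gS.coeff n / (ℓ : ℂ) ^ c = u₀ * z := by
  obtain ⟨z, e⟩ := D.g n hn
  refine ⟨z, ?_⟩
  rw [e, D.hw]
  push_cast
  field_simp [D.ℓc_ne_zero]

theorem g_div_mem {n : ℕ} (hn : 1 ≤ n) : gS.coeff n / (ℓ : ℂ) ^ c ∈ OO ℓ := by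
  obtain ⟨z, e⟩ := D.g_div hn
  rw [e]
  exact (OO ℓ).mul_mem (natCast_mem_OO _) (intCast_mem_OO _)

theorem g1_div : gS.coeff 1 / (ℓ : ℂ) ^ c = u₀ := by
  rw [D.g1, D.hw]
  push_cast
  field_simp [D.ℓc_ne_zero]

theorem gr_div : gS.coeff r / (ℓ : ℂ) ^ c = u₀ := by
  rw [D.gr, D.hw]
  push_cast
  field_simp [D.ℓc_ne_zero]

end Data

/-! ### The four parts -/

/-- The constant `c₁ = -p / ℓ^c`. -/
noncomputable def c1 (ℓ p c : ℕ) : ℂ := -(p : ℂ) / (ℓ : ℂ) ^ c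

/-- The constant `c₂ = -1 / ℓ^c`. -/
noncomputable def c2 (ℓ c : ℕ) : ℂ := -1 / (ℓ : ℂ) ^ c

/-- plain `H`-part -/
noncomputable def PH (ℓ r p c : ℕ) (hS : PowerSeries ℂ) : PowerSeries ℂ :=
  PowerSeries.C (c1 ℓ p c) * spread (r * p) hS

/-- twisted `H`-part -/
noncomputable def TH (ℓ r p c : ℕ) (ζ : ℂ) (hS : PowerSeries ℂ) : PowerSeries ℂ :=
  PowerSeries.C (c1 ℓ p c) * spread r (twist p ζ hS)

/-- plain `G`-part -/
noncomputable def PG (ℓ r p c : ℕ) (gS : PowerSeries ℂ) : PowerSeries ℂ :=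
  PowerSeries.C (c2 ℓ c) * spread (r * p) gS

/-- twisted `G`-part -/
noncomputable def TG (ℓ r p c : ℕ) (ζ : ℂ) (gS : PowerSeries ℂ) : PowerSeries ℂ :=
  PowerSeries.C (c2 ℓ c) * spread p (twist r ζ gS)

namespace Data

variable (D : Data ℓ r p c w u₀ v hS gS)
include D

theorem rp_pos : 0 < r * p := by
  have := D.hr
  have := D.hp
  positivity

theorem coeff_PH (m : ℕ) : (PH ℓ r p c hS).coeff m =
    if r * p ∣ m then -(p : ℂ) * (hS.coeff (m / (r * p)) / (ℓ : ℂ) ^ c) else 0 := by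
  unfold PH
  rw [PowerSeries.coeff_C_mul, coeff_spread]
  split_ifs
  · unfold c1
    ring
  · simp

theorem coeff_TH (ζ : ℂ) (m : ℕ) : (TH ℓ r p c ζ hS).coeff m =
    if r ∣ m then (hS.coeff (p * (m / r)) / (ℓ : ℂ) ^ c) * ζ ^ (m / r) else 0 := by
  unfold TH
  rw [PowerSeries.coeff_C_mul, coeff_spread]
  split_ifs
  · rw [coeff_twist]
    unfold c1
    have := D.p_ne_zero
    field_simp
  · simp

theorem coeff_PG (m : ℕ) : (PG ℓ r p c gS).coeff m =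
    if r * p ∣ m then -(gS.coeff (m / (r * p)) / (ℓ : ℂ) ^ c) else 0 := by
  unfold PG
  rw [PowerSeries.coeff_C_mul, coeff_spread]
  split_ifs
  · unfold c2
    ring
  · simp

theorem coeff_TG (ζ : ℂ) (m : ℕ) : (TG ℓ r p c ζ gS).coeff m =
    if p ∣ m then (gS.coeff (r * (m / p)) / (ℓ : ℂ) ^ c) * ζ ^ (m / p) / r else 0 := by
  unfold TG
  rw [PowerSeries.coeff_C_mul, coeff_spread]
  split_ifs
  · rw [coeff_twist]
    unfold c2
    have := D.r_ne_zero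
    field_simp
  · simp

/-! #### values at `0` -/

theorem coeff_PH_zero : (PH ℓ r p c hS).coeff 0 = -(p : ℂ) / (ℓ : ℂ) ^ c := by
  rw [D.coeff_PH, if_pos (dvd_zero _), Nat.zero_div, D.h0]
  ring

theorem coeff_TH_zero (ζ : ℂ) : (TH ℓ r p c ζ hS).coeff 0 = 1 / (ℓ : ℂ) ^ c := by
  rw [D.coeff_TH, if_pos (dvd_zero _), Nat.zero_div, mul_zero, D.h0]
  simp

theorem coeff_PG_zero : (PG ℓ r p c gS).coeff 0 = -1 / (ℓ : ℂ) ^ c := by
  rw [D.coeff_PG, if_pos (dvd_zero _), Nat.zero_div, D.g0]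
  ring

theorem coeff_TG_zero (ζ : ℂ) : (TG ℓ r p c ζ gS).coeff 0 = 1 / ((r : ℂ) * (ℓ : ℂ) ^ c) := by
  rw [D.coeff_TG, if_pos (dvd_zero _), Nat.zero_div, mul_zero, D.g0]
  have := D.r_ne_zero
  have := D.ℓc_ne_zero
  field_simp

/-! #### positive indices -/

theorem coeff_PH_mem {m : ℕ} (hm : 0 < m) : (PH ℓ r p c hS).coeff m ∈ LO ℓ := by
  rw [D.coeff_PH]
  split_ifs with h
  · have h1 : 1 ≤ m / (r * p) := (Nat.one_le_div_iff D.rp_pos).mpr (Nat.le_of_dvd hm h)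
    have := mul_mem_LO (natCast_mem_OO (ℓ := ℓ) p) (D.h_div_mem h1)
    have := (LO ℓ).neg_mem this
    convert this using 1
    ring
  · exact (LO ℓ).zero_mem

theorem coeff_TH_mem {ζ : ℂ} (hζ : ζ ∈ OO ℓ) {m : ℕ} (hm : 0 < m) :
    (TH ℓ r p c ζ hS).coeff m ∈ LO ℓ := by
  rw [D.coeff_TH]
  split_ifs with h
  · have hr : 0 < r := by have := D.hr; omega
    have h1 : 1 ≤ m / r := (Nat.one_le_div_iff hr).mpr (Nat.le_of_dvd hm h)
    have h2 : 1 ≤ p * (m / r) := by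
      have := D.hp
      exact Nat.one_le_iff_ne_zero.mpr (Nat.mul_ne_zero (by omega) (by omega))
    exact mul_mem_LO' (D.h_div_mem h2) ((OO ℓ).pow_mem hζ _)
  · exact (LO ℓ).zero_mem

theorem coeff_PG_mem {m : ℕ} (hm : 0 < m) : (PG ℓ r p c gS).coeff m ∈ OO ℓ := by
  rw [D.coeff_PG]
  split_ifs with h
  · have h1 : 1 ≤ m / (r * p) := (Nat.one_le_div_iff D.rp_pos).mpr (Nat.le_of_dvd hm h)
    exact (OO ℓ).neg_mem (D.g_div_mem h1)
  · exact (OO ℓ).zero_mem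

theorem coeff_PG_low {m : ℕ} (hm : 0 < m) (hm' : m < r * p) : (PG ℓ r p c gS).coeff m = 0 := by
  rw [D.coeff_PG, if_neg]
  intro h
  exact absurd (Nat.le_of_dvd hm h) (by omega)

theorem coeff_PG_rp : (PG ℓ r p c gS).coeff (r * p) = -(u₀ : ℂ) := by
  rw [D.coeff_PG, if_pos dvd_rfl, Nat.div_self D.rp_pos, D.g1_div]

theorem coeff_TG_mem [Fact r.Prime] {ζ : ℂ} (hζ : ζ ∈ OO ℓ) {m : ℕ} (hm : 0 < m) :
    (TG ℓ r p c ζ gS).coeff m ∈ OO ℓ := by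
  rw [D.coeff_TG]
  split_ifs with h
  · have hp : 0 < p := by have := D.hp; omega
    have h1 : 1 ≤ m / p := (Nat.one_le_div_iff hp).mpr (Nat.le_of_dvd hm h)
    have h2 : 1 ≤ r * (m / p) := by
      have := D.hr
      exact Nat.one_le_iff_ne_zero.mpr (Nat.mul_ne_zero (by omega) (by omega))
    exact div_mem_OO ((OO ℓ).mul_mem (D.g_div_mem h2) ((OO ℓ).pow_mem hζ _)) D.not_dvd_r
  · exact (OO ℓ).zero_mem

theorem coeff_TG_low (ζ : ℂ) {m : ℕ} (hm : 0 < m) (hm' : m < p) :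
    (TG ℓ r p c ζ gS).coeff m = 0 := by
  rw [D.coeff_TG, if_neg]
  intro h
  exact absurd (Nat.le_of_dvd hm h) (by omega)

theorem coeff_TG_p (ζ : ℂ) : (TG ℓ r p c ζ gS).coeff p = (u₀ : ℂ) * ζ / r := by
  have hp : 0 < p := by have := D.hp; omega
  rw [D.coeff_TG, if_pos dvd_rfl, Nat.div_self hp, mul_one, D.gr_div, pow_one]

theorem coeff_PH_p_eq_zero : (PH ℓ r p c hS).coeff p = 0 := by
  rw [D.coeff_PH, if_neg]
  intro h
  have hp : 0 < p := by have := D.hp; omega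
  have := Nat.le_of_dvd hp h
  have hr := D.hr
  nlinarith

/-! ### The four classes -/

/-- class `(∞_r, j)`: order exactly `r p`. -/
theorem good_inf_j {ζ : ℂ} (hζ : ζ ∈ OO ℓ) :
    Good ℓ (TH ℓ r p c ζ hS + PG ℓ r p c gS) (r * p) := by
  have h0 : (TH ℓ r p c ζ hS + PG ℓ r p c gS).coeff 0 = 0 := by
    rw [map_add, D.coeff_TH_zero, D.coeff_PG_zero]
    ring
  refine good_of_isUnitMod (fun m => ?_) (fun m hm => ?_) ?_
  · rcases Nat.eq_zero_or_pos m with rfl | hm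
    · rw [h0]
      exact (OO ℓ).zero_mem
    · rw [map_add]
      exact (OO ℓ).add_mem (LO_le_OO (D.coeff_TH_mem hζ hm)) (D.coeff_PG_mem hm)
  · rcases Nat.eq_zero_or_pos m with rfl | hm0
    · rw [h0]
      exact (LO ℓ).zero_mem
    · rw [map_add, D.coeff_PG_low hm0 hm, add_zero]
      exact D.coeff_TH_mem hζ hm0
  · rw [map_add, D.coeff_PG_rp]
    exact (isUnitMod_natCast D.hu₀).neg.mem_add (D.coeff_TH_mem hζ D.rp_pos)

/-- class `(0_r, j)`: order `0`. -/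
theorem good_i_j [Fact r.Prime] {ζ ζ' : ℂ} (hζ : ζ ∈ OO ℓ) (hζ' : ζ' ∈ OO ℓ) :
    Good ℓ (TH ℓ r p c ζ hS + TG ℓ r p c ζ' gS) 0 := by
  have h0 : (TH ℓ r p c ζ hS + TG ℓ r p c ζ' gS).coeff 0 = (v : ℂ) / r := by
    rw [map_add, D.coeff_TH_zero, D.coeff_TG_zero]
    have h5 : ((r : ℂ) + 1) = (ℓ : ℂ) ^ c * v := by exact_mod_cast D.h5
    have := D.r_ne_zero
    have := D.ℓc_ne_zero
    field_simp
    linear_combination h5
  have hu : IsUnitMod ℓ ((v : ℂ) / r) := by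
    have h1 : IsUnitMod ℓ ((r : ℂ)⁻¹) :=
      isUnitMod_of_mul_eq_one (natCast_mem_OO r) (inv_mul_cancel₀ D.r_ne_zero)
    have := (isUnitMod_natCast (ℓ := ℓ) D.hv).mul h1 (inv_natCast_mem_OO D.not_dvd_r)
    rwa [← div_eq_mul_inv] at this
  refine good_of_isUnitMod (fun m => ?_) (fun m hm => absurd hm (Nat.not_lt_zero _)) ?_
  · rcases Nat.eq_zero_or_pos m with rfl | hm
    · rw [h0]
      exact div_mem_OO (natCast_mem_OO _) D.not_dvd_r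
    · rw [map_add]
      exact (OO ℓ).add_mem (LO_le_OO (D.coeff_TH_mem hζ hm)) (D.coeff_TG_mem hζ' hm)
  · rw [h0]
    exact hu

/-- class `(∞_r, ∞_p)`: order `0` or `r p`. -/
theorem good_inf_inf : ∃ a, Good ℓ (PH ℓ r p c hS + PG ℓ r p c gS) a := by
  obtain ⟨s, hs⟩ := D.h3
  have h0 : (PH ℓ r p c hS + PG ℓ r p c gS).coeff 0 = -(s : ℂ) := by
    rw [map_add, D.coeff_PH_zero, D.coeff_PG_zero]
    have h3 : ((p : ℂ) + 1) = (ℓ : ℂ) ^ c * s := by exact_mod_cast hs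
    have := D.ℓc_ne_zero
    field_simp
    linear_combination -h3
  have hmem : ∀ m, (PH ℓ r p c hS + PG ℓ r p c gS).coeff m ∈ OO ℓ := by
    intro m
    rcases Nat.eq_zero_or_pos m with rfl | hm
    · rw [h0]
      exact (OO ℓ).neg_mem (natCast_mem_OO _)
    · rw [map_add]
      exact (OO ℓ).add_mem (LO_le_OO (D.coeff_PH_mem hm)) (D.coeff_PG_mem hm)
  rcases natCast_mem_LO_or_isUnitMod (ℓ := ℓ) s with hs' | hs'
  · refine ⟨r * p, good_of_isUnitMod hmem (fun m hm => ?_) ?_⟩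
    · rcases Nat.eq_zero_or_pos m with rfl | hm0
      · rw [h0]
        exact (LO ℓ).neg_mem hs'
      · rw [map_add, D.coeff_PG_low hm0 hm, add_zero]
        exact D.coeff_PH_mem hm0
    · rw [map_add, D.coeff_PG_rp]
      exact (isUnitMod_natCast D.hu₀).neg.mem_add (D.coeff_PH_mem D.rp_pos)
  · refine ⟨0, good_of_isUnitMod hmem (fun m hm => absurd hm (Nat.not_lt_zero _)) ?_⟩
    rw [h0]
    exact hs'.neg

/-- class `(0_r, ∞_p)`: order `0` or `p`. -/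
theorem good_i_inf [Fact r.Prime] {ζ ζ' : ℂ} (hζ : ζ ∈ OO ℓ) (hζ' : ζ' ∈ OO ℓ)
    (hζζ : ζ * ζ' = 1) : ∃ a, Good ℓ (PH ℓ r p c hS + TG ℓ r p c ζ gS) a := by
  -- `ℓ^c ∣ r p - 1`
  obtain ⟨s, hs⟩ := D.h3
  have hrp : r * p = ℓ ^ c * (r * s - v) + 1 := by
    have h5 := D.h5
    have e1 : r * (p + 1) = ℓ ^ c * (r * s) := by rw [hs]; ring
    have e2 : ℓ ^ c * v ≤ ℓ ^ c * (r * s) := by
      rw [← e1, ← h5]
      have := D.hp
      have := D.hr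
      nlinarith
    have e3 : v ≤ r * s := Nat.le_of_mul_le_mul_left e2 (pow_pos hℓ.out.pos c)
    have e4 : ℓ ^ c * (r * s - v) = ℓ ^ c * (r * s) - ℓ ^ c * v := Nat.mul_sub _ _ _
    rw [e4, ← e1, ← h5]
    have := D.hr
    have := D.hp
    have : r + 1 ≤ r * (p + 1) := by nlinarith
    have : r * (p + 1) = r * p + r := by ring
    omega
  set s' := r * s - v with hs'
  have h0 : (PH ℓ r p c hS + TG ℓ r p c ζ gS).coeff 0 = -((s' : ℂ) / r) := by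
    rw [map_add, D.coeff_PH_zero, D.coeff_TG_zero]
    have h3 : ((r : ℂ) * p) = (ℓ : ℂ) ^ c * s' + 1 := by exact_mod_cast hrp
    have := D.r_ne_zero
    have := D.ℓc_ne_zero
    field_simp
    linear_combination -h3
  have hmem : ∀ m, (PH ℓ r p c hS + TG ℓ r p c ζ gS).coeff m ∈ OO ℓ := by
    intro m
    rcases Nat.eq_zero_or_pos m with rfl | hm
    · rw [h0]
      exact (OO ℓ).neg_mem (div_mem_OO (natCast_mem_OO _) D.not_dvd_r)
    · rw [map_add]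
      exact (OO ℓ).add_mem (LO_le_OO (D.coeff_PH_mem hm)) (D.coeff_TG_mem hζ hm)
  have hrinv : IsUnitMod ℓ ((r : ℂ)⁻¹) :=
    isUnitMod_of_mul_eq_one (natCast_mem_OO r) (inv_mul_cancel₀ D.r_ne_zero)
  rcases natCast_mem_LO_or_isUnitMod (ℓ := ℓ) s' with hs'' | hs''
  · refine ⟨p, good_of_isUnitMod hmem (fun m hm => ?_) ?_⟩
    · rcases Nat.eq_zero_or_pos m with rfl | hm0
      · rw [h0, div_eq_mul_inv]
        exact (LO ℓ).neg_mem (mul_mem_LO' hs'' (inv_natCast_mem_OO D.not_dvd_r))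
      · rw [map_add, D.coeff_TG_low ζ hm0 hm, add_zero]
        exact D.coeff_PH_mem hm0
    · rw [map_add, D.coeff_PH_p_eq_zero, zero_add, D.coeff_TG_p]
      have hζu : IsUnitMod ℓ ζ := isUnitMod_of_mul_eq_one hζ' hζζ
      have := ((isUnitMod_natCast (ℓ := ℓ) D.hu₀).mul hζu hζ).mul hrinv
        (inv_natCast_mem_OO D.not_dvd_r)
      rwa [← div_eq_mul_inv] at this
  · refine ⟨0, good_of_isUnitMod hmem (fun m hm => absurd hm (Nat.not_lt_zero _)) ?_⟩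
    rw [h0]
    have := (hs''.mul hrinv (inv_natCast_mem_OO D.not_dvd_r)).neg
    rwa [← div_eq_mul_inv] at this

end Data

end Fermat.Agent.S16.NormClass
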