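import Mathlib
import Fermat.Agent.S20.DualTrace
import Fermat.Agent.S16.NormQ

/-!
# S16, upper bound: the norm over pairs of cosets

For `H` of level `p` and `G` of level `r` (weight `2`) and constants `c₁ c₂`, the product over all
pairs of cosets `x ∈ Q r × Q p` of `c₁ • H∣x₂⁻¹ + c₂ • G∣x₁⁻¹` is a modular form of level one and
weight `2 · #(Q r × Q p)`.  (This is the norm of `c₁ H + c₂ G` from `Γ₀(rp)`, but neither `Γ₀(rp)`
nor the Chinese remainder theorem is needed.)
-/

set_option autoImplicit false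
set_option linter.unusedSectionVars false

namespace Fermat.Agent.S16.NormForm

open UpperHalfPlane CongruenceSubgroup ModularForm Filter
open scoped MatrixGroups ModularForm Manifold Topology
open Fermat.Agent.S20 Fermat.Agent.S20.Dual Fermat.Agent.S16.NormQ

attribute [local instance] fintypeQ

variable (r p : ℕ) [NeZero r] [NeZero p] (c₁ c₂ : ℂ) (H G : ℍ → ℂ)

/-- The factor of the norm at the pair of cosets `x`. -/
noncomputable def factor (x : Q r × Q p) : ℍ → ℂ :=
  c₁ • comp p 2 H x.2 + c₂ • comp r 2 G x.1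

/-- The norm over pairs of cosets. -/
noncomputable def prodFun : ℍ → ℂ :=
  ∏ x : Q r × Q p, factor r p c₁ c₂ H G x

variable {r p c₁ c₂ H G}

theorem factor_slash (hH : ∀ γ ∈ Gamma0 p, H ∣[(2 : ℤ)] γ = H)
    (hG : ∀ γ ∈ Gamma0 r, G ∣[(2 : ℤ)] γ = G) (x : Q r × Q p) (δ : SL(2, ℤ)) :
    (factor r p c₁ c₂ H G x) ∣[(2 : ℤ)] δ = factor r p c₁ c₂ H G (δ⁻¹ • x) := by
  unfold factor
  rw [SlashAction.add_slash, SL_smul_slash, SL_smul_slash, comp_slash hH, comp_slash hG]
  rfl

theorem mdiff_factor (hH : MDiff H) (hG : MDiff G) (x : Q r × Q p) :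
    MDiff (factor r p c₁ c₂ H G x) := by
  unfold factor
  exact ((mdiff_comp hH x.2).const_smul c₁).add ((mdiff_comp hG x.1).const_smul c₂)

theorem bdd_factor (hH : IsMF p 2 H) (hG : IsMF r 2 G) (x : Q r × Q p) :
    IsBoundedAtImInfty (factor r p c₁ c₂ H G x) := by
  unfold factor
  have h1 : IsBoundedAtImInfty (comp p 2 H x.2) := hH.2.2 _
  have h2 : IsBoundedAtImInfty (comp r 2 G x.1) := hG.2.2 _
  exact (h1.const_smul_left c₁).add (h2.const_smul_left c₂)

theorem prodFun_slash (hH : ∀ γ ∈ Gamma0 p, H ∣[(2 : ℤ)] γ = H)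
    (hG : ∀ γ ∈ Gamma0 r, G ∣[(2 : ℤ)] γ = G) (δ : SL(2, ℤ)) :
    (prodFun r p c₁ c₂ H G) ∣[(2 : ℤ) * (Fintype.card (Q r × Q p) : ℤ)] δ =
      prodFun r p c₁ c₂ H G := by
  unfold prodFun
  rw [SL_slash, ← Finset.card_univ, prod_slash]
  have hdet : |((Matrix.SpecialLinearGroup.toGL ((Matrix.SpecialLinearGroup.map
      (Int.castRingHom ℝ)) δ) : GL (Fin 2) ℝ).det.val : ℝ)| = 1 := by
    simp
  rw [hdet, one_zpow, one_smul]
  have e : ∀ x : Q r × Q p, factor r p c₁ c₂ H G x ∣[(2 : ℤ)]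
      (Matrix.SpecialLinearGroup.toGL ((Matrix.SpecialLinearGroup.map (Int.castRingHom ℝ)) δ) :
        GL (Fin 2) ℝ) = factor r p c₁ c₂ H G (δ⁻¹ • x) := by
    intro x
    rw [← factor_slash hH hG x δ, SL_slash]
  simp_rw [e]
  exact Equiv.prod_comp (MulAction.toPerm (δ⁻¹ : SL(2, ℤ)))
    (fun x : Q r × Q p => factor r p c₁ c₂ H G x)

/-- **The norm over pairs is a modular form of level one.** -/
theorem isMF_prodFun (hH : IsMF p 2 H) (hG : IsMF r 2 G) :
    IsMF 1 ((2 : ℤ) * (Fintype.card (Q r × Q p) : ℤ)) (prodFun r p c₁ c₂ H G) := by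
  refine ⟨?_, fun γ _ => prodFun_slash hH.2.1 hG.2.1 γ, fun δ => ?_⟩
  · unfold prodFun
    exact MDifferentiable.prod fun x _ => mdiff_factor hH.1 hG.1 x
  · rw [prodFun_slash hH.2.1 hG.2.1]
    unfold prodFun
    have : ∀ s : Finset (Q r × Q p),
        IsBoundedAtImInfty (∏ x ∈ s, factor r p c₁ c₂ H G x) := by
      classical
      intro s
      induction s using Finset.induction_on with
      | empty =>
        rw [Finset.prod_empty]
        exact const_boundedAtFilter _ (1 : ℂ)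
      | insert a s ha ih =>
        rw [Finset.prod_insert ha]
        exact (bdd_factor hH hG a).mul ih
    exact this _

/-- The norm over pairs as a bundled modular form of level one. -/
noncomputable def normForm (hH : IsMF p 2 H) (hG : IsMF r 2 G) :
    ModularForm 𝒮ℒ ((2 : ℤ) * (Fintype.card (Q r × Q p) : ℤ)) :=
  (isMF_prodFun (c₁ := c₁) (c₂ := c₂) hH hG).toModularFormOne

theorem coe_normForm (hH : IsMF p 2 H) (hG : IsMF r 2 G) :
    ⇑(normForm (c₁ := c₁) (c₂ := c₂) hH hG) = prodFun r p c₁ c₂ H G := rfl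

/-- If every factor has a `q^(1/N)`-expansion, the norm has the product expansion, and this is
the spread of its `q`-expansion. -/
theorem spread_qExpansion_normForm (hH : IsMF p 2 H) (hG : IsMF r 2 G) {N : ℕ} (hN : 0 < N)
    (P : Q r × Q p → PowerSeries ℂ)
    (hP : ∀ x, HasQ N (factor r p c₁ c₂ H G x) (P x)) :
    ∏ x, P x = NormQ.spread N (qExpansion 1 (normForm (c₁ := c₁) (c₂ := c₂) hH hG)) := by
  apply HasQ.eq_spread_of_levelOne _ hN
  rw [coe_normForm]
  unfold prodFun
  exact HasQ.prod _ _ _ fun x _ => hP x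

end Fermat.Agent.S16.NormForm
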