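import Mathlib
import Fermat.Agent.S16.NormClass
import Fermat.Agent.S16.NormForm
import Fermat.Agent.S16.MillerInt
import Fermat.Agent.S16.Gr
import Fermat.Agent.S16.AuxEis

/-!
# S16, upper bound: the norm trick

If `H ∈ M₂(Γ₀(p))` has `a₀ = 1` and `a_n ∈ ℓ^(c+1) O` for `n ≥ 1`, and `G ∈ M₂(Γ₀(r))` is the
auxiliary Eisenstein series (`r ∈ {2, 3}`), then the norm to level one of `K = (-p H - G) / ℓ^c`
is `ℓ`-integral, nonzero modulo `ℓ`, and vanishes modulo `ℓ` to order `≥ p` at `∞`; this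
contradicts the Victor Miller bound.
-/

set_option autoImplicit false
set_option linter.unusedSectionVars false
set_option linter.style.haveILetI false

namespace Fermat.Agent.S16.NormTrick

open UpperHalfPlane CongruenceSubgroup ModularForm Complex
open scoped MatrixGroups ModularForm Manifold Real
open Fermat.Agent.S20 Fermat.Agent.S20.Dual Fermat.Agent.S16.NormQ Fermat.Agent.S16.NormAlg
open Fermat.Agent.S16.NormClass Fermat.Agent.S16.NormForm

/-- The expansion of the conjugates `F ∣ S T^j` of a form of level `N` (statement (b-ii)). -/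
def ConjExp (N : ℕ) (F : ℍ → ℂ) (a : PowerSeries ℂ) : Prop :=
  ∀ (j : ℤ) (τ : ℍ), HasSum (fun n : ℕ => -(1 / (N : ℂ)) * a.coeff (N * n) *
      cexp (2 * π * Complex.I * n * ((τ : ℂ) + j) / N))
    ((F ∣[(2 : ℤ)] (ModularGroup.S * ModularGroup.T ^ j)) τ)

/-- The root of unity `exp(2 π i j / N)`. -/
noncomputable def zeta (N : ℕ) (j : ℤ) : ℂ := cexp (2 * π * Complex.I * j / N)

theorem zeta_pow_eq_one {N : ℕ} (hN : 0 < N) (j : ℤ) : zeta N j ^ N = 1 := by
  unfold zeta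
  rw [← Complex.exp_nat_mul]
  have hN' : (N : ℂ) ≠ 0 := by exact_mod_cast hN.ne'
  have : (N : ℂ) * (2 * π * Complex.I * j / N) = j * (2 * π * Complex.I) := by
    field_simp
  rw [this]
  exact Complex.exp_int_mul_two_pi_mul_I j

theorem zeta_mul_zeta_neg {N : ℕ} (j : ℤ) : zeta N j * zeta N (-j) = 1 := by
  unfold zeta
  rw [← Complex.exp_add]
  have : 2 * π * Complex.I * (j : ℂ) / N + 2 * π * Complex.I * ((-j : ℤ) : ℂ) / N = 0 := by
    push_cast
    ring
  rw [this, Complex.exp_zero]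

theorem isIntegral_zeta {N : ℕ} (hN : 0 < N) (j : ℤ) : IsIntegral ℤ (zeta N j) :=
  IsIntegral.of_pow hN (by rw [zeta_pow_eq_one hN]; exact isIntegral_one)

theorem zeta_mem_OO {ℓ : ℕ} [Fact ℓ.Prime] {N : ℕ} (hN : 0 < N) (j : ℤ) : zeta N j ∈ OO ℓ :=
  mem_OO_of_isIntegral (isIntegral_zeta hN j)

/-- (b-ii) in the language of `HasQ`. -/
theorem hasQ_conj {N : ℕ} (hN : 0 < N) {F : ℍ → ℂ} {a : PowerSeries ℂ} (h : ConjExp N F a)
    (j : ℤ) : HasQ N (F ∣[(2 : ℤ)] (ModularGroup.S * ModularGroup.T ^ j))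
      (twist N (zeta N j) a) := by
  intro τ
  have := h j τ
  convert this using 2 with n
  rw [coeff_twist]
  have hN' : (N : ℂ) ≠ 0 := by exact_mod_cast hN.ne'
  have e : cexp (2 * π * Complex.I * n * ((τ : ℂ) + j) / N) =
      zeta N j ^ n * Function.Periodic.qParam N τ ^ n := by
    unfold zeta Function.Periodic.qParam
    rw [← Complex.exp_nat_mul, ← Complex.exp_nat_mul, ← Complex.exp_add]
    congr 1
    push_cast
    field_simp
    ring
  rw [e]
  ring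

/-- The `q`-expansion of a modular form on `Γ₀(N)` in the language of `HasQ`. -/
theorem hasQ_modularForm {N : ℕ} [NeZero N]
    (F : ModularForm (Gamma0 N : Subgroup (GL (Fin 2) ℝ)) 2) :
    HasQ 1 (⇑F) (qExpansion 1 F) := by
  intro τ
  have hper := SlashInvariantFormClass.periodic_comp_ofComplex F (one_mem_strictPeriods_Gamma0 N)
  have hbdd : IsBoundedAtImInfty (⇑F) := by
    have := (isMF_coe F).2.2 1
    rwa [SlashAction.slash_one] at this
  have := UpperHalfPlane.hasSum_qExpansion one_pos hper (ModularFormClass.holo F) hbdd τ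
  simpa using this

attribute [local instance] fintypeQ

/-! ### Cosets -/

section cosets

variable (p : ℕ) [hp : Fact p.Prime]

/-- The coset of `(S T^j)⁻¹`. -/
noncomputable def cosetST (j : ℕ) : Q p :=
  QuotientGroup.mk (ModularGroup.S * ModularGroup.T ^ (j : ℤ))⁻¹

/-- Every coset is the trivial one or one of the `cosetST j`, `j < p`. -/
theorem coset_cases (q : Q p) : q = QuotientGroup.mk 1 ∨ ∃ j : ℕ, j < p ∧ q = cosetST p j := by
  induction q using QuotientGroup.induction_on with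
  | H δ =>
    by_cases h : δ⁻¹ ∈ Gamma0 p
    · left
      rw [QuotientGroup.eq]
      simpa using h
    · right
      obtain ⟨γ, hγ, j, hj, e⟩ := Fermat.Agent.S16.Gr.exists_mem_Gamma0_mul p δ⁻¹ h
      refine ⟨j, hj, ?_⟩
      unfold cosetST
      rw [QuotientGroup.eq, e, mul_inv_cancel_right]
      exact hγ

theorem card_Q_le : Fintype.card (Q p) ≤ p + 1 := by
  haveI : NeZero p := ⟨hp.out.ne_zero⟩
  classical
  let f : Option (Fin p) → Q p := fun o => match o with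
    | none => QuotientGroup.mk 1
    | some j => cosetST p j
  have hf : Function.Surjective f := by
    intro q
    rcases coset_cases p q with h | ⟨j, hj, h⟩
    · exact ⟨none, h.symm⟩
    · exact ⟨some ⟨j, hj⟩, h.symm⟩
  have := Fintype.card_le_of_surjective f hf
  simpa using this

theorem cosetST_injective {i j : ℕ} (hi : i < p) (hj : j < p) (h : cosetST p i = cosetST p j) :
    i = j := by
  unfold cosetST at h
  rw [QuotientGroup.eq, inv_inv, Gamma0_mem] at h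
  have e := Fermat.Agent.S16.Gr.entry_mul_ST_inv
    (ModularGroup.S * ModularGroup.T ^ (i : ℤ)) (j : ℤ)
  rw [e] at h
  have hT : ((ModularGroup.T ^ (i : ℤ) : SL(2, ℤ)) : Matrix (Fin 2) (Fin 2) ℤ) =
      !![1, (i : ℤ); 0, 1] := ModularGroup.coe_T_zpow i
  have h10 : (ModularGroup.S * ModularGroup.T ^ (i : ℤ)) 1 0 = 1 := by
    rw [Matrix.SpecialLinearGroup.coe_mul, hT, ModularGroup.coe_S]
    simp [Matrix.mul_apply, Fin.sum_univ_two]
  have h11 : (ModularGroup.S * ModularGroup.T ^ (i : ℤ)) 1 1 = i := by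
    rw [Matrix.SpecialLinearGroup.coe_mul, hT, ModularGroup.coe_S]
    simp [Matrix.mul_apply, Fin.sum_univ_two]
  rw [h10, h11, mul_one] at h
  have h3 : (p : ℤ) ∣ (j : ℤ) - i := by
    rw [← ZMod.intCast_zmod_eq_zero_iff_dvd]
    exact h
  obtain ⟨k, hk⟩ := h3
  have hk0 : k = 0 := by
    by_contra hk0
    have : 1 ≤ |k| := Int.one_le_abs hk0
    have h4 : |(j : ℤ) - i| = p * |k| := by rw [hk, abs_mul, Nat.abs_cast]
    have h5 : |(j : ℤ) - i| < p := by
      rw [abs_lt]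
      constructor <;> omega
    have : (p : ℤ) ≤ p * |k| := by nlinarith
    omega
  rw [hk0, mul_zero] at hk
  omega

end cosets

/-! ### The setup -/

/-- The hypotheses of the norm trick. -/
structure Setup (ℓ : ℕ) [Fact ℓ.Prime] (r p c w u₀ v : ℕ) (H G : ℍ → ℂ)
    (hS gS : PowerSeries ℂ) : Prop where
  data : Data ℓ r p c w u₀ v hS gS
  isMF_H : IsMF p 2 H
  isMF_G : IsMF r 2 G
  hasQ_H : HasQ 1 H hS
  hasQ_G : HasQ 1 G gS
  conj_H : ConjExp p H hS
  conj_G : ConjExp r G gS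
  hr3 : r ≤ 3
  hp3 : 3 ≤ p

section main

variable {ℓ r p c w u₀ v : ℕ} [hℓ : Fact ℓ.Prime] [hr : Fact r.Prime] [hp : Fact p.Prime]
variable {H G : ℍ → ℂ} {hS gS : PowerSeries ℂ}

namespace Setup

variable (Z : Setup ℓ r p c w u₀ v H G hS gS)
include Z

theorem r_pos : 0 < r := hr.out.pos
theorem p_pos : 0 < p := hp.out.pos

theorem hasQ_H_inf : HasQ (r * p) H (spread (r * p) hS) := by
  have := Z.hasQ_H.of_period one_pos Z.data.rp_pos
  rwa [one_mul] at this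

theorem hasQ_G_inf : HasQ (r * p) G (spread (r * p) gS) := by
  have := Z.hasQ_G.of_period one_pos Z.data.rp_pos
  rwa [one_mul] at this

theorem hasQ_H_j (j : ℤ) : HasQ (r * p) (H ∣[(2 : ℤ)] (ModularGroup.S * ModularGroup.T ^ j))
    (spread r (twist p (zeta p j) hS)) := by
  have := (hasQ_conj Z.p_pos Z.conj_H j).of_period Z.p_pos Z.r_pos
  rwa [mul_comm p r] at this

theorem hasQ_G_i (i : ℤ) : HasQ (r * p) (G ∣[(2 : ℤ)] (ModularGroup.S * ModularGroup.T ^ i))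
    (spread p (twist r (zeta r i) gS)) :=
  (hasQ_conj Z.r_pos Z.conj_G i).of_period Z.r_pos Z.p_pos

omit Z in
theorem hasQ_comb {N : ℕ} {A B : ℍ → ℂ} {PA PB : PowerSeries ℂ} (c₁ c₂ : ℂ)
    (hA : HasQ N A PA) (hB : HasQ N B PB) :
    HasQ N (c₁ • A + c₂ • B) (PowerSeries.C c₁ * PA + PowerSeries.C c₂ * PB) :=
  ((hA.const_mul c₁).add (hB.const_mul c₂)).congr fun _ => rfl

theorem comp_H_one : haveI : NeZero p := ⟨hp.out.ne_zero⟩
    comp p 2 H (QuotientGroup.mk 1) = H :=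
  comp_one Z.isMF_H.2.1

theorem comp_G_one : haveI : NeZero r := ⟨hr.out.ne_zero⟩
    comp r 2 G (QuotientGroup.mk 1) = G :=
  comp_one Z.isMF_G.2.1

theorem comp_H_cosetST (j : ℕ) :
    comp p 2 H (cosetST p j) = H ∣[(2 : ℤ)] (ModularGroup.S * ModularGroup.T ^ (j : ℤ)) := by
  unfold cosetST
  rw [comp_mk' Z.isMF_H.2.1, inv_inv]

theorem comp_G_cosetST (i : ℕ) :
    comp r 2 G (cosetST r i) = G ∣[(2 : ℤ)] (ModularGroup.S * ModularGroup.T ^ (i : ℤ)) := by
  unfold cosetST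
  rw [comp_mk' Z.isMF_G.2.1, inv_inv]

/-- The special pairs `(∞_r, j)`. -/
theorem special_good (j : ℕ) : haveI : NeZero p := ⟨hp.out.ne_zero⟩
    haveI : NeZero r := ⟨hr.out.ne_zero⟩
    HasQ (r * p) (factor r p (c1 ℓ p c) (c2 ℓ c) H G (QuotientGroup.mk 1, cosetST p j))
      (TH ℓ r p c (zeta p j) hS + PG ℓ r p c gS) ∧
    Good ℓ (TH ℓ r p c (zeta p j) hS + PG ℓ r p c gS) (r * p) := by
  refine ⟨?_, Z.data.good_inf_j (zeta_mem_OO Z.p_pos j)⟩
  unfold factor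
  simp only
  rw [Z.comp_H_cosetST, Z.comp_G_one]
  exact hasQ_comb _ _ (Z.hasQ_H_j j) Z.hasQ_G_inf

/-- Every pair gives a good factor. -/
theorem pair_good : haveI : NeZero p := ⟨hp.out.ne_zero⟩
    haveI : NeZero r := ⟨hr.out.ne_zero⟩
    ∀ x : Q r × Q p, ∃ (P : PowerSeries ℂ) (a : ℕ),
      HasQ (r * p) (factor r p (c1 ℓ p c) (c2 ℓ c) H G x) P ∧ Good ℓ P a := by
  intro x
  obtain ⟨x₁, x₂⟩ := x
  unfold factor
  simp only
  rcases coset_cases r x₁ with h₁ | ⟨i, _, h₁⟩ <;> rcases coset_cases p x₂ with h₂ | ⟨j, _, h₂⟩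
  · rw [h₁, h₂, Z.comp_H_one, Z.comp_G_one]
    obtain ⟨a, ha⟩ := Z.data.good_inf_inf
    exact ⟨_, a, hasQ_comb _ _ Z.hasQ_H_inf Z.hasQ_G_inf, ha⟩
  · rw [h₁, h₂, Z.comp_H_cosetST, Z.comp_G_one]
    exact ⟨_, _, hasQ_comb _ _ (Z.hasQ_H_j j) Z.hasQ_G_inf,
      Z.data.good_inf_j (zeta_mem_OO Z.p_pos j)⟩
  · rw [h₁, h₂, Z.comp_H_one, Z.comp_G_cosetST]
    obtain ⟨a, ha⟩ := Z.data.good_i_inf (zeta_mem_OO Z.r_pos i) (zeta_mem_OO Z.r_pos (-i))
      (zeta_mul_zeta_neg _)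
    exact ⟨_, a, hasQ_comb _ _ Z.hasQ_H_inf (Z.hasQ_G_i i), ha⟩
  · rw [h₁, h₂, Z.comp_H_cosetST, Z.comp_G_cosetST]
    exact ⟨_, 0, hasQ_comb _ _ (Z.hasQ_H_j j) (Z.hasQ_G_i i),
      Z.data.good_i_j (zeta_mem_OO Z.p_pos j) (zeta_mem_OO Z.r_pos i)⟩

/-- **The norm trick.** The hypotheses are contradictory. -/
theorem false : False := by
  haveI : NeZero p := ⟨hp.out.ne_zero⟩
  haveI : NeZero r := ⟨hr.out.ne_zero⟩
  classical
  let sp : Fin p → Q r × Q p := fun j => (QuotientGroup.mk 1, cosetST p j)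
  have hsp : Function.Injective sp := fun i j h =>
    Fin.ext (cosetST_injective p i.2 j.2 (congrArg Prod.snd h))
  have key : ∀ x : Q r × Q p, ∃ (P : PowerSeries ℂ) (a : ℕ),
      HasQ (r * p) (factor r p (c1 ℓ p c) (c2 ℓ c) H G x) P ∧ Good ℓ P a ∧
        (x ∈ Set.range sp → a = r * p) := by
    intro x
    by_cases hx : x ∈ Set.range sp
    · obtain ⟨j, rfl⟩ := hx
      exact ⟨_, _, (Z.special_good j).1, (Z.special_good j).2, fun _ => rfl⟩
    · obtain ⟨P, a, h1, h2⟩ := Z.pair_good x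
      exact ⟨P, a, h1, h2, fun h => absurd h hx⟩
  choose P a hP hGood ha using key
  set F := normForm (c₁ := c1 ℓ p c) (c₂ := c2 ℓ c) Z.isMF_H Z.isMF_G with hF
  have hprod : ∏ x, P x = spread (r * p) (qExpansion 1 F) :=
    spread_qExpansion_normForm Z.isMF_H Z.isMF_G Z.data.rp_pos P hP
  have hG : Good ℓ (∏ x, P x) (∑ x, a x) := Good.prod Finset.univ P a (fun x _ => hGood x)
  rw [hprod] at hG
  have hA : p * (r * p) ≤ ∑ x, a x := by
    calc p * (r * p) = ∑ j : Fin p, a (sp j) := by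
          rw [Finset.sum_congr rfl (fun j _ => ha (sp j) ⟨j, rfl⟩)]
          simp
      _ = ∑ x ∈ Finset.univ.image sp, a x :=
          (Finset.sum_image (fun i _ j _ h => hsp h)).symm
      _ ≤ ∑ x, a x := Finset.sum_le_sum_of_subset (Finset.subset_univ _)
  have hdvd : r * p ∣ ∑ x, a x := by
    by_contra h
    exact hG.notMem (by rw [coeff_spread_of_not_dvd _ h]; exact (LO ℓ).zero_mem)
  obtain ⟨n₀, hn₀⟩ := hdvd
  have hn₀p : p ≤ n₀ := by
    rw [hn₀, mul_comm p (r * p)] at hA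
    exact Nat.le_of_mul_le_mul_left hA Z.data.rp_pos
  have hcard : Fintype.card (Q r × Q p) ≤ (r + 1) * (p + 1) := by
    rw [Fintype.card_prod]
    exact Nat.mul_le_mul (card_Q_le r) (card_Q_le p)
  have hall := Miller.coeff_mem_of_twelve_mul_le F (LO ℓ) (fun n hn => by
    have hn' : n < p := by
      have h1 : (12 : ℤ) * n ≤ 2 * ((r + 1) * (p + 1) : ℕ) := by
        refine hn.trans ?_
        have : ((Fintype.card (Q r × Q p) : ℕ) : ℤ) ≤ (((r + 1) * (p + 1) : ℕ) : ℤ) := by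
          exact_mod_cast hcard
        linarith
      have h2 : 12 * n ≤ 2 * ((r + 1) * (p + 1)) := by exact_mod_cast h1
      have h3 := Z.hr3
      have h4 := Z.hp3
      have h5 : (r + 1) * (p + 1) ≤ 4 * (p + 1) := Nat.mul_le_mul_right _ (by omega)
      omega
    have e : (qExpansion 1 F).coeff n = (spread (r * p) (qExpansion 1 F)).coeff (r * p * n) :=
      (coeff_spread_mul Z.data.rp_pos _ _).symm
    rw [e]
    exact hG.low _ (by
      rw [hn₀]
      exact Nat.mul_lt_mul_of_pos_left (lt_of_lt_of_le hn' hn₀p) Z.data.rp_pos))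
  apply hG.notMem
  rw [hn₀, coeff_spread_mul Z.data.rp_pos]
  exact hall n₀

end Setup

end main

/-! ### The statements `(P1)`, `(P2)`, `(P3)`, `(P5)` -/

/-- Statement (b-ii) for all forms of prime level. -/
def ConjHyp : Prop :=
  ∀ (N : ℕ) [Fact N.Prime] (F : ModularForm (Gamma0 N : Subgroup (GL (Fin 2) ℝ)) 2),
    ConjExp N (⇑F) (qExpansion 1 F)

theorem sum_divisors_prime_self (r : ℕ) (hr : r.Prime) :
    (∑ d ∈ r.divisors with ¬ r ∣ d, d) = 1 := by
  rw [Nat.Prime.divisors hr]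
  have h1 : ¬ r ∣ 1 := fun h => hr.one_lt.ne' (Nat.dvd_one.mp h)
  have hne : (1 : ℕ) ≠ r := hr.one_lt.ne
  rw [Finset.filter_insert, if_pos h1, Finset.filter_singleton, if_neg (by simp)]
  simp

theorem sum_divisors_one (r : ℕ) (hr : r.Prime) :
    (∑ d ∈ (1 : ℕ).divisors with ¬ r ∣ d, d) = 1 := by
  have h1 : ¬ r ∣ 1 := fun h => hr.one_lt.ne' (Nat.dvd_one.mp h)
  rw [Nat.divisors_one, Finset.filter_singleton, if_pos h1]
  simp

/-- **The norm trick**, general form. -/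
theorem not_congr (hconj : ConjHyp) (ℓ r p c w u₀ v : ℕ) [hℓ : Fact ℓ.Prime] [hr : Fact r.Prime]
    [hp : Fact p.Prime] (hr3 : r ≤ 3) (hp3 : 3 ≤ p) (hℓr : ℓ ≠ r)
    (hw24 : (w : ℂ) = 24 / ((r : ℂ) - 1)) (hw : w = ℓ ^ c * u₀) (hu₀ : ¬ ℓ ∣ u₀)
    (h3 : ℓ ^ c ∣ p + 1) (h5 : r + 1 = ℓ ^ c * v) (hv : ¬ ℓ ∣ v)
    (H : ModularForm (Gamma0 p : Subgroup (GL (Fin 2) ℝ)) 2)
    (hH0 : (qExpansion 1 H).coeff 0 = 1)
    (hH : ∀ n, 1 ≤ n → ∃ y ∈ OO ℓ, (qExpansion 1 H).coeff n = (ℓ : ℂ) ^ (c + 1) * y) :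
    False := by
  haveI : NeZero p := ⟨hp.out.ne_zero⟩
  haveI : NeZero r := ⟨hr.out.ne_zero⟩
  set G := Fermat.Agent.S16.AuxEis.Gr r hr.out with hG
  have hg : ∀ n, 1 ≤ n → (qExpansion 1 G).coeff n =
      (w : ℂ) * ((∑ d ∈ n.divisors with ¬ r ∣ d, d : ℕ) : ℂ) := by
    intro n hn
    rw [hG, Fermat.Agent.S16.AuxEis.qExpansion_Gr_coeff r hr.out hn, hw24]
  have Z : Setup ℓ r p c w u₀ v (⇑H) (⇑G) (qExpansion 1 H) (qExpansion 1 G) :=
    { data :=
        { hℓr := hℓr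
          hr := hr.out.two_le
          hp := hp.out.two_le
          hw := hw
          hu₀ := hu₀
          h3 := h3
          h5 := h5
          hv := hv
          g0 := Fermat.Agent.S16.AuxEis.qExpansion_Gr_coeff_zero r hr.out
          g1 := by rw [hg 1 le_rfl, sum_divisors_one r hr.out]; simp
          gr := by rw [hg r hr.out.one_le, sum_divisors_prime_self r hr.out]; simp
          g := fun n hn => ⟨((∑ d ∈ n.divisors with ¬ r ∣ d, d : ℕ) : ℤ), by
            rw [hg n hn]; push_cast; rfl⟩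
          h0 := hH0
          h := hH }
      isMF_H := isMF_coe H
      isMF_G := isMF_coe G
      hasQ_H := hasQ_modularForm H
      hasQ_G := hasQ_modularForm G
      conj_H := hconj p H
      conj_G := hconj r G
      hr3 := hr3
      hp3 := hp3 }
  exact Z.false

/-- `(P1)` and `(P2)`: `ℓ ≥ 5` (including `ℓ = p`), no congruence `H ≡ 1 mod ℓ`. -/
theorem P1 (hconj : ConjHyp) (ℓ p : ℕ) [hℓ : Fact ℓ.Prime] [hp : Fact p.Prime] (hℓ5 : 5 ≤ ℓ)
    (hp5 : 5 ≤ p) (H : ModularForm (Gamma0 p : Subgroup (GL (Fin 2) ℝ)) 2)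
    (hH0 : (qExpansion 1 H).coeff 0 = 1)
    (hH : ∀ n, 1 ≤ n → ∃ y ∈ OO ℓ, (qExpansion 1 H).coeff n = (ℓ : ℂ) ^ 1 * y) : False := by
  haveI : Fact (Nat.Prime 2) := ⟨Nat.prime_two⟩
  have h24 : ¬ ℓ ∣ 24 := by
    intro h
    have : ℓ ∣ 2 ^ 3 * 3 := by simpa using h
    rcases (Nat.Prime.dvd_mul hℓ.out).mp this with h | h
    · have := (Nat.prime_dvd_prime_iff_eq hℓ.out Nat.prime_two).mp (hℓ.out.dvd_of_dvd_pow h)
      omega
    · have := (Nat.prime_dvd_prime_iff_eq hℓ.out Nat.prime_three).mp h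
      omega
  have h3 : ¬ ℓ ∣ 3 := fun h => by
    have := (Nat.prime_dvd_prime_iff_eq hℓ.out Nat.prime_three).mp h
    omega
  exact not_congr hconj ℓ 2 p 0 24 24 3 (by norm_num) (by omega) (by omega) (by norm_num)
    (by simp) h24 (by simp) (by simp) h3 H hH0 (by simpa using hH)

/-- `(P3)`: `ℓ = 3`, `p ≡ 2 mod 3`, no congruence `H ≡ 1 mod 9`. -/
theorem P3 (hconj : ConjHyp) (p : ℕ) [hp : Fact p.Prime] (hp5 : 5 ≤ p) (hp3 : p % 3 = 2)
    (H : ModularForm (Gamma0 p : Subgroup (GL (Fin 2) ℝ)) 2)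
    (hH0 : (qExpansion 1 H).coeff 0 = 1)
    (hH : ∀ n, 1 ≤ n → ∃ y ∈ OO 3 (hℓ := ⟨Nat.prime_three⟩),
      (qExpansion 1 H).coeff n = ((3 : ℕ) : ℂ) ^ 2 * y) : False := by
  haveI : Fact (Nat.Prime 2) := ⟨Nat.prime_two⟩
  haveI : Fact (Nat.Prime 3) := ⟨Nat.prime_three⟩
  exact not_congr hconj 3 2 p 1 24 8 1 (by norm_num) (by omega) (by norm_num) (by norm_num)
    (by norm_num) (by norm_num) (by simp; omega) (by norm_num) (by norm_num) H hH0 hH

/-- `(P5)`: `ℓ = 2`, `p ≡ 3 mod 4`, no congruence `H ≡ 1 mod 8`. -/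
theorem P5 (hconj : ConjHyp) (p : ℕ) [hp : Fact p.Prime] (hp5 : 5 ≤ p) (hp4 : p % 4 = 3)
    (H : ModularForm (Gamma0 p : Subgroup (GL (Fin 2) ℝ)) 2)
    (hH0 : (qExpansion 1 H).coeff 0 = 1)
    (hH : ∀ n, 1 ≤ n → ∃ y ∈ OO 2 (hℓ := ⟨Nat.prime_two⟩),
      (qExpansion 1 H).coeff n = ((2 : ℕ) : ℂ) ^ 3 * y) : False := by
  haveI : Fact (Nat.Prime 2) := ⟨Nat.prime_two⟩
  haveI : Fact (Nat.Prime 3) := ⟨Nat.prime_three⟩
  exact not_congr hconj 2 3 p 2 12 3 1 (by norm_num) (by omega) (by norm_num) (by norm_num)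
    (by norm_num) (by norm_num) (by norm_num; omega) (by norm_num) (by norm_num) H hH0 hH

end Fermat.Agent.S16.NormTrick
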