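import Mathlib
import Fermat.Agent.S16.NormTrick

/-!
# S16, upper bound: from the Fricke twin to the conjugate expansions

Let `F, F' ∈ M₂(Γ₀(p))` be Fricke twins: `F ∣ S = (1/p) F'(·/p)` and `F' ∣ S = (1/p) F(·/p)`.
Since the trace of `F` to level one vanishes (weight `2`), the `q`-expansions `a` of `F` and `b` of
`F'` satisfy `b_{pn} = -a_n` and `b_n = -a_{pn}`; in particular the conjugates of `F` have the
expansions `F ∣ S T^j = -(1/p) ∑ a_{pn} ζ^{jn} q^{n/p}` (statement (b-ii)).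
-/

set_option autoImplicit false
set_option linter.unusedSectionVars false
set_option linter.style.haveILetI false

namespace Fermat.Agent.S16.TraceId

open UpperHalfPlane CongruenceSubgroup ModularForm Complex
open scoped MatrixGroups ModularForm Manifold Real
open Fermat.Agent.S20 Fermat.Agent.S20.Dual Fermat.Agent.S16.NormQ Fermat.Agent.S16.NormAlg
open Fermat.Agent.S16.NormClass Fermat.Agent.S16.NormForm Fermat.Agent.S16.NormTrick

attribute [local instance] fintypeQ

/-- `F'` is the Fricke twin of `F`. -/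
structure IsTwin (p : ℕ) [NeZero p] (F F' : ℍ → ℂ) : Prop where
  slash_S : ∀ τ : ℍ, (F ∣[(2 : ℤ)] ModularGroup.S) τ =
    (1 / (p : ℂ)) * F' (Fermat.Agent.S16.Gr.divN p 0 τ)
  slash_S' : ∀ τ : ℍ, (F' ∣[(2 : ℤ)] ModularGroup.S) τ =
    (1 / (p : ℂ)) * F (Fermat.Agent.S16.Gr.divN p 0 τ)

theorem IsTwin.symm {p : ℕ} [NeZero p] {F F' : ℍ → ℂ} (h : IsTwin p F F') : IsTwin p F' F :=
  ⟨h.slash_S', h.slash_S⟩

section

variable {p : ℕ} [hp : Fact p.Prime] [NeZero p] {F F' : ℍ → ℂ} {a b : PowerSeries ℂ}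

theorem slash_ST_eq (h : IsTwin p F F') (j : ℤ) (τ : ℍ) :
    (F ∣[(2 : ℤ)] (ModularGroup.S * ModularGroup.T ^ j)) τ =
      (1 / (p : ℂ)) * F' (Fermat.Agent.S16.Gr.divN p j τ) := by
  rw [SlashAction.slash_mul, Fermat.Agent.S16.Gr.slash_T_zpow]
  simp only
  rw [h.slash_S, Fermat.Agent.S16.Gr.divN_T_zpow_smul]

/-- The expansion of the conjugates in terms of the `q`-expansion `b` of the twin. -/
noncomputable def twistB (p : ℕ) (j : ℤ) (b : PowerSeries ℂ) : PowerSeries ℂ :=
  PowerSeries.mk fun n => (1 / (p : ℂ)) * b.coeff n * zeta p j ^ n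

theorem hasQ_slash_ST (h : IsTwin p F F') (hb : HasQ 1 F' b) (j : ℤ) :
    HasQ p (F ∣[(2 : ℤ)] (ModularGroup.S * ModularGroup.T ^ j)) (twistB p j b) := by
  intro τ
  rw [slash_ST_eq h]
  have := (hb (Fermat.Agent.S16.Gr.divN p j τ)).mul_left (1 / (p : ℂ))
  have e : Function.Periodic.qParam ((1 : ℕ) : ℝ) (Fermat.Agent.S16.Gr.divN p j τ) =
      zeta p j * Function.Periodic.qParam (p : ℝ) τ := by
    have := Fermat.Agent.S16.Gr.qParam_divN p j τ
    simpa [Fermat.Agent.S16.Gr.zeta, zeta] using this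
  have e2 : (fun m : ℕ => (twistB p j b).coeff m * Function.Periodic.qParam (p : ℝ) τ ^ m) =
      fun i : ℕ => 1 / (p : ℂ) * (b.coeff i *
        Function.Periodic.qParam ((1 : ℕ) : ℝ) (Fermat.Agent.S16.Gr.divN p j τ) ^ i) := by
    funext m
    rw [e, mul_pow]
    simp only [twistB, PowerSeries.coeff_mk]
    ring
  show HasSum (fun m : ℕ => (twistB p j b).coeff m * Function.Periodic.qParam (p : ℝ) τ ^ m) _
  rw [e2]
  exact this

end

/-! ### Generalities -/

theorem hasQ_zero (N : ℕ) : HasQ N (0 : ℍ → ℂ) 0 := by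
  intro τ
  have : (fun m : ℕ => (0 : PowerSeries ℂ).coeff m * Function.Periodic.qParam (N : ℝ) τ ^ m) =
      fun _ => (0 : ℂ) := by
    funext m
    simp
  rw [this]
  exact hasSum_zero

theorem hasQ_sum {N : ℕ} {ι : Type*} (s : Finset ι) (φ : ι → ℍ → ℂ) (P : ι → PowerSeries ℂ)
    (h : ∀ i ∈ s, HasQ N (φ i) (P i)) : HasQ N (∑ i ∈ s, φ i) (∑ i ∈ s, P i) := by
  classical
  induction s using Finset.induction_on with
  | empty => simpa using hasQ_zero N
  | insert i s hi ih =>
    rw [Finset.sum_insert hi, Finset.sum_insert hi]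
    exact (h i (Finset.mem_insert_self _ _)).add
      (ih fun j hj => h j (Finset.mem_insert_of_mem hj))

/-- A power series in `q^(1/N)` representing the zero function is zero. -/
theorem eq_zero_of_hasQ_zero {N : ℕ} (hN : 0 < N) {P : PowerSeries ℂ}
    (h : HasQ N (0 : ℍ → ℂ) P) : P = 0 := by
  have := HasQ.eq_spread_of_levelOne (0 : ModularForm 𝒮ℒ 2) hN (P := P) (by simpa using h)
  rw [this]
  ext m
  rw [coeff_spread]
  split_ifs <;> simp [UpperHalfPlane.qExpansion_zero]

/-- There are no modular forms of weight `2` and level one. -/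
theorem eq_zero_of_isMF_one_two {f : ℍ → ℂ} (h : IsMF 1 2 f) : f = 0 := by
  have h0 : h.toModularFormOne = 0 :=
    rank_zero_iff_forall_zero.mp ModularForm.levelOne_weight_two_rank_zero h.toModularFormOne
  have : ⇑h.toModularFormOne = f := rfl
  rw [← this, h0]
  rfl

/-! ### Orthogonality -/

theorem zeta_pow (p : ℕ) (j : ℤ) (m : ℕ) : zeta p j ^ m = zeta p 1 ^ (j * m) := by
  unfold zeta
  rw [← Complex.exp_nat_mul, ← Complex.exp_int_mul]
  congr 1
  push_cast
  ring

theorem zeta_one_zpow_eq_one_iff {p : ℕ} (hp : 0 < p) (k : ℤ) :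
    zeta p 1 ^ k = 1 ↔ (p : ℤ) ∣ k := by
  unfold zeta
  rw [← Complex.exp_int_mul, Complex.exp_eq_one_iff]
  have hp' : (p : ℂ) ≠ 0 := by exact_mod_cast hp.ne'
  have hpi : (2 * (π : ℂ) * Complex.I) ≠ 0 := Complex.two_pi_I_ne_zero
  constructor
  · rintro ⟨n, hn⟩
    refine ⟨n, ?_⟩
    have h1 : (k : ℂ) = n * p := by
      have : (k : ℂ) * (2 * π * Complex.I) = (n : ℂ) * p * (2 * π * Complex.I) := by
        have e : (k : ℂ) * (2 * π * Complex.I * ((1 : ℤ) : ℂ) / p) * p =
            (n : ℂ) * (2 * π * Complex.I) * p := by rw [hn]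
        have e' : (k : ℂ) * (2 * π * Complex.I * ((1 : ℤ) : ℂ) / p) * p =
            (k : ℂ) * (2 * π * Complex.I) := by
          push_cast
          field_simp
        rw [e'] at e
        rw [e]
        ring
      exact mul_right_cancel₀ hpi this
    have h2 : k = n * p := by exact_mod_cast h1
    rw [h2]
    ring
  · rintro ⟨n, rfl⟩
    refine ⟨n, ?_⟩
    push_cast
    field_simp

theorem sum_zeta_pow {p : ℕ} (hp : 0 < p) (m : ℕ) :
    ∑ j : Fin p, zeta p (j : ℕ) ^ m = if p ∣ m then (p : ℂ) else 0 := by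
  have e : ∀ j : Fin p, zeta p ((j : ℕ) : ℤ) ^ m = (zeta p 1 ^ m) ^ (j : ℕ) := by
    intro j
    rw [zeta_pow, ← pow_mul, ← zpow_natCast]
    congr 1
    push_cast
    ring
  rw [Finset.sum_congr rfl (fun j _ => e j), Fin.sum_univ_eq_sum_range (fun j => (zeta p 1 ^ m) ^ j)]
  split_ifs with h
  · have h1 : zeta p 1 ^ m = 1 := by
      have := (zeta_one_zpow_eq_one_iff hp (m : ℤ)).mpr (by exact_mod_cast h)
      simpa using this
    rw [h1]
    simp
  · have h1 : zeta p 1 ^ m ≠ 1 := by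
      intro h1
      apply h
      have := (zeta_one_zpow_eq_one_iff hp (m : ℤ)).mp (by simpa using h1)
      exact_mod_cast this
    have h2 : (zeta p 1 ^ m) ^ p = 1 := by
      rw [← pow_mul, mul_comm, pow_mul, zeta_pow_eq_one hp, one_pow]
    rw [geom_sum_eq h1, h2, sub_self, zero_div]

/-! ### The sum over the cosets -/

section cosets

variable (p : ℕ) [hp : Fact p.Prime] [NeZero p]

theorem cosetST_ne_one (j : ℕ) : cosetST p j ≠ QuotientGroup.mk 1 := by
  intro h
  unfold cosetST at h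
  rw [QuotientGroup.eq, inv_inv, mul_one, Gamma0_mem] at h
  have hT : ((ModularGroup.T ^ (j : ℤ) : SL(2, ℤ)) : Matrix (Fin 2) (Fin 2) ℤ) =
      !![1, (j : ℤ); 0, 1] := ModularGroup.coe_T_zpow j
  have h10 : (ModularGroup.S * ModularGroup.T ^ (j : ℤ)) 1 0 = 1 := by
    rw [Matrix.SpecialLinearGroup.coe_mul, hT, ModularGroup.coe_S]
    simp [Matrix.mul_apply, Fin.sum_univ_two]
  rw [h10] at h
  have : ((1 : ℤ) : ZMod p) = 1 := by simp
  rw [this] at h
  haveI : Fact (1 < p) := ⟨hp.out.one_lt⟩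
  exact one_ne_zero h

/-- The enumeration of the cosets. -/
noncomputable def cosetEquiv : Option (Fin p) ≃ Q p :=
  Equiv.ofBijective (fun o => match o with
    | none => QuotientGroup.mk 1
    | some j => cosetST p j) (by
    constructor
    · rintro (_ | i) (_ | j) h
      · rfl
      · exact absurd h.symm (cosetST_ne_one p j)
      · exact absurd h (cosetST_ne_one p i)
      · exact congrArg some (Fin.ext (cosetST_injective p i.2 j.2 h))
    · intro q
      rcases coset_cases p q with h | ⟨j, hj, h⟩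
      · exact ⟨none, h.symm⟩
      · exact ⟨some ⟨j, hj⟩, h.symm⟩)

theorem sum_cosets {M : Type*} [AddCommMonoid M] (φ : Q p → M) :
    ∑ q : Q p, φ q = φ (QuotientGroup.mk 1) + ∑ j : Fin p, φ (cosetST p j) := by
  rw [← Equiv.sum_comp (cosetEquiv p) φ, Fintype.sum_option]
  rfl

end cosets

/-! ### The trace identity -/

section trace

variable {p : ℕ} [hp : Fact p.Prime] [NeZero p] {F F' : ℍ → ℂ} {a b : PowerSeries ℂ}

theorem comp_cosetST (hF : IsMF p 2 F) (j : ℕ) :
    comp p 2 F (cosetST p j) = F ∣[(2 : ℤ)] (ModularGroup.S * ModularGroup.T ^ (j : ℤ)) := by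
  unfold cosetST
  rw [comp_mk' hF.2.1, inv_inv]

/-- `F + ∑_j F ∣ S T^j = 0`. -/
theorem add_sum_slash_eq_zero (hF : IsMF p 2 F) :
    F + ∑ j : Fin p, F ∣[(2 : ℤ)] (ModularGroup.S * ModularGroup.T ^ ((j : ℕ) : ℤ)) = 0 := by
  have h0 : tr p 2 F = 0 := eq_zero_of_isMF_one_two (isMF_tr hF)
  unfold tr at h0
  rw [sum_cosets p, comp_one hF.2.1] at h0
  rw [← h0]
  congr 1
  exact Finset.sum_congr rfl fun j _ => (comp_cosetST hF j).symm

/-- The trace identity on `q`-expansions: `a_n + b_{p n} = 0`. -/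
theorem coeff_twin_mul (hF : IsMF p 2 F) (h : IsTwin p F F') (ha : HasQ 1 F a)
    (hb : HasQ 1 F' b) (n : ℕ) : b.coeff (p * n) = -a.coeff n := by
  have hp0 : 0 < p := hp.out.pos
  have h1 : HasQ p F (spread p a) := by
    have := ha.of_period one_pos hp0
    rwa [one_mul] at this
  have h2 : HasQ p (∑ j : Fin p, F ∣[(2 : ℤ)] (ModularGroup.S * ModularGroup.T ^ ((j : ℕ) : ℤ)))
      (∑ j : Fin p, twistB p ((j : ℕ) : ℤ) b) :=
    hasQ_sum _ _ _ fun j _ => hasQ_slash_ST h hb _
  have h3 := h1.add h2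
  rw [add_sum_slash_eq_zero hF] at h3
  have h4 := eq_zero_of_hasQ_zero hp0 h3
  have h5 := congrArg (PowerSeries.coeff (p * n)) h4
  rw [map_add, coeff_spread_mul hp0, map_sum, map_zero] at h5
  have h6 : ∑ j : Fin p, (twistB p ((j : ℕ) : ℤ) b).coeff (p * n) = b.coeff (p * n) := by
    simp only [twistB, PowerSeries.coeff_mk]
    rw [← Finset.mul_sum]
    have := sum_zeta_pow hp0 (p * n)
    rw [if_pos (dvd_mul_right _ _)] at this
    rw [this]
    have hp' : (p : ℂ) ≠ 0 := by exact_mod_cast hp0.ne'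
    field_simp
  rw [h6] at h5
  linear_combination h5

/-- `b_n = -a_{p n}`. -/
theorem coeff_twin (hF' : IsMF p 2 F') (h : IsTwin p F F') (ha : HasQ 1 F a)
    (hb : HasQ 1 F' b) (n : ℕ) : b.coeff n = -a.coeff (p * n) := by
  have := coeff_twin_mul hF' h.symm hb ha n
  rw [this, neg_neg]

/-- `(C1)`: `a_{p p n} = a_n`. -/
theorem coeff_mul_mul (hF : IsMF p 2 F) (hF' : IsMF p 2 F') (h : IsTwin p F F')
    (ha : HasQ 1 F a) (hb : HasQ 1 F' b) (n : ℕ) : a.coeff (p * (p * n)) = a.coeff n := by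
  have h1 := coeff_twin hF' h ha hb (p * n)
  have h2 := coeff_twin_mul hF h ha hb n
  rw [h2] at h1
  exact (neg_injective h1).symm

/-- **(b-ii)** for a form with a Fricke twin. -/
theorem conjExp (hF' : IsMF p 2 F') (h : IsTwin p F F') (ha : HasQ 1 F a)
    (hb : HasQ 1 F' b) : ConjExp p F a := by
  intro j τ
  have h1 := hasQ_slash_ST h hb j τ
  have hp' : (p : ℂ) ≠ 0 := by exact_mod_cast hp.out.ne_zero
  have e : (fun n : ℕ => -(1 / (p : ℂ)) * a.coeff (p * n) *
      cexp (2 * π * Complex.I * n * ((τ : ℂ) + j) / p)) =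
      fun m : ℕ => (twistB p j b).coeff m * Function.Periodic.qParam (p : ℝ) τ ^ m := by
    funext n
    have e1 : cexp (2 * π * Complex.I * n * ((τ : ℂ) + j) / p) =
        zeta p j ^ n * Function.Periodic.qParam p τ ^ n := by
      unfold zeta Function.Periodic.qParam
      rw [← Complex.exp_nat_mul, ← Complex.exp_nat_mul, ← Complex.exp_add]
      congr 1
      push_cast
      field_simp
      ring
    rw [e1]
    simp only [twistB, PowerSeries.coeff_mk]
    rw [coeff_twin hF' h ha hb n]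
    ring
  rw [e]
  exact h1

end trace

/-! ### From the existence of twins to (b-ii) -/

/-- Every form of prime level has a Fricke twin. -/
def TwinHyp : Prop :=
  ∀ (N : ℕ) [Fact N.Prime] [NeZero N] (F : ℍ → ℂ), IsMF N 2 F →
    ∃ F' : ℍ → ℂ, IsMF N 2 F' ∧ IsTwin N F F'

theorem hasQ_of_isMF {N : ℕ} [NeZero N] {F : ℍ → ℂ} (hF : IsMF N 2 F) :
    HasQ 1 F (qExpansion 1 F) :=
  hasQ_modularForm hF.toModularForm

/-- **(b-ii) for all forms of prime level**, from the existence of Fricke twins. -/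
theorem conjHyp_of_twinHyp (h : TwinHyp) : ConjHyp := by
  intro N _ F
  haveI : NeZero N := ⟨(Fact.out : N.Prime).ne_zero⟩
  obtain ⟨F', hF', ht⟩ := h N (⇑F) (isMF_coe F)
  exact conjExp hF' ht (hasQ_modularForm F) (hasQ_of_isMF hF')

/-- The twin as a bundled form, with its `q`-expansion. -/
theorem exists_twin_form (h : TwinHyp) (p : ℕ) [Fact p.Prime]
    (F : ModularForm (Gamma0 p : Subgroup (GL (Fin 2) ℝ)) 2) :
    ∃ F' : ModularForm (Gamma0 p : Subgroup (GL (Fin 2) ℝ)) 2,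
      (∀ n, (qExpansion 1 F').coeff n = -(qExpansion 1 F).coeff (p * n)) ∧
      (∀ n, (qExpansion 1 F').coeff (p * n) = -(qExpansion 1 F).coeff n) := by
  haveI : NeZero p := ⟨(Fact.out : p.Prime).ne_zero⟩
  obtain ⟨F', hF', ht⟩ := h p (⇑F) (isMF_coe F)
  refine ⟨hF'.toModularForm, fun n => ?_, fun n => ?_⟩
  · exact coeff_twin hF' ht (hasQ_modularForm F) (hasQ_of_isMF hF') n
  · exact coeff_twin_mul (isMF_coe F) ht (hasQ_modularForm F) (hasQ_of_isMF hF') n

/-- `(C1)`: `a_{p p n} = a_n` for forms of weight `2` and prime level `p`. -/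
theorem coeff_mul_mul_form (h : TwinHyp) (p : ℕ) [Fact p.Prime]
    (F : ModularForm (Gamma0 p : Subgroup (GL (Fin 2) ℝ)) 2) (n : ℕ) :
    (qExpansion 1 F).coeff (p * (p * n)) = (qExpansion 1 F).coeff n := by
  haveI : NeZero p := ⟨(Fact.out : p.Prime).ne_zero⟩
  obtain ⟨F', hF', ht⟩ := h p (⇑F) (isMF_coe F)
  exact coeff_mul_mul (isMF_coe F) hF' ht (hasQ_modularForm F) (hasQ_of_isMF hF') n

end Fermat.Agent.S16.TraceId
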