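/-
The `e₂`-trick of the upper bound in S16 (cases `ℓ = 3 ∣ p - 1` and `ℓ = 2`, `p ≡ 1 mod 4`):
pure power-series arithmetic.  For a weight-2 form `H` on `Γ₀(p)` with `a₀(H) = 1`, the trace of
`H²` to level one is `((p+1)/p)·E₄`, i.e. `p·H² + U_p((U_p H)²) = (p+1)·E₄`, and `U_p² H = H`.
These two identities (for `H` and for `U_p H`) are incompatible with `H ≡ 1 mod 4` when
`p ≡ 1 mod 4`, and with `H ≡ 1 mod 3` when `p ≡ 1 mod 3`.
-/
import Mathlib

set_option autoImplicit false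

namespace Fermat.Agent.S16.E2Trick

open Finset PowerSeries

theorem two_dvd_sum_offdiag (y : ℕ → ℤ) (n : ℕ) :
    (2 : ℤ) ∣ ∑ ij ∈ (antidiagonal n).filter (fun ij : ℕ × ℕ => ¬ ij.1 = ij.2), y ij.1 * y ij.2 := by
  classical
  have h2 : (2 : ZMod 2) = 0 := by decide
  have key : (((∑ ij ∈ (antidiagonal n).filter (fun ij : ℕ × ℕ => ¬ ij.1 = ij.2),
      y ij.1 * y ij.2 : ℤ)) : ZMod 2) = 0 := by
    rw [Int.cast_sum]
    refine Finset.sum_involution (fun ij _ => (ij.2, ij.1)) ?_ ?_ ?_ ?_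
    · intro ij _
      push_cast
      linear_combination ((y ij.1 : ZMod 2) * (y ij.2 : ZMod 2)) * h2
    · intro ij hij _ h
      rw [Finset.mem_filter] at hij
      exact hij.2 (congrArg Prod.fst h).symm
    · intro ij hij
      rw [Finset.mem_filter, HasAntidiagonal.mem_antidiagonal] at hij ⊢
      exact ⟨by simpa [add_comm] using hij.1, fun h => hij.2 h.symm⟩
    · intro ij _
      rfl
  exact (ZMod.intCast_zmod_eq_zero_iff_dvd _ 2).mp key

theorem filter_diag_antidiagonal (n : ℕ) :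
    (antidiagonal n).filter (fun ij : ℕ × ℕ => ij.1 = ij.2) =
      if 2 ∣ n then {(n / 2, n / 2)} else ∅ := by
  ext ⟨i, j⟩
  simp only [mem_filter, HasAntidiagonal.mem_antidiagonal]
  split_ifs with h
  · simp only [mem_singleton, Prod.mk.injEq]
    constructor
    · rintro ⟨h1, h2⟩
      subst h2
      constructor <;> omega
    · rintro ⟨rfl, rfl⟩
      refine ⟨?_, rfl⟩
      omega
  · simp only [notMem_empty, iff_false, not_and]
    rintro h1 h2
    subst h2
    exact h ⟨i, by omega⟩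

/-- Self-convolution of an integer sequence modulo `2`: only the diagonal term survives. -/
theorem conv_self_mod_two (y : ℕ → ℤ) (n : ℕ) :
    (∑ ij ∈ antidiagonal n, y ij.1 * y ij.2) ≡ (if 2 ∣ n then y (n / 2) else 0) [ZMOD 2] := by
  classical
  rw [← Finset.sum_filter_add_sum_filter_not (antidiagonal n) (fun ij : ℕ × ℕ => ij.1 = ij.2),
    filter_diag_antidiagonal]
  obtain ⟨c, hc⟩ := two_dvd_sum_offdiag y n
  rw [hc]
  split_ifs with h
  · rw [Finset.sum_singleton]
    have hsq : y (n / 2) * y (n / 2) ≡ y (n / 2) [ZMOD 2] := by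
      rcases Int.emod_two_eq_zero_or_one (y (n / 2)) with h0 | h1
      · have : (2 : ℤ) ∣ y (n / 2) := Int.dvd_of_emod_eq_zero h0
        obtain ⟨d, hd⟩ := this
        rw [hd]
        exact (Int.modEq_iff_dvd.mpr ⟨d - 2 * d * d, by ring⟩)
      · obtain ⟨d, hd⟩ : ∃ d, y (n / 2) = 2 * d + 1 := ⟨y (n / 2) / 2, by omega⟩
        rw [hd]
        exact (Int.modEq_iff_dvd.mpr ⟨- 2 * d * d - d, by ring⟩)
    calc y (n / 2) * y (n / 2) + 2 * c ≡ y (n / 2) + 2 * c [ZMOD 2] := hsq.add_right _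
      _ ≡ y (n / 2) [ZMOD 2] := Int.modEq_iff_dvd.mpr ⟨-c, by ring⟩
  · rw [Finset.sum_empty, zero_add]
    exact Int.modEq_iff_dvd.mpr ⟨-c, by ring⟩


section Uop

variable {R : Type*} [CommRing R]

/-- The operator `U_p` on power series: `∑ aₙ qⁿ ↦ ∑ a_{pn} qⁿ`. -/
noncomputable def Uop (p : ℕ) (f : PowerSeries R) : PowerSeries R :=
  PowerSeries.mk fun n => PowerSeries.coeff (p * n) f

@[simp] theorem coeff_Uop (p n : ℕ) (f : PowerSeries R) :
    PowerSeries.coeff n (Uop p f) = PowerSeries.coeff (p * n) f := by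
  simp [Uop]

theorem Uop_add (p : ℕ) (f g : PowerSeries R) : Uop p (f + g) = Uop p f + Uop p g := by
  ext n; simp

theorem Uop_C_mul (p : ℕ) (a : R) (f : PowerSeries R) :
    Uop p (PowerSeries.C a * f) = PowerSeries.C a * Uop p f := by
  ext n; simp

theorem Uop_one {p : ℕ} (hp : p ≠ 0) : Uop p (1 : PowerSeries R) = 1 := by
  ext n
  simp only [coeff_Uop, PowerSeries.coeff_one]
  by_cases h : n = 0
  · simp [h]
  · simp [h, hp]

theorem Uop_map {S : Type*} [CommRing S] (φ : R →+* S) (p : ℕ) (f : PowerSeries R) :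
    Uop p (PowerSeries.map φ f) = PowerSeries.map φ (Uop p f) := by
  ext n; simp

end Uop

/-! ### Integer-level core -/

theorem coeff_mul_self_mod_two (Y : PowerSeries ℤ) (n : ℕ) :
    PowerSeries.coeff n (Y * Y) ≡ (if 2 ∣ n then PowerSeries.coeff (n / 2) Y else 0) [ZMOD 2] := by
  rw [PowerSeries.coeff_mul]
  exact conv_self_mod_two (fun k => PowerSeries.coeff k Y) n

/-- First round for `ℓ = 2`: the identity forces all coefficients to be even. -/
theorem core_even {p : ℕ} (hp : Odd p) {w D : ℤ} (hw : Odd w) (hD : Odd D)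
    (Y Z S : PowerSeries ℤ) (hY : Uop p Z = Y)
    (h : PowerSeries.C (w * D) * Y + PowerSeries.C (p : ℤ) * (Y * Y) + Uop p (Z * Z)
      = PowerSeries.C 2 * S) (n : ℕ) :
    (2 : ℤ) ∣ PowerSeries.coeff n Y := by
  have hn := congrArg (PowerSeries.coeff n) h
  simp only [map_add, PowerSeries.coeff_C_mul, coeff_Uop] at hn
  have h1 := coeff_mul_self_mod_two Y n
  have h2 := coeff_mul_self_mod_two Z (p * n)
  obtain ⟨p', rfl⟩ := hp
  obtain ⟨w', rfl⟩ := hw
  obtain ⟨D', rfl⟩ := hD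
  have hdvd : (2 ∣ (2 * p' + 1) * n) ↔ 2 ∣ n := by
    constructor
    · intro hh
      exact (Nat.Coprime.dvd_mul_left (by simp)).mp hh
    · intro hh
      exact Dvd.dvd.mul_left hh _
  have hcoef : (if 2 ∣ (2 * p' + 1) * n then PowerSeries.coeff ((2 * p' + 1) * n / 2) Z else 0)
      = (if 2 ∣ n then PowerSeries.coeff (n / 2) Y else 0) := by
    by_cases hh : 2 ∣ n
    · rw [if_pos hh, if_pos (hdvd.mpr hh), ← hY, coeff_Uop, Nat.mul_div_assoc _ hh]
    · rw [if_neg hh, if_neg (fun h' => hh (hdvd.mp h'))]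
  rw [hcoef] at h2
  set t : ℤ := (if 2 ∣ n then PowerSeries.coeff (n / 2) Y else 0) with ht
  obtain ⟨k1, hk1⟩ := Int.modEq_iff_dvd.mp h1
  obtain ⟨k2, hk2⟩ := Int.modEq_iff_dvd.mp h2
  push_cast at hn
  refine ⟨PowerSeries.coeff n S - (2 * w' * D' + w' + D') * PowerSeries.coeff n Y
    - (p' + 1) * t + (2 * p' + 1) * k1 + k2, ?_⟩
  linear_combination hn + (2 * p' + 1) * hk1 + hk2

/-- The series `∑ σ₃(n) qⁿ` over `ℤ`. -/
noncomputable def S3 : PowerSeries ℤ :=
  PowerSeries.mk fun n => ((ArithmeticFunction.sigma 3 n : ℕ) : ℤ)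

@[simp] theorem coeff_S3 (n : ℕ) :
    PowerSeries.coeff n S3 = ((ArithmeticFunction.sigma 3 n : ℕ) : ℤ) := by
  simp [S3]

theorem sigma_three_prime {p : ℕ} (hp : p.Prime) :
    ArithmeticFunction.sigma 3 p = 1 + p ^ 3 := by
  have h := ArithmeticFunction.sigma_apply_prime_pow (k := 3) (i := 1) hp
  simpa [Finset.sum_range_succ] using h

/-- The `q`-expansion of `E₄` over a ring `K`. -/
noncomputable def E4 (K : Type*) [CommRing K] : PowerSeries K :=
  1 + PowerSeries.C (240 : K) * PowerSeries.map (Int.castRingHom K) S3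

theorem coeff_E4 (K : Type*) [CommRing K] (n : ℕ) :
    PowerSeries.coeff n (E4 K) =
      if n = 0 then 1 else 240 * ((ArithmeticFunction.sigma 3 n : ℕ) : K) := by
  by_cases h : n = 0
  · subst h
    have h0 : PowerSeries.coeff 0 S3 = 0 := by simp
    simp only [E4, map_add, PowerSeries.coeff_C_mul, PowerSeries.coeff_map, h0, if_true]
    simp
  · simp [E4, h, PowerSeries.coeff_one]

/-- Second round for `ℓ = 2`. -/
theorem core_sigma_two {w D : ℤ} (hw : Odd w) (hD : Odd D) (Y T : PowerSeries ℤ)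
    (h : PowerSeries.C (w * D) * Y + PowerSeries.C 2 * T = PowerSeries.C (15 * w * D ^ 2) * S3)
    (n : ℕ) :
    (2 : ℤ) ∣ PowerSeries.coeff n Y - ((ArithmeticFunction.sigma 3 n : ℕ) : ℤ) := by
  have hn := congrArg (PowerSeries.coeff n) h
  simp only [map_add, PowerSeries.coeff_C_mul, coeff_S3] at hn
  obtain ⟨w', rfl⟩ := hw
  obtain ⟨D', rfl⟩ := hD
  set y := PowerSeries.coeff n Y
  set s : ℤ := ((ArithmeticFunction.sigma 3 n : ℕ) : ℤ)
  set t := PowerSeries.coeff n T
  refine ⟨7 * (2 * w' + 1) * (2 * D' + 1) ^ 2 * s + (4 * w' * D' ^ 2 + 4 * w' * D' + w' + 2 * D' ^ 2 + 2 * D') * s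
    - (2 * w' * D' + w' + D') * y - t, ?_⟩
  linear_combination hn

/-- The round for `ℓ = 3`. -/
theorem core_sigma_three {p : ℕ} (hp3 : p % 3 = 1) {D : ℤ} (Y T : PowerSeries ℤ)
    (h : PowerSeries.C (2 * ((p : ℤ) + 1) * D) * Y + PowerSeries.C 3 * T
      = PowerSeries.C (80 * ((p : ℤ) + 1) * D ^ 2) * S3) (n : ℕ) :
    (3 : ℤ) ∣ D * (PowerSeries.coeff n Y - D * ((ArithmeticFunction.sigma 3 n : ℕ) : ℤ)) := by
  have hn := congrArg (PowerSeries.coeff n) h
  simp only [map_add, PowerSeries.coeff_C_mul, coeff_S3] at hn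
  obtain ⟨k, hk⟩ : ∃ k : ℤ, (p : ℤ) = 3 * k + 1 := ⟨(p / 3 : ℕ), by omega⟩
  set y := PowerSeries.coeff n Y
  set s : ℤ := ((ArithmeticFunction.sigma 3 n : ℕ) : ℤ)
  set t := PowerSeries.coeff n T
  rw [hk] at hn
  refine ⟨(53 + 80 * k) * D ^ 2 * s - (1 + 2 * k) * D * y - t, ?_⟩
  linear_combination hn

/-! ### From a field of characteristic zero to `ℤ` -/

section Field

variable {K : Type*} [Field K] [CharZero K]

theorem map_int_injective :
    Function.Injective (PowerSeries.map (Int.castRingHom K)) := by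
  intro f g h
  ext n
  have := congrArg (PowerSeries.coeff n) h
  simpa using this

/-- From the trace identity over `K` to an identity over `ℤ`. -/
theorem int_identity {p : ℕ} (hp0 : p ≠ 0) {c D e : ℤ} (hc : c ≠ 0) (hD : D ≠ 0)
    (he : c * e = 240) (A U : PowerSeries K) (hAU : Uop p A = U) (hUA : Uop p U = A)
    (hE : PowerSeries.C (p : K) * (A * A) + Uop p (U * U) = PowerSeries.C ((p : K) + 1) * E4 K)
    (Y : PowerSeries ℤ)
    (hmod : A = 1 + PowerSeries.C ((c : K) / (D : K)) * PowerSeries.map (Int.castRingHom K) Y) :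
    Uop p (Uop p Y) = Y ∧
    PowerSeries.C (2 * ((p : ℤ) + 1) * D) * Y +
      PowerSeries.C c * (PowerSeries.C (p : ℤ) * (Y * Y) + Uop p (Uop p Y * Uop p Y))
      = PowerSeries.C (e * ((p : ℤ) + 1) * D ^ 2) * S3 := by
  have hcK : (c : K) ≠ 0 := Int.cast_ne_zero.mpr hc
  have hDK : (D : K) ≠ 0 := Int.cast_ne_zero.mpr hD
  have hκ : (c : K) / (D : K) ≠ 0 := div_ne_zero hcK hDK
  have hκD : (c : K) / (D : K) * (D : K) - (c : K) = 0 := by
    rw [div_mul_cancel₀ _ hDK, sub_self]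
  have hce : (c : K) * (e : K) - 240 = 0 := by
    have := congrArg (Int.cast : ℤ → K) he
    push_cast at this
    rw [this, sub_self]
  generalize (c : K) / (D : K) = κ at hmod hκ hκD
  have hU : U = 1 + PowerSeries.C κ * PowerSeries.map (Int.castRingHom K) (Uop p Y) := by
    rw [← hAU, hmod, Uop_add, Uop_one hp0, Uop_C_mul, Uop_map]
  have hYZ : Uop p (PowerSeries.map (Int.castRingHom K) (Uop p Y))
      = PowerSeries.map (Int.castRingHom K) Y := by
    have h1 : Uop p U = 1 + PowerSeries.C κ *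
        Uop p (PowerSeries.map (Int.castRingHom K) (Uop p Y)) := by
      rw [hU, Uop_add, Uop_one hp0, Uop_C_mul]
    rw [hUA, hmod] at h1
    have h2 := add_left_cancel h1
    ext n
    have := congrArg (PowerSeries.coeff n) h2
    simp only [PowerSeries.coeff_C_mul] at this
    exact (mul_left_cancel₀ hκ this).symm
  refine ⟨?_, ?_⟩
  · apply map_int_injective (K := K)
    rw [← Uop_map, hYZ]
  · apply map_int_injective (K := K)
    ext n
    have hAA : A * A = 1 + PowerSeries.C (2 * κ) * PowerSeries.map (Int.castRingHom K) Y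
        + PowerSeries.C (κ * κ) * PowerSeries.map (Int.castRingHom K) (Y * Y) := by
      rw [hmod, map_mul, map_mul, map_mul, map_ofNat]
      ring
    have hUU : Uop p (U * U) = 1 + PowerSeries.C (2 * κ) * PowerSeries.map (Int.castRingHom K) Y
        + PowerSeries.C (κ * κ) *
          PowerSeries.map (Int.castRingHom K) (Uop p (Uop p Y * Uop p Y)) := by
      have : U * U = 1 + PowerSeries.C (2 * κ) * PowerSeries.map (Int.castRingHom K) (Uop p Y)
        + PowerSeries.C (κ * κ) * (PowerSeries.map (Int.castRingHom K) (Uop p Y * Uop p Y)) := by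
        rw [hU, map_mul, map_mul, map_mul, map_ofNat]
        ring
      rw [this, Uop_add, Uop_add, Uop_one hp0, Uop_C_mul, Uop_C_mul, hYZ, Uop_map]
    have hn := congrArg (PowerSeries.coeff n) hE
    rw [hAA, hUU, E4] at hn
    generalize hP1 : (p : K) + 1 = P1 at hn
    simp only [map_add, PowerSeries.coeff_C_mul, PowerSeries.coeff_map, coeff_S3,
      coeff_Uop, eq_intCast, mul_add] at hn
    rw [PowerSeries.coeff_map, PowerSeries.coeff_map]
    generalize hc1 : 2 * ((p : ℤ) + 1) * D = c1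
    generalize hc2 : e * ((p : ℤ) + 1) * D ^ 2 = c2
    simp only [map_add, PowerSeries.coeff_C_mul, coeff_S3, coeff_Uop, Int.coe_castRingHom]
    subst hc1 hc2 hP1
    apply mul_left_cancel₀ hcK
    push_cast at hn ⊢
    linear_combination (D : K) ^ 2 * hn
      - (2 * ((p : K) + 1) * D * ((PowerSeries.coeff n Y : ℤ) : K)
        + ((p : K) * ((PowerSeries.coeff n (Y * Y) : ℤ) : K)
          + ((PowerSeries.coeff (p * n) (Uop p Y * Uop p Y) : ℤ) : K)) * (c + κ * D)) * hκD
      - ((p : K) + 1) * (D : K) ^ 2 * ((ArithmeticFunction.sigma 3 n : ℕ) : K) * hce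

end Field

/-! ### The two exported statements -/

section Main

variable {K : Type*} [Field K] [CharZero K]

omit [CharZero K] in
theorem U_eq_of_mod {p : ℕ} (hp0 : p ≠ 0) (κ : K) (A U : PowerSeries K) (hAU : Uop p A = U)
    (Y : PowerSeries ℤ)
    (hmod : A = 1 + PowerSeries.C κ * PowerSeries.map (Int.castRingHom K) Y) :
    U = 1 + PowerSeries.C κ * PowerSeries.map (Int.castRingHom K) (Uop p Y) := by
  rw [← hAU, hmod, Uop_add, Uop_one hp0, Uop_C_mul, Uop_map]

theorem C_mul_cancel {a : ℤ} (ha : a ≠ 0) {f g : PowerSeries ℤ}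
    (h : PowerSeries.C a * f = PowerSeries.C a * g) : f = g := by
  ext n
  have := congrArg (PowerSeries.coeff n) h
  simp only [PowerSeries.coeff_C_mul] at this
  exact mul_left_cancel₀ ha this

/-- **(P4)**: for `p ≡ 1 mod 3` there is no `H = 1 + 3·(integral at 3)` satisfying the two
trace identities. `A` is the `q`-expansion of `H`, `U` that of `U_p H`. -/
theorem not_P4 {p : ℕ} (hp : p.Prime) (hp3 : p % 3 = 1)
    (A U : PowerSeries K) (hAU : Uop p A = U) (hUA : Uop p U = A)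
    (hE : PowerSeries.C (p : K) * (A * A) + Uop p (U * U) = PowerSeries.C ((p : K) + 1) * E4 K)
    (hE' : PowerSeries.C (p : K) * (U * U) + Uop p (A * A) = PowerSeries.C ((p : K) + 1) * E4 K)
    (D : ℤ) (hD : ¬ (3 : ℤ) ∣ D) (Y : PowerSeries ℤ)
    (hmod : A = 1 + PowerSeries.C (((3 : ℤ) : K) / (D : K)) * PowerSeries.map (Int.castRingHom K) Y) :
    False := by
  have hp0 : p ≠ 0 := hp.ne_zero
  have hD0 : D ≠ 0 := fun h => hD (h ▸ dvd_zero _)
  have h3 : Prime (3 : ℤ) := Int.prime_three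
  obtain ⟨-, I1⟩ := int_identity hp0 (c := 3) (e := 80) (by norm_num) hD0 (by norm_num)
    A U hAU hUA hE Y hmod
  have hU := U_eq_of_mod hp0 _ A U hAU Y hmod
  obtain ⟨-, I2⟩ := int_identity hp0 (c := 3) (e := 80) (by norm_num) hD0 (by norm_num)
    U A hUA hAU hE' (Uop p Y) hU
  have k1 := core_sigma_three hp3 Y _ I1 p
  have k2 := core_sigma_three hp3 (Uop p Y) _ I2 1
  rw [coeff_Uop, mul_one] at k2
  have k1' := (h3.dvd_or_dvd k1).resolve_left hD
  have k2' := (h3.dvd_or_dvd k2).resolve_left hD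
  rw [sigma_three_prime hp] at k1'
  have hs1 : ArithmeticFunction.sigma 3 1 = 1 := by simp
  rw [hs1] at k2'
  have hsub := dvd_sub k2' k1'
  have : (3 : ℤ) ∣ D * (p : ℤ) ^ 3 := by
    have e : PowerSeries.coeff p Y - D * ((1 : ℕ) : ℤ)
        - (PowerSeries.coeff p Y - D * ((1 + p ^ 3 : ℕ) : ℤ)) = D * (p : ℤ) ^ 3 := by
      push_cast
      ring
    rwa [e] at hsub
  rcases h3.dvd_or_dvd this with h | h
  · exact hD h
  · have h' := h3.dvd_of_dvd_pow h
    have : (3 : ℕ) ∣ p := by exact_mod_cast h'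
    omega

/-- **(P6)**: for `p ≡ 1 mod 4` there is no `H = 1 + 4·(integral at 2)` satisfying the two
trace identities. `A` is the `q`-expansion of `H`, `U` that of `U_p H`. -/
theorem not_P6 {p : ℕ} (hp : p.Prime) (hp4 : p % 4 = 1)
    (A U : PowerSeries K) (hAU : Uop p A = U) (hUA : Uop p U = A)
    (hE : PowerSeries.C (p : K) * (A * A) + Uop p (U * U) = PowerSeries.C ((p : K) + 1) * E4 K)
    (hE' : PowerSeries.C (p : K) * (U * U) + Uop p (A * A) = PowerSeries.C ((p : K) + 1) * E4 K)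
    (D : ℤ) (hD : Odd D) (Y : PowerSeries ℤ)
    (hmod : A = 1 + PowerSeries.C (((4 : ℤ) : K) / (D : K)) * PowerSeries.map (Int.castRingHom K) Y) :
    False := by
  have hp0 : p ≠ 0 := hp.ne_zero
  have hD0 : D ≠ 0 := fun h => by rw [h] at hD; exact absurd hD (by decide)
  have hpodd : Odd p := by
    rw [Nat.odd_iff]; omega
  obtain ⟨w, hw⟩ : ∃ w : ℤ, (p : ℤ) + 1 = 2 * w ∧ Odd w := by
    refine ⟨((p + 1) / 2 : ℕ), by omega, ?_⟩
    rw [Int.odd_coe_nat, Nat.odd_iff]
    omega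
  obtain ⟨hw1, hw2⟩ := hw
  -- first round
  obtain ⟨hZZ, I1⟩ := int_identity hp0 (c := 4) (e := 60) (by norm_num) hD0 (by norm_num)
    A U hAU hUA hE Y hmod
  have I1' : PowerSeries.C (w * D) * Y + PowerSeries.C (p : ℤ) * (Y * Y)
      + Uop p (Uop p Y * Uop p Y) = PowerSeries.C 2 * (PowerSeries.C (15 * w * D ^ 2) * S3) := by
    apply C_mul_cancel (a := 4) (by norm_num)
    rw [hw1] at I1
    have e1 : PowerSeries.C (2 * (2 * w) * D) = PowerSeries.C (4 : ℤ) * PowerSeries.C (w * D) := by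
      rw [← map_mul]; congr 1; ring
    have e2 : PowerSeries.C (60 * (2 * w) * D ^ 2)
        = PowerSeries.C (4 : ℤ) * (PowerSeries.C 2 * PowerSeries.C (15 * w * D ^ 2)) := by
      rw [← map_mul, ← map_mul]; congr 1; ring
    rw [e1, e2] at I1
    linear_combination I1
  have heven := core_even hpodd hw2 hD Y (Uop p Y) _ hZZ I1'
  -- second round
  obtain ⟨Y', hY'⟩ : ∃ Y' : PowerSeries ℤ, Y = PowerSeries.C 2 * Y' := by
    refine ⟨PowerSeries.mk fun n => PowerSeries.coeff n Y / 2, ?_⟩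
    ext n
    simp only [PowerSeries.coeff_C_mul, PowerSeries.coeff_mk]
    exact (Int.mul_ediv_cancel' (heven n)).symm
  have hmod' : A = 1 + PowerSeries.C (((8 : ℤ) : K) / (D : K))
      * PowerSeries.map (Int.castRingHom K) Y' := by
    rw [hmod, hY', map_mul, PowerSeries.map_C, ← mul_assoc, ← map_mul]
    congr 3
    simp only [eq_intCast]
    push_cast
    ring
  obtain ⟨-, J1⟩ := int_identity hp0 (c := 8) (e := 30) (by norm_num) hD0 (by norm_num)
    A U hAU hUA hE Y' hmod'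
  have hU' := U_eq_of_mod hp0 _ A U hAU Y' hmod'
  obtain ⟨-, J2⟩ := int_identity hp0 (c := 8) (e := 30) (by norm_num) hD0 (by norm_num)
    U A hUA hAU hE' (Uop p Y') hU'
  have key : ∀ (Y₀ T : PowerSeries ℤ),
      PowerSeries.C (2 * ((p : ℤ) + 1) * D) * Y₀ + PowerSeries.C 8 * T
        = PowerSeries.C (30 * ((p : ℤ) + 1) * D ^ 2) * S3 →
      PowerSeries.C (w * D) * Y₀ + PowerSeries.C 2 * T = PowerSeries.C (15 * w * D ^ 2) * S3 := by
    intro Y₀ T h
    apply C_mul_cancel (a := 4) (by norm_num)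
    rw [hw1] at h
    have e1 : PowerSeries.C (2 * (2 * w) * D) = PowerSeries.C (4 : ℤ) * PowerSeries.C (w * D) := by
      rw [← map_mul]; congr 1; ring
    have e2 : PowerSeries.C (30 * (2 * w) * D ^ 2)
        = PowerSeries.C (4 : ℤ) * PowerSeries.C (15 * w * D ^ 2) := by
      rw [← map_mul]; congr 1; ring
    have e3 : (PowerSeries.C (8 : ℤ) : PowerSeries ℤ) = PowerSeries.C 4 * PowerSeries.C 2 := by
      rw [← map_mul]; norm_num
    rw [e1, e2, e3] at h
    linear_combination h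
  have k1 := core_sigma_two hw2 hD Y' _ (key _ _ J1) p
  have k2 := core_sigma_two hw2 hD (Uop p Y') _ (key _ _ J2) 1
  rw [coeff_Uop, mul_one] at k2
  rw [sigma_three_prime hp] at k1
  have hs1 : ArithmeticFunction.sigma 3 1 = 1 := by simp
  rw [hs1] at k2
  have hsub := dvd_sub k2 k1
  have h2 : (2 : ℤ) ∣ (p : ℤ) ^ 3 := by
    have e : PowerSeries.coeff p Y' - ((1 : ℕ) : ℤ)
        - (PowerSeries.coeff p Y' - ((1 + p ^ 3 : ℕ) : ℤ)) = (p : ℤ) ^ 3 := by
      push_cast
      ring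
    rwa [e] at hsub
  have h2' := Int.prime_two.dvd_of_dvd_pow h2
  have : (2 : ℕ) ∣ p := by exact_mod_cast h2'
  omega

end Main

/-! ### Coefficient forms (the shape in which the identities are produced for `qExpansion`) -/

section Coeff

variable {K : Type*} [Field K] [CharZero K]

theorem hmod_of_coeff (a : PowerSeries K) (h0 : PowerSeries.coeff 0 a = 1) (c : ℤ) (A B : ℕ)
    (z : ℕ → ℤ)
    (hH : ∀ n, 1 ≤ n → PowerSeries.coeff n a = -(c : K) * ((A : K) / (B : K)) * (z n : K)) :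
    a = 1 + PowerSeries.C ((c : K) / ((B : ℤ) : K)) * PowerSeries.map (Int.castRingHom K)
      (PowerSeries.mk fun n => if n = 0 then 0 else -(A : ℤ) * z n) := by
  ext n
  by_cases hn : n = 0
  · subst hn
    rw [h0]
    simp only [map_add, PowerSeries.coeff_one, if_true, PowerSeries.coeff_C_mul,
      PowerSeries.coeff_map, PowerSeries.coeff_mk, map_zero, mul_zero, add_zero]
  · rw [hH n (Nat.one_le_iff_ne_zero.mpr hn)]
    simp only [map_add, PowerSeries.coeff_one, if_neg hn, PowerSeries.coeff_C_mul,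
      PowerSeries.coeff_map, PowerSeries.coeff_mk, zero_add, eq_intCast]
    push_cast
    ring

omit [CharZero K] in
theorem identities_of_coeff {p : ℕ} (a : PowerSeries K)
    (hpp : ∀ n, PowerSeries.coeff (p * p * n) a = PowerSeries.coeff n a)
    (hE : ∀ n, (p : K) * PowerSeries.coeff n (a * a)
      + PowerSeries.coeff (p * n) (Uop p a * Uop p a) = ((p : K) + 1) * PowerSeries.coeff n (E4 K))
    (hE' : ∀ n, (p : K) * PowerSeries.coeff n (Uop p a * Uop p a)
      + PowerSeries.coeff (p * n) (a * a) = ((p : K) + 1) * PowerSeries.coeff n (E4 K)) :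
    Uop p (Uop p a) = a ∧
    (PowerSeries.C (p : K) * (a * a) + Uop p (Uop p a * Uop p a)
      = PowerSeries.C ((p : K) + 1) * E4 K) ∧
    (PowerSeries.C (p : K) * (Uop p a * Uop p a) + Uop p (a * a)
      = PowerSeries.C ((p : K) + 1) * E4 K) := by
  refine ⟨?_, ?_, ?_⟩
  · ext n
    rw [coeff_Uop, coeff_Uop, ← mul_assoc, hpp]
  · ext n
    rw [map_add, PowerSeries.coeff_C_mul, PowerSeries.coeff_C_mul, coeff_Uop]
    exact hE n
  · ext n
    rw [map_add, PowerSeries.coeff_C_mul, PowerSeries.coeff_C_mul, coeff_Uop]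
    exact hE' n

/-- **(P4)**, coefficient form. `a` is the `q`-expansion of a weight-2 form `H` on `Γ₀(p)` with
`a₀ = 1`; `hpp` is `U_p² = 1`, `hE`/`hE'` are the trace identities `Tr(H²) = ((p+1)/p)E₄` for
`H` and for `U_p H`. -/
theorem not_P4_coeff {p : ℕ} (hp : p.Prime) (hp3 : p % 3 = 1) (a : PowerSeries K)
    (h0 : PowerSeries.coeff 0 a = 1)
    (hpp : ∀ n, PowerSeries.coeff (p * p * n) a = PowerSeries.coeff n a)
    (hE : ∀ n, (p : K) * PowerSeries.coeff n (a * a)
      + PowerSeries.coeff (p * n) (Uop p a * Uop p a) = ((p : K) + 1) * PowerSeries.coeff n (E4 K))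
    (hE' : ∀ n, (p : K) * PowerSeries.coeff n (Uop p a * Uop p a)
      + PowerSeries.coeff (p * n) (a * a) = ((p : K) + 1) * PowerSeries.coeff n (E4 K))
    (A B : ℕ) (hB : ¬ 3 ∣ B) (z : ℕ → ℤ)
    (hH : ∀ n, 1 ≤ n → PowerSeries.coeff n a = -((3 : ℤ) : K) * ((A : K) / (B : K)) * (z n : K)) :
    False := by
  obtain ⟨hUA, h1, h2⟩ := identities_of_coeff a hpp hE hE'
  refine not_P4 hp hp3 a (Uop p a) rfl hUA h1 h2 (B : ℤ) ?_ _ (hmod_of_coeff a h0 3 A B z hH)
  exact_mod_cast hB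

/-- **(P6)**, coefficient form. -/
theorem not_P6_coeff {p : ℕ} (hp : p.Prime) (hp4 : p % 4 = 1) (a : PowerSeries K)
    (h0 : PowerSeries.coeff 0 a = 1)
    (hpp : ∀ n, PowerSeries.coeff (p * p * n) a = PowerSeries.coeff n a)
    (hE : ∀ n, (p : K) * PowerSeries.coeff n (a * a)
      + PowerSeries.coeff (p * n) (Uop p a * Uop p a) = ((p : K) + 1) * PowerSeries.coeff n (E4 K))
    (hE' : ∀ n, (p : K) * PowerSeries.coeff n (Uop p a * Uop p a)
      + PowerSeries.coeff (p * n) (a * a) = ((p : K) + 1) * PowerSeries.coeff n (E4 K))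
    (A B : ℕ) (hB : ¬ 2 ∣ B) (z : ℕ → ℤ)
    (hH : ∀ n, 1 ≤ n → PowerSeries.coeff n a = -((4 : ℤ) : K) * ((A : K) / (B : K)) * (z n : K)) :
    False := by
  obtain ⟨hUA, h1, h2⟩ := identities_of_coeff a hpp hE hE'
  refine not_P6 hp hp4 a (Uop p a) rfl hUA h1 h2 (B : ℤ) ?_ _ (hmod_of_coeff a h0 4 A B z hH)
  rw [Int.odd_coe_nat, Nat.odd_iff]
  omega

end Coeff

end Fermat.Agent.S16.E2Trick
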