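import Mathlib
import Fermat.Prelude.Def_ModularCurve_ModularUnit

/-!
# S16: the arithmetic of the upper bound

`n = eisensteinNumerator p = (p - 1) / gcd (p - 1, 12)`.  For a cusp form `f` with
`a_k f ≡ σ*(k) mod m` the form `H = G_p - (24 / (p - 1)) f` has `a_0 = 1` and
`a_k H = - (24 m / (p - 1)) z_k`.  If `ℓ ^ (e + v_ℓ (p - 1)) ∣ 24 m` then `H ≡ 1 mod ℓ ^ e`
(`exists_unit_factor`), and `m ∣ n` as soon as this is excluded for the exponents
`e = excess p ℓ` (`dvd_eisensteinNumerator`):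

* `ℓ ≥ 5` : `e = 1`;
* `ℓ = 3` : `e = 1` if `p ≡ 1 mod 3`, `e = 2` otherwise;
* `ℓ = 2` : `e = 2` if `p ≡ 1 mod 4`, `e = 3` otherwise.
-/

set_option autoImplicit false

namespace Fermat.Agent.S16.Arith

open ModularCurve

/-- the exponent `e` such that a form `H ∈ M₂(Γ₀(p))` with `a₀ = 1` cannot be `≡ 1 mod ℓ ^ e` -/
def excess (p ℓ : ℕ) : ℕ :=
  if ℓ = 2 then (if p % 4 = 1 then 2 else 3)
  else if ℓ = 3 then (if p % 3 = 1 then 1 else 2)
  else 1

theorem excess_two_of_one (p : ℕ) (h : p % 4 = 1) : excess p 2 = 2 := by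
  simp [excess, h]

theorem excess_two_of_three (p : ℕ) (h : p % 4 ≠ 1) : excess p 2 = 3 := by
  simp [excess, h]

theorem excess_three_of_one (p : ℕ) (h : p % 3 = 1) : excess p 3 = 1 := by
  simp [excess, h]

theorem excess_three_of_two (p : ℕ) (h : p % 3 ≠ 1) : excess p 3 = 2 := by
  simp [excess, h]

theorem excess_of_five_le (p ℓ : ℕ) (h : 5 ≤ ℓ) : excess p ℓ = 1 := by
  have h2 : ℓ ≠ 2 := by omega
  have h3 : ℓ ≠ 3 := by omega
  simp [excess, h2, h3]

/-- If `ℓ ^ (e + v_ℓ (p - 1)) ∣ 24 m`, then `24 m / (p - 1) = ℓ ^ e * A / B` with `ℓ ∤ B`. -/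
theorem exists_unit_factor {ℓ e p m : ℕ} (hℓ : ℓ.Prime) (hp : 1 < p)
    (h : ℓ ^ (e + (p - 1).factorization ℓ) ∣ 24 * m) :
    ∃ A B : ℕ, ¬ ℓ ∣ B ∧ 24 * m * B = ℓ ^ e * (p - 1) * A := by
  have hp1 : p - 1 ≠ 0 := by omega
  obtain ⟨A, hA⟩ := h
  refine ⟨A, (p - 1) / ℓ ^ (p - 1).factorization ℓ, Nat.not_dvd_ordCompl hℓ hp1, ?_⟩
  have hsplit : ℓ ^ (p - 1).factorization ℓ * ((p - 1) / ℓ ^ (p - 1).factorization ℓ) = p - 1 :=
    Nat.ordProj_mul_ordCompl_eq_self (p - 1) ℓ
  calc 24 * m * ((p - 1) / ℓ ^ (p - 1).factorization ℓ)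
      = ℓ ^ (e + (p - 1).factorization ℓ) * A * ((p - 1) / ℓ ^ (p - 1).factorization ℓ) := by
        rw [hA]
    _ = ℓ ^ e * (ℓ ^ (p - 1).factorization ℓ * ((p - 1) / ℓ ^ (p - 1).factorization ℓ)) * A := by
        rw [pow_add]; ring
    _ = ℓ ^ e * (p - 1) * A := by rw [hsplit]

theorem factorization_24_two : (24 : ℕ).factorization 2 = 3 := by
  have h : (24 : ℕ) = 2 ^ 3 * 3 := by norm_num
  rw [h, Nat.factorization_mul (by norm_num) (by norm_num), Finsupp.add_apply,
    Nat.Prime.factorization_pow Nat.prime_two, Nat.Prime.factorization Nat.prime_three]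
  simp

theorem factorization_24_three : (24 : ℕ).factorization 3 = 1 := by
  have h : (24 : ℕ) = 2 ^ 3 * 3 := by norm_num
  rw [h, Nat.factorization_mul (by norm_num) (by norm_num), Finsupp.add_apply,
    Nat.Prime.factorization_pow Nat.prime_two, Nat.Prime.factorization Nat.prime_three]
  simp

theorem factorization_12_two : (12 : ℕ).factorization 2 = 2 := by
  have h : (12 : ℕ) = 2 ^ 2 * 3 := by norm_num
  rw [h, Nat.factorization_mul (by norm_num) (by norm_num), Finsupp.add_apply,
    Nat.Prime.factorization_pow Nat.prime_two, Nat.Prime.factorization Nat.prime_three]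
  simp

theorem factorization_12_three : (12 : ℕ).factorization 3 = 1 := by
  have h : (12 : ℕ) = 2 ^ 2 * 3 := by norm_num
  rw [h, Nat.factorization_mul (by norm_num) (by norm_num), Finsupp.add_apply,
    Nat.Prime.factorization_pow Nat.prime_two, Nat.Prime.factorization Nat.prime_three]
  simp

theorem factorization_of_five_le {ℓ : ℕ} (hℓ : ℓ.Prime) (h5 : 5 ≤ ℓ) :
    (24 : ℕ).factorization ℓ = 0 ∧ (12 : ℕ).factorization ℓ = 0 := by
  have h24 : ¬ ℓ ∣ 24 := fun h => by
    have := (Nat.Prime.dvd_mul hℓ).mp (show ℓ ∣ 8 * 3 from h)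
    rcases this with h8 | h3
    · have := Nat.le_of_dvd (by norm_num) (hℓ.dvd_of_dvd_pow (show ℓ ∣ 2 ^ 3 from h8))
      omega
    · have := Nat.le_of_dvd (by norm_num) h3
      omega
  have h12 : ¬ ℓ ∣ 12 := fun h => h24 (h.trans ⟨2, by norm_num⟩)
  exact ⟨Nat.factorization_eq_zero_of_not_dvd h24, Nat.factorization_eq_zero_of_not_dvd h12⟩

/-- the `ℓ`-adic valuation of the Eisenstein numerator -/
theorem factorization_eisensteinNumerator {p : ℕ} (hp : 1 < p) (ℓ : ℕ) :
    (eisensteinNumerator p).factorization ℓ =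
      (p - 1).factorization ℓ - min ((p - 1).factorization ℓ) ((12 : ℕ).factorization ℓ) := by
  have hp1 : p - 1 ≠ 0 := by omega
  rw [eisensteinNumerator, Nat.factorization_div (Nat.gcd_dvd_left _ _), Finsupp.coe_tsub,
    Pi.sub_apply, Nat.factorization_gcd hp1 (by norm_num)]
  rfl

/-- **Arithmetic of the upper bound.** -/
theorem dvd_eisensteinNumerator {p m : ℕ} (hp : p.Prime) (hp5 : 5 ≤ p) (hm : 0 < m)
    (h : ∀ ℓ : ℕ, ℓ.Prime → ¬ ℓ ^ (excess p ℓ + (p - 1).factorization ℓ) ∣ 24 * m) :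
    m ∣ eisensteinNumerator p := by
  have hp1 : 1 < p := hp.one_lt
  have hn0 : eisensteinNumerator p ≠ 0 := by
    unfold eisensteinNumerator
    have h1 : 0 < p - 1 := Nat.sub_pos_of_lt hp1
    exact (Nat.div_pos (Nat.le_of_dvd h1 (Nat.gcd_dvd_left _ _))
      (Nat.gcd_pos_of_pos_left _ h1)).ne'
  rw [← Nat.factorization_le_iff_dvd hm.ne' hn0]
  intro ℓ
  by_cases hℓ : ℓ.Prime
  swap
  · rw [Nat.factorization_eq_zero_of_not_prime m hℓ]
    exact Nat.zero_le _
  have h24m : 24 * m ≠ 0 := Nat.mul_ne_zero (by norm_num) hm.ne'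
  have hlt : (24 * m).factorization ℓ < excess p ℓ + (p - 1).factorization ℓ := by
    by_contra hcon
    rw [not_lt] at hcon
    exact h ℓ hℓ ((hℓ.pow_dvd_iff_le_factorization h24m).mpr hcon)
  rw [Nat.factorization_mul (by norm_num) hm.ne', Finsupp.add_apply] at hlt
  rw [factorization_eisensteinNumerator hp1]
  -- the residues of `p`
  have hodd : p % 2 = 1 := by
    rcases hp.eq_two_or_odd with h2 | h2
    · omega
    · exact h2
  by_cases h2 : ℓ = 2
  · subst h2
    rw [factorization_24_two] at hlt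
    rw [factorization_12_two]
    by_cases hp4 : p % 4 = 1
    · rw [excess_two_of_one p hp4] at hlt
      have hv : 2 ≤ (p - 1).factorization 2 := by
        rw [← Nat.Prime.pow_dvd_iff_le_factorization Nat.prime_two (by omega)]
        exact (Nat.dvd_iff_mod_eq_zero).mpr (by omega)
      rw [min_eq_right hv]
      omega
    · rw [excess_two_of_three p hp4] at hlt
      have hv1 : 1 ≤ (p - 1).factorization 2 := by
        rw [← Nat.Prime.pow_dvd_iff_le_factorization Nat.prime_two (by omega)]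
        exact (Nat.dvd_iff_mod_eq_zero).mpr (by omega)
      have hv2 : ¬ 2 ≤ (p - 1).factorization 2 := by
        rw [← Nat.Prime.pow_dvd_iff_le_factorization Nat.prime_two (by omega)]
        intro hd
        have := (Nat.dvd_iff_mod_eq_zero).mp hd
        omega
      have hv : (p - 1).factorization 2 = 1 := by omega
      rw [hv] at hlt ⊢
      simp only [Nat.one_le_ofNat, inf_of_le_left, tsub_self, nonpos_iff_eq_zero]
      omega
  by_cases h3 : ℓ = 3
  · subst h3
    rw [factorization_24_three] at hlt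
    rw [factorization_12_three]
    by_cases hp3 : p % 3 = 1
    · rw [excess_three_of_one p hp3] at hlt
      have hv : 1 ≤ (p - 1).factorization 3 := by
        rw [← Nat.Prime.pow_dvd_iff_le_factorization Nat.prime_three (by omega)]
        exact (Nat.dvd_iff_mod_eq_zero).mpr (by omega)
      rw [min_eq_right hv]
      omega
    · rw [excess_three_of_two p hp3] at hlt
      have hp3' : p % 3 = 2 := by
        have h0 : p % 3 ≠ 0 := fun h0 => by
          have hd : 3 ∣ p := Nat.dvd_of_mod_eq_zero h0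
          have := (Nat.prime_dvd_prime_iff_eq Nat.prime_three hp).mp hd
          omega
        omega
      have hv : (p - 1).factorization 3 = 0 := by
        apply Nat.factorization_eq_zero_of_not_dvd
        intro hd
        have := (Nat.dvd_iff_mod_eq_zero).mp hd
        omega
      rw [hv] at hlt ⊢
      simp only [zero_le, inf_of_le_left, tsub_zero, nonpos_iff_eq_zero]
      omega
  · have h5 : 5 ≤ ℓ := by
      have := hℓ.two_le
      have h4 : ℓ ≠ 4 := fun h4 => by
        rw [h4] at hℓ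
        exact absurd hℓ (by decide)
      omega
    obtain ⟨h24, h12⟩ := factorization_of_five_le hℓ h5
    rw [h24, excess_of_five_le p ℓ h5] at hlt
    rw [h12, Nat.min_zero, Nat.sub_zero]
    omega

end Fermat.Agent.S16.Arith
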