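import Mathlib
import Fermat.Prelude.Def_ModularCurve_ModularUnit
import Fermat.Agent.S16.Arith
import Fermat.Agent.S16.AuxEis
import Fermat.Agent.S16.NormAlg

/-!
# S16, upper bound: the assembly, relative to the statements (P1)–(P6)

`StmtP ℓ e p` : no form `H ∈ M₂(Γ₀(p))` with `a₀(H) = 1` has all higher coefficients in
`ℓ^e · O`, `O` the ring of `ℓ`-integral complex numbers.

`dvd_of` : if `StmtP ℓ (excess p ℓ) p` holds for all primes `ℓ`, then every `m ≥ 1` for which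
some cusp form of level `p` is congruent to the Eisenstein series modulo `m` divides the
Eisenstein numerator `(p - 1) / gcd (p - 1, 12)`.
-/

set_option autoImplicit false

namespace Fermat.Agent.S16.UpperCore

open UpperHalfPlane ModularForm CongruenceSubgroup ModularCurve
open scoped MatrixGroups

/-- The common shape of the statements (P1)–(P6). -/
def StmtP (ℓ : ℕ) [Fact ℓ.Prime] (e p : ℕ) : Prop :=
  ∀ H : ModularForm (Gamma0 p : Subgroup (GL (Fin 2) ℝ)) 2, (qExpansion 1 H).coeff 0 = 1 →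
    (∀ n, 1 ≤ n → ∃ y ∈ NormAlg.OO ℓ, (qExpansion 1 H).coeff n = (ℓ : ℂ) ^ e * y) → False

theorem one_mem_strictPeriods_Gamma0' (N : ℕ) :
    (1 : ℝ) ∈ (Gamma0 N : Subgroup (GL (Fin 2) ℝ)).strictPeriods := by
  simp [CongruenceSubgroup.strictPeriods_Gamma0]

/-- The form `H = G_p - c f`. -/
noncomputable def formH (p : ℕ) [Fact p.Prime] (c : ℂ)
    (f : CuspForm (Gamma0 p : Subgroup (GL (Fin 2) ℝ)) 2) :
    ModularForm (Gamma0 p : Subgroup (GL (Fin 2) ℝ)) 2 :=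
  AuxEis.GrP p - c • CuspForm.toModularFormₗ f

theorem qExpansion_formH (p : ℕ) [Fact p.Prime] (c : ℂ)
    (f : CuspForm (Gamma0 p : Subgroup (GL (Fin 2) ℝ)) 2) :
    qExpansion 1 (formH p c f) = qExpansion 1 (AuxEis.GrP p) - c • qExpansion 1 f := by
  have h1 := one_mem_strictPeriods_Gamma0' p
  rw [formH, FunLike.coe_sub, ModularForm.qExpansion_sub one_pos h1, FunLike.coe_smul,
    ModularForm.qExpansion_smul one_pos h1]
  rfl

theorem coeff_zero_formH (p : ℕ) [Fact p.Prime] (c : ℂ)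
    (f : CuspForm (Gamma0 p : Subgroup (GL (Fin 2) ℝ)) 2) :
    (qExpansion 1 (formH p c f)).coeff 0 = 1 := by
  have h1 := one_mem_strictPeriods_Gamma0' p
  rw [qExpansion_formH, map_sub, PowerSeries.coeff_smul, AuxEis.qExpansion_GrP_coeff_zero,
    CuspFormClass.qExpansion_coeff_zero f one_pos h1]
  simp

theorem coeff_formH (p : ℕ) [Fact p.Prime] (c : ℂ)
    (f : CuspForm (Gamma0 p : Subgroup (GL (Fin 2) ℝ)) 2) {n : ℕ} (hn : 1 ≤ n) :
    (qExpansion 1 (formH p c f)).coeff n =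
      (24 / ((p : ℂ) - 1)) * ((∑ d ∈ n.divisors with ¬ p ∣ d, d : ℕ) : ℂ) -
        c * (qExpansion 1 f).coeff n := by
  rw [qExpansion_formH, map_sub, PowerSeries.coeff_smul, AuxEis.qExpansion_GrP_coeff p hn]
  rfl

/-- The congruence `H ≡ 1 mod ℓ^e` for `H = G_p - (24 / (p - 1)) f`. -/
theorem exists_coeff_formH (p : ℕ) [Fact p.Prime] (ℓ : ℕ) [Fact ℓ.Prime] (e : ℕ)
    (f : CuspForm (Gamma0 p : Subgroup (GL (Fin 2) ℝ)) 2) (m : ℕ)
    (hf : ∀ k ≥ 1, ∃ z : ℤ, (qExpansion 1 f).coeff k =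
      ((∑ d ∈ k.divisors with ¬ p ∣ d, d : ℕ) : ℂ) + m * z)
    (hdvd : ℓ ^ (e + (p - 1).factorization ℓ) ∣ 24 * m) (n : ℕ) (hn : 1 ≤ n) :
    ∃ y ∈ NormAlg.OO ℓ,
      (qExpansion 1 (formH p (24 / ((p : ℂ) - 1)) f)).coeff n = (ℓ : ℂ) ^ e * y := by
  have hp : p.Prime := Fact.out
  have hℓ : ℓ.Prime := Fact.out
  obtain ⟨A, B, hB, hAB⟩ := Arith.exists_unit_factor hℓ hp.one_lt hdvd
  obtain ⟨z, hz⟩ := hf n hn
  have hB0 : (B : ℂ) ≠ 0 := by
    intro h
    have : B = 0 := by exact_mod_cast h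
    exact hB (this ▸ dvd_zero _)
  have hp1 : ((p : ℂ) - 1) ≠ 0 := by
    intro h
    have h2 : (p : ℂ) = 1 := sub_eq_zero.mp h
    have : p = 1 := by exact_mod_cast h2
    exact hp.one_lt.ne' this
  have hAB' : (24 : ℂ) * m * B = (ℓ : ℂ) ^ e * ((p : ℂ) - 1) * A := by
    have h1 : ((24 * m * B : ℕ) : ℂ) = ((ℓ ^ e * (p - 1) * A : ℕ) : ℂ) := by rw [hAB]
    have h2 : ((p - 1 : ℕ) : ℂ) = (p : ℂ) - 1 := by
      rw [Nat.cast_sub hp.one_lt.le]
      simp
    push_cast at h1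
    rw [h2] at h1
    exact h1
  refine ⟨-((A : ℂ) / (B : ℂ) * (z : ℂ)), ?_, ?_⟩
  · refine neg_mem (mul_mem (NormAlg.div_mem_OO (NormAlg.natCast_mem_OO A) hB)
      (NormAlg.intCast_mem_OO z))
  · rw [coeff_formH p _ f hn, hz]
    field_simp
    linear_combination (-(z : ℂ)) * hAB'

/-- **The assembly of the upper bound**, relative to the statements (P1)–(P6). -/
theorem dvd_of (p : ℕ) [Fact p.Prime] (hp5 : 5 ≤ p)
    (h1 : ∀ (ℓ : ℕ) [Fact ℓ.Prime], 5 ≤ ℓ → StmtP ℓ 1 p)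
    (h3 : p % 3 = 2 → StmtP 3 2 p)
    (h4 : p % 3 = 1 → StmtP 3 1 p)
    (h5 : p % 4 = 3 → StmtP 2 3 p)
    (h6 : p % 4 = 1 → StmtP 2 2 p)
    (f : CuspForm (Gamma0 p : Subgroup (GL (Fin 2) ℝ)) 2) (m : ℕ) (hm : 0 < m)
    (hf : ∀ k ≥ 1, ∃ z : ℤ, (qExpansion 1 f).coeff k =
      ((∑ d ∈ k.divisors with ¬ p ∣ d, d : ℕ) : ℂ) + m * z) :
    m ∣ eisensteinNumerator p := by
  have hp : p.Prime := Fact.out
  refine Arith.dvd_eisensteinNumerator hp hp5 hm fun ℓ hℓ hdvd => ?_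
  have : Fact ℓ.Prime := ⟨hℓ⟩
  have key : StmtP ℓ (Arith.excess p ℓ) p → False := fun hS =>
    hS (formH p (24 / ((p : ℂ) - 1)) f) (coeff_zero_formH p _ f)
      (exists_coeff_formH p ℓ (Arith.excess p ℓ) f m hf hdvd)
  have hodd : p % 2 = 1 := by
    rcases hp.eq_two_or_odd with h2 | h2
    · omega
    · exact h2
  have hp3 : p % 3 ≠ 0 := by
    intro h
    have h3' : 3 ∣ p := Nat.dvd_of_mod_eq_zero h
    have := (Nat.prime_dvd_prime_iff_eq Nat.prime_three hp).mp h3'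
    omega
  by_cases hℓ2 : ℓ = 2
  · subst hℓ2
    by_cases hp4 : p % 4 = 1
    · rw [Arith.excess_two_of_one p hp4] at key
      exact key (h6 hp4)
    · rw [Arith.excess_two_of_three p hp4] at key
      exact key (h5 (by omega))
  by_cases hℓ3 : ℓ = 3
  · subst hℓ3
    by_cases hp31 : p % 3 = 1
    · rw [Arith.excess_three_of_one p hp31] at key
      exact key (h4 hp31)
    · rw [Arith.excess_three_of_two p hp31] at key
      exact key (h3 (by omega))
  have hℓ5 : 5 ≤ ℓ := by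
    have h2 := hℓ.two_le
    rcases Nat.lt_or_ge ℓ 5 with h | h
    · interval_cases ℓ
      · exact absurd rfl hℓ2
      · exact absurd rfl hℓ3
      · exact absurd hℓ (by decide)
    · exact h
  rw [Arith.excess_of_five_le p ℓ hℓ5] at key
  exact key (h1 ℓ hℓ5)

end Fermat.Agent.S16.UpperCore
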