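import Mathlib
import Fermat.Prelude.Def_ModularCurve_ModularUnit
import Fermat.Agent.S16.UpperCore
import Fermat.Agent.S16.E2Trick

/-!
# S16, upper bound: the assembly in rational shape

`StmtQ ℓ e p` : no form `H ∈ M₂(Γ₀(p))` with `a₀(H) = 1` has higher coefficients
`a_n(H) = - ℓ^e (A / B) z_n` with natural numbers `A`, `B`, `ℓ ∤ B`, and integers `z_n`.
This is implied by `UpperCore.StmtP ℓ e p`, and it is the shape in which the `e₂`-trick proves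
(P4) and (P6).
-/

set_option autoImplicit false

namespace Fermat.Agent.S16.UpperCoreQ

open UpperHalfPlane ModularForm CongruenceSubgroup ModularCurve
open scoped MatrixGroups

/-- The rational shape of the statements (P1)–(P6). -/
def StmtQ (ℓ e p : ℕ) : Prop :=
  ∀ H : ModularForm (Gamma0 p : Subgroup (GL (Fin 2) ℝ)) 2, (qExpansion 1 H).coeff 0 = 1 →
    ∀ A B : ℕ, ¬ ℓ ∣ B → ∀ z : ℕ → ℤ,
      (∀ n, 1 ≤ n →
        (qExpansion 1 H).coeff n = -((ℓ : ℂ) ^ e) * ((A : ℂ) / (B : ℂ)) * (z n : ℂ)) → False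

theorem StmtQ.of_stmtP {ℓ : ℕ} [Fact ℓ.Prime] {e p : ℕ} (h : UpperCore.StmtP ℓ e p) :
    StmtQ ℓ e p := by
  intro H h0 A B hB z hz
  refine h H h0 fun n hn => ⟨-((A : ℂ) / (B : ℂ) * (z n : ℂ)), ?_, ?_⟩
  · exact neg_mem (mul_mem (NormAlg.div_mem_OO (NormAlg.natCast_mem_OO A) hB)
      (NormAlg.intCast_mem_OO (z n)))
  · rw [hz n hn]
    ring

/-- The coefficients of `H = G_p - (24 / (p - 1)) f` in rational shape. -/
theorem exists_coeff_formH (p : ℕ) [Fact p.Prime] (ℓ : ℕ) (hℓ : ℓ.Prime) (e : ℕ)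
    (f : CuspForm (Gamma0 p : Subgroup (GL (Fin 2) ℝ)) 2) (m : ℕ)
    (hf : ∀ k ≥ 1, ∃ z : ℤ, (qExpansion 1 f).coeff k =
      ((∑ d ∈ k.divisors with ¬ p ∣ d, d : ℕ) : ℂ) + m * z)
    (hdvd : ℓ ^ (e + (p - 1).factorization ℓ) ∣ 24 * m) :
    ∃ A B : ℕ, ¬ ℓ ∣ B ∧ ∃ z : ℕ → ℤ, ∀ n, 1 ≤ n →
      (qExpansion 1 (UpperCore.formH p (24 / ((p : ℂ) - 1)) f)).coeff n =
        -((ℓ : ℂ) ^ e) * ((A : ℂ) / (B : ℂ)) * (z n : ℂ) := by
  classical
  have hp : p.Prime := Fact.out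
  obtain ⟨A, B, hB, hAB⟩ := Arith.exists_unit_factor hℓ hp.one_lt hdvd
  have hB0 : (B : ℂ) ≠ 0 := by
    intro h
    have : B = 0 := by exact_mod_cast h
    exact hB (this ▸ dvd_zero _)
  have hp1 : ((p : ℂ) - 1) ≠ 0 := by
    intro h
    have h2 : (p : ℂ) = 1 := sub_eq_zero.mp h
    have : p = 1 := by exact_mod_cast h2
    exact hp.one_lt.ne' this
  have hAB' : (24 : ℂ) * m * B = (ℓ : ℂ) ^ e * ((p : ℂ) - 1) * A := by
    have h1 : ((24 * m * B : ℕ) : ℂ) = ((ℓ ^ e * (p - 1) * A : ℕ) : ℂ) := by rw [hAB]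
    have h2 : ((p - 1 : ℕ) : ℂ) = (p : ℂ) - 1 := by
      rw [Nat.cast_sub hp.one_lt.le]
      simp
    push_cast at h1
    rw [h2] at h1
    exact h1
  choose! z hz using hf
  refine ⟨A, B, hB, z, fun n hn => ?_⟩
  rw [UpperCore.coeff_formH p _ f hn, hz n hn]
  field_simp
  linear_combination (-((z n : ℤ) : ℂ)) * hAB'

/-- **The assembly of the upper bound**, relative to the statements `StmtQ`. -/
theorem dvd_of (p : ℕ) [Fact p.Prime] (hp5 : 5 ≤ p)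
    (h : ∀ ℓ : ℕ, ℓ.Prime → StmtQ ℓ (Arith.excess p ℓ) p)
    (f : CuspForm (Gamma0 p : Subgroup (GL (Fin 2) ℝ)) 2) (m : ℕ) (hm : 0 < m)
    (hf : ∀ k ≥ 1, ∃ z : ℤ, (qExpansion 1 f).coeff k =
      ((∑ d ∈ k.divisors with ¬ p ∣ d, d : ℕ) : ℂ) + m * z) :
    m ∣ eisensteinNumerator p := by
  have hp : p.Prime := Fact.out
  refine Arith.dvd_eisensteinNumerator hp hp5 hm fun ℓ hℓ hdvd => ?_
  obtain ⟨A, B, hB, z, hz⟩ := exists_coeff_formH p ℓ hℓ (Arith.excess p ℓ) f m hf hdvd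
  exact h ℓ hℓ (UpperCore.formH p (24 / ((p : ℂ) - 1)) f) (UpperCore.coeff_zero_formH p _ f)
    A B hB z hz

/-- The case distinction: `StmtQ ℓ (excess p ℓ) p` for all primes `ℓ` from the five statements
(P1), (P3), (P4), (P5), (P6). -/
theorem stmtQ_excess (p : ℕ) [Fact p.Prime] (hp5 : 5 ≤ p)
    (h1 : ∀ ℓ : ℕ, ℓ.Prime → 5 ≤ ℓ → StmtQ ℓ 1 p)
    (h3 : p % 3 = 2 → StmtQ 3 2 p)
    (h4 : p % 3 = 1 → StmtQ 3 1 p)
    (h5 : p % 4 = 3 → StmtQ 2 3 p)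
    (h6 : p % 4 = 1 → StmtQ 2 2 p) :
    ∀ ℓ : ℕ, ℓ.Prime → StmtQ ℓ (Arith.excess p ℓ) p := by
  intro ℓ hℓ
  have hp : p.Prime := Fact.out
  have hodd : p % 2 = 1 := by
    rcases hp.eq_two_or_odd with h2 | h2
    · omega
    · exact h2
  have hp3 : p % 3 ≠ 0 := by
    intro h
    have h3' : 3 ∣ p := Nat.dvd_of_mod_eq_zero h
    have := (Nat.prime_dvd_prime_iff_eq Nat.prime_three hp).mp h3'
    omega
  by_cases hℓ2 : ℓ = 2
  · subst hℓ2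
    by_cases hp4 : p % 4 = 1
    · rw [Arith.excess_two_of_one p hp4]
      exact h6 hp4
    · rw [Arith.excess_two_of_three p hp4]
      exact h5 (by omega)
  by_cases hℓ3 : ℓ = 3
  · subst hℓ3
    by_cases hp31 : p % 3 = 1
    · rw [Arith.excess_three_of_one p hp31]
      exact h4 hp31
    · rw [Arith.excess_three_of_two p hp31]
      exact h3 (by omega)
  have hℓ5 : 5 ≤ ℓ := by
    have h2 := hℓ.two_le
    rcases Nat.lt_or_ge ℓ 5 with h | h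
    · interval_cases ℓ
      · exact absurd rfl hℓ2
      · exact absurd rfl hℓ3
      · exact absurd hℓ (by decide)
    · exact h
  rw [Arith.excess_of_five_le p ℓ hℓ5]
  exact h1 ℓ hℓ hℓ5

/-! ### (P4) and (P6) from the trace identities -/

/-- The identities `U_p² = 1` and `Tr(H²) = ((p + 1) / p) E₄` (for `H` and `U_p H`) on the
`q`-expansion of every `H ∈ M₂(Γ₀(p))` with `a₀(H) = 1`. -/
def TraceHyp (p : ℕ) : Prop :=
  ∀ H : ModularForm (Gamma0 p : Subgroup (GL (Fin 2) ℝ)) 2, (qExpansion 1 H).coeff 0 = 1 →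
    (∀ n, (qExpansion 1 H).coeff (p * p * n) = (qExpansion 1 H).coeff n) ∧
    (∀ n, (p : ℂ) * (qExpansion 1 H * qExpansion 1 H).coeff n
      + (E2Trick.Uop p (qExpansion 1 H) * E2Trick.Uop p (qExpansion 1 H)).coeff (p * n)
        = ((p : ℂ) + 1) * (E2Trick.E4 ℂ).coeff n) ∧
    (∀ n, (p : ℂ) * (E2Trick.Uop p (qExpansion 1 H) * E2Trick.Uop p (qExpansion 1 H)).coeff n
      + (qExpansion 1 H * qExpansion 1 H).coeff (p * n)
        = ((p : ℂ) + 1) * (E2Trick.E4 ℂ).coeff n)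

/-- **(P4)**: `ℓ = 3`, `p ≡ 1 mod 3`. -/
theorem stmtQ_P4 {p : ℕ} (hp : p.Prime) (hp3 : p % 3 = 1) (hT : TraceHyp p) : StmtQ 3 1 p := by
  intro H h0 A B hB z hz
  obtain ⟨hpp, hE, hE'⟩ := hT H h0
  refine E2Trick.not_P4_coeff hp hp3 (qExpansion 1 H) h0 hpp hE hE' A B hB z fun n hn => ?_
  rw [hz n hn]
  push_cast
  ring

/-- **(P6)**: `ℓ = 2`, `p ≡ 1 mod 4`. -/
theorem stmtQ_P6 {p : ℕ} (hp : p.Prime) (hp4 : p % 4 = 1) (hT : TraceHyp p) : StmtQ 2 2 p := by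
  intro H h0 A B hB z hz
  obtain ⟨hpp, hE, hE'⟩ := hT H h0
  refine E2Trick.not_P6_coeff hp hp4 (qExpansion 1 H) h0 hpp hE hE' A B hB z fun n hn => ?_
  rw [hz n hn]
  push_cast
  ring

/-- **The upper bound**, relative to the norm trick statements (P1), (P3), (P5) and the trace
identities. -/
theorem dvd_of_norm_trace (p : ℕ) [Fact p.Prime] (hp5 : 5 ≤ p)
    (h1 : ∀ (ℓ : ℕ) [Fact ℓ.Prime], 5 ≤ ℓ → UpperCore.StmtP ℓ 1 p)
    (h3 : p % 3 = 2 → UpperCore.StmtP 3 2 p)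
    (h5 : p % 4 = 3 → UpperCore.StmtP 2 3 p)
    (hT : (p % 3 = 1 ∨ p % 4 = 1) → TraceHyp p)
    (f : CuspForm (Gamma0 p : Subgroup (GL (Fin 2) ℝ)) 2) (m : ℕ) (hm : 0 < m)
    (hf : ∀ k ≥ 1, ∃ z : ℤ, (qExpansion 1 f).coeff k =
      ((∑ d ∈ k.divisors with ¬ p ∣ d, d : ℕ) : ℂ) + m * z) :
    m ∣ eisensteinNumerator p := by
  have hp : p.Prime := Fact.out
  refine dvd_of p hp5 (stmtQ_excess p hp5 ?_ ?_ ?_ ?_ ?_) f m hm hf
  · intro ℓ hℓ hℓ5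
    have : Fact ℓ.Prime := ⟨hℓ⟩
    exact StmtQ.of_stmtP (h1 ℓ hℓ5)
  · intro h
    exact StmtQ.of_stmtP (h3 h)
  · intro h
    exact stmtQ_P4 hp h (hT (Or.inl h))
  · intro h
    exact StmtQ.of_stmtP (h5 h)
  · intro h
    exact stmtQ_P6 hp h (hT (Or.inr h))

end Fermat.Agent.S16.UpperCoreQ
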