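import Mathlib
import Fermat.Agent.S16.TraceId
import Fermat.Agent.S16.UpperCoreQ

/-!
# S16, upper bound: the trace of the square

For `F ∈ M₂(Γ₀(p))` with `q`-expansion `a` and `u = U_p a`, the trace of `F²` to level one is a
multiple of `E₄`; with the expansions of the conjugates `F ∣ S T^j` (statement (b-ii)) this reads
`p (a * a)_n + (u * u)_{pn} = (p + 1) a₀² e₄(n)`.  Applied to `F` and to its Fricke twin this
gives the trace identities `UpperCoreQ.TraceHyp p` consumed by the `e₂`-trick.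
-/

set_option autoImplicit false
set_option linter.unusedSectionVars false
set_option linter.style.haveILetI false

namespace Fermat.Agent.S16.TraceSq

open UpperHalfPlane CongruenceSubgroup ModularForm Complex
open scoped MatrixGroups ModularForm Manifold Real
open Fermat.Agent.S20 Fermat.Agent.S20.Dual Fermat.Agent.S16.NormQ
open Fermat.Agent.S16.NormClass Fermat.Agent.S16.NormTrick Fermat.Agent.S16.TraceId

attribute [local instance] fintypeQ

/-- The `q`-expansion of `E₄` is the series `E2Trick.E4 ℂ`. -/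
theorem qExpansion_E4 : qExpansion 1 E₄ = E2Trick.E4 ℂ := by
  rw [← Miller.map_intSeriesE4]
  ext n
  rw [E2Trick.coeff_E4]
  show (PowerSeries.map (Int.castRingHom ℂ) Miller.intSeriesE4).coeff n = _
  rw [PowerSeries.coeff_map, Miller.coeff_intSeriesE4]
  split_ifs with h
  · simp
  · simp

/-- The square of a conjugate expansion. -/
theorem coeff_twist_mul_self (p : ℕ) (ζ : ℂ) (a : PowerSeries ℂ) (M : ℕ) :
    (twist p ζ a * twist p ζ a).coeff M =
      (1 / (p : ℂ)) ^ 2 * (E2Trick.Uop p a * E2Trick.Uop p a).coeff M * ζ ^ M := by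
  rw [PowerSeries.coeff_mul, PowerSeries.coeff_mul, Finset.mul_sum, Finset.sum_mul]
  refine Finset.sum_congr rfl fun kl hkl => ?_
  rw [Finset.HasAntidiagonal.mem_antidiagonal] at hkl
  rw [coeff_twist, coeff_twist, E2Trick.coeff_Uop, E2Trick.coeff_Uop, ← hkl, pow_add]
  ring

/-- The sum over `j` of the squares of the conjugate expansions, at an index divisible by `p`. -/
theorem coeff_sum_twist_mul_self {p : ℕ} (hp : 0 < p) (a : PowerSeries ℂ) (n : ℕ) :
    (∑ j : Fin p, twist p (zeta p ((j : ℕ) : ℤ)) a * twist p (zeta p ((j : ℕ) : ℤ)) a).coeff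
      (p * n) = (1 / (p : ℂ)) * (E2Trick.Uop p a * E2Trick.Uop p a).coeff (p * n) := by
  rw [map_sum]
  simp only [coeff_twist_mul_self]
  rw [← Finset.mul_sum, sum_zeta_pow hp (p * n), if_pos (dvd_mul_right _ _)]
  have hp' : (p : ℂ) ≠ 0 := by exact_mod_cast hp.ne'
  field_simp

section

variable {p : ℕ} [hp : Fact p.Prime] [NeZero p] {F : ℍ → ℂ} {a : PowerSeries ℂ}

/-- The expansion of the trace of `F²`. -/
theorem hasQ_tr_sq (hF : IsMF p 2 F) (ha : HasQ 1 F a) (hc : ConjExp p F a) :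
    HasQ p (tr p 4 (F * F)) (spread p (a * a) +
      ∑ j : Fin p, twist p (zeta p ((j : ℕ) : ℤ)) a * twist p (zeta p ((j : ℕ) : ℤ)) a) := by
  have hp0 : 0 < p := hp.out.pos
  have h4 : IsMF p 4 (F * F) := (hF.mul' hF).congr_weight (by norm_num)
  have e : tr p 4 (F * F) = F * F + ∑ j : Fin p,
      (F ∣[(2 : ℤ)] (ModularGroup.S * ModularGroup.T ^ ((j : ℕ) : ℤ))) *
        (F ∣[(2 : ℤ)] (ModularGroup.S * ModularGroup.T ^ ((j : ℕ) : ℤ))) := by
    unfold tr
    rw [sum_cosets p, comp_one h4.2.1]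
    congr 1
    refine Finset.sum_congr rfl fun j _ => ?_
    rw [comp_mul' (k₁ := 2) (k₂ := 2) (by norm_num), comp_cosetST hF]
  rw [e]
  have h1 : HasQ p (F * F) (spread p (a * a)) := by
    have := (ha.mul ha).of_period one_pos hp0
    rwa [one_mul] at this
  refine h1.add (hasQ_sum _ _ _ fun j _ => ?_)
  exact (hasQ_conj hp0 hc _).mul (hasQ_conj hp0 hc _)

/-- **(C2)**: `p (a * a)_n + (u * u)_{pn} = (p + 1) a₀² e₄(n)` for `u = U_p a`. -/
theorem trace_sq (hF : IsMF p 2 F) (ha : HasQ 1 F a) (hc : ConjExp p F a) (n : ℕ) :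
    (p : ℂ) * (a * a).coeff n + (E2Trick.Uop p a * E2Trick.Uop p a).coeff (p * n) =
      ((p : ℂ) + 1) * a.coeff 0 ^ 2 * (E2Trick.E4 ℂ).coeff n := by
  have hp0 : 0 < p := hp.out.pos
  have hp' : (p : ℂ) ≠ 0 := by exact_mod_cast hp0.ne'
  have h4 : IsMF p 4 (F * F) := (hF.mul' hF).congr_weight (by norm_num)
  have hT : IsMF 1 4 (tr p 4 (F * F)) := isMF_tr h4
  obtain ⟨c, hc4⟩ : ∃ c : ℂ, c • E₄ = hT.toModularFormOne :=
    (finrank_eq_one_iff_of_nonzero' E₄ (EisensteinSeries.E_ne_zero _ ⟨2, rfl⟩)).mp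
      (Module.rank_eq_one_iff_finrank_eq_one.mp ModularForm.levelOne_weight_four_rank_one) _
  have hq : qExpansion 1 hT.toModularFormOne = c • E2Trick.E4 ℂ := by
    rw [← hc4, ← qExpansion_E4]
    exact ModularForm.qExpansion_smul one_pos one_mem_strictPeriods_SL c E₄
  have hP := HasQ.eq_spread_of_levelOne hT.toModularFormOne hp0 (hasQ_tr_sq hF ha hc)
  have key : ∀ m : ℕ, (a * a).coeff m +
      (1 / (p : ℂ)) * (E2Trick.Uop p a * E2Trick.Uop p a).coeff (p * m) =
      c * (E2Trick.E4 ℂ).coeff m := by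
    intro m
    have := congrArg (PowerSeries.coeff (p * m)) hP
    rw [map_add, coeff_spread_mul hp0, coeff_spread_mul hp0, coeff_sum_twist_mul_self hp0,
      hq] at this
    rw [this]
    simp
  have e0 : ∀ f : PowerSeries ℂ, (f * f).coeff 0 = f.coeff 0 ^ 2 := by
    intro f
    simp only [PowerSeries.coeff_zero_eq_constantCoeff_apply, map_mul, pow_two]
  have h0 := key 0
  rw [E2Trick.coeff_E4, if_pos rfl, mul_zero, e0, e0, E2Trick.coeff_Uop, mul_zero] at h0
  have hn := key n
  have hc' : c = a.coeff 0 ^ 2 * (1 + 1 / (p : ℂ)) := by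
    rw [← mul_one c, ← h0]
    ring
  rw [hc'] at hn
  have : (p : ℂ) * (a * a).coeff n + (E2Trick.Uop p a * E2Trick.Uop p a).coeff (p * n) =
      (p : ℂ) * ((a * a).coeff n +
        (1 / (p : ℂ)) * (E2Trick.Uop p a * E2Trick.Uop p a).coeff (p * n)) := by
    field_simp
  rw [this, hn]
  field_simp

end

/-- **The trace identities** `(C1)`, `(C2)`, `(C3)`, from the existence of Fricke twins. -/
theorem traceHyp (h : TwinHyp) (p : ℕ) [Fact p.Prime] : UpperCoreQ.TraceHyp p := by
  haveI : NeZero p := ⟨(Fact.out : p.Prime).ne_zero⟩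
  intro H h0
  have hC1 : ∀ n, (qExpansion 1 H).coeff (p * p * n) = (qExpansion 1 H).coeff n := by
    intro n
    rw [mul_assoc]
    exact coeff_mul_mul_form h p H n
  refine ⟨hC1, fun n => ?_, fun n => ?_⟩
  · have := trace_sq (isMF_coe H) (hasQ_modularForm H) (conjHyp_of_twinHyp h p H) n
    rw [this, h0]
    ring
  · obtain ⟨H', hb, hb'⟩ := exists_twin_form h p H
    have e1 : qExpansion 1 H' = -E2Trick.Uop p (qExpansion 1 H) := by
      ext m
      rw [hb m]
      simp
    have e2 : E2Trick.Uop p (qExpansion 1 H') = -qExpansion 1 H := by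
      ext m
      rw [E2Trick.coeff_Uop, hb' m]
      simp
    have := trace_sq (isMF_coe H') (hasQ_modularForm H') (conjHyp_of_twinHyp h p H') n
    rw [e2, e1] at this
    simp only [neg_mul_neg] at this
    rw [this]
    simp only [map_neg, E2Trick.coeff_Uop, mul_zero, h0]
    ring

end Fermat.Agent.S16.TraceSq
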