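import Mathlib
import Fermat.Prelude.Def_ModularCurve_ModularUnit
import Fermat.Agent.S16.UpperCoreQ
import Fermat.Agent.S16.NormTrick

/-!
# S16, upper bound relative to the conjugate expansions and the trace identities

The upper bound `m ∣ eisensteinNumerator p`, with the two outputs of the leaf `Conj` as
hypotheses: the expansions of the conjugates `F ∣ S T^j` (`NormTrick.ConjHyp`) and the trace
identities (`UpperCoreQ.TraceHyp`).
-/

set_option autoImplicit false

namespace Fermat.Agent.S16.UpperRel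

open UpperHalfPlane ModularForm CongruenceSubgroup ModularCurve
open scoped MatrixGroups

theorem dvd_of_conj_trace (hconj : NormTrick.ConjHyp) (p : ℕ) [Fact p.Prime] (hp5 : 5 ≤ p)
    (hT : (p % 3 = 1 ∨ p % 4 = 1) → UpperCoreQ.TraceHyp p)
    (f : CuspForm (Gamma0 p : Subgroup (GL (Fin 2) ℝ)) 2) (m : ℕ) (hm : 0 < m)
    (hf : ∀ k ≥ 1, ∃ z : ℤ, (qExpansion 1 f).coeff k =
      ((∑ d ∈ k.divisors with ¬ p ∣ d, d : ℕ) : ℂ) + m * z) :
    m ∣ eisensteinNumerator p :=
  UpperCoreQ.dvd_of_norm_trace p hp5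
    (fun ℓ _ hℓ5 => NormTrick.P1 hconj ℓ p hℓ5 hp5)
    (fun h => NormTrick.P3 hconj p hp5 h)
    (fun h => NormTrick.P5 hconj p hp5 h) hT f m hm hf

end Fermat.Agent.S16.UpperRel
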