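import Mathlib
import Fermat.Agent.S16.Dual
import Fermat.Agent.S16.Small
import Fermat.Agent.S16.UpperRel
import Fermat.Agent.S16.TraceSq
import Fermat.Agent.S16.Fricke

/-!
# S16: the upper bound, unconditionally

The Fricke twin (`Fricke.exists_twin`) gives `TraceId.TwinHyp`, hence the expansions of the
conjugates (`NormTrick.ConjHyp`) and the trace identities (`UpperCoreQ.TraceHyp`); with
`UpperRel.dvd_of_conj_trace` and the small levels (`Small.q_of_lt_five`) this is the hypothesis
`hU` of `Frame.card_eq_of_lower_upper`.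
-/

set_option autoImplicit false

namespace Fermat.Agent.S16.UpperTwin

open ModularCurve CuspForm
open UpperHalfPlane ModularForm CongruenceSubgroup
open scoped MatrixGroups

/-- Every form of weight `2` and prime level has a Fricke twin. -/
theorem twinHyp : TraceId.TwinHyp := by
  intro N _ _ F hF
  obtain ⟨F', h1, h2⟩ := Fricke.exists_twin N hF.toModularForm
  exact ⟨⇑F', Fermat.Agent.S20.isMF_coe F', ⟨h1, h2⟩⟩

/-- Statement (b-ii). -/
theorem conjHyp : NormTrick.ConjHyp := TraceId.conjHyp_of_twinHyp twinHyp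

/-- The trace identities. -/
theorem traceHyp (p : ℕ) [Fact p.Prime] : UpperCoreQ.TraceHyp p := TraceSq.traceHyp twinHyp p

/-- **The upper bound of S16**: a cusp form of weight `2` and level `p ≥ 5` congruent to the
Eisenstein series modulo `m` forces `m ∣ eisensteinNumerator p`. -/
theorem dvd (p : ℕ) [Fact p.Prime] (hp5 : 5 ≤ p)
    (f : CuspForm (Gamma0 p : Subgroup (GL (Fin 2) ℝ)) 2) (m : ℕ) (hm : 0 < m)
    (hf : ∀ k ≥ 1, ∃ z : ℤ, (qExpansion 1 f).coeff k =
      ((∑ d ∈ k.divisors with ¬ p ∣ d, d : ℕ) : ℂ) + m * z) :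
    m ∣ eisensteinNumerator p :=
  UpperRel.dvd_of_conj_trace conjHyp p hp5 (fun _ => traceHyp p) f m hm hf

/-- The hypothesis `hQ` of `Dual.upper_of_q`, for all primes. -/
theorem q_all (p : ℕ) [Fact p.Prime] : ∀ m : ℕ, 0 < m →
    ∀ f : CuspForm (Gamma0 p) 2,
      (∀ k : ℕ, 0 < k → ∃ z : ℤ, ModularFormClass.qCoeff ⇑f k =
        (Fermat.Agent.S16.Dual.sigmaStar p k : ℂ) + (m : ℂ) * z) →
        m ∣ eisensteinNumerator p := by
  by_cases hp5 : 5 ≤ p
  · intro m hm f hf
    exact dvd p hp5 f m hm hf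
  · exact Small.q_of_lt_five p (by omega)

/-- The hypothesis `hU` of `Frame.card_eq_of_lower_upper`. -/
theorem upper (p : ℕ) [Fact p.Prime] : ∃ t : HeckeAlg, heckeEvalForms p 2 t = 0 ∧
    MvPolynomial.aeval (eisensteinSystem p) t = (eisensteinNumerator p : ℤ) :=
  Dual.upper_of_q p (q_all p)

end Fermat.Agent.S16.UpperTwin
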