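import Mathlib
import Fermat.Agent.S16.ConjTrace

/-!
# S16, leaf (b), part 2: from period `p` to period `1`

`hasSum_sum_translate` : if `g = ∑ c_n q_p^n` then `∑_{x mod p} g(z + x) = ∑ p c_{pm} q^m`;
`IsMF.coeff_eq_neg_mul` : `a_m(f) = − p b_{pm}` for `f ∈ M₂(Γ₀(p))`, `b` the `q^{1/p}`-expansion
of `f ∣ S` (trace to level one is zero).
-/

set_option autoImplicit false

open UpperHalfPlane hiding I
open ModularForm Complex MatrixGroups Function ModularGroup
open scoped Real Manifold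

noncomputable section

namespace Fermat.Agent.S16.ConjTrace

open Fermat.Agent.S16.Gr

variable {p : ℕ} [Fact p.Prime] {k : ℤ}

/-! ### Sums over `ZMod p` and roots of unity -/

theorem sum_zmod_val (F : ℕ → ℂ) : ∑ x : ZMod p, F x.val = ∑ i ∈ Finset.range p, F i := by
  refine Finset.sum_nbij' (fun x => x.val) (fun i => (i : ZMod p)) ?_ ?_ ?_ ?_ ?_
  · intro x _; exact Finset.mem_range.mpr (ZMod.val_lt x)
  · intro i _; exact Finset.mem_univ _
  · intro x _; exact ZMod.natCast_zmod_val x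
  · intro i hi; exact ZMod.val_natCast_of_lt (Finset.mem_range.mp hi)
  · intro x _; rfl

/-- `∑_{i < p} ζ^{i n} = p [p ∣ n]` for `ζ = exp(2πi/p)`. -/
theorem sum_zeta_pow (n : ℕ) :
    ∑ i ∈ Finset.range p, (zeta p (i : ℤ)) ^ n = if p ∣ n then (p : ℂ) else 0 := by
  have hp : p ≠ 0 := (Fact.out : p.Prime).ne_zero
  have hprim := Complex.isPrimitiveRoot_exp p hp
  set ζ : ℂ := cexp (2 * π * I / p) with hζ
  have hz : ∀ i : ℕ, zeta p (i : ℤ) = ζ ^ i := by
    intro i
    rw [zeta, hζ, ← Complex.exp_nat_mul]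
    congr 1
    push_cast
    ring
  simp only [hz]
  have e : ∀ i : ℕ, (ζ ^ i) ^ n = (ζ ^ n) ^ i := fun i => by rw [← pow_mul, ← pow_mul, mul_comm]
  simp only [e]
  split_ifs with h
  · have : ζ ^ n = 1 := (hprim.pow_eq_one_iff_dvd n).mpr h
    simp [this]
  · have hne : ζ ^ n ≠ 1 := fun h1 => h ((hprim.pow_eq_one_iff_dvd n).mp h1)
    have h1 : (ζ ^ n) ^ p = 1 := by rw [← pow_mul, mul_comm, pow_mul, hprim.pow_eq_one, one_pow]
    have := geom_sum_mul (ζ ^ n) p
    rw [h1, sub_self] at this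
    exact (mul_eq_zero.mp this).resolve_right (sub_ne_zero.mpr hne)

/-! ### From period `p` to period `1` -/

omit [Fact p.Prime] in
theorem qParam_T_zpow_smul (i : ℤ) (z : ℍ) :
    Periodic.qParam (p : ℝ) ((T ^ i • z : ℍ) : ℂ) = zeta p i * Periodic.qParam (p : ℝ) z := by
  rw [UpperHalfPlane.modular_T_zpow_smul, UpperHalfPlane.coe_vadd]
  simp only [Periodic.qParam, zeta, ofReal_natCast]
  rw [← Complex.exp_add]
  congr 1
  push_cast
  ring

theorem qParam_one_eq_pow (z : ℍ) :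
    Periodic.qParam 1 (z : ℂ) = Periodic.qParam (p : ℝ) z ^ p := by
  have hp : (p : ℂ) ≠ 0 := Nat.cast_ne_zero.mpr (Fact.out : p.Prime).ne_zero
  simp only [Periodic.qParam, ofReal_one, div_one, ofReal_natCast]
  rw [← Complex.exp_nat_mul]
  congr 1
  field_simp

/-- (L): if `g = ∑ c_n q_p^n` then `∑_{x mod p} g(z + x) = ∑ p c_{pm} q^m`. -/
theorem hasSum_sum_translate {g : ℍ → ℂ} {c : ℕ → ℂ}
    (hg : ∀ τ : ℍ, HasSum (fun n => c n • Periodic.qParam (p : ℝ) τ ^ n) (g τ)) (τ : ℍ) :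
    HasSum (fun m => ((p : ℂ) * c (p * m)) • Periodic.qParam 1 τ ^ m)
      (∑ x : ZMod p, g (T ^ ((x.val : ℕ) : ℤ) • τ)) := by
  have hp : 0 < p := (Fact.out : p.Prime).pos
  have h1 : ∀ x : ZMod p, HasSum
      (fun n => c n * Periodic.qParam (p : ℝ) τ ^ n * (zeta p ((x.val : ℕ) : ℤ)) ^ n)
      (g (T ^ ((x.val : ℕ) : ℤ) • τ)) := by
    intro x
    have := hg (T ^ ((x.val : ℕ) : ℤ) • τ)
    have e : (fun n => c n • Periodic.qParam (p : ℝ) ((T ^ ((x.val : ℕ) : ℤ) • τ : ℍ) : ℂ) ^ n) =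
        fun n => c n * Periodic.qParam (p : ℝ) τ ^ n * (zeta p ((x.val : ℕ) : ℤ)) ^ n := by
      funext n
      rw [qParam_T_zpow_smul, mul_pow, smul_eq_mul]
      ring
    rwa [e] at this
  have h2 := hasSum_sum (fun x (_ : x ∈ (Finset.univ : Finset (ZMod p))) => h1 x)
  have e2 : (fun n => ∑ x : ZMod p,
        c n * Periodic.qParam (p : ℝ) τ ^ n * (zeta p ((x.val : ℕ) : ℤ)) ^ n) =
      fun n => (if p ∣ n then (p : ℂ) * c n else 0) * Periodic.qParam (p : ℝ) τ ^ n := by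
    funext n
    rw [← Finset.mul_sum, sum_zmod_val (fun i => (zeta p ((i : ℕ) : ℤ)) ^ n), sum_zeta_pow]
    split_ifs <;> ring
  rw [e2] at h2
  have hinj : Injective (fun m : ℕ => p * m) := fun a b hab => Nat.eq_of_mul_eq_mul_left hp hab
  have hzero : ∀ n ∉ Set.range (fun m : ℕ => p * m),
      (if p ∣ n then (p : ℂ) * c n else 0) * Periodic.qParam (p : ℝ) τ ^ n = 0 := by
    intro n hn
    have : ¬ p ∣ n := by
      rintro ⟨m, rfl⟩
      exact hn ⟨m, rfl⟩
    simp [this]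
  have h3 := (hinj.hasSum_iff hzero).mpr h2
  have e3 : ((fun n => (if p ∣ n then (p : ℂ) * c n else 0) * Periodic.qParam (p : ℝ) τ ^ n) ∘
      fun m : ℕ => p * m) = fun m => ((p : ℂ) * c (p * m)) • Periodic.qParam 1 τ ^ m := by
    funext m
    simp only [Function.comp_apply, dvd_mul_right, if_true, smul_eq_mul, qParam_one_eq_pow (p := p),
      pow_mul]
  rwa [e3] at h3


/-! ### Periodicity and expansions -/

omit [Fact p.Prime] in
theorem periodic_of_slash_T_pow (g : ℍ → ℂ) (k : ℤ) (n : ℕ) (hn : g ∣[k] (T ^ (n : ℤ)) = g) :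
    Function.Periodic (g ∘ ofComplex) (n : ℝ) := by
  intro w
  by_cases hw : 0 < w.im
  · have hw' : 0 < (w + (n : ℝ)).im := by simpa using hw
    simp only [comp_apply, ofComplex_apply_of_im_pos hw', ofComplex_apply_of_im_pos hw]
    have h1 := congrFun ((slash_T_zpow' g k n).symm.trans hn) ⟨w, hw⟩
    rw [← h1]
    congr 1
    apply UpperHalfPlane.ext
    rw [UpperHalfPlane.modular_T_zpow_smul, UpperHalfPlane.coe_vadd]
    push_cast
    ring
  · have hw0 : w.im ≤ 0 := not_lt.mp hw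
    have hw' : (w + (n : ℝ)).im ≤ 0 := by simpa using hw0
    simp only [comp_apply]
    rw [ofComplex_apply_of_im_nonpos hw', ofComplex_apply_of_im_nonpos hw0]

theorem IsMF.periodic_one {f : ℍ → ℂ} (hf : IsMF p k f) :
    Function.Periodic (f ∘ ofComplex) (1 : ℝ) := by
  have := periodic_of_slash_T_pow f k 1 (by simpa using hf.slash_T)
  simpa using this

theorem IsMF.conj_zero_slash_T_pow {f : ℍ → ℂ} (hf : IsMF p k f) :
    conj f k (0 : ZMod p) ∣[k] (T ^ (p : ℤ)) = conj f k (0 : ZMod p) := by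
  rw [← hf.slash_S, ← SlashAction.slash_mul, hf.slash_ST, hf.slash_S]
  simp

theorem IsMF.periodic_conj_zero {f : ℍ → ℂ} (hf : IsMF p k f) :
    Function.Periodic (conj f k (0 : ZMod p) ∘ ofComplex) (p : ℝ) :=
  periodic_of_slash_T_pow _ k p hf.conj_zero_slash_T_pow

theorem IsMF.hasSum_self {f : ℍ → ℂ} (hf : IsMF p k f) (τ : ℍ) :
    HasSum (fun n => PowerSeries.coeff n (qExpansion 1 f) • Periodic.qParam 1 τ ^ n) (f τ) :=
  UpperHalfPlane.hasSum_qExpansion one_pos (by simpa using hf.periodic_one) hf.holo hf.bdd_self τ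

theorem IsMF.hasSum_conj_zero {f : ℍ → ℂ} (hf : IsMF p k f) (τ : ℍ) :
    HasSum (fun n => PowerSeries.coeff n (qExpansion (p : ℝ) (conj f k (0 : ZMod p))) •
      Periodic.qParam (p : ℝ) τ ^ n) (conj f k (0 : ZMod p) τ) :=
  UpperHalfPlane.hasSum_qExpansion (Nat.cast_pos.mpr (Fact.out : p.Prime).pos)
    hf.periodic_conj_zero (hf.holo_conj 0) (hf.bdd_conj 0) τ

/-- (★): `a_m = − p b_{p m}`, from `tr = 0`. -/
theorem IsMF.coeff_eq_neg_mul {f : ℍ → ℂ} (hf : IsMF p 2 f) (m : ℕ) :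
    PowerSeries.coeff m (qExpansion 1 f) =
      -((p : ℂ) * PowerSeries.coeff (p * m) (qExpansion (p : ℝ) (conj f 2 (0 : ZMod p)))) := by
  have htr := hf.tr_eq_zero
  have key : ∀ τ : ℍ, HasSum (fun m => (-((p : ℂ) *
      PowerSeries.coeff (p * m) (qExpansion (p : ℝ) (conj f 2 (0 : ZMod p))))) •
        Periodic.qParam 1 τ ^ m) (f τ) := by
    intro τ
    have h1 := hasSum_sum_translate (p := p) (fun τ => hf.hasSum_conj_zero τ) τ
    have h2 : f τ = -∑ x : ZMod p, conj f 2 (0 : ZMod p) (T ^ ((x.val : ℕ) : ℤ) • τ) := by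
      have := congrFun htr τ
      simp only [tr, Pi.add_apply, Finset.sum_apply, Pi.zero_apply] at this
      rw [eq_neg_iff_add_eq_zero, ← this]
      congr 1
      apply Finset.sum_congr rfl
      intro x _
      rw [conj_eq_translate f 2 x]
    rw [h2]
    have h3 := h1.neg
    have e : (fun m => -(((p : ℂ) * PowerSeries.coeff (p * m)
        (qExpansion (p : ℝ) (conj f 2 (0 : ZMod p)))) • Periodic.qParam 1 (τ : ℂ) ^ m)) =
        fun m => (-((p : ℂ) * PowerSeries.coeff (p * m)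
          (qExpansion (p : ℝ) (conj f 2 (0 : ZMod p))))) • Periodic.qParam 1 τ ^ m := by
      funext m
      simp only [smul_eq_mul, neg_mul]
    rwa [e] at h3
  exact qExpansion_coeff_of_hasSum one_pos hf.holo key m

end Fermat.Agent.S16.ConjTrace
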