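import Mathlib
import Fermat.Agent.S16.ConjExp

/-!
# S16, leaf (b), part 3: the Fricke twin `z ↦ (f ∣ S)(p z)` of a form `f ∈ M₂(Γ₀(p))`
-/

set_option autoImplicit false

open UpperHalfPlane hiding I
open ModularForm Complex MatrixGroups Function ModularGroup
open scoped Real Manifold

noncomputable section

namespace Fermat.Agent.S16.FrickeTwin

open Fermat.Agent.S16.Gr Fermat.Agent.S16.ConjTrace

variable {p : ℕ} [Fact p.Prime]

/-- The Fricke twin `z ↦ (f ∣ S)(p z)`. -/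
def twin (p : ℕ) [Fact p.Prime] (f : ℍ → ℂ) : ℍ → ℂ :=
  fun z => conj f 2 (0 : ZMod p) (mulN p z)

theorem twin_apply (f : ℍ → ℂ) (z : ℍ) : twin p f z = conj f 2 (0 : ZMod p) (mulN p z) := rfl

theorem holo_twin {f : ℍ → ℂ} (hf : IsMF p 2 f) : MDiff (twin p f) :=
  mdiff_comp (conj f 2 (0 : ZMod p)) (hf.holo_conj 0) (mulN p) (fun w => (p : ℂ) * w)
    (by fun_prop) (fun _ => rfl)

/-- Pointwise form of a slash identity. -/
theorem apply_smul_of_slash {g h : ℍ → ℂ} {γ : SL(2, ℤ)} (e : g ∣[(2 : ℤ)] γ = h) (w : ℍ) :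
    g (γ • w) = h w * ((γ 1 0 : ℂ) * w + γ 1 1) ^ 2 := by
  have h1 := congrFun e w
  rw [SL_slash_apply, ModularGroup.denom_apply] at h1
  have hd := SL_denom_ne_zero γ w
  rw [← h1, zpow_neg, zpow_ofNat]
  field_simp

omit [Fact p.Prime] in
theorem S_mul_companion_entries (γ : SL(2, ℤ)) (c' : ℤ) (hc : γ 1 0 = p * c') :
    (S * companion p γ c' hc) 1 0 = γ 0 0 ∧ (S * companion p γ c' hc) 1 1 = p * γ 0 1 := by
  have e00 : (companion p γ c' hc) 0 0 = γ 0 0 := rfl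
  have e01 : (companion p γ c' hc) 0 1 = p * γ 0 1 := rfl
  simp only [Matrix.SpecialLinearGroup.coe_mul, ModularGroup.coe_S, Matrix.mul_apply,
    Fin.sum_univ_two]
  simp [e00, e01]

theorem conj_zero_slash_companion {f : ℍ → ℂ} (hf : IsMF p 2 f) (γ : SL(2, ℤ)) (c' : ℤ)
    (hc : γ 1 0 = p * c') :
    conj f 2 (0 : ZMod p) ∣[(2 : ℤ)] (companion p γ c' hc) = conj f 2 (0 : ZMod p) := by
  rw [← hf.slash_S, ← SlashAction.slash_mul]
  have hdet := γ.det_coe
  rw [Matrix.det_fin_two, hc] at hdet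
  have ha : ((γ 0 0 : ℤ) : ZMod p) ≠ 0 := by
    intro h0
    have := congrArg (Int.cast : ℤ → ZMod p) hdet
    push_cast at this
    rw [h0] at this
    simp at this
  have h1 : (((S * companion p γ c' hc) 1 0 : ℤ) : ZMod p) ≠ 0 := by
    rw [(S_mul_companion_entries γ c' hc).1]; exact ha
  rw [hf.slash_eq_conj _ h1, hf.slash_S, cls, (S_mul_companion_entries γ c' hc).1,
    (S_mul_companion_entries γ c' hc).2]
  congr 1
  push_cast
  simp

theorem twin_slash_of_mem {f : ℍ → ℂ} (hf : IsMF p 2 f) (γ : SL(2, ℤ))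
    (hγ : γ ∈ CongruenceSubgroup.Gamma0 p) : twin p f ∣[(2 : ℤ)] γ = twin p f := by
  rw [CongruenceSubgroup.Gamma0_mem] at hγ
  obtain ⟨c', hc⟩ := (ZMod.intCast_zmod_eq_zero_iff_dvd _ _).mp hγ
  funext z
  rw [SL_slash_apply, ModularGroup.denom_apply, twin_apply, mulN_smul p γ c' hc z,
    apply_smul_of_slash (conj_zero_slash_companion hf γ c' hc), twin_apply]
  have e10 : (companion p γ c' hc) 1 0 = c' := rfl
  have e11 : (companion p γ c' hc) 1 1 = γ 1 1 := rfl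
  have hd := SL_denom_ne_zero γ z
  have hcc : (γ 1 0 : ℂ) = p * c' := by exact_mod_cast congrArg (Int.cast : ℤ → ℂ) hc
  have key : ((c' : ℂ) * ((p : ℂ) * z) + γ 1 1) = (γ 1 0 : ℂ) * z + γ 1 1 := by
    rw [hcc]; ring
  rw [e10, e11, coe_mulN, zpow_neg, zpow_ofNat, key]
  field_simp

/-- `(twin ∣ S)(z) = p⁻² f(z / p)`. -/
theorem twin_slash_S {f : ℍ → ℂ} (hf : IsMF p 2 f) :
    twin p f ∣[(2 : ℤ)] S = fun z => (1 / (p : ℂ)) ^ 2 * f (divN p 0 z) := by
  have hp : (p : ℂ) ≠ 0 := Nat.cast_ne_zero.mpr (Fact.out : p.Prime).ne_zero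
  funext z
  rw [SL_slash_apply, ModularGroup.denom_apply, twin_apply, mulN_S_smul,
    apply_smul_of_slash hf.conj_zero_slash_S, S_entries.1, S_entries.2]
  have hz : (z : ℂ) ≠ 0 := UpperHalfPlane.ne_zero z
  simp only [Int.cast_one, Int.cast_zero, one_mul, add_zero, coe_divN]
  rw [zpow_neg, zpow_ofNat]
  field_simp

theorem twin_slash_S_T {f : ℍ → ℂ} (hf : IsMF p 2 f) (j : ℤ) :
    twin p f ∣[(2 : ℤ)] (S * T ^ j) = fun z => (1 / (p : ℂ)) ^ 2 * f (divN p j z) := by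
  rw [SlashAction.slash_mul, twin_slash_S hf, slash_T_zpow']
  funext z
  simp only [divN_T_zpow_smul]

theorem hasSum_twin {f : ℍ → ℂ} (hf : IsMF p 2 f) (τ : ℍ) :
    HasSum (fun n => PowerSeries.coeff n (qExpansion (p : ℝ) (conj f 2 (0 : ZMod p))) •
      Periodic.qParam 1 τ ^ n) (twin p f τ) := by
  have hp : (p : ℂ) ≠ 0 := Nat.cast_ne_zero.mpr (Fact.out : p.Prime).ne_zero
  have := hf.hasSum_conj_zero (mulN p τ)
  have e : Periodic.qParam (p : ℝ) ((mulN p τ : ℍ) : ℂ) = Periodic.qParam 1 τ := by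
    simp only [Periodic.qParam, coe_mulN, ofReal_one, div_one, ofReal_natCast]
    congr 1
    field_simp
  rwa [e] at this

theorem hasSum_twin_slash_S_T {f : ℍ → ℂ} (hf : IsMF p 2 f) (j : ℤ) (τ : ℍ) :
    HasSum (fun n => ((1 / (p : ℂ)) ^ 2 * PowerSeries.coeff n (qExpansion 1 f) * zeta p j ^ n) •
      Periodic.qParam (p : ℝ) τ ^ n) ((1 / (p : ℂ)) ^ 2 * f (divN p j τ)) := by
  have h := (hf.hasSum_self (divN p j τ)).mul_left ((1 / (p : ℂ)) ^ 2)
  rw [qParam_divN] at h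
  have e : (fun n => ((1 / (p : ℂ)) ^ 2 * PowerSeries.coeff n (qExpansion 1 f) * zeta p j ^ n) •
      Periodic.qParam (p : ℝ) τ ^ n) = fun n => (1 / (p : ℂ)) ^ 2 *
        PowerSeries.coeff n (qExpansion 1 f) • (zeta p j * Periodic.qParam (p : ℝ) τ) ^ n := by
    funext n
    simp only [smul_eq_mul, mul_pow]
    ring
  rw [e]
  exact h

theorem bdd_twin {f : ℍ → ℂ} (hf : IsMF p 2 f) (g : SL(2, ℤ)) :
    IsBoundedAtImInfty (twin p f ∣[(2 : ℤ)] g) := by
  rcases ConjTrace.coset_cases (p := p) g with hg | ⟨γ, hγ, j, -, rfl⟩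
  · rw [twin_slash_of_mem hf g hg]
    exact isBoundedAtImInfty_of_hasSum_qExpansion one_pos fun τ => hasSum_twin hf τ
  · rw [mul_assoc, SlashAction.slash_mul, twin_slash_of_mem hf γ hγ, twin_slash_S_T hf]
    exact isBoundedAtImInfty_of_hasSum_qExpansion (h := (p : ℝ))
      (Nat.cast_pos.mpr (Fact.out : p.Prime).pos) fun τ => hasSum_twin_slash_S_T hf j τ

/-- The Fricke twin is again a modular form of weight `2` on `Γ₀(p)`. -/
theorem isMF_twin {f : ℍ → ℂ} (hf : IsMF p 2 f) : IsMF p 2 (twin p f) where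
  holo := holo_twin hf
  inv := twin_slash_of_mem hf
  bdd := bdd_twin hf

theorem conj_twin_zero {f : ℍ → ℂ} (hf : IsMF p 2 f) (z : ℍ) :
    conj (twin p f) 2 (0 : ZMod p) z = (1 / (p : ℂ)) ^ 2 * f (divN p 0 z) := by
  rw [← (isMF_twin hf).slash_S, twin_slash_S hf]

end Fermat.Agent.S16.FrickeTwin
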