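import Mathlib
import Fermat.Agent.S16.ConjExp
import Fermat.Agent.S16.FrickeTwin

/-!
# S16, leaf (b): the conjugates `F ∣ S T^j` of a form `F ∈ M₂(Γ₀(p))`

* `Conj.hasSum_slash_ST` : `(F ∣ S T^j)(τ) = −(1/p) ∑ a_{pn} exp(2πi n (τ + j)/p)`;
* `Conj.coeff_p_sq` : `a_{p² n} = a_n` (`U_p² = 1`);
* `Conj.coset_cases` : coset representatives.
-/

set_option autoImplicit false

open UpperHalfPlane hiding I
open ModularForm Complex MatrixGroups Function ModularGroup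
open scoped Real Manifold

noncomputable section

namespace Fermat.Agent.S16.ConjTrace

open Fermat.Agent.S16.Gr Fermat.Agent.S16.FrickeTwin

variable {p : ℕ} [Fact p.Prime]

theorem qParam_p_mulN (z : ℍ) :
    Periodic.qParam (p : ℝ) ((mulN p z : ℍ) : ℂ) = Periodic.qParam 1 z := by
  have hp : (p : ℂ) ≠ 0 := Nat.cast_ne_zero.mpr (Fact.out : p.Prime).ne_zero
  simp only [Periodic.qParam, coe_mulN, ofReal_one, div_one, ofReal_natCast]
  congr 1
  field_simp

theorem qParam_one_divN_zero (z : ℍ) :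
    Periodic.qParam 1 ((divN p 0 z : ℍ) : ℂ) = Periodic.qParam (p : ℝ) z := by
  rw [qParam_divN]
  simp [zeta]

/-- The `q`-expansion of the Fricke twin is the `q^{1/p}`-expansion of `f ∣ S`. -/
theorem IsMF.coeff_twin {f : ℍ → ℂ} (hf : IsMF p 2 f) (n : ℕ) :
    PowerSeries.coeff n (qExpansion 1 (twin p f)) =
      PowerSeries.coeff n (qExpansion (p : ℝ) (conj f 2 (0 : ZMod p))) := by
  refine qExpansion_coeff_of_hasSum
    (c := fun n => PowerSeries.coeff n (qExpansion (p : ℝ) (conj f 2 (0 : ZMod p))))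
    one_pos (isMF_twin hf).holo (fun τ => ?_) n
  have := hf.hasSum_conj_zero (mulN p τ)
  rwa [qParam_p_mulN] at this

/-- The `q^{1/p}`-expansion of `twin ∣ S` is `p⁻²` times the `q`-expansion of `f`. -/
theorem IsMF.coeff_conj_twin {f : ℍ → ℂ} (hf : IsMF p 2 f) (n : ℕ) :
    PowerSeries.coeff n (qExpansion (p : ℝ) (conj (twin p f) 2 (0 : ZMod p))) =
      (1 / (p : ℂ)) ^ 2 * PowerSeries.coeff n (qExpansion 1 f) := by
  refine qExpansion_coeff_of_hasSum
    (c := fun n => (1 / (p : ℂ)) ^ 2 * PowerSeries.coeff n (qExpansion 1 f))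
    (Nat.cast_pos.mpr (Fact.out : p.Prime).pos)
    ((isMF_twin hf).holo_conj 0) (fun τ => ?_) n
  rw [conj_twin_zero hf]
  have h := (hf.hasSum_self (divN p 0 τ)).mul_left ((1 / (p : ℂ)) ^ 2)
  rw [qParam_one_divN_zero] at h
  have e : (fun n => ((1 / (p : ℂ)) ^ 2 * PowerSeries.coeff n (qExpansion 1 f)) •
      Periodic.qParam (p : ℝ) τ ^ n) = fun n => (1 / (p : ℂ)) ^ 2 *
        PowerSeries.coeff n (qExpansion 1 f) • Periodic.qParam (p : ℝ) τ ^ n := by
    funext n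
    simp only [smul_eq_mul, mul_assoc]
  rw [e]
  exact h

/-- `b_n = −(1/p) a_{pn}`: the `q^{1/p}`-expansion of `f ∣ S`. -/
theorem IsMF.coeff_conj_zero {f : ℍ → ℂ} (hf : IsMF p 2 f) (n : ℕ) :
    PowerSeries.coeff n (qExpansion (p : ℝ) (conj f 2 (0 : ZMod p))) =
      -(1 / (p : ℂ)) * PowerSeries.coeff (p * n) (qExpansion 1 f) := by
  have hp : (p : ℂ) ≠ 0 := Nat.cast_ne_zero.mpr (Fact.out : p.Prime).ne_zero
  rw [← hf.coeff_twin, (isMF_twin hf).coeff_eq_neg_mul, hf.coeff_conj_twin]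
  field_simp

/-- `a_{p² n} = a_n`. -/
theorem IsMF.coeff_p_sq {f : ℍ → ℂ} (hf : IsMF p 2 f) (n : ℕ) :
    PowerSeries.coeff (p * p * n) (qExpansion 1 f) = PowerSeries.coeff n (qExpansion 1 f) := by
  have hp : (p : ℂ) ≠ 0 := Nat.cast_ne_zero.mpr (Fact.out : p.Prime).ne_zero
  conv_rhs => rw [hf.coeff_eq_neg_mul, hf.coeff_conj_zero]
  rw [mul_assoc]
  field_simp

/-- The expansion of `f ∣ S T^j`. -/
theorem IsMF.hasSum_slash_ST {f : ℍ → ℂ} (hf : IsMF p 2 f) (j : ℤ) (τ : ℍ) :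
    HasSum (fun n : ℕ => -(1 / (p : ℂ)) * PowerSeries.coeff (p * n) (qExpansion 1 f) *
        cexp (2 * π * I * n * ((τ : ℂ) + j) / p))
      ((f ∣[(2 : ℤ)] (S * T ^ j)) τ) := by
  have h1 : (f ∣[(2 : ℤ)] (S * T ^ j)) τ = conj f 2 (0 : ZMod p) (T ^ j • τ) := by
    rw [SlashAction.slash_mul, hf.slash_S, slash_T_zpow']
  rw [h1]
  have h2 := hf.hasSum_conj_zero (T ^ j • τ)
  have e : (fun n => PowerSeries.coeff n (qExpansion (p : ℝ) (conj f 2 (0 : ZMod p))) •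
      Periodic.qParam (p : ℝ) ((T ^ j • τ : ℍ) : ℂ) ^ n) =
      fun n : ℕ => -(1 / (p : ℂ)) * PowerSeries.coeff (p * n) (qExpansion 1 f) *
        cexp (2 * π * I * n * ((τ : ℂ) + j) / p) := by
    funext n
    rw [hf.coeff_conj_zero, smul_eq_mul, UpperHalfPlane.modular_T_zpow_smul,
      UpperHalfPlane.coe_vadd]
    simp only [Periodic.qParam, ofReal_natCast, ofReal_intCast]
    rw [← Complex.exp_nat_mul]
    congr 2
    ring
  rwa [e] at h2

end Fermat.Agent.S16.ConjTrace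

namespace Fermat.Agent.S16.Conj

open Fermat.Agent.S16.ConjTrace

variable {p : ℕ} [Fact p.Prime]

/-- (b-i) Coset representatives of `Γ₀(p) \ SL(2, ℤ)`. -/
theorem coset_cases (g : SL(2, ℤ)) :
    g ∈ CongruenceSubgroup.Gamma0 p ∨
      ∃ γ ∈ CongruenceSubgroup.Gamma0 p, ∃ j : ℕ, j < p ∧ g = γ * S * T ^ (j : ℤ) :=
  ConjTrace.coset_cases g

/-- (b-ii) The expansion of the conjugates `F ∣ S T^j`. -/
theorem hasSum_slash_ST (F : ModularForm (CongruenceSubgroup.Gamma0 p) 2) (j : ℤ) (τ : ℍ) :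
    HasSum (fun n : ℕ => -(1 / (p : ℂ)) * (qExpansion 1 F).coeff (p * n) *
        cexp (2 * π * I * n * ((τ : ℂ) + j) / p))
      ((⇑F ∣[(2 : ℤ)] (S * T ^ j)) τ) :=
  (isMF_of_modularForm F).hasSum_slash_ST j τ

/-- (C1) `a_{p² n} = a_n`. -/
theorem coeff_p_sq (F : ModularForm (CongruenceSubgroup.Gamma0 p) 2) (n : ℕ) :
    (qExpansion 1 F).coeff (p * p * n) = (qExpansion 1 F).coeff n :=
  (isMF_of_modularForm F).coeff_p_sq n

/-- The Fricke twin has `q`-expansion coefficients `−(1/p) a_{pn}`. -/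
theorem exists_twin (F : ModularForm (CongruenceSubgroup.Gamma0 p) 2) :
    ∃ f' : ℍ → ℂ, IsMF p 2 f' ∧
      ∀ n, PowerSeries.coeff n (qExpansion 1 f') = -(1 / (p : ℂ)) * (qExpansion 1 F).coeff (p * n) :=
  ⟨FrickeTwin.twin p F, FrickeTwin.isMF_twin (isMF_of_modularForm F), fun n => by
    rw [(isMF_of_modularForm F).coeff_twin, (isMF_of_modularForm F).coeff_conj_zero]⟩

end Fermat.Agent.S16.Conj
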