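import Mathlib
import Fermat.Prelude.Def_ModularCurve_PeriodHomPair
import Fermat.Agent.S20
import Fermat.Agent.S21
import Fermat.Agent.S22.GroupFG
import Fermat.Agent.S23.HomLattice
import Fermat.Agent.S16.HomCount

/-!
# S16, lower bound: the lifting lemma

For a prime `p` and `n ≥ 1`, every homomorphism `φ : Γ₀(p) → ℤ/n` killing the elements of trace
`t` with `t ^ 2 ≤ 4` is the reduction modulo `n` of an integer-valued parabolic homomorphism
(`exists_lift`).

Proof by counting: the integer-valued parabolic homomorphisms form a free `ℤ`-module `V` of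
finite rank `r` (`exists_basis`), and `r ≥ 2 g` because `V` spans the complex parabolic
homomorphisms, a space of dimension `2 dim S₂(Γ₀(p)) = 2 g` (`twoGenus_le_rank`, from the landed
S20, S21 and `S23.HomLattice`).  Reduction modulo `n` is injective on `V / n V`, which has
`n ^ r` elements, and `HomCount.card_kills_le` bounds the target by `n ^ (2 g)`.
-/

set_option autoImplicit false
set_option linter.unusedSectionVars false
set_option linter.unusedVariables false

namespace Fermat.Agent.S16.Lift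

open CongruenceSubgroup ModularCurve ModularCurve.Period
open scoped MatrixGroups

/-! ### Elements of small trace have finite order -/

theorem sq_eq (g : SL(2, ℤ)) :
    (g : Matrix (Fin 2) (Fin 2) ℤ) * (g : Matrix (Fin 2) (Fin 2) ℤ)
      = (g : Matrix (Fin 2) (Fin 2) ℤ).trace • (g : Matrix (Fin 2) (Fin 2) ℤ) - 1 := by
  have hdet : (g : Matrix (Fin 2) (Fin 2) ℤ) 0 0 * (g : Matrix (Fin 2) (Fin 2) ℤ) 1 1
      - (g : Matrix (Fin 2) (Fin 2) ℤ) 0 1 * (g : Matrix (Fin 2) (Fin 2) ℤ) 1 0 = 1 := by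
    have := g.2
    rw [Matrix.det_fin_two] at this
    exact this
  ext i j
  rw [Matrix.mul_apply, Fin.sum_univ_two, Matrix.sub_apply, Matrix.smul_apply, smul_eq_mul,
    Matrix.trace_fin_two, Matrix.one_apply]
  fin_cases i <;> fin_cases j
  · simp only [Fin.zero_eta, if_true]
    linear_combination (-1 : ℤ) * hdet
  · simp only [Fin.zero_eta, Fin.mk_one, Fin.isValue, zero_ne_one, if_false]
    ring
  · simp only [Fin.zero_eta, Fin.mk_one, Fin.isValue, one_ne_zero, if_false]
    ring
  · simp only [Fin.mk_one, if_true]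
    linear_combination (-1 : ℤ) * hdet

theorem pow_twelve_eq_one (g : SL(2, ℤ))
    (h : (g : Matrix (Fin 2) (Fin 2) ℤ).trace ^ 2 < 4) : g ^ 12 = 1 := by
  have ht : (g : Matrix (Fin 2) (Fin 2) ℤ).trace = 0 ∨ (g : Matrix (Fin 2) (Fin 2) ℤ).trace = 1
      ∨ (g : Matrix (Fin 2) (Fin 2) ℤ).trace = -1 := by
    have h1 : -2 < (g : Matrix (Fin 2) (Fin 2) ℤ).trace := by nlinarith
    have h2 : (g : Matrix (Fin 2) (Fin 2) ℤ).trace < 2 := by nlinarith
    omega
  have hsq := sq_eq g
  apply Subtype.ext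
  rw [Matrix.SpecialLinearGroup.coe_pow, Matrix.SpecialLinearGroup.coe_one]
  set M : Matrix (Fin 2) (Fin 2) ℤ := (g : Matrix (Fin 2) (Fin 2) ℤ) with hM
  rcases ht with h0 | h1 | h1
  · rw [h0, zero_smul, zero_sub] at hsq
    have : M ^ 12 = (M * M) ^ 6 := by rw [← pow_two, ← pow_mul]
    rw [this, hsq]
    exact Even.neg_one_pow (by decide)
  · rw [h1, one_smul] at hsq
    have h3 : M * M * M = -1 := by
      rw [hsq, sub_mul, one_mul, hsq]; abel
    have : M ^ 12 = (M * M * M) ^ 4 := by rw [← pow_two, ← pow_succ, ← pow_mul]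
    rw [this, h3]
    exact Even.neg_one_pow (by decide)
  · rw [h1, neg_one_smul] at hsq
    have h3 : M * M * M = 1 := by
      rw [hsq, sub_mul, one_mul, neg_mul, hsq]; abel
    have : M ^ 12 = (M * M * M) ^ 4 := by rw [← pow_two, ← pow_succ, ← pow_mul]
    rw [this, h3, one_pow]

variable {p : ℕ}

/-- An integer-valued parabolic homomorphism kills all elements of trace `t`, `t ^ 2 ≤ 4`. -/
theorem kills_of_parabolic {Λ : Additive (Gamma0 p) →+ ℤ} (hΛ : IsParabolicHom (Gamma0 p) Λ)
    (γ : Gamma0 p) (hγ : ((γ : SL(2, ℤ)) : Matrix (Fin 2) (Fin 2) ℤ).trace ^ 2 ≤ 4) :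
    Λ (Additive.ofMul γ) = 0 := by
  rcases hγ.lt_or_eq with h | h
  · have h12 : γ ^ 12 = 1 := Subtype.ext (by
      rw [Subgroup.coe_pow, Subgroup.coe_one]; exact pow_twelve_eq_one _ h)
    have h1 : (12 : ℕ) • Λ (Additive.ofMul γ) = 0 := by
      rw [← map_nsmul, ← ofMul_pow, h12, ofMul_one, map_zero]
    rw [nsmul_eq_mul] at h1
    rcases mul_eq_zero.mp h1 with h2 | h2
    · norm_num at h2
    · exact h2
  · exact hΛ γ h

section Main

variable (p : ℕ) [Fact p.Prime]

/-- The integer-valued parabolic homomorphisms form a free `ℤ`-module of finite rank. -/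
theorem exists_basis :
    ∃ r : ℕ, Nonempty (Module.Basis (Fin r) ℤ (parabolicHoms ℤ (Gamma0 p) ℤ)) := by
  have : NeZero p := ⟨(Fact.out : p.Prime).ne_zero⟩
  have hfg : Group.FG (Gamma0 p) := Fermat.Agent.S22.gamma0_fg p
  have hfg' : AddGroup.FG (Additive (Gamma0 p)) := AddGroup.fg_iff_mul_fg.mpr hfg
  obtain ⟨S, hS, hSfin⟩ := AddGroup.fg_iff.mp hfg'
  have : Finite S := hSfin
  let ev : (parabolicHoms ℤ (Gamma0 p) ℤ) →ₗ[ℤ] (S → ℤ) :=
    { toFun := fun φ s => φ.1 s.1
      map_add' := fun _ _ => rfl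
      map_smul' := fun _ _ => rfl }
  have hev : Function.Injective ev := by
    intro φ ψ h
    apply Subtype.ext
    apply AddMonoidHom.eq_of_eqOn_dense hS
    intro s hs
    exact congrFun h ⟨s, hs⟩
  have : Module.Finite ℤ (parabolicHoms ℤ (Gamma0 p) ℤ) := Module.Finite.of_injective ev hev
  have : Module.IsTorsionFree ℤ (parabolicHoms ℤ (Gamma0 p) ℤ) :=
    hev.moduleIsTorsionFree ev (fun _ _ => rfl)
  obtain ⟨r, b⟩ := Module.basisOfFiniteTypeTorsionFree' (R := ℤ)
    (M := parabolicHoms ℤ (Gamma0 p) ℤ)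
  exact ⟨r, ⟨b⟩⟩

variable {p}

/-- Cast an integer-valued homomorphism to `ℂ`. -/
def toC (Λ : Additive (Gamma0 p) →+ ℤ) : Additive (Gamma0 p) →+ ℂ :=
  (Int.castAddHom ℂ).comp Λ

theorem toC_apply (Λ : Additive (Gamma0 p) →+ ℤ) (x : Additive (Gamma0 p)) :
    toC Λ x = ((Λ x : ℤ) : ℂ) := rfl

theorem toC_sum {ι : Type*} (s : Finset ι) (c : ι → ℤ) (Λ : ι → (Additive (Gamma0 p) →+ ℤ)) :
    toC (∑ i ∈ s, c i • Λ i) = ∑ i ∈ s, (c i : ℂ) • toC (Λ i) := by
  refine AddMonoidHom.ext fun x => ?_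
  rw [toC_apply, AddMonoidHom.finsetSum_apply, AddMonoidHom.finsetSum_apply]
  push_cast
  refine Finset.sum_congr rfl fun i _ => ?_
  simp [toC_apply]

variable (p)

theorem twoGenus_le_rank (r : ℕ) (b : Module.Basis (Fin r) ℤ (parabolicHoms ℤ (Gamma0 p) ℤ)) :
    HomCount.twoGenus p ≤ r := by
  have : NeZero p := ⟨(Fact.out : p.Prime).ne_zero⟩
  have hspan : parabolicHoms ℂ (Gamma0 p) ℂ
      ≤ Submodule.span ℂ (Set.range fun i => toC (b i).1) := by
    refine (Fermat.Agent.S23.HomLattice.parabolicHoms_le_span p).trans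
      (Submodule.span_le.mpr ?_)
    rintro ψ ⟨hint, hpar⟩
    choose m hm using hint
    have hinj : Function.Injective (Int.cast : ℤ → ℂ) := Int.cast_injective
    let Λ : Additive (Gamma0 p) →+ ℤ :=
      { toFun := m
        map_zero' := by
          apply hinj
          rw [← hm, map_zero, Int.cast_zero]
        map_add' := fun x y => by
          apply hinj
          rw [← hm, map_add, hm, hm, Int.cast_add] }
    have hΛ : Λ ∈ parabolicHoms ℤ (Gamma0 p) ℤ := by
      intro γ hγ
      apply hinj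
      show ((m (Additive.ofMul γ) : ℤ) : ℂ) = ((0 : ℤ) : ℂ)
      rw [← hm, Int.cast_zero]
      exact hpar γ hγ
    have hψ : ψ = toC Λ := AddMonoidHom.ext fun x => hm x
    have hrep := b.sum_repr ⟨Λ, hΛ⟩
    have hrep' : Λ = ∑ i, (b.repr ⟨Λ, hΛ⟩ i) • (b i).1 := by
      have := congrArg Subtype.val hrep
      simp only [Submodule.coe_sum, Submodule.coe_smul] at this
      exact this.symm
    show ψ ∈ (Submodule.span ℂ (Set.range fun i => toC (b i).1) : Set _)
    rw [hψ, hrep', toC_sum]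
    exact Submodule.sum_mem _ fun i _ =>
      Submodule.smul_mem _ _ (Submodule.subset_span ⟨i, rfl⟩)
  have hfin := Fermat.Agent.S21.ParDim.finiteDimensional_parabolicHoms p
  have hfinS : FiniteDimensional ℂ (CuspForm (Gamma0 p : Subgroup (GL (Fin 2) ℝ)) 2) :=
    LinearEquiv.finiteDimensional (Fermat.Agent.S20.cuspFormEquiv p 2).symm
  have hfinSpan : FiniteDimensional ℂ (Submodule.span ℂ (Set.range fun i => toC (b i).1)) :=
    FiniteDimensional.span_of_finite ℂ (Set.finite_range _)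
  have h1 : Module.finrank ℂ (parabolicHoms ℂ (Gamma0 p) ℂ) ≤ r := by
    calc Module.finrank ℂ (parabolicHoms ℂ (Gamma0 p) ℂ)
        ≤ Module.finrank ℂ (Submodule.span ℂ (Set.range fun i => toC (b i).1)) :=
          Submodule.finrank_mono hspan
      _ ≤ Fintype.card (Fin r) := finrank_range_le_card _
      _ = r := Fintype.card_fin r
  have h2 : Module.finrank ℂ (parabolicHoms ℂ (Gamma0 p) ℂ)
      = 2 * Module.finrank ℂ (CuspForm (Gamma0 p : Subgroup (GL (Fin 2) ℝ)) 2) := by
    rw [← (Fermat.Agent.S21.result p).2,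
      LinearMap.finrank_range_of_inj (Fermat.Agent.S21.result p).1, Module.finrank_prod]
    ring
  have h3 := Fermat.Agent.S20.result p
  have h4 := HomCount.twoGenus_cast p
  have h5 : (HomCount.twoGenus p : ℚ)
      = ((2 * Module.finrank ℂ (CuspForm (Gamma0 p : Subgroup (GL (Fin 2) ℝ)) 2) : ℕ) : ℚ) := by
    push_cast
    rw [h4, h3]
  have h6 : HomCount.twoGenus p
      = 2 * Module.finrank ℂ (CuspForm (Gamma0 p : Subgroup (GL (Fin 2) ℝ)) 2) := by
    exact_mod_cast h5
  omega

/-- **The lifting lemma.** Every homomorphism `Γ₀(p) → ℤ/n` killing the parabolic and elliptic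
elements is the reduction modulo `n` of an integer-valued parabolic homomorphism. -/
theorem exists_lift (n : ℕ) [NeZero n] (φ : Additive (Gamma0 p) →+ ZMod n)
    (hφ : ∀ γ : Gamma0 p, ((γ : SL(2, ℤ)) : Matrix (Fin 2) (Fin 2) ℤ).trace ^ 2 ≤ 4 →
      φ (Additive.ofMul γ) = 0) :
    ∃ Λ : Additive (Gamma0 p) →+ ℤ, IsParabolicHom (Gamma0 p) Λ ∧
      ∀ x, ((Λ x : ℤ) : ZMod n) = φ x := by
  obtain ⟨r, ⟨b⟩⟩ := exists_basis p
  have hr := twoGenus_le_rank p r b
  let comb : (Fin r → ZMod n) → parabolicHoms ℤ (Gamma0 p) ℤ :=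
    fun c => ∑ i, ((c i).val : ℤ) • b i
  let f : (Fin r → ZMod n) → {φ : Additive (Gamma0 p) →+ ZMod n // HomCount.Kills p φ} :=
    fun c => ⟨(Int.castAddHom (ZMod n)).comp (comb c).1, fun γ hγ => by
      show (((comb c).1 (Additive.ofMul γ) : ℤ) : ZMod n) = 0
      rw [kills_of_parabolic (comb c).2 γ hγ, Int.cast_zero]⟩
  have hf : Function.Injective f := by
    intro c c' h
    have hD : ∀ x, (n : ℤ) ∣ (comb c - comb c').1 x := by
      intro x
      have h1 : (((comb c).1 x : ℤ) : ZMod n) = (((comb c').1 x : ℤ) : ZMod n) :=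
        congrArg (fun ψ : {φ : Additive (Gamma0 p) →+ ZMod n // HomCount.Kills p φ} =>
          ψ.1 x) h
      rw [← ZMod.intCast_zmod_eq_zero_iff_dvd]
      show ((((comb c).1 - (comb c').1) x : ℤ) : ZMod n) = 0
      rw [AddMonoidHom.sub_apply, Int.cast_sub, h1, sub_self]
    let D' : Additive (Gamma0 p) →+ ℤ :=
      { toFun := fun x => (comb c - comb c').1 x / n
        map_zero' := by simp
        map_add' := fun x y => by
          show (comb c - comb c').1 (x + y) / n = _
          rw [map_add, Int.add_ediv_of_dvd_left (hD x)] }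
    have hD'par : D' ∈ parabolicHoms ℤ (Gamma0 p) ℤ := by
      intro γ hγ
      show (comb c - comb c').1 (Additive.ofMul γ) / n = 0
      rw [(comb c - comb c').2 γ hγ, Int.zero_ediv]
    have hDeq : comb c - comb c'
        = (n : ℤ) • (⟨D', hD'par⟩ : parabolicHoms ℤ (Gamma0 p) ℤ) := by
      apply Subtype.ext
      refine AddMonoidHom.ext fun x => ?_
      show (comb c - comb c').1 x = (n : ℤ) * ((comb c - comb c').1 x / n)
      rw [Int.mul_ediv_cancel' (hD x)]
    funext i
    have h1 := congrArg (fun v => b.repr v i) hDeq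
    simp only [comb, map_sub, map_sum, map_smul, Module.Basis.repr_self, Finsupp.coe_sub,
      Finsupp.coe_finsetSum, Finsupp.coe_smul, Pi.sub_apply, Finset.sum_apply, Pi.smul_apply,
      Finsupp.single_apply, smul_eq_mul, mul_ite, mul_one, mul_zero, Finset.sum_ite_eq',
      Finset.mem_univ, if_true] at h1
    have h2 := congrArg (Int.cast : ℤ → ZMod n) h1
    push_cast at h2
    rw [ZMod.natCast_zmod_val, ZMod.natCast_zmod_val, ZMod.natCast_self, zero_mul,
      sub_eq_zero] at h2
    exact h2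
  have hfinK := HomCount.finite_kills p (ZMod n)
  have hcard : Nat.card {φ : Additive (Gamma0 p) →+ ZMod n // HomCount.Kills p φ}
      ≤ Nat.card (Fin r → ZMod n) := by
    rw [Nat.card_fun, Nat.card_zmod, Nat.card_fin]
    calc Nat.card {φ : Additive (Gamma0 p) →+ ZMod n // HomCount.Kills p φ}
        ≤ Nat.card (ZMod n) ^ HomCount.twoGenus p := HomCount.card_kills_le p (ZMod n)
      _ = n ^ HomCount.twoGenus p := by rw [Nat.card_zmod]
      _ ≤ n ^ r := Nat.pow_le_pow_right (NeZero.pos n) hr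
  have hbij := hf.bijective_of_nat_card_le hcard
  obtain ⟨c, hc⟩ := hbij.2 ⟨φ, hφ⟩
  refine ⟨(comb c).1, (comb c).2, fun x => ?_⟩
  exact congrArg (fun ψ : {φ : Additive (Gamma0 p) →+ ZMod n // HomCount.Kills p φ} =>
    ψ.1 x) hc

end Main

end Fermat.Agent.S16.Lift
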