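import Mathlib

/-!
# S16, Lemma A: the Victor Miller bound modulo an arbitrary additive subgroup

If `F` is a modular form of level one and weight `k`, and `I` is an additive subgroup of `ℂ`
such that the first `k / 12 + 1` coefficients of the `q`-expansion of `F` lie in `I`, then all
coefficients lie in `I`.

The proof is the classical one: subtract `a₀ E₄^a E₆^b`, divide by `Δ`, induct on the weight.
Everything used about `E₄`, `E₆`, `Δ` is that their `q`-expansions have integer coefficients,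
with constant terms `1`, `1`, `0` and `Δ = q + …`.
-/

namespace Fermat.Agent.S16.Miller

open UpperHalfPlane ModularForm ModularFormClass MatrixGroups EisensteinSeries
open scoped ArithmeticFunction.sigma

noncomputable section

/-- Coefficientwise coercion of integer power series to complex power series. -/
abbrev cmap : PowerSeries ℤ →+* PowerSeries ℂ := PowerSeries.map (Int.castRingHom ℂ)

/-! ### Algebra of power series -/

lemma coeff_cmap_mul_mem (I : AddSubgroup ℂ) (Q : PowerSeries ℤ) (P : PowerSeries ℂ) (N : ℕ)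
    (hP : ∀ n ≤ N, P.coeff n ∈ I) : ∀ n ≤ N, (cmap Q * P).coeff n ∈ I := by
  intro n hn
  rw [PowerSeries.coeff_mul]
  refine AddSubgroup.sum_mem _ fun x hx => ?_
  have hx2 : x.2 ≤ N := by
    have := Finset.HasAntidiagonal.mem_antidiagonal.mp hx
    omega
  have := I.zsmul_mem (hP x.2 hx2) (Q.coeff x.1)
  simpa [cmap, PowerSeries.coeff_map] using this

lemma coeff_smul_cmap_mem (I : AddSubgroup ℂ) (Q : PowerSeries ℤ) (a : ℂ) (ha : a ∈ I) (n : ℕ) :
    (a • cmap Q).coeff n ∈ I := by
  have := I.zsmul_mem ha (Q.coeff n)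
  simpa [cmap, PowerSeries.coeff_map, mul_comm] using this

/-- Division by an integral series of the shape `q + …`. -/
lemma coeff_mem_of_mul (I : AddSubgroup ℂ) (T : PowerSeries ℤ) (hT0 : T.coeff 0 = 0)
    (hT1 : T.coeff 1 = 1) (G P : PowerSeries ℂ) (hG : G = cmap T * P) (N : ℕ)
    (h : ∀ n ≤ N + 1, G.coeff n ∈ I) : ∀ n ≤ N, P.coeff n ∈ I := by
  obtain ⟨D, rfl⟩ : (PowerSeries.X : PowerSeries ℤ) ∣ T := by
    rw [PowerSeries.X_dvd_iff]; simpa using hT0
  have hD0 : PowerSeries.constantCoeff D = 1 := by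
    have := PowerSeries.coeff_succ_X_mul 0 D
    rw [zero_add, hT1] at this
    simpa using this.symm
  have hDu : IsUnit D := by
    rw [PowerSeries.isUnit_iff_constantCoeff, hD0]; exact isUnit_one
  obtain ⟨u, rfl⟩ := hDu
  set S : PowerSeries ℂ := cmap (u : PowerSeries ℤ) * P with hS
  have hGS : G = PowerSeries.X * S := by
    rw [hG, hS, map_mul]
    simp [cmap, mul_assoc]
  have hSI : ∀ n ≤ N, S.coeff n ∈ I := by
    intro n hn
    have := h (n + 1) (by omega)
    rwa [hGS, PowerSeries.coeff_succ_X_mul] at this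
  have hP : P = cmap ((u⁻¹ : (PowerSeries ℤ)ˣ) : PowerSeries ℤ) * S := by
    rw [hS, ← mul_assoc, ← map_mul]
    simp
  rw [hP]
  exact coeff_cmap_mul_mem I _ S N hSI

/-! ### Integrality of `E₄`, `E₆` and `Δ` -/

/-- The integer power series `∑ σ_j(n) qⁿ` (the term `n = 0` is `0`). -/
def sigmaSeries (j : ℕ) : PowerSeries ℤ := PowerSeries.mk fun n => (σ j n : ℤ)

@[simp] lemma coeff_sigmaSeries (j n : ℕ) : (sigmaSeries j).coeff n = (σ j n : ℤ) := by
  simp [sigmaSeries]

/-- `E₄ = 1 + 240 ∑ σ₃(n) qⁿ` as an integer power series. -/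
def intSeriesE4 : PowerSeries ℤ := 1 + PowerSeries.C (240 : ℤ) * sigmaSeries 3

/-- `E₆ = 1 - 504 ∑ σ₅(n) qⁿ` as an integer power series. -/
def intSeriesE6 : PowerSeries ℤ := 1 - PowerSeries.C (504 : ℤ) * sigmaSeries 5

lemma coeff_intSeriesE4 (n : ℕ) :
    intSeriesE4.coeff n = if n = 0 then 1 else 240 * (σ 3 n : ℤ) := by
  rw [intSeriesE4, map_add, PowerSeries.coeff_C_mul, PowerSeries.coeff_one, coeff_sigmaSeries]
  split_ifs with hn
  · subst hn; simp
  · simp

lemma coeff_intSeriesE6 (n : ℕ) :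
    intSeriesE6.coeff n = if n = 0 then 1 else -(504 * (σ 5 n : ℤ)) := by
  rw [intSeriesE6, map_sub, PowerSeries.coeff_C_mul, PowerSeries.coeff_one, coeff_sigmaSeries]
  split_ifs with hn
  · subst hn; simp
  · simp

lemma map_intSeriesE4 : cmap intSeriesE4 = qExpansion 1 E₄ := by
  ext n
  rw [E_qExpansion_coeff _ ⟨2, rfl⟩, show bernoulli 4 = -1 / 30 by decide +kernel,
    PowerSeries.coeff_map, coeff_intSeriesE4]
  by_cases hn : n = 0
  · simp [hn]
  · simp only [hn, if_false]
    push_cast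
    norm_num

lemma map_intSeriesE6 : cmap intSeriesE6 = qExpansion 1 E₆ := by
  ext n
  rw [E_qExpansion_coeff _ ⟨3, rfl⟩, show bernoulli 6 = 1 / 42 by decide +kernel,
    PowerSeries.coeff_map, coeff_intSeriesE6]
  by_cases hn : n = 0
  · simp [hn]
  · simp only [hn, if_false]
    push_cast
    norm_num

lemma twelve_dvd_aux (d : ℕ) : (12 : ℤ) ∣ 5 * (d : ℤ) ^ 3 + 7 * (d : ℤ) ^ 5 := by
  have h : ∀ x : ZMod 12, 5 * x ^ 3 + 7 * x ^ 5 = 0 := by decide
  have h2 := h (d : ZMod 12)
  have h3 := (ZMod.intCast_zmod_eq_zero_iff_dvd (5 * (d : ℤ) ^ 3 + 7 * (d : ℤ) ^ 5) 12).mp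
    (by push_cast; exact h2)
  exact_mod_cast h3

lemma twelve_dvd_sigma (n : ℕ) : (12 : ℤ) ∣ 5 * (σ 3 n : ℤ) + 7 * (σ 5 n : ℤ) := by
  rw [ArithmeticFunction.sigma_apply, ArithmeticFunction.sigma_apply]
  push_cast
  rw [Finset.mul_sum, Finset.mul_sum, ← Finset.sum_add_distrib]
  exact Finset.dvd_sum fun d _ => twelve_dvd_aux d

/-- The integer power series `∑ (5 σ₃(n) + 7 σ₅(n)) / 12 qⁿ`. -/
def intSeriesC : PowerSeries ℤ :=
  PowerSeries.mk fun n => (5 * (σ 3 n : ℤ) + 7 * (σ 5 n : ℤ)) / 12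

lemma twelve_mul_intSeriesC :
    PowerSeries.C (12 : ℤ) * intSeriesC =
      PowerSeries.C (5 : ℤ) * sigmaSeries 3 + PowerSeries.C (7 : ℤ) * sigmaSeries 5 := by
  ext n
  rw [map_add, PowerSeries.coeff_C_mul, PowerSeries.coeff_C_mul, PowerSeries.coeff_C_mul,
    coeff_sigmaSeries, coeff_sigmaSeries, intSeriesC, PowerSeries.coeff_mk]
  exact Int.mul_ediv_cancel' (twelve_dvd_sigma n)

/-- `Δ = (E₄³ - E₆²) / 1728` as an integer power series. -/
def intSeriesDelta : PowerSeries ℤ :=
  intSeriesC + PowerSeries.C (100 : ℤ) * sigmaSeries 3 ^ 2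
    + PowerSeries.C (8000 : ℤ) * sigmaSeries 3 ^ 3 - PowerSeries.C (147 : ℤ) * sigmaSeries 5 ^ 2

lemma intSeriesDelta_mul :
    PowerSeries.C (1728 : ℤ) * intSeriesDelta = intSeriesE4 ^ 3 - intSeriesE6 ^ 2 := by
  have h := twelve_mul_intSeriesC
  simp only [intSeriesDelta, intSeriesE4, intSeriesE6, map_ofNat] at h ⊢
  linear_combination 144 * h

lemma qExpansion_discriminant_smul :
    (1728 : ℂ) • qExpansion 1 ModularForm.discriminant =
      qExpansion 1 E₄ ^ 3 - qExpansion 1 E₆ ^ 2 := by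
  let G : ModularForm 𝒮ℒ 12 :=
    ModularForm.mcast (by decide) (E₄.pow 3) - ModularForm.mcast (by decide) (E₆.pow 2)
  have hG : qExpansion 1 G = qExpansion 1 E₄ ^ 3 - qExpansion 1 E₆ ^ 2 := by
    simp only [G, FunLike.coe_sub, coe_mcast,
      ModularForm.qExpansion_sub one_pos one_mem_strictPeriods_SL,
      ModularForm.qExpansion_pow one_pos one_mem_strictPeriods_SL]
  have hfun : (G : ℍ → ℂ) = (1728 : ℂ) • (CuspForm.discriminant : ℍ → ℂ) := by
    funext z
    have h1 : G z = E₄ z ^ 3 - E₆ z ^ 2 := by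
      simp only [G, coe_mcast, coe_pow, sub_apply, Pi.pow_apply]
    have h2 := discriminant_eq_E₄_cube_sub_E₆_sq z
    change G z = (1728 : ℂ) * ModularForm.discriminant z
    rw [h1, h2]
    ring
  rw [← hG, hfun, ModularForm.qExpansion_smul one_pos one_mem_strictPeriods_SL]
  rfl

lemma map_intSeriesDelta : cmap intSeriesDelta = qExpansion 1 ModularForm.discriminant := by
  have h1 : cmap (PowerSeries.C (1728 : ℤ) * intSeriesDelta)
      = (1728 : ℂ) • qExpansion 1 ModularForm.discriminant := by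
    rw [intSeriesDelta_mul, qExpansion_discriminant_smul, map_sub, map_pow, map_pow,
      map_intSeriesE4, map_intSeriesE6]
  ext n
  have h2 := congrArg (PowerSeries.coeff n) h1
  rw [map_mul, PowerSeries.coeff_smul] at h2
  have h3 : cmap (PowerSeries.C (1728 : ℤ)) = PowerSeries.C (1728 : ℂ) := by
    rw [PowerSeries.map_C]
    congr 1
  rw [h3, PowerSeries.coeff_C_mul] at h2
  exact mul_left_cancel₀ (by norm_num : (1728 : ℂ) ≠ 0) h2

lemma coeff_zero_intSeriesDelta : intSeriesDelta.coeff 0 = 0 := by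
  have h := congrArg (PowerSeries.coeff 0) map_intSeriesDelta
  rw [PowerSeries.coeff_map] at h
  have h0 : (qExpansion 1 ModularForm.discriminant).coeff 0 = 0 := by
    simpa using CuspFormClass.qExpansion_coeff_zero CuspForm.discriminant one_pos
      one_mem_strictPeriods_SL
  rw [h0, eq_intCast] at h
  exact_mod_cast h

lemma coeff_one_intSeriesDelta : intSeriesDelta.coeff 1 = 1 := by
  have h := congrArg (PowerSeries.coeff 1) map_intSeriesDelta
  rw [PowerSeries.coeff_map, discriminant_qExpansion_coeff_one, eq_intCast] at h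
  exact_mod_cast h

/-! ### Integral forms with constant term `1` in every admissible weight -/

lemma exists_intForm (k : ℕ) (hk : Even k) (hk2 : k ≠ 2) :
    ∃ (P : ModularForm 𝒮ℒ (k : ℤ)) (Q : PowerSeries ℤ),
      cmap Q = qExpansion 1 P ∧ Q.coeff 0 = 1 := by
  induction k using Nat.strong_induction_on with | _ k ih =>
  by_cases h0 : k = 0
  · subst h0
    refine ⟨ModularForm.mcast (by simp) (1 : ModularForm 𝒮ℒ 0), 1, ?_, by simp⟩
    rw [ModularForm.qExpansion_mcast, ModularForm.qExpansion_one, map_one]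
  by_cases h6 : k = 6
  · subst h6
    refine ⟨E₆, intSeriesE6, map_intSeriesE6, ?_⟩
    rw [coeff_intSeriesE6]; simp
  have hk4 : 4 ≤ k := by
    obtain ⟨m, rfl⟩ := hk
    omega
  obtain ⟨P, Q, hQ, hQ0⟩ := ih (k - 4) (by omega)
    (by obtain ⟨m, rfl⟩ := hk; exact ⟨m - 2, by omega⟩) (by omega)
  refine ⟨ModularForm.mcast (by push_cast [Nat.cast_sub hk4]; ring) (P.mul E₄),
    Q * intSeriesE4, ?_, ?_⟩
  · rw [ModularForm.qExpansion_mcast, ModularForm.qExpansion_mul one_pos one_mem_strictPeriods_SL,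
      map_mul, hQ, map_intSeriesE4]
  · rw [PowerSeries.coeff_mul]
    simp [hQ0, coeff_intSeriesE4]

/-! ### The Miller bound -/

/-- **Lemma A (Miller bound modulo an additive subgroup).** If the coefficients `a_n(F)`,
`n ≤ k / 12`, of a level one form of weight `k` lie in the additive subgroup `I` of `ℂ`,
then all coefficients of `F` lie in `I`. -/
theorem coeff_mem {k : ℕ} (F : ModularForm 𝒮ℒ (k : ℤ)) (I : AddSubgroup ℂ)
    (h : ∀ n ≤ k / 12, (qExpansion 1 F).coeff n ∈ I) :
    ∀ n, (qExpansion 1 F).coeff n ∈ I := by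
  induction k using Nat.strong_induction_on with | _ k ih =>
  by_cases hodd : Odd k
  · have hF : F = 0 := levelOne_odd_weight_eq_zero (by exact_mod_cast hodd) F
    subst hF
    intro n
    simp [qExpansion_zero]
  by_cases h2 : k = 2
  · subst h2
    have hF : F = 0 := rank_zero_iff_forall_zero.mp levelOne_weight_two_rank_zero F
    subst hF
    intro n
    simp [qExpansion_zero]
  have hev : Even k := Nat.not_odd_iff_even.mp hodd
  obtain ⟨P, Q, hQ, hQ0⟩ := exists_intForm k hev h2
  have ha₀ : (qExpansion 1 F).coeff 0 ∈ I := h 0 (Nat.zero_le _)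
  set a₀ : ℂ := (qExpansion 1 F).coeff 0 with ha₀def
  set G : ModularForm 𝒮ℒ (k : ℤ) := F - a₀ • P with hGdef
  have hG : qExpansion 1 G = qExpansion 1 F - a₀ • cmap Q := by
    rw [hGdef, FunLike.coe_sub, ModularForm.qExpansion_sub one_pos one_mem_strictPeriods_SL,
      FunLike.coe_smul, ModularForm.qExpansion_smul one_pos one_mem_strictPeriods_SL, hQ]
  have hG0 : (qExpansion 1 G).coeff 0 = 0 := by
    rw [hG, map_sub, PowerSeries.coeff_smul, PowerSeries.coeff_map, hQ0]
    simp [ha₀def]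
  have hfac := qExpansion_eq_qExpansion_discriminant_mul G hG0
  have hQI : ∀ n, (a₀ • cmap Q).coeff n ∈ I := coeff_smul_cmap_mem I Q a₀ ha₀
  have hGI : ∀ n ≤ k / 12, (qExpansion 1 G).coeff n ∈ I := by
    intro n hn
    rw [hG, map_sub]
    exact I.sub_mem (h n hn) (hQI n)
  suffices hsuff : ∀ n, (qExpansion 1 G).coeff n ∈ I by
    intro n
    have h3 := I.add_mem (hsuff n) (hQI n)
    rw [hG, map_sub, sub_add_cancel] at h3
    exact h3
  rcases lt_or_ge k 12 with hk12 | hk12
  · have hz : CuspForm.discriminantEquiv (toCuspForm G hG0) = 0 :=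
      rank_zero_iff_forall_zero.mp (levelOne_neg_weight_rank_zero (by omega)) _
    intro n
    rw [hfac, hz]
    simp [qExpansion_zero]
  · have hwt : (k : ℤ) - 12 = ((k - 12 : ℕ) : ℤ) := by omega
    set F' : ModularForm 𝒮ℒ ((k - 12 : ℕ) : ℤ) :=
      ModularForm.mcast hwt (CuspForm.discriminantEquiv (toCuspForm G hG0)) with hF'def
    have hF'q : qExpansion 1 F' =
        qExpansion 1 (CuspForm.discriminantEquiv (toCuspForm G hG0)) := by
      rw [hF'def, ModularForm.qExpansion_mcast]
    rw [← hF'q, ← map_intSeriesDelta] at hfac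
    have hdiv : k / 12 = (k - 12) / 12 + 1 := by omega
    have hF'I : ∀ n, (qExpansion 1 F').coeff n ∈ I := by
      refine ih (k - 12) (by omega) F' ?_
      refine coeff_mem_of_mul I intSeriesDelta coeff_zero_intSeriesDelta
        coeff_one_intSeriesDelta _ _ hfac ((k - 12) / 12) ?_
      intro n hn
      exact hGI n (by omega)
    intro n
    rw [hfac]
    exact coeff_cmap_mul_mem I intSeriesDelta _ n (fun m _ => hF'I m) n le_rfl

/-- Integer weight version of `coeff_mem`. -/
theorem coeff_mem_int {k : ℤ} (F : ModularForm 𝒮ℒ k) (I : AddSubgroup ℂ)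
    (h : ∀ n ≤ k.toNat / 12, (qExpansion 1 F).coeff n ∈ I) :
    ∀ n, (qExpansion 1 F).coeff n ∈ I := by
  rcases lt_or_ge k 0 with hk | hk
  · have hF : F = 0 := rank_zero_iff_forall_zero.mp (levelOne_neg_weight_rank_zero hk) F
    subst hF
    intro n
    simp [qExpansion_zero]
  · lift k to ℕ using hk
    exact coeff_mem F I (by simpa using h)

end

end Fermat.Agent.S16.Miller
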