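import Mathlib

/-!
# S16: calculus of expansions in `t = q^(1/N)`

`HasTExp h f c` says that the function `f : ℍ → ℂ` is everywhere the sum of the series
`∑ c_n t^n` with `t = 𝕢 h τ = exp (2 π i τ / h)`.  Such expansions are unique, compatible with
sums, products (Cauchy product = multiplication of power series), finite products, and with the
change of the parameter `t = s^M`.  For a level one modular form `F` an expansion in
`t = q^(1/N)` determines the `q`-expansion: `a_n(F) = c_{N n}`.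
-/

namespace Fermat.Agent.S16.TExp

open UpperHalfPlane Complex ModularFormClass
open scoped Real MatrixGroups Manifold

local notation "𝕢" => Function.Periodic.qParam

/-- `f` is everywhere on `ℍ` the sum of the series `∑ c_n t^n`, `t = exp (2 π i τ / h)`. -/
def HasTExp (h : ℝ) (f : ℍ → ℂ) (c : PowerSeries ℂ) : Prop :=
  ∀ τ : ℍ, HasSum (fun n : ℕ => c.coeff n * 𝕢 h τ ^ n) (f τ)

theorem HasTExp.of_hasSum {h : ℝ} {f : ℍ → ℂ} {c : ℕ → ℂ}
    (hf : ∀ τ : ℍ, HasSum (fun n : ℕ => c n * 𝕢 h τ ^ n) (f τ)) :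
    HasTExp h f (PowerSeries.mk c) := by
  intro τ
  simp only [PowerSeries.coeff_mk]
  exact hf τ

theorem HasTExp.congr {h : ℝ} {f g : ℍ → ℂ} {c : PowerSeries ℂ} (hf : HasTExp h f c)
    (hfg : ∀ τ, f τ = g τ) : HasTExp h g c := fun τ => hfg τ ▸ hf τ

theorem HasTExp.zero (h : ℝ) : HasTExp h (0 : ℍ → ℂ) 0 := by
  intro τ
  simp

theorem HasTExp.const (h : ℝ) (a : ℂ) : HasTExp h (fun _ => a) (PowerSeries.C a) := by
  intro τ
  have h1 := hasSum_ite_eq (0 : ℕ) a
  convert h1 using 2 with n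
  rw [PowerSeries.coeff_C]
  split_ifs with hn
  · subst hn; simp
  · simp

theorem HasTExp.one (h : ℝ) : HasTExp h (1 : ℍ → ℂ) 1 := by
  have h1 := HasTExp.const h 1
  rw [map_one] at h1
  exact h1

theorem HasTExp.add {h : ℝ} {f g : ℍ → ℂ} {c d : PowerSeries ℂ} (hf : HasTExp h f c)
    (hg : HasTExp h g d) : HasTExp h (f + g) (c + d) := by
  intro τ
  simpa [add_mul] using (hf τ).add (hg τ)

theorem HasTExp.neg {h : ℝ} {f : ℍ → ℂ} {c : PowerSeries ℂ} (hf : HasTExp h f c) :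
    HasTExp h (-f) (-c) := by
  intro τ
  simpa using (hf τ).neg

theorem HasTExp.sub {h : ℝ} {f g : ℍ → ℂ} {c d : PowerSeries ℂ} (hf : HasTExp h f c)
    (hg : HasTExp h g d) : HasTExp h (f - g) (c - d) := by
  intro τ
  simpa [sub_mul] using (hf τ).sub (hg τ)

theorem HasTExp.const_mul {h : ℝ} {f : ℍ → ℂ} {c : PowerSeries ℂ} (hf : HasTExp h f c)
    (a : ℂ) : HasTExp h (fun τ => a * f τ) (PowerSeries.C a * c) := by
  intro τ
  simpa [mul_assoc] using (hf τ).mul_left a

theorem HasTExp.smul {h : ℝ} {f : ℍ → ℂ} {c : PowerSeries ℂ} (hf : HasTExp h f c)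
    (a : ℂ) : HasTExp h (a • f) (a • c) := by
  intro τ
  simpa [mul_assoc] using (hf τ).mul_left a

/-- The Cauchy product. -/
theorem HasTExp.mul {h : ℝ} {f g : ℍ → ℂ} {c d : PowerSeries ℂ} (hf : HasTExp h f c)
    (hg : HasTExp h g d) : HasTExp h (f * g) (c * d) := by
  intro τ
  have h1 := (hf τ).summable.norm
  have h2 := (hg τ).summable.norm
  have h3 := (summable_norm_sum_mul_antidiagonal_of_summable_norm h1 h2).of_norm.hasSum
  rw [← tsum_mul_tsum_eq_tsum_sum_antidiagonal_of_summable_norm h1 h2, (hf τ).tsum_eq,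
    (hg τ).tsum_eq] at h3
  have h4 : (fun n : ℕ => (c * d).coeff n * 𝕢 h τ ^ n) = fun n =>
      ∑ kl ∈ Finset.HasAntidiagonal.antidiagonal n,
        c.coeff kl.1 * 𝕢 h τ ^ kl.1 * (d.coeff kl.2 * 𝕢 h τ ^ kl.2) := by
    funext n
    rw [PowerSeries.coeff_mul, Finset.sum_mul]
    refine Finset.sum_congr rfl fun x hx => ?_
    have hx' : x.1 + x.2 = n := Finset.HasAntidiagonal.mem_antidiagonal.mp hx
    rw [← hx', pow_add]
    ring
  rw [h4]
  exact h3

theorem HasTExp.pow {h : ℝ} {f : ℍ → ℂ} {c : PowerSeries ℂ} (hf : HasTExp h f c) (n : ℕ) :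
    HasTExp h (f ^ n) (c ^ n) := by
  induction n with
  | zero => simpa using HasTExp.one h
  | succ n ih => simpa [pow_succ] using ih.mul hf

/-- Finite products. -/
theorem HasTExp.prod {ι : Type*} {h : ℝ} (s : Finset ι) {f : ι → ℍ → ℂ} {c : ι → PowerSeries ℂ}
    (hf : ∀ i ∈ s, HasTExp h (f i) (c i)) : HasTExp h (∏ i ∈ s, f i) (∏ i ∈ s, c i) := by
  classical
  induction s using Finset.induction_on with
  | empty => simpa using HasTExp.one h
  | insert a s ha ih =>
    rw [Finset.prod_insert ha, Finset.prod_insert ha]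
    exact (hf a (Finset.mem_insert_self a s)).mul
      (ih fun i hi => hf i (Finset.mem_insert_of_mem hi))

/-- Finite sums. -/
theorem HasTExp.sum {ι : Type*} {h : ℝ} (s : Finset ι) {f : ι → ℍ → ℂ} {c : ι → PowerSeries ℂ}
    (hf : ∀ i ∈ s, HasTExp h (f i) (c i)) : HasTExp h (∑ i ∈ s, f i) (∑ i ∈ s, c i) := by
  classical
  induction s using Finset.induction_on with
  | empty => simpa using HasTExp.zero h
  | insert a s ha ih =>
    rw [Finset.sum_insert ha, Finset.sum_insert ha]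
    exact (hf a (Finset.mem_insert_self a s)).add
      (ih fun i hi => hf i (Finset.mem_insert_of_mem hi))

/-! ### Uniqueness -/

theorem HasTExp.eq_zero {h : ℝ} (hh : 0 < h) {e : PowerSeries ℂ}
    (he : HasTExp h (0 : ℍ → ℂ) e) : e = 0 := by
  ext m
  have hper : Function.Periodic ((0 : ℍ → ℂ) ∘ ofComplex) h := fun w => rfl
  have hbdd : IsBoundedAtImInfty (0 : ℍ → ℂ) := by
    have := (ModularFormClass.bdd_at_infty (0 : ModularForm 𝒮ℒ 0))
    simpa using this
  have hol : MDiff (0 : ℍ → ℂ) := by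
    have := ModularFormClass.holo (0 : ModularForm 𝒮ℒ 0)
    simpa using this
  have han : AnalyticAt ℂ (cuspFunction h (0 : ℍ → ℂ)) 0 :=
    UpperHalfPlane.analyticAt_cuspFunction_zero hh hper hol hbdd
  have h1 := UpperHalfPlane.qExpansion_coeff_unique (0 : ModularForm 𝒮ℒ 0) hh
    (c := fun n => e.coeff n) (by simpa using han)
    (fun τ => by simpa using he τ) m
  rw [h1]
  simp [qExpansion_zero]

/-- Expansions in `t = exp (2 π i τ / h)` are unique. -/
theorem HasTExp.unique {h : ℝ} (hh : 0 < h) {f : ℍ → ℂ} {c d : PowerSeries ℂ}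
    (hf : HasTExp h f c) (hg : HasTExp h f d) : c = d := by
  have h1 : HasTExp h (0 : ℍ → ℂ) (c - d) := (hf.sub hg).congr (by simp)
  exact sub_eq_zero.mp (h1.eq_zero hh)

theorem qParam_add_period {h : ℝ} (hh : h ≠ 0) (w : ℂ) : 𝕢 h (w + h) = 𝕢 h w := by
  simp only [Function.Periodic.qParam]
  have hh' : (h : ℂ) ≠ 0 := by exact_mod_cast hh
  have h1 : 2 * (π : ℂ) * Complex.I * (w + h) / h =
      2 * π * Complex.I * w / h + 2 * π * Complex.I := by
    field_simp
  rw [h1, Complex.exp_add, Complex.exp_two_pi_mul_I, mul_one]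

theorem HasTExp.periodic {h : ℝ} (hh : 0 < h) {f : ℍ → ℂ} {c : PowerSeries ℂ}
    (hf : HasTExp h f c) : Function.Periodic (f ∘ ofComplex) h := by
  intro w
  simp only [Function.comp_apply]
  rcases lt_or_ge 0 w.im with hw | hw
  · have hw' : 0 < (w + h).im := by simpa using hw
    rw [ofComplex_apply_of_im_pos hw, ofComplex_apply_of_im_pos hw']
    have h1 : HasSum (fun m => c.coeff m * 𝕢 h (w + h) ^ m) (f ⟨w + h, hw'⟩) :=
      hf ⟨w + h, hw'⟩
    have h2 : HasSum (fun m => c.coeff m * 𝕢 h w ^ m) (f ⟨w, hw⟩) := hf ⟨w, hw⟩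
    rw [qParam_add_period hh.ne'] at h1
    exact h1.unique h2
  · have hw' : (w + h).im ≤ 0 := by simpa using hw
    rw [ofComplex_apply_of_im_nonpos hw, ofComplex_apply_of_im_nonpos hw']

theorem HasTExp.isBoundedAtImInfty {h : ℝ} (hh : 0 < h) {f : ℍ → ℂ} {c : PowerSeries ℂ}
    (hf : HasTExp h f c) : IsBoundedAtImInfty f :=
  isBoundedAtImInfty_of_hasSum_qExpansion (c := fun n => c.coeff n) hh
    (fun τ => by simpa only [smul_eq_mul] using hf τ)

/-- A holomorphic function with an expansion in `t = exp (2 π i τ / h)` has this expansion as its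
`q`-expansion of period `h`. -/
theorem HasTExp.qExpansion_eq {h : ℝ} (hh : 0 < h) {f : ℍ → ℂ} {c : PowerSeries ℂ}
    (hol : MDiff f) (hf : HasTExp h f c) : qExpansion h f = c := by
  have h1 : HasTExp h f (qExpansion h f) := fun τ => by
    simpa only [smul_eq_mul] using
      UpperHalfPlane.hasSum_qExpansion hh (hf.periodic hh) hol (hf.isBoundedAtImInfty hh) τ
  exact h1.unique hh hf

/-! ### Change of parameter `t = s^M` -/

theorem qParam_mul_pow (h : ℝ) {M : ℕ} (hM : M ≠ 0) (z : ℂ) :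
    𝕢 (h * M) z ^ M = 𝕢 h z := by
  simp only [Function.Periodic.qParam]
  rw [← Complex.exp_nat_mul]
  congr 1
  have hM' : (M : ℂ) ≠ 0 := by exact_mod_cast hM
  push_cast
  by_cases hh : (h : ℂ) = 0
  · simp [hh]
  · field_simp

theorem HasTExp.expand {h : ℝ} {f : ℍ → ℂ} {c : PowerSeries ℂ} (hf : HasTExp h f c)
    {M : ℕ} (hM : M ≠ 0) : HasTExp (h * M) f (c.expand M hM) := by
  intro τ
  have h1 := hf τ
  rw [← qParam_mul_pow h hM] at h1
  have hinj : Function.Injective (fun n : ℕ => M * n) := fun a b hab =>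
    Nat.eq_of_mul_eq_mul_left (Nat.pos_of_ne_zero hM) hab
  refine (Function.Injective.hasSum_iff hinj ?_).mp ?_
  · intro m hm
    have : ¬ M ∣ m := fun ⟨k, hk⟩ => hm ⟨k, hk.symm⟩
    rw [PowerSeries.coeff_expand_of_not_dvd M hM c this, zero_mul]
  · convert h1 using 1
    funext n
    simp only [Function.comp_apply]
    rw [PowerSeries.coeff_expand_mul, pow_mul]

/-! ### Translation -/

theorem qParam_vadd (h : ℝ) (x : ℝ) (τ : ℍ) :
    𝕢 h ((x +ᵥ τ : ℍ) : ℂ) = cexp (2 * π * Complex.I * x / h) * 𝕢 h τ := by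
  simp only [Function.Periodic.qParam, UpperHalfPlane.coe_vadd]
  rw [← Complex.exp_add]
  congr 1
  ring

theorem HasTExp.vadd {h : ℝ} {f : ℍ → ℂ} {c : PowerSeries ℂ} (hf : HasTExp h f c) (x : ℝ) :
    HasTExp h (fun τ => f (x +ᵥ τ)) (PowerSeries.rescale (cexp (2 * π * Complex.I * x / h)) c) := by
  intro τ
  have h1 := hf (x +ᵥ τ)
  rw [qParam_vadd] at h1
  convert h1 using 1
  funext n
  rw [PowerSeries.coeff_rescale, mul_pow]
  ring

theorem HasTExp.comp {h h' : ℝ} {f : ℍ → ℂ} {c : PowerSeries ℂ} (hf : HasTExp h f c)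
    (σ : ℍ → ℍ) (hσ : ∀ τ : ℍ, 𝕢 h (σ τ) = 𝕢 h' τ) : HasTExp h' (f ∘ σ) c := by
  intro τ
  have h1 := hf (σ τ)
  rw [hσ] at h1
  exact h1

/-- Adapter from expansions written with `cexp (2 π i n (τ + x) / h)`. -/
theorem HasTExp.of_hasSum_cexp {h : ℝ} {f : ℍ → ℂ} {c : ℕ → ℂ} (x : ℂ)
    (hf : ∀ τ : ℍ, HasSum
      (fun n : ℕ => c n * cexp (2 * π * Complex.I * n * ((τ : ℂ) + x) / h)) (f τ)) :
    HasTExp h f (PowerSeries.rescale (cexp (2 * π * Complex.I * x / h)) (PowerSeries.mk c)) := by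
  intro τ
  convert hf τ using 1
  funext n
  rw [PowerSeries.coeff_rescale, PowerSeries.coeff_mk]
  simp only [Function.Periodic.qParam]
  rw [mul_comm (_ ^ n) (c n), mul_assoc, ← mul_pow, ← Complex.exp_add, ← Complex.exp_nat_mul]
  congr 2
  ring

/-! ### Modular forms -/

theorem HasTExp.of_modularForm {F : Type*} [FunLike F ℍ ℂ] {Γ : Subgroup (GL (Fin 2) ℝ)}
    {k : ℤ} [ModularFormClass F Γ k] (f : F) {h : ℝ} (hh : 0 < h) (hΓ : h ∈ Γ.strictPeriods) :
    HasTExp h f (qExpansion h f) := by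
  intro τ
  have : Fact (IsCusp OnePoint.infty Γ) := ⟨Γ.isCusp_of_mem_strictPeriods hh hΓ⟩
  exact ModularForm.hasSum_qExpansion f hh hΓ τ

/-- An expansion in `t = exp (2 π i τ / (h N))` of a modular form with period `h` is the
expansion in `q_h = t^N`. -/
theorem eq_expand_of_hasTExp {F : Type*} [FunLike F ℍ ℂ] {Γ : Subgroup (GL (Fin 2) ℝ)}
    {k : ℤ} [ModularFormClass F Γ k] (f : F) {h : ℝ} (hh : 0 < h) (hΓ : h ∈ Γ.strictPeriods)
    {N : ℕ} (hN : N ≠ 0) {c : PowerSeries ℂ} (hc : HasTExp (h * N) f c) :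
    c = (qExpansion h f).expand N hN := by
  have h1 := (HasTExp.of_modularForm f hh hΓ).expand hN
  have hpos : 0 < h * N := mul_pos hh (by exact_mod_cast Nat.pos_of_ne_zero hN)
  exact hc.unique hpos h1

/-- **Level one**: an expansion in `t = q^(1/N)` of a level one form determines its
`q`-expansion, `a_n = c_{N n}`. -/
theorem qExpansion_coeff_of_hasTExp {k : ℤ} (F : ModularForm 𝒮ℒ k) {N : ℕ} (hN : N ≠ 0)
    {c : PowerSeries ℂ} (hc : HasTExp N F c) (n : ℕ) :
    (qExpansion 1 F).coeff n = c.coeff (N * n) := by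
  have hc' : HasTExp ((1 : ℝ) * N) F c := by rwa [one_mul]
  rw [eq_expand_of_hasTExp F one_pos one_mem_strictPeriods_SL hN hc',
    PowerSeries.coeff_expand_mul]

theorem coeff_eq_zero_of_hasTExp {k : ℤ} (F : ModularForm 𝒮ℒ k) {N : ℕ} (hN : N ≠ 0)
    {c : PowerSeries ℂ} (hc : HasTExp N F c) {m : ℕ} (hm : ¬ N ∣ m) :
    c.coeff m = 0 := by
  have hc' : HasTExp ((1 : ℝ) * N) F c := by rwa [one_mul]
  rw [eq_expand_of_hasTExp F one_pos one_mem_strictPeriods_SL hN hc',
    PowerSeries.coeff_expand_of_not_dvd _ _ _ hm]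

end Fermat.Agent.S16.TExp
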