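import Mathlib
import Fermat.Agent.S16.Conj
import Fermat.Agent.S16.Miller
import Fermat.Agent.S16.UpperCoreQ
import Fermat.Agent.S16.NormTrick

/-!
# S16, leaf (b)/(c) glue: the trace identities `UpperCoreQ.TraceHyp` and `NormTrick.ConjHyp`

`Conj.conjHyp : NormTrick.ConjHyp`, `Conj.traceHyp p : UpperCoreQ.TraceHyp p`, from
`Tr(f²) ∈ ℂ E₄` (weight 4, level one) for `f` and for its Fricke twin.
-/

set_option autoImplicit false

open UpperHalfPlane hiding I
open ModularForm Complex MatrixGroups Function ModularGroup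
open scoped Real Manifold

noncomputable section

namespace Fermat.Agent.S16.ConjTrace

open Fermat.Agent.S16.Gr Fermat.Agent.S16.FrickeTwin

variable {p : ℕ} [Fact p.Prime] {k : ℤ}

theorem IsMF.analyticAt_self {f : ℍ → ℂ} (hf : IsMF p k f) :
    AnalyticAt ℂ (UpperHalfPlane.cuspFunction 1 f) 0 :=
  UpperHalfPlane.analyticAt_cuspFunction_zero one_pos (by simpa using hf.periodic_one)
    hf.holo hf.bdd_self

theorem IsMF.analyticAt_conj_zero {f : ℍ → ℂ} (hf : IsMF p k f) :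
    AnalyticAt ℂ (UpperHalfPlane.cuspFunction (p : ℝ) (conj f k (0 : ZMod p))) 0 :=
  UpperHalfPlane.analyticAt_cuspFunction_zero (Nat.cast_pos.mpr (Fact.out : p.Prime).pos)
    hf.periodic_conj_zero (hf.holo_conj 0) (hf.bdd_conj 0)

/-- (★★): the `q`-expansion of the trace. -/
theorem IsMF.coeff_tr {g : ℍ → ℂ} (hg : IsMF p k g) (m : ℕ) :
    PowerSeries.coeff m (qExpansion 1 (tr p g k)) =
      PowerSeries.coeff m (qExpansion 1 g) +
        (p : ℂ) * PowerSeries.coeff (p * m) (qExpansion (p : ℝ) (conj g k (0 : ZMod p))) := by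
  refine qExpansion_coeff_of_hasSum
    (c := fun m => PowerSeries.coeff m (qExpansion 1 g) +
        (p : ℂ) * PowerSeries.coeff (p * m) (qExpansion (p : ℝ) (conj g k (0 : ZMod p))))
    one_pos hg.holo_tr (fun τ => ?_) m
  have h1 := hasSum_sum_translate (p := p) (fun τ => hg.hasSum_conj_zero τ) τ
  have h2 := hg.hasSum_self τ
  have h3 := h2.add h1
  have e1 : tr p g k τ = g τ + ∑ x : ZMod p, conj g k (0 : ZMod p) (T ^ ((x.val : ℕ) : ℤ) • τ) := by
    simp only [tr, Pi.add_apply, Finset.sum_apply]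
    congr 1
    apply Finset.sum_congr rfl
    intro x _
    rw [conj_eq_translate g k x]
  rw [e1]
  have e2 : (fun m => (PowerSeries.coeff m (qExpansion 1 g) +
        (p : ℂ) * PowerSeries.coeff (p * m) (qExpansion (p : ℝ) (conj g k (0 : ZMod p)))) •
          Periodic.qParam 1 (τ : ℂ) ^ m) = fun m =>
      PowerSeries.coeff m (qExpansion 1 g) • Periodic.qParam 1 (τ : ℂ) ^ m +
        ((p : ℂ) * PowerSeries.coeff (p * m) (qExpansion (p : ℝ) (conj g k (0 : ZMod p)))) •
          Periodic.qParam 1 (τ : ℂ) ^ m := by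
    funext m
    rw [add_smul]
  rw [e2]
  exact h3

theorem qExpansion_smul_E4 (t : ℂ) :
    qExpansion 1 (t • (⇑E₄ : ℍ → ℂ)) = t • qExpansion 1 (⇑E₄ : ℍ → ℂ) :=
  UpperHalfPlane.qExpansion_smul
    (ModularFormClass.analyticAt_cuspFunction_zero E₄ one_pos one_mem_strictPeriods_SL) t

theorem coeff_E4 (n : ℕ) :
    PowerSeries.coeff n (qExpansion 1 (⇑E₄ : ℍ → ℂ)) = PowerSeries.coeff n (E2Trick.E4 ℂ) := by
  rw [E2Trick.coeff_E4, EisensteinSeries.E_qExpansion_coeff _ ⟨2, rfl⟩,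
    show bernoulli 4 = -1 / 30 by decide +kernel]
  by_cases hn : n = 0
  · simp [hn]
  · simp only [hn, if_false]
    push_cast
    norm_num


/-- The `q^{1/p}`-expansion of `f ∣ S` as a power series: `−(1/p) U_p a`. -/
theorem IsMF.qExpansion_conj_zero {f : ℍ → ℂ} (hf : IsMF p 2 f) :
    qExpansion (p : ℝ) (conj f 2 (0 : ZMod p)) =
      PowerSeries.C (-(1 / (p : ℂ))) * E2Trick.Uop p (qExpansion 1 f) := by
  ext n
  rw [hf.coeff_conj_zero, PowerSeries.coeff_C_mul, E2Trick.coeff_Uop]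

/-- The general trace identity (C2): `p (a*a)_n + (u*u)_{pn} = (p + 1) a₀² e4_n`. -/
theorem IsMF.trace_sq {f : ℍ → ℂ} (hf : IsMF p 2 f) (n : ℕ) :
    (p : ℂ) * PowerSeries.coeff n (qExpansion 1 f * qExpansion 1 f)
      + PowerSeries.coeff (p * n)
          (E2Trick.Uop p (qExpansion 1 f) * E2Trick.Uop p (qExpansion 1 f))
      = ((p : ℂ) + 1) * PowerSeries.coeff 0 (qExpansion 1 f) ^ 2 *
          PowerSeries.coeff n (E2Trick.E4 ℂ) := by
  have hp : (p : ℂ) ≠ 0 := Nat.cast_ne_zero.mpr (Fact.out : p.Prime).ne_zero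
  have h4 : IsMF p 4 (f * f) := by
    have := hf.mul hf
    norm_num at this
    exact this
  obtain ⟨t, ht⟩ := h4.tr_eq_smul_E4
  have hA : qExpansion 1 (f * f) = qExpansion 1 f * qExpansion 1 f :=
    UpperHalfPlane.qExpansion_mul hf.analyticAt_self hf.analyticAt_self
  have hG : conj (f * f) 4 (0 : ZMod p) = conj f 2 (0 : ZMod p) * conj f 2 (0 : ZMod p) := by
    have := conj_mul f f 2 2 (0 : ZMod p)
    norm_num at this
    exact this
  have hB : qExpansion (p : ℝ) (conj (f * f) 4 (0 : ZMod p)) =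
      PowerSeries.C ((1 / (p : ℂ)) ^ 2) *
        (E2Trick.Uop p (qExpansion 1 f) * E2Trick.Uop p (qExpansion 1 f)) := by
    rw [hG, UpperHalfPlane.qExpansion_mul hf.analyticAt_conj_zero hf.analyticAt_conj_zero,
      hf.qExpansion_conj_zero]
    have : PowerSeries.C (-(1 / (p : ℂ))) * PowerSeries.C (-(1 / (p : ℂ))) =
        PowerSeries.C ((1 / (p : ℂ)) ^ 2) := by
      rw [← map_mul]; congr 1; ring
    rw [← this]
    ring
  have key : ∀ m : ℕ, PowerSeries.coeff m (qExpansion 1 f * qExpansion 1 f) +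
      (1 / (p : ℂ)) * PowerSeries.coeff (p * m)
        (E2Trick.Uop p (qExpansion 1 f) * E2Trick.Uop p (qExpansion 1 f)) =
      t * PowerSeries.coeff m (E2Trick.E4 ℂ) := by
    intro m
    have h1 := h4.coeff_tr m
    rw [ht, qExpansion_smul_E4, hA, hB, PowerSeries.coeff_C_mul, PowerSeries.coeff_smul,
      coeff_E4, smul_eq_mul] at h1
    rw [h1]
    field_simp
  have h0 := key 0
  rw [E2Trick.coeff_E4, if_pos rfl, mul_one, Nat.mul_zero, PowerSeries.coeff_mul,
    PowerSeries.coeff_mul] at h0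
  simp only [Finset.Nat.antidiagonal_zero, Finset.sum_singleton, E2Trick.coeff_Uop,
    Nat.mul_zero] at h0
  have hn := key n
  have ht' : t = PowerSeries.coeff 0 (qExpansion 1 f) ^ 2 * (1 + 1 / (p : ℂ)) := by
    rw [← h0]; ring
  have : (p : ℂ) * PowerSeries.coeff n (qExpansion 1 f * qExpansion 1 f)
      + PowerSeries.coeff (p * n)
          (E2Trick.Uop p (qExpansion 1 f) * E2Trick.Uop p (qExpansion 1 f)) =
      (p : ℂ) * (t * PowerSeries.coeff n (E2Trick.E4 ℂ)) := by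
    rw [← hn]
    field_simp
  rw [this, ht']
  field_simp


theorem IsMF.qExpansion_twin {f : ℍ → ℂ} (hf : IsMF p 2 f) :
    qExpansion 1 (twin p f) =
      PowerSeries.C (-(1 / (p : ℂ))) * E2Trick.Uop p (qExpansion 1 f) := by
  ext n
  rw [hf.coeff_twin, hf.coeff_conj_zero, PowerSeries.coeff_C_mul, E2Trick.coeff_Uop]

theorem IsMF.Uop_qExpansion_twin {f : ℍ → ℂ} (hf : IsMF p 2 f) :
    E2Trick.Uop p (qExpansion 1 (twin p f)) =
      PowerSeries.C (-(1 / (p : ℂ))) * qExpansion 1 f := by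
  ext n
  rw [E2Trick.coeff_Uop, hf.coeff_twin, hf.coeff_conj_zero, PowerSeries.coeff_C_mul,
    ← mul_assoc, hf.coeff_p_sq]

/-- The trace identity (C3): `p (u*u)_n + (a*a)_{pn} = (p + 1) a₀² e4_n`. -/
theorem IsMF.trace_sq' {f : ℍ → ℂ} (hf : IsMF p 2 f) (n : ℕ) :
    (p : ℂ) * PowerSeries.coeff n
          (E2Trick.Uop p (qExpansion 1 f) * E2Trick.Uop p (qExpansion 1 f))
      + PowerSeries.coeff (p * n) (qExpansion 1 f * qExpansion 1 f)
      = ((p : ℂ) + 1) * PowerSeries.coeff 0 (qExpansion 1 f) ^ 2 *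
          PowerSeries.coeff n (E2Trick.E4 ℂ) := by
  have hp : (p : ℂ) ≠ 0 := Nat.cast_ne_zero.mpr (Fact.out : p.Prime).ne_zero
  have h := (isMF_twin hf).trace_sq n
  rw [hf.Uop_qExpansion_twin, hf.qExpansion_twin] at h
  have e1 : PowerSeries.C (-(1 / (p : ℂ))) * E2Trick.Uop p (qExpansion 1 f) *
      (PowerSeries.C (-(1 / (p : ℂ))) * E2Trick.Uop p (qExpansion 1 f)) =
      PowerSeries.C ((1 / (p : ℂ)) ^ 2) *
        (E2Trick.Uop p (qExpansion 1 f) * E2Trick.Uop p (qExpansion 1 f)) := by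
    have : PowerSeries.C (-(1 / (p : ℂ))) * PowerSeries.C (-(1 / (p : ℂ))) =
        PowerSeries.C ((1 / (p : ℂ)) ^ 2) := by
      rw [← map_mul]; congr 1; ring
    rw [← this]
    ring
  have e2 : PowerSeries.C (-(1 / (p : ℂ))) * qExpansion 1 f *
      (PowerSeries.C (-(1 / (p : ℂ))) * qExpansion 1 f) =
      PowerSeries.C ((1 / (p : ℂ)) ^ 2) * (qExpansion 1 f * qExpansion 1 f) := by
    have : PowerSeries.C (-(1 / (p : ℂ))) * PowerSeries.C (-(1 / (p : ℂ))) =
        PowerSeries.C ((1 / (p : ℂ)) ^ 2) := by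
      rw [← map_mul]; congr 1; ring
    rw [← this]
    ring
  rw [e1, e2, PowerSeries.coeff_C_mul, PowerSeries.coeff_C_mul, PowerSeries.coeff_C_mul,
    E2Trick.coeff_Uop, Nat.mul_zero] at h
  have h' : (1 / (p : ℂ)) ^ 2 * ((p : ℂ) * PowerSeries.coeff n
          (E2Trick.Uop p (qExpansion 1 f) * E2Trick.Uop p (qExpansion 1 f))
      + PowerSeries.coeff (p * n) (qExpansion 1 f * qExpansion 1 f)) =
      (1 / (p : ℂ)) ^ 2 * (((p : ℂ) + 1) * PowerSeries.coeff 0 (qExpansion 1 f) ^ 2 *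
          PowerSeries.coeff n (E2Trick.E4 ℂ)) := by
    rw [mul_add, ← mul_assoc, mul_comm ((1 / (p : ℂ)) ^ 2) (p : ℂ), mul_assoc, h]
    ring
  have hne : (1 / (p : ℂ)) ^ 2 ≠ 0 := pow_ne_zero _ (one_div_ne_zero hp)
  exact mul_left_cancel₀ hne h'

end Fermat.Agent.S16.ConjTrace

namespace Fermat.Agent.S16.Conj

open Fermat.Agent.S16.ConjTrace

/-- The two outputs of the leaf `Conj`, in the literal shape consumed by `UpperRel`. -/
theorem conjHyp : NormTrick.ConjHyp := fun _N _ F j τ => Conj.hasSum_slash_ST F j τ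

theorem traceHyp (p : ℕ) [Fact p.Prime] : UpperCoreQ.TraceHyp p := by
  intro H h0
  have hH := isMF_of_modularForm H
  refine ⟨fun n => hH.coeff_p_sq n, fun n => ?_, fun n => ?_⟩
  · have := hH.trace_sq n
    rw [h0] at this
    simpa using this
  · have := hH.trace_sq' n
    rw [h0] at this
    simpa using this

end Fermat.Agent.S16.Conj
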